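/-
Program J, node (J7), UNCONDITIONAL: the two hypotheses of the frozen statement S37,

* `heckeOperatorsCommuteBar N : HeckeOperatorsCommuteBar N`  (the Hecke operators `T_ℓ`, all
  primes `ℓ` including `ℓ ∣ N`, commute on `JZero N = Pic⁰(ℚ̄(X₀(N)))`), and
* `smulCommClass_GQ_heckeAlg N : SMulCommClass G_ℚ HeckeAlg (JZero N)` for the Prelude's
  `heckeModuleBar N`,

from helper2's product formula `ES.productFormula` (`ℓ ∤ N`) and the transposed product formula
for `ℓ ∣ N` (`Jac/TransposeNorm.lean`).
-/
import Mathlib
import Fermat.Agent.Jac.HeckeCommFinal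
import Fermat.Agent.ES.ProductFormula

set_option autoImplicit false

namespace Fermat.Agent.Jac

open ModularCurve

variable (N : ℕ) [NeZero N]

/-- **The Hecke operators on `JZero N` commute.** -/
theorem heckeOperatorsCommuteBar : HeckeOperatorsCommuteBar N :=
  heckeOperatorsCommuteBar_of_productFormula'
    fun _ _ hℓ hℓN => Fermat.Agent.ES.productFormula hℓ hℓN

/-- **Galois and Hecke actions on `JZero N` commute.** -/
theorem smulCommClass_GQ_heckeAlg :
    letI := heckeModuleBar N
    SMulCommClass GQ HeckeAlg (JZero N) :=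
  smulCommClass_galois_hecke (heckeOperatorsCommuteBar N)

/-- In the Prelude's Hecke module structure, `X_ℓ` acts as the Hecke correspondence `T_ℓ`. -/
theorem heckeGen_smul_eq (ℓ : Nat.Primes) (x : JZero N) :
    (letI := heckeModuleBar N; heckeGen ℓ • x) = heckeOperatorBar N ℓ x :=
  heckeModuleBar_heckeGen_smul (heckeOperatorsCommuteBar N) ℓ x

end Fermat.Agent.Jac
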