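import Mathlib
import Fermat.Agent.Red.FFLemmas

/-!
# Program J, node (J3a): the abstract Kummer class map `kappa`

Abstract setting.  `F/K` a function field (Prelude `Place`, `Divisor`, `Pic0`), `𝕄` a field of
"meromorphic functions" containing `K`, on which a group `Γ` acts by field automorphisms,
`θ : F →+* 𝕄` a realisation of `F` by `Γ`-invariant functions.  A *multiplicative function* with
character `χ : Γ →* Kˣ` is an admissible `G ≠ 0` with `γ • G = χ γ * G`.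

Given
* `ex`  : admissible invariant functions come from `F`                    (algebraicity, (J2)),
* `dvd` : `θ y = G ^ m` implies `m ∣ ord_P y` for every place `P`            (dictionary, (D4)),
* `exists_mf` : every good character of finite order has a multiplicative function   ((J1)),

we construct `kappa m χ ∈ Pic0 K F` for good `χ` with `χ ^ m = 1` (the class of `(1/m) div (y)`,
`θ y = G ^ m`), prove that it is independent of all choices, multiplicative in `χ`, killed by `m`,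
and **injective**: `kappa m χ = 0 ↔ χ = 1` (if `(1/m) div y = div g` then `y / g ^ m` is a
constant, hence `G / θ g` is a root of `X ^ m - a`, hence a constant, hence invariant).

Finally the abstract Hecke compatibility (J4a): `T (kappa m χ) = kappa m (τ χ)`.
-/

set_option autoImplicit false

namespace Fermat.Agent.Jac

open AlgebraicCurve Fermat.Agent.Red

/-- Abstract data for the Kummer class map. -/
structure KummerData (K F 𝕄 Γ : Type*) [Field K] [Field F] [Algebra K F] [Field 𝕄] [Algebra K 𝕄]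
    [Group Γ] [MulSemiringAction Γ 𝕄] where
  /-- the realisation of the function field by invariant functions -/
  θ : F →+* 𝕄
  θ_algebraMap : ∀ a : K, θ (algebraMap K F a) = algebraMap K 𝕄 a
  smul_θ : ∀ (γ : Γ) (y : F), γ • θ y = θ y
  smul_algebraMap : ∀ (γ : Γ) (a : K), γ • algebraMap K 𝕄 a = algebraMap K 𝕄 a
  /-- admissible functions -/
  Adm : 𝕄 → Prop
  adm_mul : ∀ {G H : 𝕄}, Adm G → Adm H → Adm (G * H)
  adm_inv : ∀ {G : 𝕄}, Adm G → Adm G⁻¹
  adm_θ : ∀ y : F, Adm (θ y)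
  /-- good characters -/
  Good : Subgroup (Γ →* Kˣ)
  ex : ∀ G : 𝕄, G ≠ 0 → Adm G → (∀ γ : Γ, γ • G = G) → ∃ y : F, θ y = G
  dvd : ∀ (m : ℕ) (χ : Γ →* Kˣ) (G : 𝕄) (y : F), χ ∈ Good → G ≠ 0 → Adm G →
    (∀ γ : Γ, γ • G = algebraMap K 𝕄 ((χ γ : Kˣ) : K) * G) → θ y = G ^ m →
    ∀ P : Place K F, (m : ℤ) ∣ P.ord y
  exists_mf : ∀ χ ∈ Good, IsOfFinOrder χ → ∃ G : 𝕄, G ≠ 0 ∧ Adm G ∧
    ∀ γ : Γ, γ • G = algebraMap K 𝕄 ((χ γ : Kˣ) : K) * G

variable {K F 𝕄 Γ : Type*} [Field K] [Field F] [Algebra K F] [Field 𝕄] [Algebra K 𝕄]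
  [Group Γ] [MulSemiringAction Γ 𝕄]

namespace KummerData

variable (D : KummerData K F 𝕄 Γ)

/-- `G` is a multiplicative function with character `χ`. -/
def IsMF (χ : Γ →* Kˣ) (G : 𝕄) : Prop :=
  G ≠ 0 ∧ D.Adm G ∧ ∀ γ : Γ, γ • G = algebraMap K 𝕄 ((χ γ : Kˣ) : K) * G

variable {D}

theorem IsMF.ne_zero {χ : Γ →* Kˣ} {G : 𝕄} (h : D.IsMF χ G) : G ≠ 0 := h.1

theorem IsMF.mul {χ χ' : Γ →* Kˣ} {G G' : 𝕄} (h : D.IsMF χ G) (h' : D.IsMF χ' G') :
    D.IsMF (χ * χ') (G * G') := by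
  refine ⟨mul_ne_zero h.1 h'.1, D.adm_mul h.2.1 h'.2.1, fun γ => ?_⟩
  rw [smul_mul', h.2.2 γ, h'.2.2 γ, MonoidHom.mul_apply, Units.val_mul, map_mul]
  ring

theorem IsMF.inv {χ : Γ →* Kˣ} {G : 𝕄} (h : D.IsMF χ G) : D.IsMF χ⁻¹ G⁻¹ := by
  refine ⟨inv_ne_zero h.1, D.adm_inv h.2.1, fun γ => ?_⟩
  rw [smul_inv'', h.2.2 γ, MonoidHom.inv_apply, Units.val_inv_eq_inv_val, map_inv₀, mul_inv]

theorem IsMF.div {χ χ' : Γ →* Kˣ} {G G' : 𝕄} (h : D.IsMF χ G) (h' : D.IsMF χ' G') :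
    D.IsMF (χ / χ') (G / G') := by
  rw [div_eq_mul_inv χ χ', div_eq_mul_inv G G']
  exact h.mul h'.inv

theorem isMF_θ {y : F} (hy : y ≠ 0) : D.IsMF 1 (D.θ y) := by
  refine ⟨(map_ne_zero D.θ).mpr hy, D.adm_θ y, fun γ => ?_⟩
  rw [D.smul_θ, MonoidHom.one_apply, Units.val_one, map_one, one_mul]

theorem isMF_one : D.IsMF 1 (1 : 𝕄) := by
  have := isMF_θ (D := D) (one_ne_zero : (1 : F) ≠ 0)
  rwa [map_one] at this

theorem IsMF.pow {χ : Γ →* Kˣ} {G : 𝕄} (h : D.IsMF χ G) (n : ℕ) : D.IsMF (χ ^ n) (G ^ n) := by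
  induction n with
  | zero => rw [pow_zero χ, pow_zero G]; exact isMF_one
  | succ n ih => rw [pow_succ χ n, pow_succ G n]; exact ih.mul h

theorem IsMF.exists_θ_eq {G : 𝕄} (h : D.IsMF 1 G) : ∃ y : F, y ≠ 0 ∧ D.θ y = G := by
  obtain ⟨y, hy⟩ := D.ex G h.1 h.2.1 fun γ => by
    rw [h.2.2 γ, MonoidHom.one_apply, Units.val_one, map_one, one_mul]
  refine ⟨y, fun h0 => h.1 ?_, hy⟩
  rw [← hy, h0, map_zero]

theorem IsMF.char_eq {χ χ' : Γ →* Kˣ} {G : 𝕄} (h : D.IsMF χ G) (h' : D.IsMF χ' G) : χ = χ' := by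
  ext γ
  have h1 := h.2.2 γ
  rw [h'.2.2 γ] at h1
  exact ((algebraMap K 𝕄).injective (mul_right_cancel₀ h.1 h1)).symm

/-- A multiplicative function which is a constant has trivial character. -/
theorem IsMF.char_eq_one_of_const {χ : Γ →* Kˣ} {G : 𝕄} (h : D.IsMF χ G) {b : K}
    (hb : G = algebraMap K 𝕄 b) : χ = 1 := by
  ext γ
  have h1 := h.2.2 γ
  rw [hb, D.smul_algebraMap] at h1
  have hb0 : algebraMap K 𝕄 b ≠ 0 := hb ▸ h.1
  have h2 : algebraMap K 𝕄 ((χ γ : Kˣ) : K) = 1 := by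
    have : (1 : 𝕄) * algebraMap K 𝕄 b = algebraMap K 𝕄 ((χ γ : Kˣ) : K) * algebraMap K 𝕄 b := by
      rw [one_mul]; exact h1
    exact (mul_right_cancel₀ hb0 this).symm
  rw [MonoidHom.one_apply, Units.val_one]
  exact (algebraMap K 𝕄).injective (by rw [h2, map_one])

/-- Over an algebraically closed field, an `m`-th root of a constant is a constant. -/
theorem exists_algebraMap_eq_of_pow_eq [IsAlgClosed K] {x : 𝕄} {m : ℕ} (hm : 0 < m) {a : K}
    (h : x ^ m = algebraMap K 𝕄 a) : ∃ b : K, x = algebraMap K 𝕄 b := by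
  have hint : IsIntegral K x := by
    refine ⟨Polynomial.X ^ m - Polynomial.C a, Polynomial.monic_X_pow_sub_C a hm.ne', ?_⟩
    rw [Polynomial.eval₂_sub, Polynomial.eval₂_pow, Polynomial.eval₂_X, Polynomial.eval₂_C, h,
      sub_self]
  have hdeg : (minpoly K x).degree = 1 :=
    IsAlgClosed.degree_eq_one_of_irreducible K (minpoly.irreducible hint)
  obtain ⟨b, hb⟩ := minpoly.mem_range_of_degree_eq_one K x hdeg
  exact ⟨b, hb.symm⟩

section Triple

variable [HasPrincipalDivisors K F] (D)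

/-- `(G, y, E)` is a Kummer triple for `(m, χ)`: `G` is a multiplicative function with character
`χ`, `θ y = G ^ m` and `m • E = div y`. -/
def IsTriple (m : ℕ) (χ : Γ →* Kˣ) (G : 𝕄) (y : F) (E : Divisor K F) : Prop :=
  D.IsMF χ G ∧ D.θ y = G ^ m ∧ m • E = divOf K y

variable {D}

theorem IsTriple.y_ne_zero {m : ℕ} {χ : Γ →* Kˣ} {G : 𝕄} {y : F} {E : Divisor K F}
    (h : D.IsTriple m χ G y E) : y ≠ 0 := by
  intro h0
  have := h.2.1
  rw [h0, map_zero] at this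
  exact pow_ne_zero m h.1.1 this.symm

theorem IsTriple.degree_eq_zero {m : ℕ} (hm : 0 < m) {χ : Γ →* Kˣ} {G : 𝕄} {y : F}
    {E : Divisor K F} (h : D.IsTriple m χ G y E) : Divisor.degree E = 0 := by
  have h1 : Divisor.degree (m • E) = 0 := by rw [h.2.2, degree_divOf]
  rw [map_nsmul, nsmul_eq_mul] at h1
  rcases mul_eq_zero.mp h1 with h2 | h2
  · exact absurd (by exact_mod_cast h2) hm.ne'
  · exact h2

theorem IsTriple.mem_degZero {m : ℕ} (hm : 0 < m) {χ : Γ →* Kˣ} {G : 𝕄} {y : F}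
    {E : Divisor K F} (h : D.IsTriple m χ G y E) : E ∈ Divisor.degZero (K := K) (F := F) :=
  Divisor.mem_degZero.mpr (h.degree_eq_zero hm)

theorem isTriple_one (m : ℕ) : D.IsTriple m 1 1 1 0 := by
  refine ⟨isMF_one, by rw [map_one, one_pow], ?_⟩
  rw [smul_zero, divOf_one]

theorem IsTriple.mul {m : ℕ} {χ χ' : Γ →* Kˣ} {G G' : 𝕄} {y y' : F} {E E' : Divisor K F}
    (h : D.IsTriple m χ G y E) (h' : D.IsTriple m χ' G' y' E') :
    D.IsTriple m (χ * χ') (G * G') (y * y') (E + E') := by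
  refine ⟨h.1.mul h'.1, by rw [map_mul, h.2.1, h'.2.1, mul_pow], ?_⟩
  rw [smul_add, h.2.2, h'.2.2, divOf_mul h.y_ne_zero h'.y_ne_zero]

theorem IsTriple.inv {m : ℕ} {χ : Γ →* Kˣ} {G : 𝕄} {y : F} {E : Divisor K F}
    (h : D.IsTriple m χ G y E) : D.IsTriple m χ⁻¹ G⁻¹ y⁻¹ (-E) := by
  refine ⟨h.1.inv, by rw [map_inv₀, h.2.1, inv_pow], ?_⟩
  rw [smul_neg, h.2.2, divOf_inv]

/-- Two triples with the same character differ by a principal divisor. -/
theorem IsTriple.sub_mem_principal {m : ℕ} (hm : 0 < m) {χ : Γ →* Kˣ} {G G' : 𝕄} {y y' : F}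
    {E E' : Divisor K F} (h : D.IsTriple m χ G y E) (h' : D.IsTriple m χ G' y' E') :
    E - E' ∈ Divisor.principal (K := K) (F := F) := by
  have hq : D.IsMF 1 (G / G') := by
    have := h.1.div h'.1
    rwa [div_self' χ] at this
  obtain ⟨g, hg, hgθ⟩ := hq.exists_θ_eq
  have hy : y / y' = g ^ m := by
    apply D.θ.injective
    rw [map_div₀, map_pow, h.2.1, h'.2.1, hgθ, div_pow]
  have hdiv : m • (E - E') = m • divOf K g := by
    rw [smul_sub, h.2.2, h'.2.2, ← divOf_div h.y_ne_zero h'.y_ne_zero, hy, divOf_pow]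
  have hinj : E - E' = divOf K g := by
    ext P
    have := congrArg (fun Z : Divisor K F => Z P) hdiv
    simp only [Finsupp.smul_apply, nsmul_eq_mul] at this
    exact mul_left_cancel₀ (by exact_mod_cast hm.ne') this
  rw [hinj]
  exact divOf_mem_principal hg

/-- Existence of a triple for a good character killed by `m`. -/
theorem exists_isTriple {m : ℕ} (hm : 0 < m) {χ : Γ →* Kˣ} (hχ : χ ∈ D.Good)
    (hχm : χ ^ m = 1) : ∃ G y E, D.IsTriple m χ G y E := by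
  obtain ⟨G, hG0, hGa, hGχ⟩ := D.exists_mf χ hχ (isOfFinOrder_iff_pow_eq_one.mpr ⟨m, hm, hχm⟩)
  have hG : D.IsMF χ G := ⟨hG0, hGa, hGχ⟩
  have hGm : D.IsMF 1 (G ^ m) := by
    have := hG.pow m
    rwa [hχm] at this
  obtain ⟨y, hy0, hy⟩ := hGm.exists_θ_eq
  have hdvd := D.dvd m χ G y hχ hG0 hGa hGχ hy
  refine ⟨G, y, (divOf K y).mapRange (fun n => n / (m : ℤ)) (Int.zero_ediv _), hG, hy, ?_⟩
  ext P
  rw [Finsupp.smul_apply, Finsupp.mapRange_apply, divOf_apply, nsmul_eq_mul]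
  exact Int.mul_ediv_cancel' (hdvd P)

end Triple

section Kappa

variable [HasPrincipalDivisors K F] (D)

open Classical in
/-- **The Kummer class** of a character `χ` (meaningful for good `χ` with `χ ^ m = 1`, `0 < m`):
the class of `(1/m) div y`, where `θ y = G ^ m` for a multiplicative function `G` with
character `χ`. -/
noncomputable def kappa (m : ℕ) (χ : Γ →* Kˣ) : Pic0 K F :=
  if h : 0 < m ∧ ∃ E G y, D.IsTriple m χ G y E then
    Pic0.mk ⟨h.2.choose, (h.2.choose_spec.choose_spec.choose_spec).mem_degZero h.1⟩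
  else 0

variable {D}

/-- `kappa` is computed by any triple. -/
theorem kappa_eq_mk {m : ℕ} (hm : 0 < m) {χ : Γ →* Kˣ} {G : 𝕄} {y : F} {E : Divisor K F}
    (h : D.IsTriple m χ G y E) : D.kappa m χ = Pic0.mk ⟨E, h.mem_degZero hm⟩ := by
  have hex : 0 < m ∧ ∃ E G y, D.IsTriple m χ G y E := ⟨hm, E, G, y, h⟩
  rw [kappa, dif_pos hex]
  have h' := hex.2.choose_spec.choose_spec.choose_spec
  refine (QuotientAddGroup.eq).mpr ?_
  rw [AddSubgroup.mem_addSubgroupOf]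
  have := h.sub_mem_principal hm h'
  simpa [sub_eq_neg_add] using this

theorem kappa_one {m : ℕ} (hm : 0 < m) : D.kappa m 1 = 0 := by
  rw [kappa_eq_mk hm (isTriple_one m)]
  rfl

theorem kappa_mul {m : ℕ} (hm : 0 < m) {χ χ' : Γ →* Kˣ} (hχ : χ ∈ D.Good) (hχm : χ ^ m = 1)
    (hχ' : χ' ∈ D.Good) (hχ'm : χ' ^ m = 1) :
    D.kappa m (χ * χ') = D.kappa m χ + D.kappa m χ' := by
  obtain ⟨G, y, E, h⟩ := exists_isTriple hm hχ hχm
  obtain ⟨G', y', E', h'⟩ := exists_isTriple hm hχ' hχ'm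
  rw [kappa_eq_mk hm (h.mul h'), kappa_eq_mk hm h, kappa_eq_mk hm h']
  rfl

theorem nsmul_kappa {m : ℕ} (hm : 0 < m) {χ : Γ →* Kˣ} (hχ : χ ∈ D.Good) (hχm : χ ^ m = 1) :
    m • D.kappa m χ = 0 := by
  obtain ⟨G, y, E, h⟩ := exists_isTriple hm hχ hχm
  rw [kappa_eq_mk hm h]
  refine (QuotientAddGroup.eq_zero_iff _).mpr ?_
  rw [AddSubgroup.mem_addSubgroupOf]
  show ((m • (⟨E, h.mem_degZero hm⟩ : Divisor.degZero (K := K) (F := F)) :
    Divisor.degZero (K := K) (F := F)) : Divisor K F) ∈ _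
  rw [AddSubgroup.coe_nsmul, h.2.2]
  exact divOf_mem_principal h.y_ne_zero

/-- **Injectivity of the Kummer class.** -/
theorem kappa_eq_zero_iff [IsAlgClosed K] (hF : RiemannPkg K F) {m : ℕ} (hm : 0 < m)
    {χ : Γ →* Kˣ} (hχ : χ ∈ D.Good) (hχm : χ ^ m = 1) : D.kappa m χ = 0 ↔ χ = 1 := by
  constructor
  · intro h0
    obtain ⟨G, y, E, h⟩ := exists_isTriple hm hχ hχm
    rw [kappa_eq_mk hm h] at h0
    have hE : E ∈ Divisor.principal (K := K) (F := F) := by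
      have := (QuotientAddGroup.eq_zero_iff _).mp h0
      rwa [AddSubgroup.mem_addSubgroupOf] at this
    obtain ⟨g, hg, rfl⟩ := mem_principal_iff_exists_divOf.mp hE
    -- `u = y / g ^ m` has trivial divisor, hence is a constant
    have hgm : g ^ m ≠ 0 := pow_ne_zero m hg
    have hu : divOf K (y / g ^ m) = 0 := by
      rw [divOf_div h.y_ne_zero hgm, divOf_pow, ← h.2.2, sub_self]
    obtain ⟨a, ha⟩ := exists_const_of_forall_ord_nonneg hF (f := y / g ^ m) fun P => by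
      rw [← divOf_apply, hu, Finsupp.zero_apply]
    -- `(G / θ g) ^ m` is the constant `a`
    have hpow : (G / D.θ g) ^ m = algebraMap K 𝕄 a := by
      rw [div_pow, ← h.2.1, ← map_pow, ← map_div₀, ha, D.θ_algebraMap]
    obtain ⟨b, hb⟩ := exists_algebraMap_eq_of_pow_eq hm hpow
    have hq : D.IsMF χ (G / D.θ g) := by
      have := h.1.div (isMF_θ (D := D) hg)
      rwa [div_one χ] at this
    exact hq.char_eq_one_of_const hb
  · rintro rfl
    exact kappa_one hm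

end Kappa

section Hecke

variable [HasPrincipalDivisors K F] (D)

/-- Abstract Hecke data compatible with the Kummer data: an operator `T` on divisors with
`T (div y) = div (Nm y)`, an operator `H` on functions with `H (θ y) = θ (Nm y)`, commuting
with powers, and sending multiplicative functions for `χ` to multiplicative functions for
`τ χ`. -/
structure HeckeData where
  T : Divisor K F →+ Divisor K F
  Nm : F → F
  T_divOf : ∀ y : F, y ≠ 0 → T (divOf K y) = divOf K (Nm y)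
  H : 𝕄 → 𝕄
  H_pow : ∀ (G : 𝕄) (m : ℕ), H (G ^ m) = H G ^ m
  H_θ : ∀ y : F, y ≠ 0 → H (D.θ y) = D.θ (Nm y)
  τ : (Γ →* Kˣ) → (Γ →* Kˣ)
  isMF : ∀ {χ : Γ →* Kˣ} {G : 𝕄}, χ ∈ D.Good → D.IsMF χ G → D.IsMF (τ χ) (H G)

variable {D}

theorem IsTriple.hecke (X : D.HeckeData) {m : ℕ} {χ : Γ →* Kˣ} (hχ : χ ∈ D.Good) {G : 𝕄}
    {y : F} {E : Divisor K F} (h : D.IsTriple m χ G y E) :
    D.IsTriple m (X.τ χ) (X.H G) (X.Nm y) (X.T E) := by
  refine ⟨X.isMF hχ h.1, ?_, ?_⟩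
  · rw [← X.H_θ y h.y_ne_zero, h.2.1, X.H_pow]
  · rw [← map_nsmul, h.2.2, X.T_divOf y h.y_ne_zero]

/-- **Abstract Hecke equivariance of the Kummer class** (divisor form). -/
theorem kappa_hecke (X : D.HeckeData) {m : ℕ} (hm : 0 < m) {χ : Γ →* Kˣ} (hχ : χ ∈ D.Good)
    {G : 𝕄} {y : F} {E : Divisor K F} (h : D.IsTriple m χ G y E) :
    D.kappa m (X.τ χ) = Pic0.mk ⟨X.T E, (h.hecke X hχ).mem_degZero hm⟩ :=
  kappa_eq_mk hm (h.hecke X hχ)

/-- **Abstract Hecke equivariance of the Kummer class** (`Pic0` form): if `Tb` is an endomorphism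
of `Pic0` induced by `T` on degree-zero divisors then `Tb (kappa m χ) = kappa m (τ χ)`. -/
theorem kappa_hecke_pic0 (X : D.HeckeData) {m : ℕ} (hm : 0 < m) {χ : Γ →* Kˣ} (hχ : χ ∈ D.Good)
    (hχm : χ ^ m = 1) (Tb : Pic0 K F →+ Pic0 K F)
    (hTb : ∀ E : Divisor.degZero (K := K) (F := F), ∃ h, Tb (Pic0.mk E) = Pic0.mk ⟨X.T E, h⟩) :
    Tb (D.kappa m χ) = D.kappa m (X.τ χ) := by
  obtain ⟨G, y, E, h⟩ := exists_isTriple hm hχ hχm
  rw [kappa_hecke X hm hχ h, kappa_eq_mk hm h]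
  obtain ⟨h', hE⟩ := hTb ⟨E, h.mem_degZero hm⟩
  rw [hE]

end Hecke

section Hom

variable [HasPrincipalDivisors K F] (D)

/-- The Kummer homomorphism on an additive group `Λ` mapping to good characters killed by `m`. -/
noncomputable def kappaHom {Λ : Type*} [AddCommGroup Λ] {m : ℕ} (hm : 0 < m)
    (c : Λ →+ Additive (Γ →* Kˣ)) (hc : ∀ l : Λ, Additive.toMul (c l) ∈ D.Good)
    (hcm : ∀ l : Λ, Additive.toMul (c l) ^ m = 1) : Λ →+ Pic0 K F where
  toFun l := D.kappa m (Additive.toMul (c l))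
  map_zero' := by
    rw [map_zero, toMul_zero]
    exact kappa_one hm
  map_add' l l' := by
    rw [map_add, toMul_add]
    exact kappa_mul hm (hc l) (hcm l) (hc l') (hcm l')

variable {D}

@[simp]
theorem kappaHom_apply {Λ : Type*} [AddCommGroup Λ] {m : ℕ} (hm : 0 < m)
    (c : Λ →+ Additive (Γ →* Kˣ)) (hc : ∀ l : Λ, Additive.toMul (c l) ∈ D.Good)
    (hcm : ∀ l : Λ, Additive.toMul (c l) ^ m = 1) (l : Λ) :
    D.kappaHom hm c hc hcm l = D.kappa m (Additive.toMul (c l)) := rfl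

theorem kappaHom_eq_zero_iff [IsAlgClosed K] (hF : RiemannPkg K F) {Λ : Type*} [AddCommGroup Λ]
    {m : ℕ} (hm : 0 < m) (c : Λ →+ Additive (Γ →* Kˣ))
    (hc : ∀ l : Λ, Additive.toMul (c l) ∈ D.Good)
    (hcm : ∀ l : Λ, Additive.toMul (c l) ^ m = 1) (l : Λ) :
    D.kappaHom hm c hc hcm l = 0 ↔ c l = 0 := by
  rw [kappaHom_apply, kappa_eq_zero_iff hF hm (hc l) (hcm l)]
  rfl

theorem nsmul_kappaHom {Λ : Type*} [AddCommGroup Λ] {m : ℕ} (hm : 0 < m)
    (c : Λ →+ Additive (Γ →* Kˣ)) (hc : ∀ l : Λ, Additive.toMul (c l) ∈ D.Good)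
    (hcm : ∀ l : Λ, Additive.toMul (c l) ^ m = 1) (l : Λ) :
    m • D.kappaHom hm c hc hcm l = 0 :=
  nsmul_kappa hm (hc l) (hcm l)

end Hom

end KummerData

end Fermat.Agent.Jac
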