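import Mathlib

/-!
# Program J, node (J2-a): the norm pencil of two modular forms

`𝒢` an arithmetic subgroup of `GL(2, ℝ)`, `n = [SL(2, ℤ) : 𝒢 ∩ SL(2, ℤ)]`, `f g : ModularForm 𝒢 k`.
For every `t : ℂ` the norm `N(t) = ∏_q (t • g - f)|q` is a level one modular form of weight `k * n`,
and pointwise it is the value at `t` of the polynomial
`pencilPoly f g z = ∏_q (X * (g|q) z - (f|q) z)` of degree `≤ n`.  Lagrange interpolation at
`t = 0, …, n` shows that each coefficient of `pencilPoly f g z` is (the value at `z` of) a level one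
modular form `pencilCoeff f g i` of weight `k * n`.  The top coefficient is `norm g`, and
`f z / g z` is a root; in homogeneous form:
`g z * ∑ i ≤ n, pencilCoeff f g i z * f z ^ i * g z ^ (n - i) = 0`.
-/

set_option autoImplicit false
set_option linter.unusedSectionVars false

open UpperHalfPlane ModularForm SlashInvariantForm Polynomial
open scoped MatrixGroups ModularForm Manifold

namespace Fermat.Agent.Jac

variable {𝒢 : Subgroup (GL (Fin 2) ℝ)} [𝒢.IsArithmetic] [𝒢.HasDetOne] {k : ℤ}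

/-- evaluation of a finite sum of modular forms -/
theorem mf_sum_apply {Γ : Subgroup (GL (Fin 2) ℝ)} {w : ℤ} {ι : Type*} (s : Finset ι)
    (F : ι → ModularForm Γ w) (z : ℍ) : (∑ j ∈ s, F j) z = ∑ j ∈ s, F j z := by
  classical
  induction s using Finset.induction_on with
  | empty => simp
  | insert a s ha ih => rw [Finset.sum_insert ha, Finset.sum_insert ha, add_apply, ih]

/-- The index `[SL(2, ℤ) : 𝒢 ∩ SL(2, ℤ)]`. -/
noncomputable abbrev slIndex (𝒢 : Subgroup (GL (Fin 2) ℝ)) : ℕ :=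
  Nat.card (↥𝒮ℒ ⧸ 𝒢.subgroupOf 𝒮ℒ)

noncomputable instance instFintypeSLQuot :
    Fintype (↥(𝒮ℒ : Subgroup (GL (Fin 2) ℝ)) ⧸ 𝒢.subgroupOf 𝒮ℒ) := Fintype.ofFinite _

theorem slIndex_eq_card : slIndex 𝒢 = Fintype.card (↥𝒮ℒ ⧸ 𝒢.subgroupOf 𝒮ℒ) :=
  Nat.card_eq_fintype_card

theorem slIndex_pos : 0 < slIndex 𝒢 := by
  rw [slIndex_eq_card]
  exact Fintype.card_pos

/-- elements of `𝒮ℒ` act `ℂ`-linearly through the slash action -/
theorem smul_slash_of_mem_SL (w : ℤ) {h : GL (Fin 2) ℝ} (hh : h ∈ (𝒮ℒ : Subgroup (GL (Fin 2) ℝ)))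
    (c : ℂ) (F : ℍ → ℂ) : (c • F) ∣[w] h = c • (F ∣[w] h) := by
  obtain ⟨γ, rfl⟩ := hh
  exact ModularForm.SL_smul_slash w γ F c

/-- `quotientFunc` is `ℂ`-linear in the form (for translates by elements of `𝒮ℒ`). -/
theorem quotientFunc_smul_sub (f g : ModularForm 𝒢 k) (t : ℂ)
    (q : ↥(𝒮ℒ : Subgroup (GL (Fin 2) ℝ)) ⧸ 𝒢.subgroupOf 𝒮ℒ) (z : ℍ) :
    quotientFunc (t • g - f) q z = t * quotientFunc g q z - quotientFunc f q z := by
  induction q using Quotient.inductionOn with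
  | h r =>
    have hr : (r.val)⁻¹ ∈ (𝒮ℒ : Subgroup (GL (Fin 2) ℝ)) := inv_mem r.2
    change ((⇑(t • g - f)) ∣[k] (r.val)⁻¹) z = t * ((⇑g) ∣[k] (r.val)⁻¹) z - ((⇑f) ∣[k] (r.val)⁻¹) z
    rw [FunLike.coe_sub, FunLike.coe_smul, sub_eq_add_neg, SlashAction.add_slash,
      SlashAction.neg_slash, smul_slash_of_mem_SL k hr]
    simp [sub_eq_add_neg]

/-- The pencil polynomial `∏_q (X * (g|q) z - (f|q) z)`. -/
noncomputable def pencilPoly (f g : ModularForm 𝒢 k) (z : ℍ) : ℂ[X] :=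
  ∏ q : ↥(𝒮ℒ : Subgroup (GL (Fin 2) ℝ)) ⧸ 𝒢.subgroupOf 𝒮ℒ,
    (C (quotientFunc g q z) * X - C (quotientFunc f q z))

theorem eval_pencilPoly (f g : ModularForm 𝒢 k) (z : ℍ) (t : ℂ) :
    (pencilPoly f g z).eval t = ModularForm.norm 𝒮ℒ (t • g - f) z := by
  rw [pencilPoly, eval_prod, ModularForm.coe_norm, Finset.prod_apply]
  refine Finset.prod_congr rfl fun q _ => ?_
  rw [quotientFunc_smul_sub]
  simp only [eval_sub, eval_mul, eval_C, eval_X]
  ring

theorem natDegree_pencilPoly_le (f g : ModularForm 𝒢 k) (z : ℍ) :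
    (pencilPoly f g z).natDegree ≤ slIndex 𝒢 := by
  rw [pencilPoly, slIndex_eq_card]
  refine (natDegree_prod_le _ _).trans ?_
  calc ∑ q : ↥(𝒮ℒ : Subgroup (GL (Fin 2) ℝ)) ⧸ 𝒢.subgroupOf 𝒮ℒ,
        (C (quotientFunc g q z) * X - C (quotientFunc f q z)).natDegree
      ≤ ∑ _q : ↥(𝒮ℒ : Subgroup (GL (Fin 2) ℝ)) ⧸ 𝒢.subgroupOf 𝒮ℒ, 1 := by
        refine Finset.sum_le_sum fun q _ => ?_
        exact (natDegree_sub_le _ _).trans
          (max_le ((natDegree_C_mul_le _ _).trans natDegree_X_le) (by simp))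
    _ = Fintype.card (↥(𝒮ℒ : Subgroup (GL (Fin 2) ℝ)) ⧸ 𝒢.subgroupOf 𝒮ℒ) := by simp

/-- the top coefficient of the pencil polynomial is the norm of `g` -/
theorem coeff_pencilPoly_slIndex (f g : ModularForm 𝒢 k) (z : ℍ) :
    (pencilPoly f g z).coeff (slIndex 𝒢) = ModularForm.norm 𝒮ℒ g z := by
  rw [pencilPoly, slIndex_eq_card, ModularForm.coe_norm, Finset.prod_apply]
  have h := coeff_prod_of_natDegree_le
    (f := fun q : ↥(𝒮ℒ : Subgroup (GL (Fin 2) ℝ)) ⧸ 𝒢.subgroupOf 𝒮ℒ =>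
      C (quotientFunc g q z) * X - C (quotientFunc f q z)) Finset.univ (n := 1)
    (fun q _ => (natDegree_sub_le _ _).trans
      (max_le ((natDegree_C_mul_le _ _).trans natDegree_X_le) (by simp)))
  rw [Finset.card_univ, mul_one] at h
  rw [h]
  refine Finset.prod_congr rfl fun q _ => ?_
  simp

/-- `f z / g z` is a root of the pencil polynomial (the factor of the trivial coset vanishes). -/
theorem eval_pencilPoly_div (f g : ModularForm 𝒢 k) (z : ℍ) (hz : g z ≠ 0) :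
    (pencilPoly f g z).eval (f z / g z) = 0 := by
  rw [pencilPoly, eval_prod]
  refine Finset.prod_eq_zero (Finset.mem_univ (⟦1⟧ : ↥(𝒮ℒ : Subgroup (GL (Fin 2) ℝ)) ⧸ _)) ?_
  have h1 : ∀ F : ModularForm 𝒢 k, quotientFunc F
      (⟦1⟧ : ↥(𝒮ℒ : Subgroup (GL (Fin 2) ℝ)) ⧸ 𝒢.subgroupOf 𝒮ℒ) z = F z := fun F => by
    rw [quotientFunc_mk]
    simp
  rw [h1, h1]
  simp only [eval_sub, eval_mul, eval_C, eval_X]
  field_simp
  ring

/-- The nodes `0, 1, …, n` of the interpolation. -/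
noncomputable def pencilNode (j : ℕ) : ℂ := (j : ℂ)

theorem pencilNode_injOn (s : Finset ℕ) : Set.InjOn pencilNode (s : Set ℕ) := fun _ _ _ _ h =>
  Nat.cast_injective h

/-- The `i`-th coefficient of the pencil polynomial, as a level one modular form: a `ℂ`-linear
combination of the norms `N(0), …, N(n)`. -/
noncomputable def pencilCoeff (f g : ModularForm 𝒢 k) (i : ℕ) :
    ModularForm 𝒮ℒ (k * slIndex 𝒢) :=
  ∑ j ∈ Finset.range (slIndex 𝒢 + 1),
    (Lagrange.basis (Finset.range (slIndex 𝒢 + 1)) pencilNode j).coeff i •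
      ModularForm.norm 𝒮ℒ (pencilNode j • g - f)

theorem pencilCoeff_apply (f g : ModularForm 𝒢 k) (i : ℕ) (z : ℍ) :
    pencilCoeff f g i z = (pencilPoly f g z).coeff i := by
  have hdeg : (pencilPoly f g z).degree < ((Finset.range (slIndex 𝒢 + 1)).card : WithBot ℕ) := by
    rw [Finset.card_range]
    refine lt_of_le_of_lt degree_le_natDegree ?_
    exact_mod_cast Nat.lt_succ_of_le (natDegree_pencilPoly_le f g z)
  have h := Lagrange.eq_interpolate (pencilNode_injOn (Finset.range (slIndex 𝒢 + 1))) hdeg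
  conv_rhs => rw [h]
  rw [Lagrange.interpolate_apply, finsetSum_coeff, pencilCoeff, mf_sum_apply]
  refine Finset.sum_congr rfl fun j _ => ?_
  rw [coeff_C_mul, eval_pencilPoly, smul_apply, smul_eq_mul, mul_comm]

theorem pencilCoeff_slIndex (f g : ModularForm 𝒢 k) :
    pencilCoeff f g (slIndex 𝒢) = ModularForm.norm 𝒮ℒ g := by
  ext z
  rw [pencilCoeff_apply, coeff_pencilPoly_slIndex]

theorem pencilCoeff_slIndex_ne_zero (f : ModularForm 𝒢 k) {g : ModularForm 𝒢 k} (hg : g ≠ 0) :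
    pencilCoeff f g (slIndex 𝒢) ≠ 0 := by
  rw [pencilCoeff_slIndex]
  exact ModularForm.norm_ne_zero 𝒮ℒ (fun h => hg (DFunLike.coe_injective h))

/-- **The algebraic relation**, homogeneous pointwise form. -/
theorem pencil_relation (f g : ModularForm 𝒢 k) (z : ℍ) :
    g z * ∑ i ∈ Finset.range (slIndex 𝒢 + 1),
      pencilCoeff f g i z * f z ^ i * g z ^ (slIndex 𝒢 - i) = 0 := by
  by_cases hz : g z = 0
  · rw [hz, zero_mul]
  · have h := eval_pencilPoly_div f g z hz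
    rw [eval_eq_sum_range' (Nat.lt_succ_of_le (natDegree_pencilPoly_le f g z))] at h
    have h2 : ∑ i ∈ Finset.range (slIndex 𝒢 + 1),
        pencilCoeff f g i z * f z ^ i * g z ^ (slIndex 𝒢 - i) =
        g z ^ slIndex 𝒢 * ∑ i ∈ Finset.range (slIndex 𝒢 + 1),
          (pencilPoly f g z).coeff i * (f z / g z) ^ i := by
      rw [Finset.mul_sum]
      refine Finset.sum_congr rfl fun i hi => ?_
      have hi' : i ≤ slIndex 𝒢 := Nat.lt_succ_iff.mp (Finset.mem_range.mp hi)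
      rw [pencilCoeff_apply, div_pow]
      have : g z ^ slIndex 𝒢 = g z ^ (slIndex 𝒢 - i) * g z ^ i := by
        rw [← pow_add, Nat.sub_add_cancel hi']
      rw [this]
      field_simp
    rw [h2, h, mul_zero, mul_zero]

end Fermat.Agent.Jac
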