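import Mathlib
import Fermat.Agent.X0.L1Poly
import Fermat.Agent.X0.ModComplete
import Fermat.Agent.X0.JFun
import Fermat.Agent.Jac.NormInterp

/-!
# Program J, node (J2-b): ratios of modular forms are algebraic over `ℂ(j)`

* `holOf F : HolH`, `merOf F : MerH` : a modular form as a holomorphic / meromorphic function on `ℍ`;
* `constHol : ℂ →+* HolH`, `constMer : ℂ →+* MerH`, `jHol`, `jMer` : constants and the `j`-function;
* `polyMer P = P(j) : MerH` for `P : ℂ[X]`;
* `levelOne_pair` : for two level one forms `A B` of weight `m ≥ 0` there is `P : ℂ[X]` with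
  `A * B ^ 11 = Δ ^ m * P(j)`;
* `exists_relation` **(J2-b)** : for `f g : ModularForm 𝒢 k`, `g ≠ 0`, and every `a : MerH` with
  `a * merOf g = merOf f` there are `P_0, …, P_n : ℂ[X]` (`n = slIndex 𝒢`) with `P_n(j) ≠ 0` and
  `∑ i ≤ n, P_i(j) * a ^ i = 0` in `MerH`.
-/

set_option autoImplicit false
set_option linter.unusedSectionVars false

open UpperHalfPlane ModularForm Polynomial
open scoped MatrixGroups ModularForm Manifold

namespace Fermat.Agent.Jac

open Fermat.Agent.X0

/-! ### Holomorphic and meromorphic functions attached to modular forms -/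

/-- A modular form as an element of the ring of holomorphic functions. -/
noncomputable def holOf {Γ : Subgroup (GL (Fin 2) ℝ)} {w : ℤ} (F : ModularForm Γ w) : HolH :=
  ⟨F, F.holo'⟩

@[simp] theorem coe_holOf {Γ : Subgroup (GL (Fin 2) ℝ)} {w : ℤ} (F : ModularForm Γ w) :
    (holOf F : ℍ → ℂ) = F := rfl

/-- A modular form as a meromorphic function. -/
noncomputable def merOf {Γ : Subgroup (GL (Fin 2) ℝ)} {w : ℤ} (F : ModularForm Γ w) : MerH :=
  algebraMap HolH MerH (holOf F)

theorem holOf_eq_zero_iff {Γ : Subgroup (GL (Fin 2) ℝ)} {w : ℤ} (F : ModularForm Γ w) :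
    holOf F = 0 ↔ F = 0 := by
  constructor
  · intro h
    have h1 : (holOf F : ℍ → ℂ) = 0 := by rw [h]; rfl
    exact DFunLike.coe_injective h1
  · rintro rfl
    exact Subtype.ext rfl

theorem merOf_eq_zero_iff {Γ : Subgroup (GL (Fin 2) ℝ)} {w : ℤ} (F : ModularForm Γ w) :
    merOf F = 0 ↔ F = 0 := by
  rw [merOf, map_eq_zero_iff _ (IsFractionRing.injective HolH MerH), holOf_eq_zero_iff]

theorem holOf_ext {a b : HolH} (h : ∀ z, (a : ℍ → ℂ) z = (b : ℍ → ℂ) z) : a = b :=
  Subtype.ext (funext h)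

theorem holOf_mul {Γ : Subgroup (GL (Fin 2) ℝ)} [Γ.HasDetPlusMinusOne] {w₁ w₂ : ℤ}
    (F : ModularForm Γ w₁) (G : ModularForm Γ w₂) : holOf (F.mul G) = holOf F * holOf G :=
  holOf_ext fun z => by simp [ModularForm.coe_mul]

theorem merOf_mul {Γ : Subgroup (GL (Fin 2) ℝ)} [Γ.HasDetPlusMinusOne] {w₁ w₂ : ℤ}
    (F : ModularForm Γ w₁) (G : ModularForm Γ w₂) : merOf (F.mul G) = merOf F * merOf G := by
  rw [merOf, holOf_mul, map_mul]; rfl

theorem holOf_mcast {Γ : Subgroup (GL (Fin 2) ℝ)} {a b : ℤ} (h : a = b) (F : ModularForm Γ a) :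
    holOf (ModularForm.mcast h F rfl) = holOf F :=
  holOf_ext fun _ => rfl

theorem merOf_mcast {Γ : Subgroup (GL (Fin 2) ℝ)} {a b : ℤ} (h : a = b) (F : ModularForm Γ a) :
    merOf (ModularForm.mcast h F rfl) = merOf F := by
  rw [merOf, holOf_mcast]; rfl

theorem holOf_add {Γ : Subgroup (GL (Fin 2) ℝ)} {w : ℤ} (F G : ModularForm Γ w) :
    holOf (F + G) = holOf F + holOf G :=
  holOf_ext fun z => by simp

theorem merOf_add {Γ : Subgroup (GL (Fin 2) ℝ)} {w : ℤ} (F G : ModularForm Γ w) :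
    merOf (F + G) = merOf F + merOf G := by
  rw [merOf, holOf_add, map_add]; rfl

theorem holOf_neg {Γ : Subgroup (GL (Fin 2) ℝ)} {w : ℤ} (F : ModularForm Γ w) :
    holOf (-F) = -holOf F :=
  holOf_ext fun z => by simp

theorem merOf_neg {Γ : Subgroup (GL (Fin 2) ℝ)} {w : ℤ} (F : ModularForm Γ w) :
    merOf (-F) = -merOf F := by
  rw [merOf, holOf_neg, map_neg]; rfl

theorem holOf_pow {Γ : Subgroup (GL (Fin 2) ℝ)} [Γ.HasDetPlusMinusOne] {w : ℤ}
    (F : ModularForm Γ w) (n : ℕ) : holOf (F.pow n) = holOf F ^ n :=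
  holOf_ext fun z => by simp [ModularForm.coe_pow]

/-- The constants, as holomorphic functions. -/
noncomputable def constHol : ℂ →+* HolH where
  toFun c := ⟨fun _ => c, mdifferentiable_const⟩
  map_one' := rfl
  map_mul' _ _ := rfl
  map_zero' := rfl
  map_add' _ _ := rfl

@[simp] theorem coe_constHol (c : ℂ) (z : ℍ) : (constHol c : ℍ → ℂ) z = c := rfl

/-- The constants, as meromorphic functions. -/
noncomputable def constMer : ℂ →+* MerH := (algebraMap HolH MerH).comp constHol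

/-- The `j`-function as a holomorphic function on `ℍ`. -/
noncomputable def jHol : HolH := ⟨jFun, jFun_mdiff⟩

@[simp] theorem coe_jHol (z : ℍ) : (jHol : ℍ → ℂ) z = jFun z := rfl

/-- The `j`-function as a meromorphic function on `ℍ`. -/
noncomputable def jMer : MerH := algebraMap HolH MerH jHol

/-- `P(j)` as a holomorphic function. -/
noncomputable def polyHol (P : ℂ[X]) : HolH := P.eval₂ constHol jHol

theorem coe_polyHol (P : ℂ[X]) (z : ℍ) : (polyHol P : ℍ → ℂ) z = P.eval (jFun z) := by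
  unfold polyHol
  induction P using Polynomial.induction_on' with
  | add p q hp hq =>
    rw [eval₂_add, eval_add, ← hp, ← hq]; rfl
  | monomial n a =>
    rw [eval₂_monomial, eval_monomial]
    show (constHol a : ℍ → ℂ) z * ((jHol ^ n : HolH) : ℍ → ℂ) z = _
    rw [coe_constHol, Subring.coe_pow, Pi.pow_apply, coe_jHol]

/-- `P(j)` as a meromorphic function. -/
noncomputable def polyMer (P : ℂ[X]) : MerH := P.eval₂ constMer jMer

theorem polyMer_eq (P : ℂ[X]) : polyMer P = algebraMap HolH MerH (polyHol P) := by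
  rw [polyMer, polyHol, constMer, jMer, hom_eval₂]

/-- The discriminant as a holomorphic function. -/
noncomputable def deltaHol : HolH := ⟨ModularForm.discriminant, discriminant_mdiff⟩

theorem deltaHol_ne_zero : deltaHol ≠ 0 := fun h => by
  have h1 : (deltaHol : ℍ → ℂ) UpperHalfPlane.I = 0 := by rw [h]; rfl
  exact ModularForm.discriminant_ne_zero _ h1

/-! ### Level one -/

/-- A level one modular form of weight `12 m` is `Δ ^ m * P(j)`, `deg P ≤ m` (over `ℂ`). -/
theorem levelOne_eq_discriminant_pow_mul_poly_complex (m : ℕ)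
    (G : ModularForm 𝒮ℒ (12 * (m : ℤ))) :
    ∃ P : ℂ[X], P.natDegree ≤ m ∧
      ∀ z : ℍ, G z = ModularForm.discriminant z ^ m * P.eval (jFun z) := by
  obtain ⟨P, hP, h⟩ := L1Poly.levelOne_eq_discriminant_pow_mul_poly ⊤ m G (fun _ => trivial)
  exact ⟨P.map (⊤ : Subfield ℂ).subtype, (natDegree_map_le).trans hP, fun z => h z⟩

/-- For two level one forms `A`, `B` of weight `m`: `A * B ^ 11 = Δ ^ m * P(j)`. -/
theorem levelOne_pair (m : ℕ) (A B : ModularForm 𝒮ℒ (m : ℤ)) :
    ∃ P : ℂ[X], ∀ z : ℍ, A z * B z ^ 11 = ModularForm.discriminant z ^ m * P.eval (jFun z) := by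
  have hw : (m : ℤ) + ((11 : ℕ) : ℤ) * (m : ℤ) = 12 * (m : ℤ) := by push_cast; ring
  obtain ⟨P, -, h⟩ := levelOne_eq_discriminant_pow_mul_poly_complex m
    (ModularForm.mcast hw (A.mul (B.pow 11)) rfl)
  refine ⟨P, fun z => ?_⟩
  rw [← h z, ModularForm.mcast_apply, ModularForm.coe_mul, ModularForm.coe_pow]
  rfl

theorem levelOne_pair_hol (m : ℕ) (A B : ModularForm 𝒮ℒ (m : ℤ)) :
    ∃ P : ℂ[X], holOf A * holOf B ^ 11 = deltaHol ^ m * polyHol P := by
  obtain ⟨P, h⟩ := levelOne_pair m A B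
  refine ⟨P, holOf_ext fun z => ?_⟩
  have h1 : ((holOf A * holOf B ^ 11 : HolH) : ℍ → ℂ) z = A z * B z ^ 11 := by
    show (holOf A : ℍ → ℂ) z * ((holOf B ^ 11 : HolH) : ℍ → ℂ) z = _
    congr 1
  have h2 : ((deltaHol ^ m * polyHol P : HolH) : ℍ → ℂ) z =
      ModularForm.discriminant z ^ m * P.eval (jFun z) := by
    show ((deltaHol ^ m : HolH) : ℍ → ℂ) z * (polyHol P : ℍ → ℂ) z = _
    rw [coe_polyHol]
    congr 1
  rw [h1, h2, h z]

end Fermat.Agent.Jac
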