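import Mathlib
import Fermat.Agent.X0.Defs
import Fermat.Agent.X0.BoundedDegree
import Fermat.Agent.Jac.AlgebraicityCore

/-!
# Program J, node (J2): algebraicity of automorphic functions

`𝒢` an arithmetic subgroup of `GL(2, ℝ)` with `det = 1`, `n = slIndex 𝒢 = [SL(2, ℤ) : 𝒢 ∩ SL(2, ℤ)]`.

* `exists_relation` **(J2-b)** : if `a * merOf g = merOf f` (`f g : ModularForm 𝒢 k`, `g ≠ 0`) then
  `∑ i ≤ n, P_i(j) * a ^ i = 0` for polynomials `P_i : ℂ[X]` with `P_n(j) ≠ 0`;
* `autoField 𝒢 : Subfield MerH` **(J2-c)** : the field of ratios of modular forms of equal weight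
  for `𝒢`; it contains the constants and (if `𝒢 ≤ 𝒮ℒ`) the `j`-function;
* `exists_preimage_of_isSepVar` **(J2)** : if `F` is a field over `ℂ` with an element `x` such that
  `[F : ℂ(x)] = n`, and `θ : F →+* MerH` maps constants to constants, `x` to `j` and `F` into
  `autoField 𝒢`, then `θ` is onto `autoField 𝒢`: every ratio of two modular forms of the same
  weight for `𝒢` is `θ y` for some `y : F`.
-/

set_option autoImplicit false
set_option linter.unusedSectionVars false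
set_option linter.style.haveILetI false

open UpperHalfPlane ModularForm Polynomial
open scoped MatrixGroups ModularForm Manifold

namespace Fermat.Agent.Jac

open Fermat.Agent.X0

variable {𝒢 : Subgroup (GL (Fin 2) ℝ)} [𝒢.IsArithmetic] [𝒢.HasDetOne] {k : ℤ}

theorem coe_sum_hol {ι : Type*} (s : Finset ι) (a : ι → HolH) (z : ℍ) :
    ((∑ i ∈ s, a i : HolH) : ℍ → ℂ) z = ∑ i ∈ s, (a i : ℍ → ℂ) z := by
  have h : ((∑ i ∈ s, a i : HolH) : ℍ → ℂ) = ∑ i ∈ s, (a i : ℍ → ℂ) := map_sum HolH.subtype a s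
  rw [h, Finset.sum_apply]

/-- The relation of `NormInterp.pencil_relation` in the ring of holomorphic functions. -/
theorem pencil_relation_hol (f : ModularForm 𝒢 k) {g : ModularForm 𝒢 k} (hg : g ≠ 0) :
    ∑ i ∈ Finset.range (slIndex 𝒢 + 1),
      holOf (pencilCoeff f g i) * holOf f ^ i * holOf g ^ (slIndex 𝒢 - i) = 0 := by
  have h : holOf g * ∑ i ∈ Finset.range (slIndex 𝒢 + 1),
      holOf (pencilCoeff f g i) * holOf f ^ i * holOf g ^ (slIndex 𝒢 - i) = 0 := by
    refine holOf_ext fun z => ?_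
    have := pencil_relation f g z
    show (holOf g : ℍ → ℂ) z * ((∑ i ∈ Finset.range (slIndex 𝒢 + 1),
      holOf (pencilCoeff f g i) * holOf f ^ i * holOf g ^ (slIndex 𝒢 - i) : HolH) : ℍ → ℂ) z = 0
    rw [coe_sum_hol]
    exact this
  exact (mul_eq_zero.mp h).resolve_left ((holOf_eq_zero_iff g).not.mpr hg)

/-- **(J2-b)** Every ratio `a = f / g` of two modular forms of the same weight for `𝒢` satisfies a
polynomial relation of degree `≤ slIndex 𝒢` with coefficients polynomials in `j`, the top one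
nonzero. -/
theorem exists_relation (f : ModularForm 𝒢 k) {g : ModularForm 𝒢 k} (hg : g ≠ 0) (a : MerH)
    (ha : a * merOf g = merOf f) :
    ∃ P : ℕ → ℂ[X], polyMer (P (slIndex 𝒢)) ≠ 0 ∧
      ∑ i ∈ Finset.range (slIndex 𝒢 + 1), polyMer (P i) * a ^ i = 0 := by
  set n := slIndex 𝒢 with hn
  -- the weight is nonnegative
  have hk : 0 ≤ k := by
    by_contra hneg
    exact hg (ModularForm.isZero_of_neg_weight (not_le.mp hneg) g)
  obtain ⟨m, hm⟩ : ∃ m : ℕ, k * (n : ℤ) = (m : ℤ) :=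
    ⟨(k * (n : ℤ)).toNat, (Int.toNat_of_nonneg (mul_nonneg hk (Int.natCast_nonneg n))).symm⟩
  set A : ℕ → ModularForm 𝒮ℒ (m : ℤ) := fun i => ModularForm.mcast hm (pencilCoeff f g i) rfl
    with hA
  have hAhol : ∀ i, holOf (A i) = holOf (pencilCoeff f g i) := fun i => holOf_mcast hm _
  have hAn : A n ≠ 0 := by
    rw [hA]
    simp only
    rw [Ne, ModularForm.mcast_eq_zero_iff]
    exact pencilCoeff_slIndex_ne_zero f hg
  choose P hP using fun i => levelOne_pair_hol m (A i) (A n)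
  refine ⟨P, ?_, ?_⟩
  · -- `Δ ^ m * P_n(j) = A_n ^ 12 ≠ 0`
    intro h0
    have h1 := congrArg (algebraMap HolH MerH) (hP n)
    rw [map_mul, map_mul, map_pow, map_pow, ← polyMer_eq, h0, mul_zero, ← pow_succ'] at h1
    have h2 : algebraMap HolH MerH (holOf (A n)) ≠ 0 := by
      rw [Ne, map_eq_zero_iff _ (IsFractionRing.injective HolH MerH), holOf_eq_zero_iff]
      exact hAn
    exact pow_ne_zero _ h2 h1
  · have hG : merOf g ≠ 0 := (merOf_eq_zero_iff g).not.mpr hg
    -- the relation in `MerH`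
    have h1 := congrArg (algebraMap HolH MerH) (pencil_relation_hol f hg)
    rw [map_sum, map_zero] at h1
    have h2 : merOf g ^ n * ∑ i ∈ Finset.range (n + 1),
        algebraMap HolH MerH (holOf (A i)) * a ^ i = 0 := by
      rw [← h1, Finset.mul_sum]
      refine Finset.sum_congr rfl fun i hi => ?_
      have hi' : i ≤ n := Nat.lt_succ_iff.mp (Finset.mem_range.mp hi)
      rw [map_mul, map_mul, map_pow, map_pow, hAhol]
      have hf : algebraMap HolH MerH (holOf f) = a * merOf g := ha.symm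
      have hgm : algebraMap HolH MerH (holOf g) = merOf g := rfl
      rw [hf, hgm, mul_pow]
      have : merOf g ^ n = merOf g ^ i * merOf g ^ (n - i) := by
        rw [← pow_add, Nat.add_sub_cancel' hi']
      rw [this]
      ring
    have h3 : ∑ i ∈ Finset.range (n + 1), algebraMap HolH MerH (holOf (A i)) * a ^ i = 0 :=
      (mul_eq_zero.mp h2).resolve_left (pow_ne_zero _ hG)
    -- multiply by `A_n ^ 11` and divide by `Δ ^ m`
    have hδ : algebraMap HolH MerH deltaHol ^ m ≠ 0 := by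
      refine pow_ne_zero _ ?_
      rw [Ne, map_eq_zero_iff _ (IsFractionRing.injective HolH MerH)]
      exact deltaHol_ne_zero
    have h4 : algebraMap HolH MerH deltaHol ^ m *
        ∑ i ∈ Finset.range (n + 1), polyMer (P i) * a ^ i = 0 := by
      have h5 : algebraMap HolH MerH (holOf (A n)) ^ 11 *
          ∑ i ∈ Finset.range (n + 1), algebraMap HolH MerH (holOf (A i)) * a ^ i = 0 := by
        rw [h3, mul_zero]
      rw [← h5, Finset.mul_sum, Finset.mul_sum]
      refine Finset.sum_congr rfl fun i _ => ?_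
      have h6 := congrArg (algebraMap HolH MerH) (hP i)
      rw [map_mul, map_mul, map_pow, map_pow, ← polyMer_eq] at h6
      rw [← mul_assoc, ← h6]
      ring
    exact (mul_eq_zero.mp h4).resolve_left hδ

/-! ### The field of automorphic ratios -/

/-- `a : MerH` is a ratio of two modular forms of the same weight for `𝒢`. -/
def IsAutoRatio (𝒢 : Subgroup (GL (Fin 2) ℝ)) (a : MerH) : Prop :=
  ∃ (k : ℤ) (f g : ModularForm 𝒢 k), g ≠ 0 ∧ a * merOf g = merOf f

theorem isAutoRatio_constMer (c : ℂ) : IsAutoRatio 𝒢 (constMer c) := by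
  refine ⟨0, ModularForm.const c, ModularForm.const 1, ?_, ?_⟩
  · intro h
    have := congrArg (fun F : ModularForm 𝒢 0 => F UpperHalfPlane.I) h
    simp [ModularForm.const_apply] at this
  · have h1 : merOf (ModularForm.const (1 : ℂ) : ModularForm 𝒢 0) = 1 := by
      rw [merOf]
      have : holOf (ModularForm.const (1 : ℂ) : ModularForm 𝒢 0) = 1 := holOf_ext fun _ => rfl
      rw [this, map_one]
    rw [h1, mul_one]
    rfl

theorem IsAutoRatio.add {a b : MerH} (ha : IsAutoRatio 𝒢 a) (hb : IsAutoRatio 𝒢 b) :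
    IsAutoRatio 𝒢 (a + b) := by
  obtain ⟨k₁, f₁, g₁, hg₁, h₁⟩ := ha
  obtain ⟨k₂, f₂, g₂, hg₂, h₂⟩ := hb
  refine ⟨k₁ + k₂, f₁.mul g₂ + ModularForm.mcast (add_comm k₂ k₁) (f₂.mul g₁) rfl, g₁.mul g₂, ?_, ?_⟩
  · intro h
    have := (merOf_eq_zero_iff _).mpr h
    rw [merOf_mul] at this
    rcases mul_eq_zero.mp this with h0 | h0
    · exact hg₁ ((merOf_eq_zero_iff _).mp h0)
    · exact hg₂ ((merOf_eq_zero_iff _).mp h0)
  · rw [merOf_add, merOf_mcast, merOf_mul, merOf_mul, merOf_mul, ← h₁, ← h₂]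
    ring

theorem IsAutoRatio.mul {a b : MerH} (ha : IsAutoRatio 𝒢 a) (hb : IsAutoRatio 𝒢 b) :
    IsAutoRatio 𝒢 (a * b) := by
  obtain ⟨k₁, f₁, g₁, hg₁, h₁⟩ := ha
  obtain ⟨k₂, f₂, g₂, hg₂, h₂⟩ := hb
  refine ⟨k₁ + k₂, f₁.mul f₂, g₁.mul g₂, ?_, ?_⟩
  · intro h
    have := (merOf_eq_zero_iff _).mpr h
    rw [merOf_mul] at this
    rcases mul_eq_zero.mp this with h0 | h0
    · exact hg₁ ((merOf_eq_zero_iff _).mp h0)
    · exact hg₂ ((merOf_eq_zero_iff _).mp h0)
  · rw [merOf_mul, merOf_mul, ← h₁, ← h₂]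
    ring

theorem IsAutoRatio.neg {a : MerH} (ha : IsAutoRatio 𝒢 a) : IsAutoRatio 𝒢 (-a) := by
  obtain ⟨k₁, f₁, g₁, hg₁, h₁⟩ := ha
  exact ⟨k₁, -f₁, g₁, hg₁, by rw [merOf_neg, ← h₁, neg_mul]⟩

theorem IsAutoRatio.inv {a : MerH} (ha : IsAutoRatio 𝒢 a) : IsAutoRatio 𝒢 a⁻¹ := by
  by_cases ha0 : a = 0
  · rw [ha0, inv_zero]
    have := isAutoRatio_constMer (𝒢 := 𝒢) 0
    rwa [map_zero] at this
  obtain ⟨k₁, f₁, g₁, hg₁, h₁⟩ := ha
  have hG : merOf g₁ ≠ 0 := (merOf_eq_zero_iff g₁).not.mpr hg₁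
  have hf₁ : f₁ ≠ 0 := by
    intro h
    rw [h, (merOf_eq_zero_iff (0 : ModularForm 𝒢 k₁)).mpr rfl] at h₁
    exact (mul_ne_zero ha0 hG) h₁
  refine ⟨k₁, g₁, f₁, hf₁, ?_⟩
  rw [← h₁, ← mul_assoc, inv_mul_cancel₀ ha0, one_mul]

variable (𝒢) in
/-- **(J2-c)** The field of ratios of modular forms of equal weight for `𝒢`. -/
def autoField : Subfield MerH where
  carrier := {a | IsAutoRatio 𝒢 a}
  mul_mem' ha hb := ha.mul hb
  one_mem' := by
    have := isAutoRatio_constMer (𝒢 := 𝒢) 1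
    rwa [map_one] at this
  add_mem' ha hb := ha.add hb
  zero_mem' := by
    have := isAutoRatio_constMer (𝒢 := 𝒢) 0
    rwa [map_zero] at this
  neg_mem' ha := ha.neg
  inv_mem' _ ha := ha.inv

theorem mem_autoField {a : MerH} : a ∈ autoField 𝒢 ↔ IsAutoRatio 𝒢 a := Iff.rfl

theorem merOf_div_mem_autoField (f g : ModularForm 𝒢 k) (hg : g ≠ 0) :
    merOf f / merOf g ∈ autoField 𝒢 :=
  ⟨k, f, g, hg, div_mul_cancel₀ _ ((merOf_eq_zero_iff g).not.mpr hg)⟩

theorem constMer_mem_autoField (c : ℂ) : constMer c ∈ autoField 𝒢 := isAutoRatio_constMer c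

theorem polyMer_eq_sum (P : ℂ[X]) :
    polyMer P = ∑ i ∈ Finset.range (P.natDegree + 1), constMer (P.coeff i) * jMer ^ i := by
  rw [polyMer, eval₂_eq_sum_range]

/-! ### The main theorem -/

open IntermediateField in
/-- **(J2)** If `[F : ℂ(x)] = slIndex 𝒢` and `θ : F →+* MerH` maps constants to constants, `x` to
the `j`-function and `F` into the field of automorphic ratios, then `θ` is onto that field. -/
theorem exists_preimage_of_finrank {F : Type*} [Field F] [Algebra ℂ F] (x : F)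
    (hfin : FiniteDimensional ℂ⟮x⟯ F) (hrank : Module.finrank ℂ⟮x⟯ F = slIndex 𝒢)
    (θ : F →+* MerH) (hθc : ∀ c : ℂ, θ (algebraMap ℂ F c) = constMer c) (hθx : θ x = jMer)
    (hθA : ∀ y : F, θ y ∈ autoField 𝒢) {a : MerH} (ha : a ∈ autoField 𝒢) :
    ∃ y : F, θ y = a := by
  set n := slIndex 𝒢 with hn
  set E := ℂ⟮x⟯ with hE
  -- `θ` as a map into `↥(autoField 𝒢)`
  let θ' : F →+* ↥(autoField 𝒢) := θ.codRestrict (autoField 𝒢) hθA
  letI algEA : Algebra E ↥(autoField 𝒢) := (θ'.comp (algebraMap E F)).toAlgebra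
  have halg : ∀ e : E, algebraMap E ↥(autoField 𝒢) e = θ' (e : F) := fun _ => rfl
  -- `θ (P(x)) = P(j)`
  have hpoly : ∀ P : ℂ[X], θ (aeval x P) = polyMer P := by
    intro P
    rw [polyMer, aeval_def, hom_eval₂, hθx]
    congr 1
    ext c
    exact hθc c
  set xx : E := ⟨x, mem_adjoin_simple_self ℂ x⟩ with hxx
  have hxxP : ∀ P : ℂ[X], ((aeval xx P : E) : F) = aeval x P := by
    intro P
    have : (algebraMap E F) (aeval xx P) = aeval ((algebraMap E F) xx) P :=
      (aeval_algebraMap_apply F xx P).symm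
    exact this
  -- every element of `↥(autoField 𝒢)` is algebraic of degree `≤ n` over `E`
  have hbdd : ∀ b : ↥(autoField 𝒢), ∃ Q : E[X], Q ≠ 0 ∧ Q.natDegree ≤ n ∧ aeval b Q = 0 := by
    rintro ⟨b, hbmem⟩
    obtain ⟨kb, f, g, hg, hb⟩ := id hbmem
    obtain ⟨P, hPn, hrel⟩ := exists_relation f hg b hb
    refine ⟨∑ i ∈ Finset.range (n + 1), C (aeval xx (P i)) * X ^ i, ?_, ?_, ?_⟩
    · intro h0
      have hc := congrArg (fun Q : E[X] => Q.coeff n) h0
      simp only [finsetSum_coeff, coeff_C_mul, coeff_X_pow, coeff_zero] at hc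
      rw [Finset.sum_eq_single n] at hc
      · simp only [if_true, mul_one] at hc
        apply hPn
        rw [← hpoly, ← hxxP, hc]
        simp
      · intro i _ hin
        rw [if_neg (Ne.symm hin), mul_zero]
      · intro h
        exact absurd (Finset.mem_range.mpr (Nat.lt_succ_self n)) h
    · refine natDegree_sum_le_of_forall_le _ _ fun i hi => ?_
      exact (natDegree_C_mul_X_pow_le _ _).trans (Nat.lt_succ_iff.mp (Finset.mem_range.mp hi))
    · apply Subtype.ext
      rw [map_sum]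
      simp only [map_mul, aeval_C, map_pow, aeval_X]
      have hcoe : ∀ i, ((algebraMap E ↥(autoField 𝒢) (aeval xx (P i)) : ↥(autoField 𝒢)) : MerH) = polyMer (P i) := by
        intro i
        rw [halg]
        show θ ((aeval xx (P i) : E) : F) = _
        rw [hxxP, hpoly]
      have : ((∑ i ∈ Finset.range (n + 1),
          algebraMap E ↥(autoField 𝒢) (aeval xx (P i)) * (⟨b, hbmem⟩ : ↥(autoField 𝒢)) ^ i :
            ↥(autoField 𝒢)) : MerH) =
          ∑ i ∈ Finset.range (n + 1), polyMer (P i) * b ^ i := by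
        rw [show ((∑ i ∈ Finset.range (n + 1),
          algebraMap E ↥(autoField 𝒢) (aeval xx (P i)) * (⟨b, hbmem⟩ : ↥(autoField 𝒢)) ^ i :
            ↥(autoField 𝒢)) : MerH) = ∑ i ∈ Finset.range (n + 1),
          (((algebraMap E ↥(autoField 𝒢) (aeval xx (P i)) * (⟨b, hbmem⟩ : ↥(autoField 𝒢)) ^ i :
            ↥(autoField 𝒢))) : MerH) from map_sum (autoField 𝒢).subtype _ _]
        refine Finset.sum_congr rfl fun i _ => ?_
        rw [Subfield.coe_mul, SubmonoidClass.coe_pow, hcoe]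
      rw [this, hrel]
      rfl
  haveI : CharZero E := charZero_of_injective_algebraMap (algebraMap ℂ E).injective
  obtain ⟨hfinA, hrankA⟩ := finiteDimensional_and_finrank_le_of_bounded (E := E) (F := ↥(autoField 𝒢)) n hbdd
  -- `θ'` is `E`-linear and injective, hence surjective
  let θL : F →ₗ[E] ↥(autoField 𝒢) :=
    { toFun := θ'
      map_add' := map_add θ'
      map_smul' := fun e y => by
        rw [Algebra.smul_def, map_mul, RingHom.id_apply, Algebra.smul_def, halg]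
        rfl }
  have hinj : Function.Injective θL := θ'.injective
  have hle : Module.finrank E F ≤ Module.finrank E ↥(autoField 𝒢) :=
    LinearMap.finrank_le_finrank_of_injective hinj
  have heq : Module.finrank E F = Module.finrank E ↥(autoField 𝒢) := le_antisymm hle (hrank ▸ hrankA)
  have hsurj : Function.Surjective θL :=
    (LinearMap.injective_iff_surjective_of_finrank_eq_finrank heq).mp hinj
  obtain ⟨y, hy⟩ := hsurj ⟨a, ha⟩
  exact ⟨y, congrArg Subtype.val hy⟩

end Fermat.Agent.Jac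

namespace Fermat.Agent.Jac

open Fermat.Agent.X0

/-! ### Complements: the index, restriction of level one forms, `j ∈ autoField 𝒢` -/

/-- For a subgroup `Γ` of `SL(2, ℤ)`: `slIndex Γ = [SL(2, ℤ) : Γ]`. -/
theorem slIndex_map (Γ : Subgroup SL(2, ℤ)) :
    slIndex (Γ.map (Matrix.SpecialLinearGroup.mapGL ℝ)) = Γ.index := by
  have h1 : slIndex (Γ.map (Matrix.SpecialLinearGroup.mapGL ℝ)) =
      (Γ.map (Matrix.SpecialLinearGroup.mapGL ℝ)).relIndex
        (Matrix.SpecialLinearGroup.mapGL ℝ).range := rfl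
  rw [h1, MonoidHom.range_eq_map,
    Subgroup.relIndex_map_map_of_injective Γ ⊤ Matrix.SpecialLinearGroup.mapGL_injective,
    Subgroup.relIndex_top_right]

/-- Restriction of a modular form to a smaller group. -/
noncomputable def restrictForm {𝒢 ℋ : Subgroup (GL (Fin 2) ℝ)} (h : 𝒢 ≤ ℋ) {w : ℤ}
    (F : ModularForm ℋ w) : ModularForm 𝒢 w where
  toFun := F
  slash_action_eq' γ hγ := F.slash_action_eq' γ (h hγ)
  holo' := F.holo'
  bdd_at_cusps' hc := F.bdd_at_cusps' (hc.mono h)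

@[simp] theorem restrictForm_apply {𝒢 ℋ : Subgroup (GL (Fin 2) ℝ)} (h : 𝒢 ≤ ℋ) {w : ℤ}
    (F : ModularForm ℋ w) (z : ℍ) : restrictForm h F z = F z := rfl

theorem merOf_restrictForm {𝒢 ℋ : Subgroup (GL (Fin 2) ℝ)} (h : 𝒢 ≤ ℋ) {w : ℤ}
    (F : ModularForm ℋ w) : merOf (restrictForm h F) = merOf F := by
  rw [merOf, merOf]
  congr 1

variable {𝒢 : Subgroup (GL (Fin 2) ℝ)} [𝒢.IsArithmetic] [𝒢.HasDetOne]

/-- A ratio of two level one forms of the same weight lies in `autoField 𝒢` (for `𝒢 ≤ 𝒮ℒ`). -/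
theorem merOf_div_levelOne_mem_autoField (h𝒢 : 𝒢 ≤ 𝒮ℒ) {w : ℤ} (A B : ModularForm 𝒮ℒ w)
    (hB : B ≠ 0) : merOf A / merOf B ∈ autoField 𝒢 := by
  have hB' : restrictForm h𝒢 B ≠ 0 := fun h0 => hB (by
    ext z
    have := congrArg (fun F : ModularForm 𝒢 w => F z) h0
    simpa using this)
  have := merOf_div_mem_autoField (restrictForm h𝒢 A) (restrictForm h𝒢 B) hB'
  rwa [merOf_restrictForm, merOf_restrictForm] at this

/-- The discriminant as a level one modular form of weight `12`. -/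
noncomputable def deltaForm : ModularForm 𝒮ℒ 12 :=
  ModularFormClass.modularForm CuspForm.discriminant

theorem deltaForm_apply (z : ℍ) : deltaForm z = ModularForm.discriminant z := rfl

theorem deltaForm_ne_zero : deltaForm ≠ 0 := fun h => by
  have := congrArg (fun F : ModularForm 𝒮ℒ 12 => F UpperHalfPlane.I) h
  exact ModularForm.discriminant_ne_zero _ this

/-- `j * Δ = E₄ ^ 3` in `MerH`. -/
theorem jMer_mul_merOf_deltaForm :
    jMer * merOf deltaForm =
      merOf (ModularForm.mcast (by norm_num : ((3 : ℕ) : ℤ) * 4 = 12) (ModularForm.E₄.pow 3) rfl) := by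
  rw [jMer, merOf, merOf, ← map_mul]
  congr 1
  refine holOf_ext fun z => ?_
  show jFun z * ModularForm.discriminant z = _
  rw [jFun_mul_discriminant]
  show _ = (ModularForm.E₄.pow 3) z
  rw [ModularForm.coe_pow]
  rfl

/-- The `j`-function lies in `autoField 𝒢` (for `𝒢 ≤ 𝒮ℒ`). -/
theorem jMer_mem_autoField (h𝒢 : 𝒢 ≤ 𝒮ℒ) : jMer ∈ autoField 𝒢 := by
  have hΔ : merOf deltaForm ≠ 0 := (merOf_eq_zero_iff _).not.mpr deltaForm_ne_zero
  have h := merOf_div_levelOne_mem_autoField (𝒢 := 𝒢) h𝒢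
    (ModularForm.mcast (by norm_num : ((3 : ℕ) : ℤ) * 4 = 12) (ModularForm.E₄.pow 3) rfl)
    deltaForm deltaForm_ne_zero
  rwa [← jMer_mul_merOf_deltaForm, mul_div_assoc, div_self hΔ, mul_one] at h

/-- `P(j) ∈ autoField 𝒢`. -/
theorem polyMer_mem_autoField (h𝒢 : 𝒢 ≤ 𝒮ℒ) (P : ℂ[X]) : polyMer P ∈ autoField 𝒢 := by
  rw [polyMer_eq_sum]
  refine Subfield.sum_mem _ fun i _ => ?_
  exact Subfield.mul_mem _ (constMer_mem_autoField _)
    (Subfield.pow_mem _ (jMer_mem_autoField h𝒢) i)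

open IntermediateField in
/-- **(J2)**, `IsSepVar` form (the shape of the `X0` dictionary). -/
theorem exists_preimage_of_isSepVar {F : Type*} [Field F] [Algebra ℂ F] (x : F)
    (hx : IsSepVar ℂ x (slIndex 𝒢)) (θ : F →+* MerH)
    (hθc : ∀ c : ℂ, θ (algebraMap ℂ F c) = constMer c) (hθx : θ x = jMer)
    (hθA : ∀ y : F, θ y ∈ autoField 𝒢) {k : ℤ} (f g : ModularForm 𝒢 k) (hg : g ≠ 0) :
    ∃ y : F, θ y * merOf g = merOf f := by
  obtain ⟨y, hy⟩ := exists_preimage_of_finrank x hx.finite hx.finrank_eq θ hθc hθx hθA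
    (merOf_div_mem_autoField f g hg)
  exact ⟨y, by rw [hy, div_mul_cancel₀ _ ((merOf_eq_zero_iff g).not.mpr hg)]⟩

end Fermat.Agent.Jac
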