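import Fermat.Agent.Jac.EisChar

/-!
# Program J, node (J1), part 3: forms with character on `Γ₀(N)`

`CharForm N k χ` : holomorphic functions `A : ℍ → ℂ` with `A ∣[k] γ = χ γ • A` for `γ ∈ Γ₀(N)` and
`A ∣[k] σ` bounded at `i∞` for every `σ ∈ SL(2, ℤ)`; here `χ : Γ₀(N) →* ℂˣ` is an arbitrary
character (not necessarily of congruence type).

* `CharForm.mul`, `CharForm.pow`, `CharForm.one`, `CharForm.cast` : products of forms with character
  (characters multiply, weights add);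
* `CharForm.smul_apply` : `A (γ • z) = χ γ * denom γ z ^ k * A z`;
* `CharForm.toModularForm` (`χ = 1`), `CharForm.ofModularForm` : the dictionary with Mathlib's
  `ModularForm (Gamma0 N) k`;
* `eisCharForm` : the Eisenstein series `eisChar χ k` as a `CharForm N k χ`.
-/

set_option autoImplicit false

open UpperHalfPlane EisensteinSeries Matrix ModularForm CongruenceSubgroup Filter Topology Complex
  Set

open scoped MatrixGroups Manifold

noncomputable section

namespace Fermat.Agent.Jac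

/-- A holomorphic form of weight `k` with character `χ` on `Γ₀(N)`, bounded at all cusps. -/
structure CharForm (N : ℕ) (k : ℤ) (χ : ↥(Gamma0 N) →* ℂˣ) where
  /-- the underlying function -/
  toFun : ℍ → ℂ
  holo' : MDiff toFun
  slash' : ∀ γ : ↥(Gamma0 N), toFun ∣[k] (γ : SL(2, ℤ)) = ((χ γ : ℂˣ) : ℂ) • toFun
  bdd' : ∀ σ : SL(2, ℤ), IsBoundedAtImInfty (toFun ∣[k] σ)

namespace CharForm

variable {N : ℕ} {k k' : ℤ} {χ χ' : ↥(Gamma0 N) →* ℂˣ}

instance : CoeFun (CharForm N k χ) fun _ => ℍ → ℂ := ⟨CharForm.toFun⟩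

@[ext] theorem ext {A B : CharForm N k χ} (h : ∀ z, A z = B z) : A = B := by
  cases A
  cases B
  congr
  exact funext h

theorem holo (A : CharForm N k χ) : MDiff (A : ℍ → ℂ) := A.holo'

theorem slash (A : CharForm N k χ) (γ : ↥(Gamma0 N)) :
    (A : ℍ → ℂ) ∣[k] (γ : SL(2, ℤ)) = ((χ γ : ℂˣ) : ℂ) • (A : ℍ → ℂ) := A.slash' γ

theorem bdd (A : CharForm N k χ) (σ : SL(2, ℤ)) : IsBoundedAtImInfty ((A : ℍ → ℂ) ∣[k] σ) :=
  A.bdd' σ

/-- The transformation law, pointwise. -/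
theorem smul_apply (A : CharForm N k χ) (γ : ↥(Gamma0 N)) (z : ℍ) :
    A ((γ : SL(2, ℤ)) • z) = ((χ γ : ℂˣ) : ℂ) * denom (γ : SL(2, ℤ)) z ^ k * A z := by
  have h := congrFun (A.slash γ) z
  rw [SL_slash_apply, Pi.smul_apply, smul_eq_mul, _root_.zpow_neg,
    mul_inv_eq_iff_eq_mul₀ (zpow_ne_zero _ (denom_ne_zero _ z))] at h
  rw [h]
  ring

/-- Change of weight and character along equalities. -/
def cast (hk : k = k') (hχ : χ = χ') (A : CharForm N k χ) : CharForm N k' χ' where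
  toFun := A
  holo' := A.holo
  slash' γ := by
    subst hk hχ
    exact A.slash γ
  bdd' σ := by
    subst hk hχ
    exact A.bdd σ

@[simp] theorem cast_apply (hk : k = k') (hχ : χ = χ') (A : CharForm N k χ) (z : ℍ) :
    A.cast hk hχ z = A z := rfl

/-- The constant function `1`, of weight `0` and trivial character. -/
def one : CharForm N 0 (1 : ↥(Gamma0 N) →* ℂˣ) where
  toFun := 1
  holo' := mdifferentiable_const
  slash' γ := by
    rw [MonoidHom.one_apply, Units.val_one, one_smul]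
    exact is_invariant_one _
  bdd' σ := by
    rw [is_invariant_one]
    exact Filter.const_boundedAtFilter _ (1 : ℂ)

@[simp] theorem one_apply (z : ℍ) : (one : CharForm N 0 (1 : ↥(Gamma0 N) →* ℂˣ)) z = 1 := rfl

/-- The product of two forms with character. -/
def mul (A : CharForm N k χ) (B : CharForm N k' χ') : CharForm N (k + k') (χ * χ') where
  toFun := (A : ℍ → ℂ) * (B : ℍ → ℂ)
  holo' := A.holo.mul B.holo
  slash' γ := by
    rw [mul_slash_SL2, A.slash, B.slash, MonoidHom.mul_apply, Units.val_mul]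
    ext z
    simp only [Pi.mul_apply, Pi.smul_apply, smul_eq_mul]
    ring
  bdd' σ := by
    rw [mul_slash_SL2]
    exact (A.bdd σ).mul (B.bdd σ)

@[simp] theorem mul_apply (A : CharForm N k χ) (B : CharForm N k' χ') (z : ℍ) :
    A.mul B z = A z * B z := rfl

/-- The `m`-th power of a form with character. -/
def pow (A : CharForm N k χ) (m : ℕ) : CharForm N ((m : ℤ) * k) (χ ^ m) where
  toFun := (A : ℍ → ℂ) ^ m
  holo' := mdifferentiable_pow A.holo m
  slash' γ := by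
    rw [pow_slash_SL2, A.slash, smul_pow, MonoidHom.pow_apply, Units.val_pow_eq_pow_val]
  bdd' σ := by
    rw [pow_slash_SL2]
    exact isBoundedAtImInfty_pow (A.bdd σ) m

@[simp] theorem pow_apply (A : CharForm N k χ) (m : ℕ) (z : ℍ) : A.pow m z = A z ^ m := rfl

/-- A form with trivial character is a modular form for `Γ₀(N)`. -/
def toModularForm [NeZero N] (A : CharForm N k (1 : ↥(Gamma0 N) →* ℂˣ)) :
    ModularForm (Gamma0 N) k where
  toFun := A
  slash_action_eq' g hg := by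
    obtain ⟨g, (hg : g ∈ Gamma0 N), rfl⟩ := hg
    change (A : ℍ → ℂ) ∣[k] g = _
    have := A.slash ⟨g, hg⟩
    rwa [MonoidHom.one_apply, Units.val_one, one_smul] at this
  holo' := A.holo
  bdd_at_cusps' {c} hc := by
    rw [Subgroup.IsArithmetic.isCusp_iff_isCusp_SL2Z] at hc
    rw [OnePoint.isBoundedAt_iff_forall_SL2Z hc]
    exact fun γ _ => A.bdd γ

@[simp] theorem coe_toModularForm [NeZero N] (A : CharForm N k (1 : ↥(Gamma0 N) →* ℂˣ)) :
    ⇑A.toModularForm = (A : ℍ → ℂ) := rfl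

/-- A modular form for `Γ₀(N)` is a form with trivial character. -/
def ofModularForm [NeZero N] (f : ModularForm (Gamma0 N) k) :
    CharForm N k (1 : ↥(Gamma0 N) →* ℂˣ) where
  toFun := f
  holo' := ModularFormClass.holo f
  slash' γ := by
    rw [MonoidHom.one_apply, Units.val_one, one_smul]
    exact SlashInvariantForm.slash_action_eqn f _ ⟨γ, γ.2, rfl⟩
  bdd' σ := ModularFormClass.bdd_at_infty_slash f σ

@[simp] theorem ofModularForm_apply [NeZero N] (f : ModularForm (Gamma0 N) k) (z : ℍ) :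
    ofModularForm f z = f z := rfl

end CharForm

/-- **The Eisenstein series with character** as a `CharForm`. -/
def eisCharForm {N : ℕ} {χ : ↥(Gamma0 N) →* ℂˣ} (hunit : ∀ γ, ‖((χ γ : ℂˣ) : ℂ)‖ = 1)
    (hpar : ∀ γ : ↥(Gamma0 N), (γ : SL(2, ℤ)) 1 0 = 0 → χ γ = 1) {k : ℤ} (hk : 3 ≤ k) :
    CharForm N k χ where
  toFun := eisChar χ k
  holo' := mdifferentiable_eisChar hunit hk
  slash' γ := eisChar_slash hpar k γ
  bdd' σ := isBoundedAtImInfty_eisChar_slash hunit hk σ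

@[simp] theorem eisCharForm_apply {N : ℕ} {χ : ↥(Gamma0 N) →* ℂˣ}
    (hunit : ∀ γ, ‖((χ γ : ℂˣ) : ℂ)‖ = 1)
    (hpar : ∀ γ : ↥(Gamma0 N), (γ : SL(2, ℤ)) 1 0 = 0 → χ γ = 1) {k : ℤ} (hk : 3 ≤ k) (z : ℍ) :
    eisCharForm hunit hpar hk z = eisChar χ k z := rfl

/-- The Eisenstein series with character is not identically zero (even weight `k ≥ 4`). -/
theorem exists_eisCharForm_ne_zero {N : ℕ} {χ : ↥(Gamma0 N) →* ℂˣ}
    (hunit : ∀ γ, ‖((χ γ : ℂˣ) : ℂ)‖ = 1)
    (hpar : ∀ γ : ↥(Gamma0 N), (γ : SL(2, ℤ)) 1 0 = 0 → χ γ = 1) {k : ℤ} (hk : 3 ≤ k)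
    (hk2 : Even k) : ∃ z : ℍ, eisCharForm hunit hpar hk z ≠ 0 :=
  exists_eisChar_ne_zero hunit hpar hk hk2

/-- The trivial character satisfies the hypotheses of `eisCharForm`. -/
theorem norm_one_char_apply {N : ℕ} (γ : ↥(Gamma0 N)) :
    ‖(((1 : ↥(Gamma0 N) →* ℂˣ) γ : ℂˣ) : ℂ)‖ = 1 := by simp

/-- `E_{k,1}` : the Eisenstein series of `Γ₀(N)` with trivial character, as a `CharForm`. -/
def eisOneForm (N : ℕ) {k : ℤ} (hk : 3 ≤ k) : CharForm N k (1 : ↥(Gamma0 N) →* ℂˣ) :=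
  eisCharForm norm_one_char_apply (fun _ _ => rfl) hk

/-- `F_χ = E_{k,χ} / E_{k,1}` as a quotient of two forms with character. -/
theorem autFun_eq_div {N : ℕ} {χ : ↥(Gamma0 N) →* ℂˣ} (hunit : ∀ γ, ‖((χ γ : ℂˣ) : ℂ)‖ = 1)
    (hpar : ∀ γ : ↥(Gamma0 N), (γ : SL(2, ℤ)) 1 0 = 0 → χ γ = 1) {k : ℤ} (hk : 3 ≤ k) (z : ℍ) :
    autFun χ k z = eisCharForm hunit hpar hk z / eisOneForm N hk z := rfl

end Fermat.Agent.Jac
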