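import Mathlib
import Fermat.Agent.Jac.Algebraicity
import Fermat.Agent.Jac.CharForm
import Fermat.Agent.X0.CountBasic

/-!
# Program J, node (J2), complement: quotients of forms with character are algebraic

`CharForm.hol A : HolH`, `CharForm.mer A : MerH` : a form with character as a holomorphic /
meromorphic function on `ℍ`.

* `CharForm.mer_div_mem_autoField` : if `A B : CharForm N k χ` and `χ ^ m = 1` (`0 < m`) then
  `A.mer / B.mer` is a ratio of two modular forms of the same weight for `Γ₀(N)` (namely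
  `A B^(m-1) / B^m`);
* `CharForm.mer_mul_div_mem_autoField` : the same for `(A B') / (B A')` when the characters satisfy
  `χA * χB' = χB * χA'`, of finite order;
* `slIndex_gamma0` : `slIndex Γ₀(N) = ψ(N)`;
* `CharForm.exists_preimage_mer_div` : if `F / ℂ(x)` has degree `ψ(N)` and `θ : F →+* MerH` maps
  constants to constants, `x` to `j` and `F` into `autoField Γ₀(N)` then `A.mer / B.mer` is in the
  range of `θ`.
-/

set_option autoImplicit false
set_option linter.unusedSectionVars false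

open UpperHalfPlane ModularForm CongruenceSubgroup
open scoped MatrixGroups ModularForm Manifold

noncomputable section

namespace Fermat.Agent.Jac

open Fermat.Agent.X0

namespace CharForm

variable {N : ℕ} {k k' : ℤ} {χ χ' : ↥(Gamma0 N) →* ℂˣ}

/-- A form with character as an element of the ring of holomorphic functions on `ℍ`. -/
def hol (A : CharForm N k χ) : HolH := ⟨A, A.holo⟩

@[simp] theorem coe_hol (A : CharForm N k χ) : (A.hol : ℍ → ℂ) = A := rfl

/-- A form with character as a meromorphic function on `ℍ`. -/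
def mer (A : CharForm N k χ) : MerH := algebraMap HolH MerH A.hol

theorem hol_eq_zero_iff (A : CharForm N k χ) : A.hol = 0 ↔ ∀ z, A z = 0 := by
  constructor
  · intro h z
    have h1 : (A.hol : ℍ → ℂ) = 0 := by rw [h]; rfl
    exact congrFun h1 z
  · intro h
    exact Subtype.ext (funext h)

theorem mer_eq_zero_iff (A : CharForm N k χ) : A.mer = 0 ↔ ∀ z, A z = 0 := by
  rw [mer, map_eq_zero_iff _ (IsFractionRing.injective HolH MerH), hol_eq_zero_iff]

theorem mer_ne_zero_iff (A : CharForm N k χ) : A.mer ≠ 0 ↔ ∃ z, A z ≠ 0 := by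
  rw [Ne, mer_eq_zero_iff, not_forall]

theorem hol_mul (A : CharForm N k χ) (B : CharForm N k' χ') : (A.mul B).hol = A.hol * B.hol := rfl

theorem mer_mul (A : CharForm N k χ) (B : CharForm N k' χ') : (A.mul B).mer = A.mer * B.mer := by
  rw [mer, hol_mul, map_mul]
  rfl

theorem hol_pow (A : CharForm N k χ) (m : ℕ) : (A.pow m).hol = A.hol ^ m := rfl

theorem mer_pow (A : CharForm N k χ) (m : ℕ) : (A.pow m).mer = A.mer ^ m := by
  rw [mer, hol_pow, map_pow]
  rfl

theorem hol_cast {k₁ k₂ : ℤ} {χ₁ χ₂ : ↥(Gamma0 N) →* ℂˣ} (hk : k₁ = k₂) (hχ : χ₁ = χ₂)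
    (A : CharForm N k₁ χ₁) : (A.cast hk hχ).hol = A.hol := rfl

theorem mer_cast {k₁ k₂ : ℤ} {χ₁ χ₂ : ↥(Gamma0 N) →* ℂˣ} (hk : k₁ = k₂) (hχ : χ₁ = χ₂)
    (A : CharForm N k₁ χ₁) : (A.cast hk hχ).mer = A.mer := rfl

theorem hol_one : (one : CharForm N 0 (1 : ↥(Gamma0 N) →* ℂˣ)).hol = 1 := rfl

theorem mer_one : (one : CharForm N 0 (1 : ↥(Gamma0 N) →* ℂˣ)).mer = 1 := by
  rw [mer, hol_one, map_one]

theorem merOf_toModularForm [NeZero N] (A : CharForm N k (1 : ↥(Gamma0 N) →* ℂˣ)) :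
    merOf A.toModularForm = A.mer := rfl

theorem mer_ofModularForm [NeZero N] (f : ModularForm (Gamma0 N) k) :
    (ofModularForm f).mer = merOf f := rfl

theorem toModularForm_ne_zero [NeZero N] {A : CharForm N k (1 : ↥(Gamma0 N) →* ℂˣ)}
    (hA : A.mer ≠ 0) : A.toModularForm ≠ 0 := fun h => hA (by
  rw [← merOf_toModularForm, h]
  exact (merOf_eq_zero_iff _).mpr rfl)

/-- **Killing the character.**  If `χ ^ m = 1` then the quotient of two forms of weight `k` and
character `χ` is a ratio of two modular forms of weight `m k` for `Γ₀(N)`. -/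
theorem mer_div_mem_autoField [NeZero N] {m : ℕ} (hm : 0 < m) (hχ : χ ^ m = 1)
    (A B : CharForm N k χ) :
    A.mer / B.mer ∈ autoField ((Gamma0 N : Subgroup SL(2, ℤ)) : Subgroup (GL (Fin 2) ℝ)) := by
  by_cases hB : B.mer = 0
  · rw [hB, div_zero]
    exact zero_mem _
  have hchar : χ * χ ^ (m - 1) = 1 := by
    have h1 : χ ^ (m - 1 + 1) = χ * χ ^ (m - 1) := pow_succ' χ (m - 1)
    rw [Nat.sub_add_cancel hm] at h1
    rw [← h1, hχ]
  have hwt : k + ((m - 1 : ℕ) : ℤ) * k = (m : ℤ) * k := by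
    have h1 : ((m - 1 : ℕ) : ℤ) = (m : ℤ) - 1 := by
      rw [Nat.cast_sub hm, Nat.cast_one]
    rw [h1]
    ring
  set num : CharForm N ((m : ℤ) * k) 1 := (A.mul (B.pow (m - 1))).cast hwt hchar with hnum
  set den : CharForm N ((m : ℤ) * k) 1 := (B.pow m).cast rfl hχ with hden
  have hnum' : num.mer = A.mer * B.mer ^ (m - 1) := by
    rw [hnum, mer_cast, mer_mul, mer_pow]
  have hden' : den.mer = B.mer ^ m := by
    rw [hden, mer_cast, mer_pow]
  have hden0 : den.mer ≠ 0 := by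
    rw [hden']
    exact pow_ne_zero m hB
  have h := merOf_div_mem_autoField num.toModularForm den.toModularForm
    (toModularForm_ne_zero hden0)
  rw [merOf_toModularForm, merOf_toModularForm, hnum', hden'] at h
  have heq : A.mer * B.mer ^ (m - 1) / B.mer ^ m = A.mer / B.mer := by
    have hBm : B.mer ^ m = B.mer * B.mer ^ (m - 1) := by
      rw [← pow_succ', Nat.sub_add_cancel hm]
    rw [hBm, mul_div_mul_right _ _ (pow_ne_zero (m - 1) hB)]
  rwa [heq] at h

/-- The same for a character of finite order. -/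
theorem mer_div_mem_autoField_of_isOfFinOrder [NeZero N] (hχ : IsOfFinOrder χ)
    (A B : CharForm N k χ) :
    A.mer / B.mer ∈ autoField ((Gamma0 N : Subgroup SL(2, ℤ)) : Subgroup (GL (Fin 2) ℝ)) := by
  obtain ⟨m, hm, hχm⟩ := isOfFinOrder_iff_pow_eq_one.mp hχ
  exact mer_div_mem_autoField hm hχm A B

/-- Quotients of two forms of the same weight with possibly different characters: if the
characters are equal and of finite order, the quotient is an automorphic ratio. -/
theorem mer_div_mem_autoField_of_eq [NeZero N] (hχχ' : χ = χ') (hχ : IsOfFinOrder χ)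
    (A : CharForm N k χ) (B : CharForm N k χ') :
    A.mer / B.mer ∈ autoField ((Gamma0 N : Subgroup SL(2, ℤ)) : Subgroup (GL (Fin 2) ℝ)) := by
  subst hχχ'
  exact mer_div_mem_autoField_of_isOfFinOrder hχ A B

/-- **Two quotients with the same quotient character.**  If `χA / χB = χA' / χB'` (written
`χA * χB' = χB * χA'`) and this common product is of finite order, then
`(A / B) / (A' / B') = (A B') / (B A')` is an automorphic ratio for `Γ₀(N)`. -/
theorem mer_mul_div_mem_autoField [NeZero N] {χA χB χA' χB' : ↥(Gamma0 N) →* ℂˣ}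
    (hψ : χA * χB' = χB * χA') (hfin : IsOfFinOrder (χA * χB'))
    (A : CharForm N k χA) (B : CharForm N k χB) (A' : CharForm N k' χA')
    (B' : CharForm N k' χB') :
    A.mer * B'.mer / (B.mer * A'.mer) ∈
      autoField ((Gamma0 N : Subgroup SL(2, ℤ)) : Subgroup (GL (Fin 2) ℝ)) := by
  have h := mer_div_mem_autoField_of_eq hψ hfin (A.mul B') (B.mul A')
  rwa [mer_mul, mer_mul] at h

/-- The same, as a quotient of quotients. -/
theorem mer_div_div_mem_autoField [NeZero N] {χA χB χA' χB' : ↥(Gamma0 N) →* ℂˣ}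
    (hψ : χA * χB' = χB * χA') (hfin : IsOfFinOrder (χA * χB'))
    (A : CharForm N k χA) (B : CharForm N k χB) (A' : CharForm N k' χA')
    (B' : CharForm N k' χB') :
    A.mer / B.mer / (A'.mer / B'.mer) ∈
      autoField ((Gamma0 N : Subgroup SL(2, ℤ)) : Subgroup (GL (Fin 2) ℝ)) := by
  have h := mer_mul_div_mem_autoField hψ hfin A B A' B'
  rwa [div_div_div_eq]


/-- Two nonzero forms with characters `χ`, `χ'` of the same weight whose quotient is invariant
under `Γ₀(N)` (pointwise, cross-multiplied form) have the same character. -/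
theorem char_eq_of_invariant (A : CharForm N k χ) (B : CharForm N k χ') (hA : A.mer ≠ 0)
    (hB : B.mer ≠ 0)
    (hinv : ∀ (γ : ↥(Gamma0 N)) (z : ℍ),
      A ((γ : SL(2, ℤ)) • z) * B z = A z * B ((γ : SL(2, ℤ)) • z)) : χ = χ' := by
  have hAB : (A.mul B).mer ≠ 0 := by
    rw [mer_mul]
    exact mul_ne_zero hA hB
  obtain ⟨z, hz⟩ := (mer_ne_zero_iff _).mp hAB
  rw [mul_apply] at hz
  ext γ
  have h := hinv γ z
  rw [A.smul_apply γ z, B.smul_apply γ z] at h
  have hd : denom (γ : SL(2, ℤ)) z ^ k ≠ 0 := zpow_ne_zero _ (denom_ne_zero _ z)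
  have h2 : ((χ γ : ℂˣ) : ℂ) * (denom (γ : SL(2, ℤ)) z ^ k * (A z * B z)) =
      ((χ' γ : ℂˣ) : ℂ) * (denom (γ : SL(2, ℤ)) z ^ k * (A z * B z)) := by
    linear_combination h
  exact mul_right_cancel₀ (mul_ne_zero hd hz) h2

end CharForm

/-! ### The index of `Γ₀(N)` -/

/-- `slIndex Γ₀(N) = ψ(N)`. -/
theorem slIndex_gamma0 (N : ℕ) [NeZero N] :
    slIndex ((Gamma0 N : Subgroup SL(2, ℤ)) : Subgroup (GL (Fin 2) ℝ)) = ModularCurve.dedekindPsi N := by
  have h : slIndex ((Gamma0 N).map (Matrix.SpecialLinearGroup.mapGL ℝ)) = (Gamma0 N).index :=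
    slIndex_map (Gamma0 N)
  rw [← card_cosets N, ← Subgroup.index_eq_card]
  exact h

/-! ### Preimages under a realisation `θ` of a function field -/

section Theta

variable {N : ℕ} [NeZero N] {F : Type*} [Field F] [Algebra ℂ F]

/-- **(J2) for `Γ₀(N)`**: if `[F : ℂ(x)] = ψ(N)` (separably) and `θ : F →+* MerH` maps constants
to constants, `x` to `j` and `F` into `autoField Γ₀(N)`, then `θ` is onto `autoField Γ₀(N)`. -/
theorem exists_preimage_gamma0 (x : F) (hx : IsSepVar ℂ x (ModularCurve.dedekindPsi N))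
    (θ : F →+* MerH) (hθc : ∀ c : ℂ, θ (algebraMap ℂ F c) = constMer c) (hθx : θ x = jMer)
    (hθA : ∀ y : F,
      θ y ∈ autoField ((Gamma0 N : Subgroup SL(2, ℤ)) : Subgroup (GL (Fin 2) ℝ)))
    {a : MerH}
    (ha : a ∈ autoField ((Gamma0 N : Subgroup SL(2, ℤ)) : Subgroup (GL (Fin 2) ℝ))) :
    ∃ y : F, θ y = a :=
  exists_preimage_of_finrank x hx.finite (hx.finrank_eq.trans (slIndex_gamma0 N).symm) θ hθc hθx
    hθA ha

/-- A quotient of two forms with the same character of finite order is in the range of `θ`. -/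
theorem CharForm.exists_preimage_mer_div (x : F)
    (hx : IsSepVar ℂ x (ModularCurve.dedekindPsi N))
    (θ : F →+* MerH) (hθc : ∀ c : ℂ, θ (algebraMap ℂ F c) = constMer c) (hθx : θ x = jMer)
    (hθA : ∀ y : F,
      θ y ∈ autoField ((Gamma0 N : Subgroup SL(2, ℤ)) : Subgroup (GL (Fin 2) ℝ)))
    {k : ℤ} {χ : ↥(Gamma0 N) →* ℂˣ} (hχ : IsOfFinOrder χ) (A B : CharForm N k χ) :
    ∃ y : F, θ y = A.mer / B.mer :=
  exists_preimage_gamma0 x hx θ hθc hθx hθA (CharForm.mer_div_mem_autoField_of_isOfFinOrder hχ A B)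

/-- Two quotients with the same quotient character: `(A B') / (B A')` is in the range of `θ`. -/
theorem CharForm.exists_preimage_mer_mul_div (x : F)
    (hx : IsSepVar ℂ x (ModularCurve.dedekindPsi N))
    (θ : F →+* MerH) (hθc : ∀ c : ℂ, θ (algebraMap ℂ F c) = constMer c) (hθx : θ x = jMer)
    (hθA : ∀ y : F,
      θ y ∈ autoField ((Gamma0 N : Subgroup SL(2, ℤ)) : Subgroup (GL (Fin 2) ℝ)))
    {k k' : ℤ} {χA χB χA' χB' : ↥(Gamma0 N) →* ℂˣ}
    (hψ : χA * χB' = χB * χA') (hfin : IsOfFinOrder (χA * χB'))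
    (A : CharForm N k χA) (B : CharForm N k χB) (A' : CharForm N k' χA')
    (B' : CharForm N k' χB') :
    ∃ y : F, θ y = A.mer * B'.mer / (B.mer * A'.mer) :=
  exists_preimage_gamma0 x hx θ hθc hθx hθA (CharForm.mer_mul_div_mem_autoField hψ hfin A B A' B')

end Theta

/-! ### A ready-made admissibility predicate -/

/-- `G : MerH` is a quotient of two forms of the same weight with characters of finite order on
`Γ₀(N)`. -/
def IsCharRatio (N : ℕ) (G : MerH) : Prop :=
  ∃ (k : ℤ) (χ χ' : ↥(Gamma0 N) →* ℂˣ) (A : CharForm N k χ) (B : CharForm N k χ'),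
    IsOfFinOrder χ ∧ IsOfFinOrder χ' ∧ B.mer ≠ 0 ∧ G * B.mer = A.mer

theorem CharForm.isCharRatio_div {N : ℕ} {k : ℤ} {χ χ' : ↥(Gamma0 N) →* ℂˣ}
    (hχ : IsOfFinOrder χ) (hχ' : IsOfFinOrder χ') (A : CharForm N k χ) (B : CharForm N k χ')
    (hB : B.mer ≠ 0) : IsCharRatio N (A.mer / B.mer) :=
  ⟨k, χ, χ', A, B, hχ, hχ', hB, div_mul_cancel₀ _ hB⟩

theorem isCharRatio_one (N : ℕ) : IsCharRatio N 1 := by
  have h1 : (CharForm.one : CharForm N 0 1).mer ≠ 0 := by
    rw [CharForm.mer_one]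
    exact one_ne_zero
  have := CharForm.isCharRatio_div (N := N) IsOfFinOrder.one IsOfFinOrder.one CharForm.one
    CharForm.one h1
  rwa [CharForm.mer_one, div_one] at this

theorem IsCharRatio.mul {N : ℕ} {G H : MerH} (hG : IsCharRatio N G) (hH : IsCharRatio N H) :
    IsCharRatio N (G * H) := by
  obtain ⟨k₁, χ₁, χ₁', A₁, B₁, h1, h1', hB₁, e₁⟩ := hG
  obtain ⟨k₂, χ₂, χ₂', A₂, B₂, h2, h2', hB₂, e₂⟩ := hH
  refine ⟨k₁ + k₂, χ₁ * χ₂, χ₁' * χ₂', A₁.mul A₂, B₁.mul B₂, h1.mul h2, h1'.mul h2', ?_, ?_⟩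
  · rw [CharForm.mer_mul]
    exact mul_ne_zero hB₁ hB₂
  · rw [CharForm.mer_mul, CharForm.mer_mul, ← e₁, ← e₂]
    ring

theorem IsCharRatio.inv {N : ℕ} {G : MerH} (hG : IsCharRatio N G) : IsCharRatio N G⁻¹ := by
  by_cases hG0 : G = 0
  · rw [hG0, inv_zero]
    obtain ⟨k₁, χ₁, χ₁', A₁, B₁, h1, h1', hB₁, e₁⟩ := hG
    rw [hG0, zero_mul] at e₁
    exact ⟨k₁, χ₁, χ₁', A₁, B₁, h1, h1', hB₁, by rw [zero_mul, ← e₁]⟩
  obtain ⟨k₁, χ₁, χ₁', A₁, B₁, h1, h1', hB₁, e₁⟩ := hG
  have hA₁ : A₁.mer ≠ 0 := by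
    rw [← e₁]
    exact mul_ne_zero hG0 hB₁
  refine ⟨k₁, χ₁', χ₁, B₁, A₁, h1', h1, hA₁, ?_⟩
  rw [← e₁, ← mul_assoc, inv_mul_cancel₀ hG0, one_mul]

/-- Automorphic ratios for `Γ₀(N)` are quotients of forms with (trivial) character. -/
theorem isCharRatio_of_mem_autoField {N : ℕ} [NeZero N] {G : MerH}
    (hG : G ∈ autoField ((Gamma0 N : Subgroup SL(2, ℤ)) : Subgroup (GL (Fin 2) ℝ))) :
    IsCharRatio N G := by
  obtain ⟨k, f, g, hg, e⟩ := hG
  refine ⟨k, 1, 1, CharForm.ofModularForm f, CharForm.ofModularForm g, IsOfFinOrder.one,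
    IsOfFinOrder.one, ?_, ?_⟩
  · rw [CharForm.mer_ofModularForm]
    exact (merOf_eq_zero_iff g).not.mpr hg
  · rw [CharForm.mer_ofModularForm, CharForm.mer_ofModularForm]
    exact e

/-- **The `ex` field, pointwise form.**  A nonzero quotient `A / B` of two forms of the same
weight with characters of finite order which is `Γ₀(N)`-invariant is an automorphic ratio. -/
theorem CharForm.mer_div_mem_autoField_of_invariant {N : ℕ} [NeZero N] {k : ℤ}
    {χ χ' : ↥(Gamma0 N) →* ℂˣ} (hχ : IsOfFinOrder χ) (A : CharForm N k χ) (B : CharForm N k χ')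
    (hA : A.mer ≠ 0) (hB : B.mer ≠ 0)
    (hinv : ∀ (γ : ↥(Gamma0 N)) (z : ℍ),
      A ((γ : SL(2, ℤ)) • z) * B z = A z * B ((γ : SL(2, ℤ)) • z)) :
    A.mer / B.mer ∈ autoField ((Gamma0 N : Subgroup SL(2, ℤ)) : Subgroup (GL (Fin 2) ℝ)) :=
  CharForm.mer_div_mem_autoField_of_eq (CharForm.char_eq_of_invariant A B hA hB hinv) hχ A B

end Fermat.Agent.Jac
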