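import Mathlib
import Fermat.Agent.S23.PrimEltQExp
import Fermat.Agent.Jac.Algebraicity

/-!
# Program J, node (J2), complement: `j(d z)` is an automorphic ratio for `Γ₀(N)`, `d ∣ N`

* `diagGL d = diag(d, 1) ∈ GL(2, ℝ)`; `slash_diagGL` : `(G ∣[w] diagGL d) z = G (d z) * d ^ (w - 1)`;
* `gamma0_le_conj` : `Γ₀(N) ≤ (diagGL d)⁻¹ SL(2, ℤ) (diagGL d)` for `d ∣ N`;
* `scaleForm hd G : ModularForm (Gamma0 N) w` for a level one form `G`, with values
  `G (d z) * d ^ (w - 1)`;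
* `jScaleMer d : MerH`, the function `z ↦ j(d z)`; `jScaleMer_mem_autoField` : it is a ratio of two
  modular forms of weight `12` for `Γ₀(N)` when `d ∣ N`.
-/

set_option autoImplicit false
set_option linter.unusedSectionVars false

open UpperHalfPlane ModularForm CongruenceSubgroup
open scoped MatrixGroups ModularForm Manifold Pointwise

namespace Fermat.Agent.Jac

open Fermat.Agent.X0 Fermat.Agent.S23.PrimEltQExp

/-- `diag(d, 1)` as an element of `GL(2, ℝ)`. -/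
noncomputable def diagGL (d : ℕ) [NeZero d] : GL (Fin 2) ℝ :=
  Matrix.GeneralLinearGroup.mkOfDetNeZero !![(d : ℝ), 0; 0, 1] (by
    rw [Matrix.det_fin_two_of]
    simp [NeZero.ne d])

theorem coe_diagGL (d : ℕ) [NeZero d] :
    ((diagGL d : GL (Fin 2) ℝ) : Matrix (Fin 2) (Fin 2) ℝ) = !![(d : ℝ), 0; 0, 1] := rfl

theorem det_diagGL (d : ℕ) [NeZero d] : (Matrix.GeneralLinearGroup.det (diagGL d)).val = (d : ℝ) := by
  show Matrix.det ((diagGL d : GL (Fin 2) ℝ) : Matrix (Fin 2) (Fin 2) ℝ) = d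
  rw [coe_diagGL, Matrix.det_fin_two_of]
  simp

theorem det_diagGL_pos (d : ℕ) [NeZero d] :
    0 < (Matrix.GeneralLinearGroup.det (diagGL d)).val := by
  rw [det_diagGL]
  exact Nat.cast_pos.mpr (NeZero.pos d)

theorem diagGL_smul (d : ℕ) [NeZero d] (z : ℍ) : diagGL d • z = scaleH d z := by
  rw [glPos_smul_def (det_diagGL_pos d)]
  ext1
  show num (diagGL d) z / denom (diagGL d) z = (d : ℂ) * z
  simp [num, denom, coe_diagGL]

theorem denom_diagGL (d : ℕ) [NeZero d] (z : ℍ) : denom (diagGL d) z = 1 := by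
  simp [denom, coe_diagGL]

/-- The slash action of `diag(d, 1)`. -/
theorem slash_diagGL (d : ℕ) [NeZero d] (w : ℤ) (G : ℍ → ℂ) (z : ℍ) :
    (G ∣[w] diagGL d) z = G (scaleH d z) * (d : ℂ) ^ (w - 1) := by
  rw [ModularForm.slash_apply, diagGL_smul, denom_diagGL, one_zpow, mul_one, det_diagGL]
  have hσ : σ (diagGL d) = ContinuousAlgEquiv.refl ℝ ℂ := by
    unfold σ
    rw [if_pos (det_diagGL_pos d)]
  rw [hσ, abs_of_pos (Nat.cast_pos.mpr (NeZero.pos d))]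
  simp

/-- `Γ₀(N)` is contained in the conjugate `diag(d,1)⁻¹ SL(2, ℤ) diag(d,1)` for `d ∣ N`. -/
theorem gamma0_le_conj {N d : ℕ} [NeZero d] (hd : d ∣ N) :
    ((Gamma0 N : Subgroup SL(2, ℤ)) : Subgroup (GL (Fin 2) ℝ)) ≤
      ConjAct.toConjAct (diagGL d)⁻¹ • (𝒮ℒ : Subgroup (GL (Fin 2) ℝ)) := by
  rintro _ ⟨γ, hγ, rfl⟩
  rw [map_inv, Subgroup.mem_inv_pointwise_smul_iff, ConjAct.toConjAct_smul]
  -- the entries
  have hc : (d : ℤ) ∣ γ 1 0 := by
    have h1 : ((γ 1 0 : ℤ) : ZMod N) = 0 := Gamma0_mem.mp hγ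
    have h2 : (N : ℤ) ∣ γ 1 0 := (ZMod.intCast_zmod_eq_zero_iff_dvd _ _).mp h1
    exact (Int.natCast_dvd_natCast.mpr hd).trans h2
  obtain ⟨c', hc'⟩ := hc
  have hdet : γ 0 0 * γ 1 1 - γ 0 1 * γ 1 0 = 1 := by
    have := γ.det_coe
    rwa [Matrix.det_fin_two] at this
  let γ' : SL(2, ℤ) := ⟨!![γ 0 0, (d : ℤ) * γ 0 1; c', γ 1 1], by
    rw [Matrix.det_fin_two_of]
    rw [hc'] at hdet
    linear_combination hdet⟩
  refine ⟨γ', ?_⟩
  rw [eq_mul_inv_iff_mul_eq]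
  apply Units.ext
  rw [Units.val_mul, Units.val_mul, coe_diagGL, Matrix.SpecialLinearGroup.mapGL_coe_matrix,
    Matrix.SpecialLinearGroup.mapGL_coe_matrix]
  have hc'' : ((γ 1 0 : ℤ) : ℝ) = (d : ℝ) * (c' : ℝ) := by rw [hc']; push_cast; ring
  have e1 : ((Matrix.SpecialLinearGroup.map (Int.castRingHom ℝ)) γ' :
      Matrix (Fin 2) (Fin 2) ℝ) =
      !![((γ 0 0 : ℤ) : ℝ), (((d : ℤ) * γ 0 1 : ℤ) : ℝ); (c' : ℝ), ((γ 1 1 : ℤ) : ℝ)] := by
    ext i j
    fin_cases i <;> fin_cases j <;> rfl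
  have e2 : ((Matrix.SpecialLinearGroup.map (Int.castRingHom ℝ)) γ :
      Matrix (Fin 2) (Fin 2) ℝ) =
      !![((γ 0 0 : ℤ) : ℝ), ((γ 0 1 : ℤ) : ℝ); ((γ 1 0 : ℤ) : ℝ), ((γ 1 1 : ℤ) : ℝ)] := by
    ext i j
    fin_cases i <;> fin_cases j <;> rfl
  have e3 : (algebraMap ℤ ℝ) = Int.castRingHom ℝ := rfl
  rw [e3, e1, e2, hc'']
  ext i j
  fin_cases i <;> fin_cases j <;>
    simp [Matrix.mul_apply, Fin.sum_univ_two, mul_comm]

variable {N d : ℕ} [NeZero d]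

/-- The level one form `G`, scaled: `z ↦ G (d z) * d ^ (w - 1)`, as a modular form for `Γ₀(N)`
(`d ∣ N`). -/
noncomputable def scaleForm (hd : d ∣ N) {w : ℤ} (G : ModularForm 𝒮ℒ w) :
    ModularForm ((Gamma0 N : Subgroup SL(2, ℤ)) : Subgroup (GL (Fin 2) ℝ)) w :=
  restrictForm (gamma0_le_conj hd) (ModularForm.translate G (diagGL d))

theorem scaleForm_apply (hd : d ∣ N) {w : ℤ} (G : ModularForm 𝒮ℒ w) (z : ℍ) :
    scaleForm hd G z = G (scaleH d z) * (d : ℂ) ^ (w - 1) := by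
  rw [scaleForm, restrictForm_apply, ModularForm.coe_translate, slash_diagGL]

/-- Composition with `z ↦ d z` preserves holomorphy. -/
theorem mdiff_comp_scaleH {G : ℍ → ℂ} (hG : MDiff G) (d : ℕ) [NeZero d] :
    MDiff (fun z : ℍ => G (scaleH d z)) := by
  have hd0 : (d : ℂ) ≠ 0 := Nat.cast_ne_zero.mpr (NeZero.ne d)
  have h : (fun z : ℍ => G (scaleH d z)) = (d : ℂ) • (G ∣[(0 : ℤ)] diagGL d) := by
    funext z
    rw [Pi.smul_apply, slash_diagGL, smul_eq_mul, zero_sub, zpow_neg_one, mul_comm,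
      mul_assoc, inv_mul_cancel₀ hd0, mul_one]
  rw [h]
  exact (hG.slash 0 (diagGL d)).const_smul _

/-- `z ↦ j(d z)` as a holomorphic function. -/
noncomputable def jScaleHol (d : ℕ) [NeZero d] : HolH :=
  ⟨fun z => jFun (scaleH d z), mdiff_comp_scaleH jFun_mdiff d⟩

@[simp] theorem coe_jScaleHol (d : ℕ) [NeZero d] (z : ℍ) :
    (jScaleHol d : ℍ → ℂ) z = jFun (scaleH d z) := rfl

/-- `z ↦ j(d z)` as a meromorphic function. -/
noncomputable def jScaleMer (d : ℕ) [NeZero d] : MerH := algebraMap HolH MerH (jScaleHol d)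

/-- `j(d z) * Δ(d z) d¹¹ = E₄(d z)³ d¹¹`, as an identity of modular forms for `Γ₀(N)`. -/
theorem jScaleMer_mul (hd : d ∣ N) :
    jScaleMer d * merOf (scaleForm (N := N) hd deltaForm) =
      merOf (scaleForm (N := N) hd
        (ModularForm.mcast (by norm_num : ((3 : ℕ) : ℤ) * 4 = 12) (ModularForm.E₄.pow 3) rfl)) := by
  rw [jScaleMer, merOf, merOf, ← map_mul]
  congr 1
  refine holOf_ext fun z => ?_
  show jFun (scaleH d z) * scaleForm hd deltaForm z = scaleForm hd _ z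
  rw [scaleForm_apply, scaleForm_apply, deltaForm_apply, ← mul_assoc, jFun_mul_discriminant]
  congr 1

theorem scaleForm_deltaForm_ne_zero (hd : d ∣ N) : scaleForm (N := N) hd deltaForm ≠ 0 := by
  intro h
  have h1 := congrArg (fun F : ModularForm _ 12 => F UpperHalfPlane.I) h
  simp only [scaleForm_apply, deltaForm_apply] at h1
  have hd0 : (d : ℂ) ≠ 0 := Nat.cast_ne_zero.mpr (NeZero.ne d)
  exact (mul_ne_zero (ModularForm.discriminant_ne_zero _) (zpow_ne_zero _ hd0)) h1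

/-- **`j(d z)` is an automorphic ratio for `Γ₀(N)`** when `d ∣ N`. -/
theorem jScaleMer_mem_autoField [NeZero N] (hd : d ∣ N) :
    jScaleMer d ∈
      autoField ((Gamma0 N : Subgroup SL(2, ℤ)) : Subgroup (GL (Fin 2) ℝ)) :=
  ⟨12, _, _, scaleForm_deltaForm_ne_zero hd, jScaleMer_mul hd⟩

end Fermat.Agent.Jac
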