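import Mathlib
import Fermat.Agent.Jac.DictC.Psi
import Fermat.Agent.Jac.DictC.ModDeg
import Fermat.Agent.Jac.AlgebraicityScale
import Fermat.Agent.Jac.AlgebraicityChar

/-!
# Program J, nodes (D1) + (J2): the realisation `θ : Fc N →+* MerH` is onto the automorphic ratios

* `thetaMer N : Fc N →+* MerH` **(D1)** : the extension of `DictC.Psi N : Rb N →+* (ℍ → ℂ)` to the
  fraction field `Fc N` of `Rb N = ℂ[j(d z) : d ∣ N]`;
* `thetaMer_algebraMap`, `thetaMer_jBar`, `thetaMer_jBarD`, `thetaMer_mem_autoField` : it maps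
  constants to constants, `j` to `j`, `j(q^d)` to `j(d z)` and `Fc N` into `autoField Γ₀(N)`;
* `exists_thetaMer_eq` **(J2), unconditional** : every ratio of two modular forms of the same weight
  for `Γ₀(N)` is `thetaMer N y` for some `y : Fc N`; `range_thetaMer`;
* `CharForm.exists_thetaMer_eq_mer_div`, `CharForm.exists_thetaMer_eq_mer_mul_div`,
  `CharForm.exists_thetaMer_eq_of_invariant` : the versions for quotients of forms with character.
-/

set_option autoImplicit false
set_option linter.unusedSectionVars false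

open UpperHalfPlane ModularForm CongruenceSubgroup
open scoped MatrixGroups ModularForm Manifold

noncomputable section

namespace Fermat.Agent.Jac

open Fermat.Agent.X0 (HolH MerH merHom holHom merHom_algebraMap)

/-- **(D1)** The realisation of the function field `Fc N` of `X₀(N)` over `ℂ` by meromorphic
functions on `ℍ`. -/
def thetaMer (N : ℕ) : DictC.Fc N →+* MerH :=
  merHom (F := DictC.Fc N) (DictC.Psi N) (DictC.Psi_injective N) (DictC.Psi_mdiff N)

/-- `DictC.Psi N` with values in the ring of holomorphic functions. -/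
def psiHol (N : ℕ) : DictC.Rb N →+* HolH := holHom (DictC.Psi N) (DictC.Psi_mdiff N)

@[simp] theorem coe_psiHol (N : ℕ) (r : DictC.Rb N) : (psiHol N r : ℍ → ℂ) = DictC.Psi N r := rfl

theorem thetaMer_coe (N : ℕ) (r : DictC.Rb N) :
    thetaMer N ((r : DictC.Rb N) : DictC.Fc N) = algebraMap HolH MerH (psiHol N r) :=
  merHom_algebraMap (F := DictC.Fc N) (DictC.Psi N) (DictC.Psi_injective N) (DictC.Psi_mdiff N) r

theorem thetaMer_injective (N : ℕ) : Function.Injective (thetaMer N) := (thetaMer N).injective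

/-- `θ` maps constants to constants. -/
theorem thetaMer_algebraMap (N : ℕ) (c : ℂ) :
    thetaMer N (algebraMap ℂ (DictC.Fc N) c) = constMer c := by
  have h : algebraMap ℂ (DictC.Fc N) c = ((algebraMap ℂ (DictC.Rb N) c : DictC.Rb N) : DictC.Fc N) :=
    rfl
  rw [h, thetaMer_coe]
  show algebraMap HolH MerH _ = algebraMap HolH MerH (constHol c)
  congr 1
  refine holOf_ext fun z => ?_
  rw [coe_psiHol, DictC.Psi_algebraMap]
  rfl

/-- `θ (j(q^d)) = j(d z)`. -/
theorem thetaMer_jBarD (N d : ℕ) [NeZero d] (hd : d ∣ N) :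
    thetaMer N (DictC.jBarD N d hd) = jScaleMer d := by
  have h : DictC.jBarD N d hd =
      (((⟨DictC.jBarD N d hd, DictC.jBarD_mem_Rb N d hd⟩ : DictC.Rb N) : DictC.Rb N) : DictC.Fc N) :=
    rfl
  rw [h, thetaMer_coe, jScaleMer]
  congr 1
  refine holOf_ext fun z => ?_
  rw [coe_psiHol, DictC.Psi_jBarD]
  rfl

/-- `θ j = j`. -/
theorem thetaMer_jBar (N : ℕ) : thetaMer N (DictC.jBar N) = jMer := by
  have h : DictC.jBar N =
      (((⟨DictC.jBar N, DictC.jBar_mem_Rb N⟩ : DictC.Rb N) : DictC.Rb N) : DictC.Fc N) := rfl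
  rw [h, thetaMer_coe, jMer]
  congr 1
  refine holOf_ext fun z => ?_
  rw [coe_psiHol, DictC.Psi_jBar_eq_jFun]
  rfl

/-- The values of `θ` on `Rb N` are `Γ₀(N)`-invariant holomorphic functions. -/
theorem psiHol_smul (N : ℕ) (r : DictC.Rb N) (γ : SL(2, ℤ)) (hγ : γ ∈ Gamma0 N) (z : ℍ) :
    (psiHol N r : ℍ → ℂ) (γ • z) = (psiHol N r : ℍ → ℂ) z :=
  DictC.Psi_smul N r γ hγ z

variable {N : ℕ} [NeZero N]

theorem thetaMer_coe_mem_autoField (r : DictC.Rb N) :
    thetaMer N ((r : DictC.Rb N) : DictC.Fc N) ∈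
      autoField ((Gamma0 N : Subgroup SL(2, ℤ)) : Subgroup (GL (Fin 2) ℝ)) := by
  obtain ⟨r, hr⟩ := r
  show thetaMer N r ∈ _
  induction hr using Algebra.adjoin_induction with
  | mem x hx =>
    obtain ⟨d, hd0, hd, rfl⟩ : ∃ (d : ℕ) (_ : NeZero d) (hd : d ∣ N), x = DictC.jBarD N d hd := by
      simpa [DictC.genSetB] using hx
    rw [thetaMer_jBarD]
    exact jScaleMer_mem_autoField hd
  | algebraMap c =>
    rw [thetaMer_algebraMap]
    exact constMer_mem_autoField c
  | add x y _ _ hx hy =>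
    rw [RingHom.map_add]
    exact add_mem hx hy
  | mul x y _ _ hx hy =>
    rw [RingHom.map_mul]
    exact mul_mem hx hy

/-- `θ` maps `Fc N` into the field of automorphic ratios for `Γ₀(N)`. -/
theorem thetaMer_mem_autoField (y : DictC.Fc N) :
    thetaMer N y ∈ autoField ((Gamma0 N : Subgroup SL(2, ℤ)) : Subgroup (GL (Fin 2) ℝ)) := by
  obtain ⟨g, h, _, rfl⟩ := DictC.exists_Rb_div N y
  rw [map_div₀]
  exact div_mem (thetaMer_coe_mem_autoField g) (thetaMer_coe_mem_autoField h)

/-- **(J2), unconditional.**  Every automorphic ratio for `Γ₀(N)` is in the range of `θ`. -/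
theorem exists_thetaMer_eq {a : MerH}
    (ha : a ∈ autoField ((Gamma0 N : Subgroup SL(2, ℤ)) : Subgroup (GL (Fin 2) ℝ))) :
    ∃ y : DictC.Fc N, thetaMer N y = a :=
  exists_preimage_gamma0 (DictC.jBar N) (DictC.jBar_isSepVar N) (thetaMer N)
    (thetaMer_algebraMap N) (thetaMer_jBar N) thetaMer_mem_autoField ha

/-- The range of `θ` is the field of automorphic ratios for `Γ₀(N)`. -/
theorem mem_range_thetaMer_iff {a : MerH} :
    a ∈ (thetaMer N).range ↔
      a ∈ autoField ((Gamma0 N : Subgroup SL(2, ℤ)) : Subgroup (GL (Fin 2) ℝ)) := by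
  constructor
  · rintro ⟨y, rfl⟩
    exact thetaMer_mem_autoField y
  · intro ha
    obtain ⟨y, hy⟩ := exists_thetaMer_eq ha
    exact ⟨y, hy⟩

/-- **(J2)**: the ratio of two modular forms of the same weight for `Γ₀(N)` comes from `Fc N`. -/
theorem exists_thetaMer_mul_eq {k : ℤ} (f g : ModularForm (Gamma0 N) k) (hg : g ≠ 0) :
    ∃ y : DictC.Fc N, thetaMer N y * merOf g = merOf f := by
  obtain ⟨y, hy⟩ := exists_thetaMer_eq (merOf_div_mem_autoField f g hg)
  exact ⟨y, by rw [hy, div_mul_cancel₀ _ ((merOf_eq_zero_iff g).not.mpr hg)]⟩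

namespace CharForm

variable {k k' : ℤ}

/-- A quotient of two forms with the same character of finite order comes from `Fc N`. -/
theorem exists_thetaMer_eq_mer_div {χ : ↥(Gamma0 N) →* ℂˣ} (hχ : IsOfFinOrder χ)
    (A B : CharForm N k χ) : ∃ y : DictC.Fc N, thetaMer N y = A.mer / B.mer :=
  exists_thetaMer_eq (mer_div_mem_autoField_of_isOfFinOrder hχ A B)

/-- Two quotients with the same quotient character: `(A B') / (B A')` comes from `Fc N`. -/
theorem exists_thetaMer_eq_mer_mul_div {χA χB χA' χB' : ↥(Gamma0 N) →* ℂˣ}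
    (hψ : χA * χB' = χB * χA') (hfin : IsOfFinOrder (χA * χB'))
    (A : CharForm N k χA) (B : CharForm N k χB) (A' : CharForm N k' χA')
    (B' : CharForm N k' χB') :
    ∃ y : DictC.Fc N, thetaMer N y = A.mer * B'.mer / (B.mer * A'.mer) :=
  exists_thetaMer_eq (mer_mul_div_mem_autoField hψ hfin A B A' B')

/-- A nonzero `Γ₀(N)`-invariant quotient of two forms of the same weight with characters of
finite order comes from `Fc N` (invariance in pointwise, cross-multiplied form). -/
theorem exists_thetaMer_eq_of_invariant {χ χ' : ↥(Gamma0 N) →* ℂˣ} (hχ : IsOfFinOrder χ)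
    (A : CharForm N k χ) (B : CharForm N k χ') (hA : A.mer ≠ 0) (hB : B.mer ≠ 0)
    (hinv : ∀ (γ : ↥(Gamma0 N)) (z : ℍ),
      A ((γ : SL(2, ℤ)) • z) * B z = A z * B ((γ : SL(2, ℤ)) • z)) :
    ∃ y : DictC.Fc N, thetaMer N y = A.mer / B.mer :=
  exists_thetaMer_eq (mer_div_mem_autoField_of_invariant hχ A B hA hB hinv)

end CharForm

end Fermat.Agent.Jac
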