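import Mathlib
import Fermat.Agent.Jac.ThetaC

/-!
# Program J, node (J3c), analytic part: the action of `SL(2, ℤ)` on meromorphic functions

* `holAction : MulSemiringAction SL(2, ℤ) HolH` : `(γ • f) z = f (γ⁻¹ • z)`;
* `merAction : MulSemiringAction SL(2, ℤ) MerH` : its extension to the fraction field
  (`IsFractionRing.mulSemiringAction`); subgroups (`↥(Gamma0 N)`) act by restriction (Mathlib's
  `Subgroup` instance);
* `merAlgebra : Algebra ℂ MerH` (`algebraMap = constMer`);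
* `smul_thetaMer` : the elements of `Fc N` are `Γ₀(N)`-invariant; `smul_constMer`;
* `CharForm.smul_mer_div` : for `A : CharForm N k χ`, `B : CharForm N k χ'`,
  `γ • (A.mer / B.mer) = constMer (χ γ⁻¹ / χ' γ⁻¹) * (A.mer / B.mer)` : the quotient is a
  multiplicative function with character `(χ / χ')⁻¹`;
* `exists_thetaMer_eq_of_smul_eq` : **the `ex` field of `KummerData`**: a nonzero `Γ₀(N)`-invariant
  quotient of two forms of the same weight with characters of finite order is `thetaMer N y`.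
-/

set_option autoImplicit false
set_option linter.unusedSectionVars false

open UpperHalfPlane ModularForm CongruenceSubgroup
open scoped MatrixGroups ModularForm Manifold

noncomputable section

namespace Fermat.Agent.Jac

open Fermat.Agent.X0 (HolH MerH)

/-- Composition with a modular substitution preserves holomorphy. -/
theorem mdiff_comp_SL {f : ℍ → ℂ} (hf : MDiff f) (γ : SL(2, ℤ)) :
    MDiff (fun z : ℍ => f (γ • z)) := by
  have h : (fun z : ℍ => f (γ • z)) = f ∣[(0 : ℤ)] γ := by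
    funext z
    rw [SL_slash_apply, neg_zero, zpow_zero, mul_one]
  rw [h]
  exact hf.slash 0 _

/-- The action of `SL(2, ℤ)` on holomorphic functions: `(γ • f) z = f (γ⁻¹ • z)`. -/
instance holAction : MulSemiringAction SL(2, ℤ) HolH where
  smul γ f := ⟨fun z => (f : ℍ → ℂ) (γ⁻¹ • z), mdiff_comp_SL f.2 γ⁻¹⟩
  one_smul f := by
    apply Subtype.ext
    funext z
    show (f : ℍ → ℂ) ((1 : SL(2, ℤ))⁻¹ • z) = (f : ℍ → ℂ) z
    rw [inv_one, one_smul]
  mul_smul γ₁ γ₂ f := by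
    apply Subtype.ext
    funext z
    show (f : ℍ → ℂ) ((γ₁ * γ₂)⁻¹ • z) = (f : ℍ → ℂ) (γ₂⁻¹ • γ₁⁻¹ • z)
    rw [mul_inv_rev, mul_smul]
  smul_zero γ := rfl
  smul_add γ f g := rfl
  smul_one γ := rfl
  smul_mul γ f g := rfl

theorem smul_hol_apply (γ : SL(2, ℤ)) (f : HolH) (z : ℍ) :
    ((γ • f : HolH) : ℍ → ℂ) z = (f : ℍ → ℂ) (γ⁻¹ • z) := rfl

/-- The action of `SL(2, ℤ)` on meromorphic functions. -/
instance merAction : MulSemiringAction SL(2, ℤ) MerH :=
  IsFractionRing.mulSemiringAction SL(2, ℤ) HolH MerH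

theorem smul_algebraMap_hol (γ : SL(2, ℤ)) (f : HolH) :
    γ • algebraMap HolH MerH f = algebraMap HolH MerH (γ • f) :=
  IsFractionRing.ringEquivOfRingEquiv_algebraMap _ f

/-- Subgroups of `SL(2, ℤ)` act by restriction (shortcut for Mathlib's
`Subgroup.mulSemiringAction`, which instance search does not find within the default limits). -/
instance subgroupMerAction (Γ : Subgroup SL(2, ℤ)) : MulSemiringAction ↥Γ MerH :=
  Subgroup.mulSemiringAction Γ

/-- Shortcut instance. -/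
instance subgroupMerSMul (Γ : Subgroup SL(2, ℤ)) : SMul ↥Γ MerH :=
  (subgroupMerAction Γ).toDistribMulAction.toMulAction.toSMul

/-- Restriction to a subgroup. -/
theorem subgroup_smul_mer (Γ : Subgroup SL(2, ℤ)) (γ : ↥Γ) (G : MerH) :
    γ • G = (γ : SL(2, ℤ)) • G := rfl

/-- `MerH` as a `ℂ`-algebra (constant functions). -/
instance merAlgebra : Algebra ℂ MerH := constMer.toAlgebra

theorem algebraMap_mer (c : ℂ) : algebraMap ℂ MerH c = constMer c := rfl

theorem smul_constHol_SL (γ : SL(2, ℤ)) (c : ℂ) : γ • constHol c = constHol c := rfl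

theorem smul_constMer (γ : SL(2, ℤ)) (c : ℂ) : γ • constMer c = constMer c := by
  show γ • algebraMap HolH MerH (constHol c) = algebraMap HolH MerH (constHol c)
  rw [smul_algebraMap_hol, smul_constHol_SL]

theorem smul_algebraMap_mer (γ : SL(2, ℤ)) (c : ℂ) :
    γ • algebraMap ℂ MerH c = algebraMap ℂ MerH c := smul_constMer γ c

/-- The elements of `Fc N` are `Γ₀(N)`-invariant functions. -/
theorem smul_thetaMer {N : ℕ} (γ : SL(2, ℤ)) (hγ : γ ∈ Gamma0 N) (y : DictC.Fc N) :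
    γ • thetaMer N y = thetaMer N y := by
  have key : ∀ r : DictC.Rb N, γ • thetaMer N ((r : DictC.Rb N) : DictC.Fc N) =
      thetaMer N ((r : DictC.Rb N) : DictC.Fc N) := by
    intro r
    rw [thetaMer_coe, smul_algebraMap_hol]
    congr 1
    refine holOf_ext fun z => ?_
    rw [smul_hol_apply]
    exact psiHol_smul N r γ⁻¹ (inv_mem hγ) z
  obtain ⟨g, h, _, rfl⟩ := DictC.exists_Rb_div N y
  rw [map_div₀, smul_div₀', key, key]

theorem subgroup_smul_thetaMer {N : ℕ} (γ : ↥(Gamma0 N)) (y : DictC.Fc N) :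
    γ • thetaMer N y = thetaMer N y := smul_thetaMer (γ : SL(2, ℤ)) γ.2 y

/-! ### Forms with character -/

/-- The factor of automorphy as a holomorphic function. -/
def denomHol (γ : SL(2, ℤ)) : HolH := ⟨fun z => denom γ z, mdifferentiable_denom _⟩

@[simp] theorem coe_denomHol (γ : SL(2, ℤ)) (z : ℍ) : (denomHol γ : ℍ → ℂ) z = denom γ z := rfl

theorem denomHol_ne_zero (γ : SL(2, ℤ)) : denomHol γ ≠ 0 := fun h => by
  have h1 : (denomHol γ : ℍ → ℂ) UpperHalfPlane.I = 0 := by rw [h]; rfl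
  exact denom_ne_zero _ _ h1

/-- The factor of automorphy as a (nonzero) meromorphic function. -/
def denomMer (γ : SL(2, ℤ)) : MerH := algebraMap HolH MerH (denomHol γ)

theorem denomMer_ne_zero (γ : SL(2, ℤ)) : denomMer γ ≠ 0 :=
  (map_ne_zero_iff _ (IsFractionRing.injective HolH MerH)).mpr (denomHol_ne_zero γ)

namespace CharForm

variable {N : ℕ} {k : ℤ} {χ χ' : ↥(Gamma0 N) →* ℂˣ}

/-- The transformation law of a form with character, in the ring of holomorphic functions, for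
weight `k = n - m` written as a difference of natural numbers. -/
theorem smul_hol_mul (A : CharForm N k χ) (γ : ↥(Gamma0 N)) {n m : ℕ} (hk : k = (n : ℤ) - m) :
    ((γ : SL(2, ℤ)) • A.hol) * denomHol ((γ⁻¹ : ↥(Gamma0 N)) : SL(2, ℤ)) ^ m =
      constHol ((χ γ⁻¹ : ℂˣ) : ℂ) * denomHol ((γ⁻¹ : ↥(Gamma0 N)) : SL(2, ℤ)) ^ n * A.hol := by
  refine holOf_ext fun z => ?_
  have h := A.smul_apply γ⁻¹ z
  have e1 : (((γ : SL(2, ℤ)) • A.hol : HolH) : ℍ → ℂ) z =
      A (((γ⁻¹ : ↥(Gamma0 N)) : SL(2, ℤ)) • z) := by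
    rw [smul_hol_apply, Subgroup.coe_inv]
    rfl
  set δ : SL(2, ℤ) := ((γ⁻¹ : ↥(Gamma0 N)) : SL(2, ℤ)) with hδ
  show (((γ : SL(2, ℤ)) • A.hol : HolH) : ℍ → ℂ) z * (denomHol δ : ℍ → ℂ) z ^ m =
    ((χ γ⁻¹ : ℂˣ) : ℂ) * (denomHol δ : ℍ → ℂ) z ^ n * A z
  have hzk : denom δ z ^ k = denom δ z ^ n / denom δ z ^ m := by
    rw [hk, zpow_sub₀ (denom_ne_zero _ z), zpow_natCast, zpow_natCast]
  rw [e1, h, coe_denomHol, hzk]
  have hd : denom δ z ^ m ≠ 0 := pow_ne_zero m (denom_ne_zero _ z)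
  field_simp

/-- The transformation law of a form with character in the field of meromorphic functions. -/
theorem smul_mer (A : CharForm N k χ) (γ : ↥(Gamma0 N)) :
    (γ : SL(2, ℤ)) • A.mer =
      constMer ((χ γ⁻¹ : ℂˣ) : ℂ) * denomMer ((γ⁻¹ : ↥(Gamma0 N)) : SL(2, ℤ)) ^ k * A.mer := by
  obtain ⟨n, m, hk⟩ : ∃ n m : ℕ, k = (n : ℤ) - m := ⟨k.toNat, (-k).toNat, by omega⟩
  have h := congrArg (algebraMap HolH MerH) (A.smul_hol_mul γ hk)
  rw [map_mul, map_mul, map_mul, map_pow, map_pow, ← smul_algebraMap_hol] at h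
  have hd := denomMer_ne_zero ((γ⁻¹ : ↥(Gamma0 N)) : SL(2, ℤ))
  subst hk
  rw [zpow_sub₀ hd, zpow_natCast, zpow_natCast, mul_div_assoc', div_mul_eq_mul_div,
    eq_div_iff (pow_ne_zero m hd)]
  exact h

/-- A quotient of two forms of the same weight with characters `χ`, `χ'` is a multiplicative
function: `γ • (A / B) = (χ / χ')(γ⁻¹) (A / B)`. -/
theorem smul_mer_div (A : CharForm N k χ) (B : CharForm N k χ') (γ : ↥(Gamma0 N)) :
    (γ : SL(2, ℤ)) • (A.mer / B.mer) =
      constMer (((χ γ⁻¹ : ℂˣ) : ℂ) / ((χ' γ⁻¹ : ℂˣ) : ℂ)) * (A.mer / B.mer) := by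
  have hd := denomMer_ne_zero ((γ⁻¹ : ↥(Gamma0 N)) : SL(2, ℤ))
  rw [smul_div₀', smul_mer, smul_mer, map_div₀]
  have hz : denomMer ((γ⁻¹ : ↥(Gamma0 N)) : SL(2, ℤ)) ^ k ≠ 0 := zpow_ne_zero k hd
  by_cases hB : B.mer = 0
  · rw [hB, mul_zero, div_zero, div_zero, mul_zero]
  have hc : constMer ((χ' γ⁻¹ : ℂˣ) : ℂ) ≠ 0 := by
    rw [Ne, map_eq_zero]
    exact Units.ne_zero _
  field_simp

end CharForm

/-! ### The `ex` field of `KummerData` -/

/-- **The `ex` field of `KummerData`.**  A nonzero `Γ₀(N)`-invariant quotient of two forms of the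
same weight with characters of finite order comes from the function field `Fc N`. -/
theorem exists_thetaMer_eq_of_smul_eq {N : ℕ} [NeZero N] {G : MerH} (hG0 : G ≠ 0)
    (hG : IsCharRatio N G) (hinv : ∀ γ : ↥(Gamma0 N), γ • G = G) :
    ∃ y : DictC.Fc N, thetaMer N y = G := by
  obtain ⟨k, χ, χ', A, B, hχ, hχ', hB, e⟩ := hG
  have hGe : G = A.mer / B.mer := by rw [← e, mul_div_cancel_right₀ _ hB]
  have hχχ' : χ = χ' := by
    ext γ
    have h := hinv γ⁻¹
    rw [subgroup_smul_mer, hGe, CharForm.smul_mer_div, inv_inv] at h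
    have h1 : constMer (((χ γ : ℂˣ) : ℂ) / ((χ' γ : ℂˣ) : ℂ)) = 1 := by
      have hne : A.mer / B.mer ≠ 0 := hGe ▸ hG0
      exact mul_right_cancel₀ hne (by rw [h, one_mul])
    have h2 : ((χ γ : ℂˣ) : ℂ) / ((χ' γ : ℂˣ) : ℂ) = 1 := by
      have := constMer.injective (h1.trans (map_one constMer).symm)
      exact this
    exact (div_eq_one_iff_eq (Units.ne_zero _)).mp h2
  rw [hGe]
  exact exists_thetaMer_eq (CharForm.mer_div_mem_autoField_of_eq hχχ' hχ A B)

end Fermat.Agent.Jac
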