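import Mathlib
import Fermat.Agent.Jac.MerAction
import Fermat.Agent.Jac.Kappa

/-!
# Program J, node (J3c): the concrete Kummer data for `(ℂ, Fc N, MerH, Γ₀(N))`

* `exists_isMF_eis` **(`exists_mf`)** : for a character `χ` of `Γ₀(N)` of finite order, unitary and
  trivial on the elements with lower left entry `0`, the quotient `E_{4,χ⁻¹} / E_{4,1}` of
  Eisenstein series is a nonzero admissible function `G` with `γ • G = χ γ * G`;
* `kummerDataC N Good hGood dvd : KummerData ℂ (Fc N) MerH ↥(Gamma0 N)` : the Kummer data with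
  `θ = thetaMer N`, `Adm = IsCharRatio N`, in hypothesis form on the divisibility statement
  `dvd` (node (D4)) and on the choice of the subgroup `Good` of characters.
-/

set_option autoImplicit false
set_option linter.unusedSectionVars false

open UpperHalfPlane ModularForm CongruenceSubgroup
open scoped MatrixGroups ModularForm Manifold

noncomputable section

namespace Fermat.Agent.Jac

open Fermat.Agent.X0 (HolH MerH)

variable {N : ℕ} [NeZero N]

/-- **Existence of multiplicative functions** (from the Eisenstein series with character). -/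
theorem exists_isMF_eis {χ : ↥(Gamma0 N) →* ℂˣ} (hunit : ∀ γ, ‖((χ γ : ℂˣ) : ℂ)‖ = 1)
    (hpar : ∀ γ : ↥(Gamma0 N), (γ : SL(2, ℤ)) 1 0 = 0 → χ γ = 1) (hfin : IsOfFinOrder χ) :
    ∃ G : MerH, G ≠ 0 ∧ IsCharRatio N G ∧
      ∀ γ : ↥(Gamma0 N), γ • G = algebraMap ℂ MerH ((χ γ : ℂˣ) : ℂ) * G := by
  have hunit' : ∀ γ, ‖(((χ⁻¹ : ↥(Gamma0 N) →* ℂˣ) γ : ℂˣ) : ℂ)‖ = 1 := by
    intro γ
    rw [MonoidHom.inv_apply, Units.val_inv_eq_inv_val, norm_inv, hunit, inv_one]
  have hpar' : ∀ γ : ↥(Gamma0 N), (γ : SL(2, ℤ)) 1 0 = 0 →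
      (χ⁻¹ : ↥(Gamma0 N) →* ℂˣ) γ = 1 := by
    intro γ hγ
    rw [MonoidHom.inv_apply, hpar γ hγ, inv_one]
  have h4 : (3 : ℤ) ≤ 4 := by norm_num
  have h4e : Even (4 : ℤ) := ⟨2, by norm_num⟩
  set A : CharForm N 4 χ⁻¹ := eisCharForm hunit' hpar' h4 with hA
  set B : CharForm N 4 (1 : ↥(Gamma0 N) →* ℂˣ) := eisOneForm N h4 with hB
  have hA0 : A.mer ≠ 0 :=
    (CharForm.mer_ne_zero_iff A).mpr (exists_eisCharForm_ne_zero hunit' hpar' h4 h4e)
  have hB0 : B.mer ≠ 0 :=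
    (CharForm.mer_ne_zero_iff B).mpr
      (exists_eisCharForm_ne_zero norm_one_char_apply (fun _ _ => rfl) h4 h4e)
  refine ⟨A.mer / B.mer, div_ne_zero hA0 hB0,
    CharForm.isCharRatio_div hfin.inv IsOfFinOrder.one A B hB0, fun γ => ?_⟩
  rw [subgroup_smul_mer, CharForm.smul_mer_div, algebraMap_mer]
  congr 2
  rw [MonoidHom.one_apply, Units.val_one, div_one, MonoidHom.inv_apply, map_inv, inv_inv]

/-! ### Good characters -/

/-- Good characters of `Γ₀(N)`: unitary, and trivial on the elements whose trace has absolute value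
`≤ 2` (parabolic and elliptic elements and `± 1`). -/
def goodCharC (N : ℕ) : Subgroup (↥(Gamma0 N) →* ℂˣ) where
  carrier := {χ | (∀ γ, ‖((χ γ : ℂˣ) : ℂ)‖ = 1) ∧
    ∀ γ : ↥(Gamma0 N), |((γ : SL(2, ℤ)) : Matrix (Fin 2) (Fin 2) ℤ).trace| ≤ 2 → χ γ = 1}
  one_mem' := ⟨fun γ => by simp, fun _ _ => rfl⟩
  mul_mem' := by
    rintro χ χ' ⟨h1, h2⟩ ⟨h1', h2'⟩
    refine ⟨fun γ => ?_, fun γ hγ => ?_⟩
    · rw [MonoidHom.mul_apply, Units.val_mul, norm_mul, h1, h1', one_mul]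
    · rw [MonoidHom.mul_apply, h2 γ hγ, h2' γ hγ, one_mul]
  inv_mem' := by
    rintro χ ⟨h1, h2⟩
    refine ⟨fun γ => ?_, fun γ hγ => ?_⟩
    · rw [MonoidHom.inv_apply, Units.val_inv_eq_inv_val, norm_inv, h1, inv_one]
    · rw [MonoidHom.inv_apply, h2 γ hγ, inv_one]

theorem mem_goodCharC {N : ℕ} {χ : ↥(Gamma0 N) →* ℂˣ} : χ ∈ goodCharC N ↔
    (∀ γ, ‖((χ γ : ℂˣ) : ℂ)‖ = 1) ∧
      ∀ γ : ↥(Gamma0 N), |((γ : SL(2, ℤ)) : Matrix (Fin 2) (Fin 2) ℤ).trace| ≤ 2 → χ γ = 1 :=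
  Iff.rfl

/-- A good character is trivial on the upper triangular elements. -/
theorem goodCharC_apply_of_lower_left_eq_zero {N : ℕ} {χ : ↥(Gamma0 N) →* ℂˣ}
    (hχ : χ ∈ goodCharC N) (γ : ↥(Gamma0 N)) (hγ : (γ : SL(2, ℤ)) 1 0 = 0) : χ γ = 1 := by
  apply hχ.2 γ
  have hdet := Matrix.SpecialLinearGroup.det_coe (γ : SL(2, ℤ))
  rw [Matrix.det_fin_two] at hdet
  have h10 : ((γ : SL(2, ℤ)) : Matrix (Fin 2) (Fin 2) ℤ) 1 0 = 0 := hγ
  rw [h10, mul_zero, sub_zero] at hdet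
  rw [Matrix.trace_fin_two]
  rcases Int.mul_eq_one_iff_eq_one_or_neg_one.mp hdet with ⟨h0, h1⟩ | ⟨h0, h1⟩
  · rw [h0, h1]; norm_num
  · rw [h0, h1]; norm_num

/-- If a nonzero quotient `A / B` is a multiplicative function with character `χ` then
`χ = χb / χa`. -/
theorem CharForm.char_eq_of_smul_mer_div {N : ℕ} {k : ℤ} {χa χb χ : ↥(Gamma0 N) →* ℂˣ}
    (A : CharForm N k χa) (B : CharForm N k χb) (h0 : A.mer / B.mer ≠ 0)
    (h : ∀ γ : ↥(Gamma0 N),
      γ • (A.mer / B.mer) = algebraMap ℂ MerH ((χ γ : ℂˣ) : ℂ) * (A.mer / B.mer)) :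
    χ = χb / χa := by
  ext γ
  have h1 := h γ
  rw [subgroup_smul_mer, CharForm.smul_mer_div, algebraMap_mer] at h1
  have h2 := constMer.injective (mul_right_cancel₀ h0 h1)
  rw [MonoidHom.div_apply, Units.val_div_eq_div_val, ← h2, map_inv, map_inv,
    Units.val_inv_eq_inv_val, Units.val_inv_eq_inv_val, inv_div_inv]

/-- **(J3c)** The concrete Kummer data for the modular curve `X₀(N)` over `ℂ`: `θ = thetaMer N`,
admissible functions = quotients of forms of the same weight with characters of finite order,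
good characters = `goodCharC N`; in hypothesis form on the divisibility statement (D4). -/
def kummerDataC (N : ℕ) [NeZero N]
    (hD4 : ∀ (m : ℕ) (k : ℤ) (χa χb : ↥(Gamma0 N) →* ℂˣ) (A : CharForm N k χa)
      (B : CharForm N k χb), IsOfFinOrder χa → IsOfFinOrder χb → A.mer ≠ 0 → B.mer ≠ 0 →
      χb / χa ∈ goodCharC N → ∀ y : DictC.Fc N, thetaMer N y = (A.mer / B.mer) ^ m →
      ∀ P : AlgebraicCurve.Place ℂ (DictC.Fc N), (m : ℤ) ∣ P.ord y) :
    KummerData ℂ (DictC.Fc N) MerH ↥(Gamma0 N) where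
  θ := thetaMer N
  θ_algebraMap := thetaMer_algebraMap N
  smul_θ := subgroup_smul_thetaMer
  smul_algebraMap γ a := smul_algebraMap_mer (γ : SL(2, ℤ)) a
  Adm := IsCharRatio N
  adm_mul := IsCharRatio.mul
  adm_inv := IsCharRatio.inv
  adm_θ y := isCharRatio_of_mem_autoField (thetaMer_mem_autoField y)
  Good := goodCharC N
  ex _ hG0 hG hinv := exists_thetaMer_eq_of_smul_eq hG0 hG hinv
  dvd := by
    rintro m χ G y hχ hG0 ⟨k, χa, χb, A, B, ha, hb, hB, e⟩ hG hy P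
    have hGe : G = A.mer / B.mer := by rw [← e, mul_div_cancel_right₀ _ hB]
    have hA : A.mer ≠ 0 := by
      rw [← e]
      exact mul_ne_zero hG0 hB
    subst hGe
    have hχeq : χ = χb / χa := CharForm.char_eq_of_smul_mer_div A B hG0 hG
    exact hD4 m k χa χb A B ha hb hA hB (hχeq ▸ hχ) y hy P
  exists_mf χ hχ hfin :=
    exists_isMF_eis hχ.1 (fun γ hγ => goodCharC_apply_of_lower_left_eq_zero hχ γ hγ) hfin

@[simp] theorem kummerDataC_θ (N : ℕ) [NeZero N] hD4 : (kummerDataC N hD4).θ = thetaMer N := rfl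

@[simp] theorem kummerDataC_Good (N : ℕ) [NeZero N] hD4 :
    (kummerDataC N hD4).Good = goodCharC N := rfl

end Fermat.Agent.Jac
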