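import Mathlib
import Fermat.Agent.Jac.ThetaC
import Fermat.Agent.X0.QExpGamma
import Fermat.Agent.X0.ModVal
import Fermat.Agent.Hecke.HeckeInputsGen

/-!
# Program J, node (J4-alg), part 1 (Galois route): the norm `Nm_α` as a product over cosets

For `γ : SL(2,ℤ)` let `thetaConj M γ : Fc M →+* MerH` be the realisation `y ↦ θ_M(y) ∘ γ`.

* `ringHom_ext_Fc` : ring homs out of `Fc M` are determined by constants and the `j(q^d)`, `d ∣ M`;
* `thetaConj_alpha` : for `γ ∈ Γ₀(N)`, `thetaConj (N ℓ) γ ∘ α = θ_N`;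
* `mem_Gamma0_of_thetaConj_eq` : `thetaConj M γ = thetaConj M γ'` implies `γ γ'⁻¹ ∈ Γ₀(M)`;
* `algebraMap_norm_eq_prod_of_embeddings` : pure field theory: the norm is the product over a full
  system of pairwise distinct embeddings;
* **`thetaMer_normAlpha_eq_prod`** (Theorem G): for a full system `γ_x` of representatives of
  `Γ₀(N ℓ) \ Γ₀(N)`:  `θ_N (Nm_α z) = ∏ x, θ_{N ℓ}(z) ∘ γ_x`.
-/

set_option autoImplicit false
set_option linter.unusedSectionVars false
set_option linter.style.haveILetI false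

open UpperHalfPlane ModularForm CongruenceSubgroup AlgebraicCurve ModularCurve
open scoped MatrixGroups ModularForm Manifold

noncomputable section

namespace Fermat.Agent.Jac.HTh

open Fermat.Agent.X0 (HolH MerH merHom holHom merHom_algebraMap conjHom conjHom_apply
  conjHom_injective conjHom_mdiff jFun)
open Fermat.Agent.Jac.DictC (Fc Rb Psi jBarD jBar)
open Fermat.Agent.S23.PrimEltQExp (scaleH)

/-! ### Pure field theory -/

/-- The norm is the product over a full system of pairwise distinct embeddings. -/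
theorem algebraMap_norm_eq_prod_of_embeddings {E F M : Type*} [Field E] [Field F] [Field M]
    [Algebra E F] [Algebra E M] [FiniteDimensional E F] [CharZero E]
    {X : Type*} [Fintype X] (hX : Fintype.card X = Module.finrank E F)
    (θ : X → F →ₐ[E] M) (hθ : Function.Injective θ) (f : F) :
    algebraMap E M (Algebra.norm E f) = ∏ c, θ c f := by
  classical
  let Ω := AlgebraicClosure M
  let ι : M →ₐ[E] Ω := IsScalarTower.toAlgHom E M Ω
  have hι : Function.Injective ι := (algebraMap M Ω).injective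
  let Θ : X → (F →ₐ[E] Ω) := fun c => ι.comp (θ c)
  have hΘ : Function.Injective Θ := by
    intro c c' h
    apply hθ
    ext y
    apply hι
    exact congrArg (fun σ : F →ₐ[E] Ω => σ y) h
  have hcard : Fintype.card X = Fintype.card (F →ₐ[E] Ω) := by
    rw [hX, AlgHom.card E F Ω]
  have hbij : Function.Bijective Θ :=
    (Fintype.bijective_iff_injective_and_card Θ).mpr ⟨hΘ, hcard⟩
  apply hι
  have h1 : ι (algebraMap E M (Algebra.norm E f)) = algebraMap E Ω (Algebra.norm E f) :=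
    ι.commutes _
  rw [h1, Algebra.norm_eq_prod_embeddings E Ω f, map_prod]
  exact (Fintype.prod_bijective Θ hbij _ _ fun c => rfl).symm

/-! ### Ring homs out of `Fc M` -/

/-- Ring homs out of `Fc M` are determined by their values on the constants and on the
`j(q^d)`, `d ∣ M`. -/
theorem ringHom_ext_Fc {M : ℕ} {T : Type*} [Field T] {φ ψ : Fc M →+* T}
    (hc : ∀ a : ℂ, φ (algebraMap ℂ (Fc M) a) = ψ (algebraMap ℂ (Fc M) a))
    (hj : ∀ (d : ℕ) [NeZero d] (hd : d ∣ M), φ (jBarD M d hd) = ψ (jBarD M d hd)) : φ = ψ := by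
  have hR : ∀ r : Fc M, r ∈ Rb M → φ r = ψ r := by
    intro r hr
    induction hr using Algebra.adjoin_induction with
    | mem x hx =>
      obtain ⟨d, hd0, hd, rfl⟩ := hx
      exact hj d hd
    | algebraMap c => exact hc c
    | add x y _ _ hx hy => rw [map_add, map_add, hx, hy]
    | mul x y _ _ hx hy => rw [map_mul, map_mul, hx, hy]
  ext y
  obtain ⟨g, h, _, rfl⟩ := DictC.exists_Rb_div M y
  rw [map_div₀, map_div₀, hR _ g.2, hR _ h.2]

/-! ### The conjugate realisations -/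

/-- The realisation `y ↦ θ_M(y) ∘ γ` of `Fc M` by meromorphic functions. -/
def thetaConj (M : ℕ) (γ : SL(2, ℤ)) : Fc M →+* MerH :=
  merHom (F := Fc M) (conjHom γ⁻¹ (Psi M)) (conjHom_injective γ⁻¹ (DictC.Psi_injective M))
    (conjHom_mdiff γ⁻¹ (DictC.Psi_mdiff M))

/-- `z ↦ Ψ_M(r)(γ z)` as a holomorphic function. -/
def psiConjHol (M : ℕ) (γ : SL(2, ℤ)) (r : Rb M) : HolH :=
  holHom (conjHom γ⁻¹ (Psi M)) (conjHom_mdiff γ⁻¹ (DictC.Psi_mdiff M)) r

@[simp] theorem coe_psiConjHol (M : ℕ) (γ : SL(2, ℤ)) (r : Rb M) (z : ℍ) :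
    (psiConjHol M γ r : ℍ → ℂ) z = Psi M r (γ • z) := by
  show conjHom γ⁻¹ (Psi M) r z = _
  rw [conjHom_apply, inv_inv]

theorem thetaConj_coe (M : ℕ) (γ : SL(2, ℤ)) (r : Rb M) :
    thetaConj M γ ((r : Rb M) : Fc M) = algebraMap HolH MerH (psiConjHol M γ r) :=
  merHom_algebraMap (F := Fc M) _ _ _ r

theorem thetaConj_algebraMap (M : ℕ) (γ : SL(2, ℤ)) (c : ℂ) :
    thetaConj M γ (algebraMap ℂ (Fc M) c) = constMer c := by
  have h : algebraMap ℂ (Fc M) c = ((algebraMap ℂ (Rb M) c : Rb M) : Fc M) := rfl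
  rw [h, thetaConj_coe]
  show algebraMap HolH MerH _ = algebraMap HolH MerH (constHol c)
  congr 1
  refine holOf_ext fun z => ?_
  rw [coe_psiConjHol, DictC.Psi_algebraMap]
  rfl

/-- `z ↦ j(d · γ z)` as a holomorphic function. -/
def jScaleConjHol (d : ℕ) [NeZero d] (γ : SL(2, ℤ)) : HolH :=
  ⟨fun z => jFun (scaleH d (γ • z)), by
    have h := Fermat.Agent.X0.mdiff_comp_smul (jScaleHol d).2 γ
    exact h⟩

@[simp] theorem coe_jScaleConjHol (d : ℕ) [NeZero d] (γ : SL(2, ℤ)) (z : ℍ) :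
    (jScaleConjHol d γ : ℍ → ℂ) z = jFun (scaleH d (γ • z)) := rfl

theorem thetaConj_jBarD (M d : ℕ) [NeZero d] (hd : d ∣ M) (γ : SL(2, ℤ)) :
    thetaConj M γ (jBarD M d hd) = algebraMap HolH MerH (jScaleConjHol d γ) := by
  have h : jBarD M d hd =
      (((⟨jBarD M d hd, DictC.jBarD_mem_Rb M d hd⟩ : Rb M) : Rb M) : Fc M) := rfl
  rw [h, thetaConj_coe]
  congr 1
  refine holOf_ext fun z => ?_
  rw [coe_psiConjHol, DictC.Psi_jBarD]
  rfl

theorem thetaConj_one (M : ℕ) : thetaConj M 1 = thetaMer M := by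
  apply ringHom_ext_Fc
  · intro a
    rw [thetaConj_algebraMap, thetaMer_algebraMap]
  · intro d _ hd
    rw [thetaConj_jBarD, thetaMer_jBarD, jScaleMer]
    congr 1
    refine holOf_ext fun z => ?_
    rw [coe_jScaleConjHol, one_smul, coe_jScaleHol]

/-! ### Compatibility with `α` and distinctness -/

section Level

variable (N ℓ : ℕ) [NeZero N] [NeZero ℓ]

theorem heckeAlphaBar_jBarD (d : ℕ) [NeZero d] (hd : d ∣ N) :
    heckeAlphaBar ℂ N ℓ (jBarD N d hd) = jBarD (N * ℓ) d (hd.mul_right ℓ) :=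
  Subtype.ext (by rw [coe_heckeAlphaBar]; rfl)

/-- For `γ ∈ Γ₀(N)` the conjugate realisation of level `N ℓ` restricts to `θ_N` along `α`. -/
theorem thetaConj_alpha {γ : SL(2, ℤ)} (hγ : γ ∈ Gamma0 N) (y : Fc N) :
    thetaConj (N * ℓ) γ (heckeAlphaBar ℂ N ℓ y) = thetaMer N y := by
  have h : (thetaConj (N * ℓ) γ).comp (heckeAlphaBar ℂ N ℓ : Fc N →+* Fc (N * ℓ)) = thetaMer N := by
    apply ringHom_ext_Fc
    · intro a
      rw [RingHom.comp_apply, thetaMer_algebraMap]
      have : (heckeAlphaBar ℂ N ℓ : Fc N →+* Fc (N * ℓ)) (algebraMap ℂ (Fc N) a) =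
          algebraMap ℂ (Fc (N * ℓ)) a := (heckeAlphaBar ℂ N ℓ).commutes a
      rw [this, thetaConj_algebraMap]
    · intro d _ hd
      rw [RingHom.comp_apply, thetaMer_jBarD, jScaleMer]
      have : (heckeAlphaBar ℂ N ℓ : Fc N →+* Fc (N * ℓ)) (jBarD N d hd) =
          jBarD (N * ℓ) d (hd.mul_right ℓ) := heckeAlphaBar_jBarD N ℓ d hd
      rw [this, thetaConj_jBarD]
      congr 1
      refine holOf_ext fun z => ?_
      rw [coe_jScaleConjHol, coe_jScaleHol]
      exact DictC.jAn_scaleH_smul hd γ hγ z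
  exact congrArg (fun f : Fc N →+* MerH => f y) h

end Level

/-- **Distinctness** of the conjugate realisations modulo `Γ₀(M)`. -/
theorem mem_Gamma0_of_thetaConj_eq {M : ℕ} [NeZero M] {γ γ' : SL(2, ℤ)}
    (h : thetaConj M γ = thetaConj M γ') : γ * γ'⁻¹ ∈ Gamma0 M := by
  have h1 := congrArg (fun f : Fc M →+* MerH => f (jBarD M M dvd_rfl)) h
  simp only [thetaConj_jBarD] at h1
  have h2 := IsFractionRing.injective HolH MerH h1
  apply Fermat.Agent.X0.mem_Gamma0_of_jFun_scaleH_smul_eq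
  intro z
  have h3 := congrArg (fun φ : HolH => (φ : ℍ → ℂ) (γ'⁻¹ • z)) h2
  simp only [coe_jScaleConjHol] at h3
  rw [smul_inv_smul, ← mul_smul] at h3
  exact h3

/-! ### Theorem G -/

section TheoremG

variable (N ℓ : ℕ) [NeZero N] [NeZero ℓ]

/-- **Theorem G.**  For a full system `γ x` of representatives of `Γ₀(N ℓ) \\ Γ₀(N)`, the norm
along `α : Fc N → Fc (N ℓ)` is realised by the product over the conjugates:
`θ_N (Nm_α z) = ∏ x, θ_{N ℓ}(z) ∘ γ x`. -/
theorem thetaMer_normAlpha_eq_prod {X : Type*} [Fintype X] (γ : X → SL(2, ℤ))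
    (hγ : ∀ x, γ x ∈ Gamma0 N)
    (hdist : ∀ x x', γ x * (γ x')⁻¹ ∈ Gamma0 (N * ℓ) → x = x')
    (hfin : FiniteAlong ℂ (heckeAlphaBar ℂ N ℓ))
    (hcard : Fintype.card X = finrankAlong ℂ (heckeAlphaBar ℂ N ℓ)) (z : Fc (N * ℓ)) :
    thetaMer N (Fermat.Agent.Hecke.Gen.normAlphaL (L := ℂ) N ℓ z) =
      ∏ x, thetaConj (N * ℓ) (γ x) z := by
  letI := algebraAlong (heckeAlphaBar ℂ N ℓ)
  letI : Algebra (Fc N) MerH := (thetaMer N).toAlgebra
  haveI : FiniteDimensional (Fc N) (Fc (N * ℓ)) := hfin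
  haveI : CharZero (Fc N) := Fermat.Agent.Hecke.Gen.charZero_FL ℂ N
  let θA : X → (Fc (N * ℓ) →ₐ[Fc N] MerH) := fun x =>
    { thetaConj (N * ℓ) (γ x) with
      commutes' := fun y => thetaConj_alpha N ℓ (hγ x) y }
  have hθA : Function.Injective θA := by
    intro x x' h
    apply hdist
    apply mem_Gamma0_of_thetaConj_eq
    ext y
    exact congrArg (fun f : Fc (N * ℓ) →ₐ[Fc N] MerH => f y) h
  exact algebraMap_norm_eq_prod_of_embeddings hcard θA hθA z

end TheoremG

end Fermat.Agent.Jac.HTh
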