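import Mathlib
import Fermat.Agent.Jac.NormCosetsGal
import Fermat.Agent.Hecke.AtkinLehner

/-!
# Program J, node (J4-alg), part 2: `H (θ y) = θ (Nm_α (β y))` (abstract composition form)

`IsCompOn δ c` : the ring hom `c : MerH →+* MerH` is "composition with `δ : ℍ → ℍ`" on holomorphic
functions.  If `δ_x = g_x ∘ (ℓ ·) ∘ γ_x` with `g_x, γ_x ∈ Γ₀(N)` and the `γ_x` form a full system of
representatives of `Γ₀(N ℓ) \ Γ₀(N)`, then

`∏ x, c_x (θ_N y) = θ_N (Nm_α (β y))`    (`hTheta_of_isCompOn`).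
-/

set_option autoImplicit false
set_option linter.unusedSectionVars false
set_option linter.style.haveILetI false

open UpperHalfPlane ModularForm CongruenceSubgroup AlgebraicCurve ModularCurve
open scoped MatrixGroups ModularForm Manifold

noncomputable section

namespace Fermat.Agent.Jac.HTh

open Fermat.Agent.X0 (HolH MerH jFun)
open Fermat.Agent.Jac.DictC (Fc Rb Psi jBarD jBar)
open Fermat.Agent.S23.PrimEltQExp (scaleH)

/-- `c` is composition with `δ` on holomorphic functions. -/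
def IsCompOn (δ : ℍ → ℍ) (c : MerH →+* MerH) : Prop :=
  ∀ f : HolH, ∃ f' : HolH, (∀ z, (f' : ℍ → ℂ) z = (f : ℍ → ℂ) (δ z)) ∧
    c (algebraMap HolH MerH f) = algebraMap HolH MerH f'

theorem IsCompOn.apply_constMer {δ : ℍ → ℍ} {c : MerH →+* MerH} (hc : IsCompOn δ c) (a : ℂ) :
    c (constMer a) = constMer a := by
  obtain ⟨f', hf', h⟩ := hc (constHol a)
  show c (algebraMap HolH MerH (constHol a)) = algebraMap HolH MerH (constHol a)
  rw [h]
  congr 1
  exact holOf_ext fun z => by rw [hf', coe_constHol, coe_constHol]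

section Level

variable (N ℓ : ℕ) [NeZero N] [NeZero ℓ]

theorem heckeBetaBar_jBarD (d : ℕ) [NeZero d] (hd : d ∣ N) :
    heckeBetaBar ℂ N ℓ (jBarD N d hd) = jBarD (N * ℓ) (d * ℓ) (Nat.mul_dvd_mul_right hd ℓ) := by
  apply Subtype.ext
  rw [coe_heckeBetaBar]
  show qExpand ℂ ℓ (coeffEmb ℂ (qExpand ℚ d jq)) = coeffEmb ℂ (qExpand ℚ (d * ℓ) jq)
  unfold coeffEmb
  rw [← ModularCurve.coeffMap_qExpand, qExpand_qExpand]
  congr 1
  exact qExpand_congr (mul_comm ℓ d) _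

/-- If `δ = g ∘ (ℓ ·) ∘ γ` with `g ∈ Γ₀(N)`, then composing `θ_N y` with `δ` gives the
`γ`-conjugate realisation of `β y`. -/
theorem comp_thetaMer_eq_thetaConj_beta {δ : ℍ → ℍ} {c : MerH →+* MerH} (hc : IsCompOn δ c)
    {g γ : SL(2, ℤ)} (hg : g ∈ Gamma0 N) (hδ : ∀ z, δ z = g • scaleH ℓ (γ • z)) (y : Fc N) :
    c (thetaMer N y) = thetaConj (N * ℓ) γ (heckeBetaBar ℂ N ℓ y) := by
  have h : c.comp (thetaMer N) =
      (thetaConj (N * ℓ) γ).comp (heckeBetaBar ℂ N ℓ : Fc N →+* Fc (N * ℓ)) := by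
    apply ringHom_ext_Fc
    · intro a
      rw [RingHom.comp_apply, RingHom.comp_apply, thetaMer_algebraMap, hc.apply_constMer]
      have : (heckeBetaBar ℂ N ℓ : Fc N →+* Fc (N * ℓ)) (algebraMap ℂ (Fc N) a) =
          algebraMap ℂ (Fc (N * ℓ)) a := (heckeBetaBar ℂ N ℓ).commutes a
      rw [this, thetaConj_algebraMap]
    · intro d _ hd
      rw [RingHom.comp_apply, RingHom.comp_apply, thetaMer_jBarD, jScaleMer]
      have : (heckeBetaBar ℂ N ℓ : Fc N →+* Fc (N * ℓ)) (jBarD N d hd) =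
          jBarD (N * ℓ) (d * ℓ) (Nat.mul_dvd_mul_right hd ℓ) := heckeBetaBar_jBarD N ℓ d hd
      rw [this, thetaConj_jBarD]
      obtain ⟨f', hf', h⟩ := hc (jScaleHol d)
      rw [h]
      congr 1
      refine holOf_ext fun z => ?_
      rw [hf', coe_jScaleHol, coe_jScaleConjHol, hδ z]
      have h1 : jFun (scaleH d (g • scaleH ℓ (γ • z))) = jFun (scaleH d (scaleH ℓ (γ • z))) :=
        DictC.jAn_scaleH_smul hd g hg _
      rw [h1, Fermat.Agent.Hecke.AL.scaleH_mul]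
  exact congrArg (fun f : Fc N →+* MerH => f y) h

/-- **`H_θ`, abstract composition form.**  Let `c x` be composition with
`δ x = g x ∘ (ℓ ·) ∘ γ x`, where `g x, γ x ∈ Γ₀(N)` and the `γ x` are a full system of
representatives of `Γ₀(N ℓ) \\ Γ₀(N)`.  Then `∏ x, c x (θ_N y) = θ_N (Nm_α (β y))`. -/
theorem hTheta_of_isCompOn {X : Type*} [Fintype X] (δ : X → ℍ → ℍ) (c : X → MerH →+* MerH)
    (hc : ∀ x, IsCompOn (δ x) (c x)) (g γ : X → SL(2, ℤ))
    (hg : ∀ x, g x ∈ Gamma0 N) (hγ : ∀ x, γ x ∈ Gamma0 N)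
    (hδ : ∀ x z, δ x z = g x • scaleH ℓ (γ x • z))
    (hdist : ∀ x x', γ x * (γ x')⁻¹ ∈ Gamma0 (N * ℓ) → x = x')
    (hfin : FiniteAlong ℂ (heckeAlphaBar ℂ N ℓ))
    (hcard : Fintype.card X = finrankAlong ℂ (heckeAlphaBar ℂ N ℓ)) (y : Fc N) :
    ∏ x, c x (thetaMer N y) =
      thetaMer N (Fermat.Agent.Hecke.Gen.normAlphaL (L := ℂ) N ℓ (heckeBetaBar ℂ N ℓ y)) := by
  rw [thetaMer_normAlpha_eq_prod N ℓ γ hγ hdist hfin hcard]
  exact Finset.prod_congr rfl fun x _ =>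
    comp_thetaMer_eq_thetaConj_beta N ℓ (hc x) (hg x) (hδ x) y

end Level

end Fermat.Agent.Jac.HTh
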