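/-
Program J, node (J5)(a), abstract layer (helper15): the transfer (Hecke) operator on `Hom(Γ, M)`
attached to a finite union of left cosets `⋃ i, Γ · rep i` of an ambient group which is stable
under right multiplication by `Γ`.

For `γ : Γ` and `i : ι` write `rep i * γ = coc γ i * rep (next γ i)` (`coc γ i : Γ`, `next γ` a
permutation of `ι`).  Then `(transfer φ)(γ) = ∑ i, φ (coc γ i)`.

* `CosetReps`, `CosetReps.coc`, `CosetReps.next`, `CosetReps.rel`, `CosetReps.eq_of_rel`
  (uniqueness), `next_mul`, `coc_mul`, `nextEquiv`.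
* `CosetReps.transfer : (Additive Γ →+ M) →+ (Additive Γ →+ M)`, `transfer_apply`,
  `transfer_apply_of_rel` (computation from any decomposition), `transfer_comp` (naturality in
  `M`), `transfer_smul`, `transferₗ`.
* `CosetReps.transfer_eq_of_reps`, `transfer_eq_of_reps'` : independence of the choice of
  representatives.
* `CosetReps.transferMul : (Γ →* A) → (Γ →* A)` for multiplicative characters,
  `transferMul_apply_of_rel`, `transferMul_eq_of_eq_comp` (compatibility with `transfer` through an
  exponential).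
* `CosetReps.conj`, `transfer_conj` : conjugation by an element normalising `Γ`.
* `CosetReps.transfer_apply_eq_zero_of_pred` : for torsion free `M`, the transfer preserves the
  homomorphisms killing a class of elements stable under powers and ambient conjugation
  (e.g. parabolic elements).
-/
import Mathlib

set_option autoImplicit false

namespace Fermat.Agent.Jac

/-- A finite system of representatives `rep i` of pairwise distinct left cosets `Γ · rep i` in an
ambient group `G ⊇ Γ`, whose union is stable under right multiplication by `Γ`. -/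
structure CosetReps {Γ G : Type*} [Group Γ] [Group G] (emb : Γ →* G) (ι : Type*) where
  /-- the representatives -/
  rep : ι → G
  emb_injective : Function.Injective emb
  stable : ∀ (γ : Γ) (i : ι), ∃ (γ' : Γ) (j : ι), rep i * emb γ = emb γ' * rep j
  distinct : ∀ (i j : ι) (γ : Γ), rep i = emb γ * rep j → i = j

namespace CosetReps

variable {Γ G : Type*} [Group Γ] [Group G] {emb : Γ →* G} {ι : Type*} (D : CosetReps emb ι)

/-- the `Γ`-component of `rep i * γ` -/
noncomputable def coc (γ : Γ) (i : ι) : Γ := (D.stable γ i).choose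

/-- the index of the coset of `rep i * γ` -/
noncomputable def next (γ : Γ) (i : ι) : ι := (D.stable γ i).choose_spec.choose

theorem rel (γ : Γ) (i : ι) : D.rep i * emb γ = emb (D.coc γ i) * D.rep (D.next γ i) :=
  (D.stable γ i).choose_spec.choose_spec

/-- uniqueness of the decomposition `rep i * γ = γ' * rep j` -/
theorem eq_of_rel {γ γ' : Γ} {i j : ι} (h : D.rep i * emb γ = emb γ' * D.rep j) :
    j = D.next γ i ∧ γ' = D.coc γ i := by
  have h1 := D.rel γ i
  rw [h] at h1
  have h2 : D.rep j = emb (γ'⁻¹ * D.coc γ i) * D.rep (D.next γ i) := by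
    rw [map_mul, map_inv, mul_assoc, ← h1, inv_mul_cancel_left]
  have hj : j = D.next γ i := D.distinct _ _ _ h2
  refine ⟨hj, ?_⟩
  rw [← hj] at h1
  exact D.emb_injective (mul_right_cancel h1)

theorem next_eq_of_rel {γ γ' : Γ} {i j : ι} (h : D.rep i * emb γ = emb γ' * D.rep j) :
    D.next γ i = j := (D.eq_of_rel h).1.symm

theorem coc_eq_of_rel {γ γ' : Γ} {i j : ι} (h : D.rep i * emb γ = emb γ' * D.rep j) :
    D.coc γ i = γ' := (D.eq_of_rel h).2.symm

@[simp] theorem next_one (i : ι) : D.next 1 i = i :=
  D.next_eq_of_rel (γ' := 1) (by simp)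

@[simp] theorem coc_one (i : ι) : D.coc 1 i = 1 :=
  D.coc_eq_of_rel (j := i) (by simp)

theorem rel_mul (γ γ' : Γ) (i : ι) :
    D.rep i * emb (γ * γ') =
      emb (D.coc γ i * D.coc γ' (D.next γ i)) * D.rep (D.next γ' (D.next γ i)) := by
  rw [map_mul, ← mul_assoc, D.rel γ i, mul_assoc, D.rel γ' (D.next γ i), ← mul_assoc, map_mul]

theorem next_mul (γ γ' : Γ) (i : ι) : D.next (γ * γ') i = D.next γ' (D.next γ i) :=
  D.next_eq_of_rel (D.rel_mul γ γ' i)

theorem coc_mul (γ γ' : Γ) (i : ι) :
    D.coc (γ * γ') i = D.coc γ i * D.coc γ' (D.next γ i) :=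
  D.coc_eq_of_rel (D.rel_mul γ γ' i)

/-- the permutation of the cosets induced by right multiplication by `γ` -/
noncomputable def nextEquiv (γ : Γ) : Equiv.Perm ι where
  toFun := D.next γ
  invFun := D.next γ⁻¹
  left_inv i := by rw [← D.next_mul, mul_inv_cancel, D.next_one]
  right_inv i := by rw [← D.next_mul, inv_mul_cancel, D.next_one]

@[simp] theorem nextEquiv_apply (γ : Γ) (i : ι) : D.nextEquiv γ i = D.next γ i := rfl

theorem next_pow (γ : Γ) (r : ℕ) (i : ι) : D.next (γ ^ r) i = (D.next γ)^[r] i := by
  induction r with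
  | zero => simp
  | succ r ih => rw [pow_succ, D.next_mul, ih, Function.iterate_succ_apply']

theorem nextEquiv_pow (γ : Γ) (r : ℕ) : D.nextEquiv (γ ^ r) = D.nextEquiv γ ^ r := by
  ext i
  rw [nextEquiv_apply, D.next_pow, ← Equiv.Perm.iterate_eq_pow]
  rfl

section Transfer

variable [Fintype ι] {M : Type*} [AddCommGroup M]

/-- The transfer operator on `Hom(Γ, M)` attached to the coset system `D`. -/
noncomputable def transfer : (Additive Γ →+ M) →+ (Additive Γ →+ M) where
  toFun φ :=
    { toFun := fun γ => ∑ i, φ (Additive.ofMul (D.coc (Additive.toMul γ) i))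
      map_zero' := by simp
      map_add' := fun γ γ' => by
        simp only [toMul_add, D.coc_mul, ofMul_mul, map_add, Finset.sum_add_distrib]
        congr 1
        exact Equiv.sum_comp (D.nextEquiv (Additive.toMul γ))
          (fun i => φ (Additive.ofMul (D.coc (Additive.toMul γ') i))) }
  map_zero' := by ext; simp
  map_add' φ ψ := by ext; simp [Finset.sum_add_distrib]

theorem transfer_apply (φ : Additive Γ →+ M) (γ : Γ) :
    D.transfer φ (Additive.ofMul γ) = ∑ i, φ (Additive.ofMul (D.coc γ i)) := rfl

/-- The transfer can be computed from any decomposition `rep i * γ = c i * rep (s i)`. -/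
theorem transfer_apply_of_rel (φ : Additive Γ →+ M) (γ : Γ) (c : ι → Γ) (s : ι → ι)
    (h : ∀ i, D.rep i * emb γ = emb (c i) * D.rep (s i)) :
    D.transfer φ (Additive.ofMul γ) = ∑ i, φ (Additive.ofMul (c i)) := by
  rw [transfer_apply]
  exact Finset.sum_congr rfl fun i _ => by rw [D.coc_eq_of_rel (h i)]

/-- naturality of the transfer in the coefficient group -/
theorem transfer_comp {M' : Type*} [AddCommGroup M'] (f : M →+ M') (φ : Additive Γ →+ M) :
    D.transfer (f.comp φ) = f.comp (D.transfer φ) := by
  ext γ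
  simp [transfer, map_sum]

theorem transfer_smul {R : Type*} [Monoid R] [DistribMulAction R M] (r : R)
    (φ : Additive Γ →+ M) : D.transfer (r • φ) = r • D.transfer φ := by
  ext γ
  simp [transfer, Finset.smul_sum]

/-- the transfer as a linear map -/
noncomputable def transferₗ (R : Type*) [Semiring R] [Module R M] :
    (Additive Γ →+ M) →ₗ[R] (Additive Γ →+ M) where
  toFun := D.transfer
  map_add' := map_add _
  map_smul' r φ := D.transfer_smul r φ

@[simp] theorem transferₗ_apply (R : Type*) [Semiring R] [Module R M] (φ : Additive Γ →+ M) :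
    D.transferₗ R φ = D.transfer φ := rfl

/-- **Independence of the representatives.** Two coset systems with the same cosets have the same
transfer. -/
theorem transfer_eq_of_reps {ι' : Type*} [Fintype ι'] (D' : CosetReps emb ι') (e : ι' ≃ ι)
    (g : ι' → Γ) (h : ∀ j, D'.rep j = emb (g j) * D.rep (e j)) :
    (D'.transfer : (Additive Γ →+ M) →+ _) = D.transfer := by
  refine AddMonoidHom.ext fun φ => AddMonoidHom.ext fun γ' => ?_
  obtain ⟨γ, rfl⟩ := Additive.ofMul.surjective γ'
  have hrel : ∀ j, D'.rep j * emb γ =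
      emb (g j * D.coc γ (e j) * (g (e.symm (D.next γ (e j))))⁻¹) *
        D'.rep (e.symm (D.next γ (e j))) := by
    intro j
    rw [h j, mul_assoc, D.rel γ (e j), h (e.symm (D.next γ (e j))), e.apply_symm_apply]
    simp only [map_mul, map_inv, mul_assoc, inv_mul_cancel_left]
  rw [D'.transfer_apply_of_rel φ γ _ _ hrel, transfer_apply]
  simp only [ofMul_mul, ofMul_inv, map_add, map_neg, Finset.sum_add_distrib,
    Finset.sum_neg_distrib]
  have h1 : ∑ j, φ (Additive.ofMul (D.coc γ (e j))) = ∑ i, φ (Additive.ofMul (D.coc γ i)) :=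
    Equiv.sum_comp e (fun i => φ (Additive.ofMul (D.coc γ i)))
  have h2 : ∑ j, φ (Additive.ofMul (g (e.symm (D.next γ (e j))))) =
      ∑ j, φ (Additive.ofMul (g j)) :=
    Equiv.sum_comp ((e.trans (D.nextEquiv γ)).trans e.symm) (fun j => φ (Additive.ofMul (g j)))
  rw [h1, h2]
  abel

/-- Independence of the representatives, with a mere function `e` between the index types
(it is automatically injective; bijectivity follows from the equality of cardinalities). -/
theorem transfer_eq_of_reps' {ι' : Type*} [Fintype ι'] (D' : CosetReps emb ι') (e : ι' → ι)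
    (hcard : Fintype.card ι' = Fintype.card ι)
    (g : ι' → Γ) (h : ∀ j, D'.rep j = emb (g j) * D.rep (e j)) :
    (D'.transfer : (Additive Γ →+ M) →+ _) = D.transfer := by
  have hinj : Function.Injective e := by
    intro j j' hjj'
    refine D'.distinct j j' (g j * (g j')⁻¹) ?_
    rw [h j, h j', hjj', map_mul, map_inv, mul_assoc, inv_mul_cancel_left]
  have hbij : Function.Bijective e :=
    (Fintype.bijective_iff_injective_and_card e).2 ⟨hinj, hcard⟩
  exact D.transfer_eq_of_reps D' (Equiv.ofBijective e hbij) g h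

end Transfer

section TransferMul

variable [Fintype ι] {A : Type*} [CommGroup A]

/-- The transfer on multiplicative characters `Γ →* A`: `(transferMul χ)(γ) = ∏ i, χ (coc γ i)`. -/
noncomputable def transferMul (χ : Γ →* A) : Γ →* A where
  toFun γ := ∏ i, χ (D.coc γ i)
  map_one' := by simp
  map_mul' γ γ' := by
    simp only [D.coc_mul, map_mul, Finset.prod_mul_distrib]
    congr 1
    exact Equiv.prod_comp (D.nextEquiv γ) (fun i => χ (D.coc γ' i))

theorem transferMul_apply (χ : Γ →* A) (γ : Γ) :
    D.transferMul χ γ = ∏ i, χ (D.coc γ i) := rfl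

/-- The multiplicative transfer can be computed from any decomposition
`rep i * γ = c i * rep (s i)`. -/
theorem transferMul_apply_of_rel (χ : Γ →* A) (γ : Γ) (c : ι → Γ) (s : ι → ι)
    (h : ∀ i, D.rep i * emb γ = emb (c i) * D.rep (s i)) :
    D.transferMul χ γ = ∏ i, χ (c i) := by
  rw [transferMul_apply]
  exact Finset.prod_congr rfl fun i _ => by rw [D.coc_eq_of_rel (h i)]

/-- Compatibility of the additive and the multiplicative transfer: if `χ = f ∘ φ` for an
"exponential" `f : Multiplicative M →* A`, then `transferMul χ = f ∘ transfer φ`. -/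
theorem transferMul_eq_of_eq_comp {M : Type*} [AddCommGroup M] (f : Multiplicative M →* A)
    (φ : Additive Γ →+ M) (χ : Γ →* A)
    (hχ : ∀ γ, χ γ = f (Multiplicative.ofAdd (φ (Additive.ofMul γ)))) (γ : Γ) :
    D.transferMul χ γ = f (Multiplicative.ofAdd (D.transfer φ (Additive.ofMul γ))) := by
  rw [transferMul_apply, transfer_apply, ofAdd_sum, map_prod]
  exact Finset.prod_congr rfl fun i _ => hχ _

end TransferMul

section Conj

/-- Conjugating a coset system by an element `w` of the ambient group which normalises `Γ`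
(inducing the automorphism `a` on `Γ`). -/
def conj (a : Γ ≃* Γ) (w : G) (haw : ∀ γ, emb (a γ) = w * emb γ * w⁻¹) : CosetReps emb ι where
  rep i := w * D.rep i * w⁻¹
  emb_injective := D.emb_injective
  stable γ i := by
    refine ⟨a (D.coc (a.symm γ) i), D.next (a.symm γ) i, ?_⟩
    have h1 : emb γ = w * emb (a.symm γ) * w⁻¹ := by rw [← haw, a.apply_symm_apply]
    rw [haw, h1]
    have h2 := D.rel (a.symm γ) i
    calc w * D.rep i * w⁻¹ * (w * emb (a.symm γ) * w⁻¹)
        = w * (D.rep i * emb (a.symm γ)) * w⁻¹ := by group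
      _ = w * (emb (D.coc (a.symm γ) i) * D.rep (D.next (a.symm γ) i)) * w⁻¹ := by rw [h2]
      _ = _ := by group
  distinct i j γ h := by
    refine D.distinct i j (a.symm γ) ?_
    have h1 : emb γ = w * emb (a.symm γ) * w⁻¹ := by rw [← haw, a.apply_symm_apply]
    rw [h1] at h
    have : D.rep i = w⁻¹ * (w * D.rep i * w⁻¹) * w := by group
    rw [this, h]
    group

@[simp] theorem conj_rep (a : Γ ≃* Γ) (w : G) (haw : ∀ γ, emb (a γ) = w * emb γ * w⁻¹) (i : ι) :
    (D.conj a w haw).rep i = w * D.rep i * w⁻¹ := rfl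

theorem conj_rel (a : Γ ≃* Γ) (w : G) (haw : ∀ γ, emb (a γ) = w * emb γ * w⁻¹) (γ : Γ) (i : ι) :
    (D.conj a w haw).rep i * emb (a γ) =
      emb (a (D.coc γ i)) * (D.conj a w haw).rep (D.next γ i) := by
  rw [conj_rep, conj_rep, haw, haw]
  have h2 := D.rel γ i
  calc w * D.rep i * w⁻¹ * (w * emb γ * w⁻¹)
      = w * (D.rep i * emb γ) * w⁻¹ := by group
    _ = w * (emb (D.coc γ i) * D.rep (D.next γ i)) * w⁻¹ := by rw [h2]
    _ = _ := by group

variable [Fintype ι] {M : Type*} [AddCommGroup M]

/-- The transfer of the conjugated coset system: `T_{wDw⁻¹} (φ) ∘ a = T_D (φ ∘ a)`. -/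
theorem transfer_conj (a : Γ ≃* Γ) (w : G) (haw : ∀ γ, emb (a γ) = w * emb γ * w⁻¹)
    (φ : Additive Γ →+ M) (γ : Γ) :
    (D.conj a w haw).transfer φ (Additive.ofMul (a γ)) =
      D.transfer (φ.comp (MonoidHom.toAdditive a.toMonoidHom)) (Additive.ofMul γ) := by
  rw [(D.conj a w haw).transfer_apply_of_rel φ (a γ) _ _ (D.conj_rel a w haw γ), transfer_apply]
  rfl

end Conj

section Pred

variable [Fintype ι] {M : Type*} [AddCommGroup M]

/-- For torsion free `M`: if `φ` kills a class `P` of elements of `Γ` which is stable under powers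
and under conjugation in the ambient group, so does `transfer φ`. -/
theorem transfer_apply_eq_zero_of_pred (htf : ∀ (n : ℕ) (x : M), n ≠ 0 → n • x = 0 → x = 0)
    (P : Γ → Prop) (hpow : ∀ γ, P γ → ∀ r : ℕ, P (γ ^ r))
    (hconj : ∀ (γ c : Γ) (g : G), P γ → emb c = g * emb γ * g⁻¹ → P c)
    (φ : Additive Γ →+ M) (hφ : ∀ γ, P γ → φ (Additive.ofMul γ) = 0) (γ : Γ) (hγ : P γ) :
    D.transfer φ (Additive.ofMul γ) = 0 := by
  classical
  set r := orderOf (D.nextEquiv γ) with hr
  have hr0 : r ≠ 0 := (orderOf_pos (D.nextEquiv γ)).ne'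
  have hnext : ∀ i, D.next (γ ^ r) i = i := by
    intro i
    have h1 : D.nextEquiv (γ ^ r) = 1 := by rw [D.nextEquiv_pow, hr, pow_orderOf_eq_one]
    have := congrArg (fun e : Equiv.Perm ι => e i) h1
    simpa using this
  have hP : ∀ i, P (D.coc (γ ^ r) i) := by
    intro i
    refine hconj (γ ^ r) _ (D.rep i) (hpow γ hγ r) ?_
    have h := D.rel (γ ^ r) i
    rw [hnext i] at h
    rw [h]
    group
  have h0 : D.transfer φ (Additive.ofMul (γ ^ r)) = 0 := by
    rw [transfer_apply]
    exact Finset.sum_eq_zero fun i _ => hφ _ (hP i)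
  rw [ofMul_pow, map_nsmul] at h0
  exact htf r _ hr0 h0

end Pred

end CosetReps

end Fermat.Agent.Jac
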