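/-
Program J, node (J5)(a), concrete layer (helper15): the Hecke coset systems of `Γ₀(N)` inside
`GL₂(ℝ)` and their transfer operators on `Hom(Γ₀(N), M)`.
-/
import Mathlib
import Fermat.Prelude.Sol.S_ModularForm_heckeT_slash_eq_self_of_mem_Gamma0
import Fermat.Prelude.Def_ModularCurve_PeriodMap
import Fermat.Agent.Jac.Transfer

set_option autoImplicit false
set_option linter.style.haveILetI false
set_option linter.unusedSimpArgs false
set_option linter.unnecessarySeqFocus false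
set_option linter.unreachableTactic false
set_option linter.unusedTactic false
set_option linter.unusedSectionVars false

namespace Fermat.Agent.Jac

open Matrix.SpecialLinearGroup CongruenceSubgroup ModularForm
open scoped MatrixGroups
open P2MW.S_ModularForm_heckeT_slash_eq_self_of_mem_Gamma0.ModularForm.HeckeSlashInvariance

/-- the inclusion `Γ₀(N) → GL₂(ℝ)` -/
noncomputable def embG (N : ℕ) : Gamma0 N →* GL (Fin 2) ℝ := (mapGL ℝ).comp (Gamma0 N).subtype

@[simp] theorem embG_apply (N : ℕ) (γ : Gamma0 N) : embG N γ = mapGL ℝ (γ : SL(2, ℤ)) := rfl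

theorem embG_injective (N : ℕ) : Function.Injective (embG N) :=
  (mapGL_injective (R := ℤ) (S := ℝ)).comp Subtype.val_injective

theorem gamma0_dvd (N : ℕ) (γ : Gamma0 N) : (N : ℤ) ∣ (γ : SL(2, ℤ)) 1 0 :=
  (ZMod.intCast_zmod_eq_zero_iff_dvd _ _).mp (Gamma0_mem.mp γ.2)

section Distinct

variable {p : ℕ} (hp : p ≠ 0)
include hp

theorem heckeMatrix_ne_mul_heckeDiag (hp1 : p ≠ 1) (g : SL(2, ℤ)) (j : ℕ) :
    heckeMatrix p j ≠ mapGL ℝ g * heckeDiagMatrix p := by
  intro h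
  have h00 := congrArg (fun A : GL (Fin 2) ℝ => (A : Matrix (Fin 2) (Fin 2) ℝ) 0 0) h
  simp [hp, Matrix.mul_apply, Fin.sum_univ_two] at h00
  have h1 : (1 : ℤ) = g 0 0 * p := by exact_mod_cast h00
  have h2 : (p : ℤ) ∣ 1 := ⟨g 0 0, by linarith⟩
  have h3 : p ∣ 1 := by exact_mod_cast h2
  exact hp1 (Nat.dvd_one.mp h3)

theorem heckeDiag_ne_mul_heckeMatrix (hp1 : p ≠ 1) (g : SL(2, ℤ)) (j : ℕ) :
    heckeDiagMatrix p ≠ mapGL ℝ g * heckeMatrix p j := by
  intro h
  have h10 := congrArg (fun A : GL (Fin 2) ℝ => (A : Matrix (Fin 2) (Fin 2) ℝ) 1 0) h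
  have h11 := congrArg (fun A : GL (Fin 2) ℝ => (A : Matrix (Fin 2) (Fin 2) ℝ) 1 1) h
  simp [hp, Matrix.mul_apply, Fin.sum_univ_two] at h10 h11
  have h10' : g 1 0 = 0 := by exact_mod_cast h10.symm
  have h1 : (1 : ℤ) = g 1 0 * j + g 1 1 * p := by exact_mod_cast h11
  rw [h10', zero_mul, zero_add] at h1
  have h2 : (p : ℤ) ∣ 1 := ⟨g 1 1, by linarith⟩
  have h3 : p ∣ 1 := by exact_mod_cast h2
  exact hp1 (Nat.dvd_one.mp h3)

theorem natCast_eq_of_heckeMatrix_eq_mul (g : SL(2, ℤ)) (j j' : ℕ)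
    (h : heckeMatrix p j = mapGL ℝ g * heckeMatrix p j') : (j : ZMod p) = (j' : ZMod p) := by
  have h00 := congrArg (fun A : GL (Fin 2) ℝ => (A : Matrix (Fin 2) (Fin 2) ℝ) 0 0) h
  have h01 := congrArg (fun A : GL (Fin 2) ℝ => (A : Matrix (Fin 2) (Fin 2) ℝ) 0 1) h
  simp [hp, Matrix.mul_apply, Fin.sum_univ_two] at h00 h01
  have h00' : g 0 0 = 1 := by exact_mod_cast h00.symm
  have h1 : (j : ℤ) = g 0 0 * j' + g 0 1 * p := by exact_mod_cast h01
  rw [h00', one_mul] at h1
  have h2 := congrArg (Int.cast : ℤ → ZMod p) h1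
  push_cast at h2
  rw [h2]
  simp

end Distinct

/-- The coset system of `T_p`, `p ∤ N` prime: representatives `diag(p, 1)` (at `∞`) and
`[1, j; 0, p]` (at `j : ZMod p`) of `Γ₀(N) \ Γ₀(N) diag(p,1) Γ₀(N)`. -/
noncomputable def TReps (N : ℕ) {p : ℕ} (hp : p.Prime) (hpN : ¬ p ∣ N) :
    CosetReps (embG N) (OnePoint (ZMod p)) where
  rep := heckeRep p
  emb_injective := embG_injective N
  stable γ x := by
    haveI : Fact p.Prime := ⟨hp⟩
    obtain ⟨g', hg', h⟩ := heckeRep_mul hpN (γ : SL(2, ℤ)) (gamma0_dvd N γ) x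
    exact ⟨⟨g', Gamma0_mem.mpr ((ZMod.intCast_zmod_eq_zero_iff_dvd _ _).mpr hg')⟩, _, h⟩
  distinct x y γ h := by
    haveI : NeZero p := ⟨hp.ne_zero⟩
    rw [embG_apply] at h
    induction x using OnePoint.rec with
    | infty =>
      induction y using OnePoint.rec with
      | infty => rfl
      | coe j' => exact absurd h (heckeDiag_ne_mul_heckeMatrix hp.ne_zero hp.ne_one _ _)
    | coe j =>
      induction y using OnePoint.rec with
      | infty => exact absurd h (heckeMatrix_ne_mul_heckeDiag hp.ne_zero hp.ne_one _ _)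
      | coe j' =>
        have := natCast_eq_of_heckeMatrix_eq_mul hp.ne_zero _ _ _ h
        rw [ZMod.natCast_zmod_val, ZMod.natCast_zmod_val] at this
        rw [this]

@[simp] theorem TReps_rep (N : ℕ) {p : ℕ} (hp : p.Prime) (hpN : ¬ p ∣ N)
    (x : OnePoint (ZMod p)) : (TReps N hp hpN).rep x = heckeRep p x := rfl

/-- The coset system of `U_q`, `q ∣ N`: representatives `[1, j; 0, q]`, `j : ZMod q`, of
`Γ₀(N) \ Γ₀(N) diag(1,q) Γ₀(N)`. -/
noncomputable def UReps (N : ℕ) {q : ℕ} [NeZero q] (hqN : q ∣ N) :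
    CosetReps (embG N) (ZMod q) where
  rep j := heckeMatrix q j.val
  emb_injective := embG_injective N
  stable γ x := by
    have hc : (q : ℤ) ∣ (γ : SL(2, ℤ)) 1 0 :=
      (Int.natCast_dvd_natCast.mpr hqN).trans (gamma0_dvd N γ)
    obtain ⟨g', hg', h⟩ := heckeMatrix_mul_of_dvd (γ : SL(2, ℤ)) hc x
    refine ⟨⟨g', Gamma0_mem.mpr ((ZMod.intCast_zmod_eq_zero_iff_dvd _ _).mpr ?_)⟩, _, h⟩
    rw [hg']
    exact Dvd.dvd.mul_left (gamma0_dvd N γ) _
  distinct x y γ h := by
    rw [embG_apply] at h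
    have := natCast_eq_of_heckeMatrix_eq_mul (NeZero.ne q) _ _ _ h
    rwa [ZMod.natCast_zmod_val, ZMod.natCast_zmod_val] at this

@[simp] theorem UReps_rep (N : ℕ) {q : ℕ} [NeZero q] (hqN : q ∣ N) (j : ZMod q) :
    (UReps N hqN).rep j = heckeMatrix q j.val := rfl

section Fricke

variable (N : ℕ) [NeZero N]

/-- the Fricke matrix `w_N = [0, -1; N, 0]` -/
noncomputable def frickeGL : GL (Fin 2) ℝ :=
  Matrix.GeneralLinearGroup.mkOfDetNeZero !![0, -1; (N : ℝ), 0] (by
    rw [Matrix.det_fin_two_of]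
    have : (N : ℝ) ≠ 0 := by exact_mod_cast NeZero.ne N
    simpa using this)

@[simp] theorem val_frickeGL :
    ((frickeGL N : GL (Fin 2) ℝ) : Matrix (Fin 2) (Fin 2) ℝ) = !![0, -1; (N : ℝ), 0] := rfl

/-- the Fricke conjugate `[d, -c/N; -N b, a]` of `[a, b; c, d] ∈ Γ₀(N)` -/
def frickeSL (γ : Gamma0 N) : SL(2, ℤ) :=
  ⟨!![(γ : SL(2, ℤ)) 1 1, -((γ : SL(2, ℤ)) 1 0 / N); -(N * (γ : SL(2, ℤ)) 0 1),
      (γ : SL(2, ℤ)) 0 0], by
    obtain ⟨c, hc⟩ := gamma0_dvd N γ
    have hN : (N : ℤ) ≠ 0 := by exact_mod_cast NeZero.ne N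
    rw [Matrix.det_fin_two_of, hc, Int.mul_ediv_cancel_left _ hN]
    have := det_eq (γ : SL(2, ℤ))
    rw [hc] at this
    linear_combination this⟩

@[simp] theorem frickeSL_zero_zero (γ : Gamma0 N) :
    (frickeSL N γ) 0 0 = (γ : SL(2, ℤ)) 1 1 := rfl
@[simp] theorem frickeSL_zero_one (γ : Gamma0 N) :
    (frickeSL N γ) 0 1 = -((γ : SL(2, ℤ)) 1 0 / N) := rfl
@[simp] theorem frickeSL_one_zero (γ : Gamma0 N) :
    (frickeSL N γ) 1 0 = -(N * (γ : SL(2, ℤ)) 0 1) := rfl
@[simp] theorem frickeSL_one_one (γ : Gamma0 N) :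
    (frickeSL N γ) 1 1 = (γ : SL(2, ℤ)) 0 0 := rfl

theorem frickeSL_mem (γ : Gamma0 N) : frickeSL N γ ∈ Gamma0 N := by
  rw [Gamma0_mem]
  simp

/-- the Fricke conjugation as a map `Γ₀(N) → Γ₀(N)` -/
def frickeFun (γ : Gamma0 N) : Gamma0 N := ⟨frickeSL N γ, frickeSL_mem N γ⟩

theorem mapGL_frickeSL_mul (γ : Gamma0 N) :
    mapGL ℝ (frickeSL N γ) * frickeGL N = frickeGL N * mapGL ℝ (γ : SL(2, ℤ)) := by
  obtain ⟨c, hc⟩ := gamma0_dvd N γ
  have hN : (N : ℤ) ≠ 0 := by exact_mod_cast NeZero.ne N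
  ext i j
  fin_cases i <;> fin_cases j <;>
    simp [Matrix.mul_apply, Fin.sum_univ_two, hc, Int.mul_ediv_cancel_left _ hN]
  all_goals ring

theorem embG_frickeFun (γ : Gamma0 N) :
    embG N (frickeFun N γ) = frickeGL N * embG N γ * (frickeGL N)⁻¹ := by
  rw [embG_apply, embG_apply, ← mapGL_frickeSL_mul, mul_inv_cancel_right]
  rfl

theorem frickeFun_frickeFun (γ : Gamma0 N) : frickeFun N (frickeFun N γ) = γ := by
  apply embG_injective N
  rw [embG_frickeFun, embG_frickeFun]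
  have hsq : frickeGL N * frickeGL N * embG N γ = embG N γ * (frickeGL N * frickeGL N) := by
    ext i j
    fin_cases i <;> fin_cases j <;> simp [Matrix.mul_apply, Fin.sum_univ_two] <;> ring
  calc frickeGL N * (frickeGL N * embG N γ * (frickeGL N)⁻¹) * (frickeGL N)⁻¹
      = frickeGL N * frickeGL N * embG N γ * ((frickeGL N)⁻¹ * (frickeGL N)⁻¹) := by group
    _ = embG N γ * (frickeGL N * frickeGL N) * ((frickeGL N)⁻¹ * (frickeGL N)⁻¹) := by rw [hsq]
    _ = embG N γ := by group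

/-- the Fricke (Atkin–Lehner) involution of `Γ₀(N)`: conjugation by `w_N` -/
def frickeEquiv : Gamma0 N ≃* Gamma0 N where
  toFun := frickeFun N
  invFun := frickeFun N
  left_inv := frickeFun_frickeFun N
  right_inv := frickeFun_frickeFun N
  map_mul' γ γ' := by
    apply embG_injective N
    rw [map_mul, embG_frickeFun, embG_frickeFun, embG_frickeFun, map_mul]
    group

theorem embG_frickeEquiv (γ : Gamma0 N) :
    embG N (frickeEquiv N γ) = frickeGL N * embG N γ * (frickeGL N)⁻¹ := embG_frickeFun N γ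

@[simp] theorem frickeEquiv_frickeEquiv (γ : Gamma0 N) : frickeEquiv N (frickeEquiv N γ) = γ :=
  frickeFun_frickeFun N γ

@[simp] theorem frickeEquiv_symm : (frickeEquiv N).symm = frickeEquiv N := rfl

theorem coe_frickeEquiv_apply (γ : Gamma0 N) :
    ((frickeEquiv N γ : Gamma0 N) : SL(2, ℤ)) = frickeSL N γ := rfl

theorem trace_frickeEquiv (γ : Gamma0 N) :
    (((frickeEquiv N γ : Gamma0 N) : SL(2, ℤ)) : Matrix (Fin 2) (Fin 2) ℤ).trace =
      (((γ : Gamma0 N) : SL(2, ℤ)) : Matrix (Fin 2) (Fin 2) ℤ).trace := by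
  rw [coe_frickeEquiv_apply, Matrix.trace_fin_two, Matrix.trace_fin_two]
  simp [add_comm]

end Fricke

section MkSL

/-- an element of `SL(2, ℤ)` from its entries -/
def mkSL (a b c d : ℤ) (h : a * d - b * c = 1) : SL(2, ℤ) :=
  ⟨!![a, b; c, d], by rw [Matrix.det_fin_two_of]; exact h⟩

@[simp] theorem mkSL_zero_zero (a b c d : ℤ) (h : a * d - b * c = 1) :
    (mkSL a b c d h) 0 0 = a := rfl
@[simp] theorem mkSL_zero_one (a b c d : ℤ) (h : a * d - b * c = 1) :
    (mkSL a b c d h) 0 1 = b := rfl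
@[simp] theorem mkSL_one_zero (a b c d : ℤ) (h : a * d - b * c = 1) :
    (mkSL a b c d h) 1 0 = c := rfl
@[simp] theorem mkSL_one_one (a b c d : ℤ) (h : a * d - b * c = 1) :
    (mkSL a b c d h) 1 1 = d := rfl

theorem mkSL_mem_Gamma0 (N : ℕ) (a b c d : ℤ) (h : a * d - b * c = 1) (hc : (N : ℤ) ∣ c) :
    mkSL a b c d h ∈ Gamma0 N := by
  rw [Gamma0_mem, mkSL_one_zero]
  exact (ZMod.intCast_zmod_eq_zero_iff_dvd _ _).mpr hc

end MkSL

section GLHelpers

theorem val_mul_fin_two {A B : GL (Fin 2) ℝ} {a b c d a' b' c' d' : ℝ}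
    (hA : (A : Matrix (Fin 2) (Fin 2) ℝ) = !![a, b; c, d])
    (hB : (B : Matrix (Fin 2) (Fin 2) ℝ) = !![a', b'; c', d']) :
    ((A * B : GL (Fin 2) ℝ) : Matrix (Fin 2) (Fin 2) ℝ) =
      !![a * a' + b * c', a * b' + b * d'; c * a' + d * c', c * b' + d * d'] := by
  rw [Units.val_mul, hA, hB, Matrix.mul_fin_two]

theorem gl_ext_of_val {A B : GL (Fin 2) ℝ} {a b c d a' b' c' d' : ℝ}
    (hA : (A : Matrix (Fin 2) (Fin 2) ℝ) = !![a, b; c, d])
    (hB : (B : Matrix (Fin 2) (Fin 2) ℝ) = !![a', b'; c', d'])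
    (h1 : a = a') (h2 : b = b') (h3 : c = c') (h4 : d = d') : A = B :=
  Units.ext (by rw [hA, hB, h1, h2, h3, h4])

theorem val_mapGL (γ : SL(2, ℤ)) :
    ((mapGL ℝ γ : GL (Fin 2) ℝ) : Matrix (Fin 2) (Fin 2) ℝ) =
      !![((γ 0 0 : ℤ) : ℝ), ((γ 0 1 : ℤ) : ℝ); ((γ 1 0 : ℤ) : ℝ), ((γ 1 1 : ℤ) : ℝ)] := by
  ext i j
  fin_cases i <;> fin_cases j <;> simp

end GLHelpers

section Star

variable (N : ℕ) [NeZero N]

/-- The coset system of `U_q^* = w_N U_q w_N⁻¹`, `q ∣ N`: representatives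
`w_N [1, j; 0, q] w_N⁻¹ = [q, 0; -N j, 1]`, `j : ZMod q`, of
`Γ₀(N) \\ Γ₀(N) diag(q,1) Γ₀(N)`. -/
noncomputable def UStarReps {q : ℕ} [NeZero q] (hqN : q ∣ N) : CosetReps (embG N) (ZMod q) :=
  (UReps N hqN).conj (frickeEquiv N) (frickeGL N) (embG_frickeEquiv N)

theorem UStarReps_rep {q : ℕ} [NeZero q] (hqN : q ∣ N) (j : ZMod q) :
    (UStarReps N hqN).rep j = frickeGL N * heckeMatrix q j.val * (frickeGL N)⁻¹ := rfl

/-- the matrix `[q, 0; -N j, 1]` -/
noncomputable def starMatrix (q j : ℕ) [NeZero q] : GL (Fin 2) ℝ :=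
  Matrix.GeneralLinearGroup.mkOfDetNeZero !![(q : ℝ), 0; -((N : ℝ) * j), 1] (by
    rw [Matrix.det_fin_two_of]
    have : (q : ℝ) ≠ 0 := by exact_mod_cast NeZero.ne q
    simpa using this)

omit [NeZero N] in
@[simp] theorem val_starMatrix (q j : ℕ) [NeZero q] :
    ((starMatrix N q j : GL (Fin 2) ℝ) : Matrix (Fin 2) (Fin 2) ℝ) =
      !![(q : ℝ), 0; -((N : ℝ) * j), 1] := rfl

theorem UStarReps_rep_eq {q : ℕ} [NeZero q] (hqN : q ∣ N) (j : ZMod q) :
    (UStarReps N hqN).rep j = starMatrix N q j.val := by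
  rw [UStarReps_rep, mul_inv_eq_iff_eq_mul]
  refine gl_ext_of_val (val_mul_fin_two (val_frickeGL N) (val_heckeMatrix (NeZero.ne q) _))
    (val_mul_fin_two (val_starMatrix N q _) (val_frickeGL N)) ?_ ?_ ?_ ?_ <;> ring

/-- The conjugate `w_N T_p w_N⁻¹` of the coset system of `T_p`, `p ∤ N`. -/
noncomputable def TStarReps {p : ℕ} (hp : p.Prime) (hpN : ¬ p ∣ N) :
    CosetReps (embG N) (OnePoint (ZMod p)) :=
  (TReps N hp hpN).conj (frickeEquiv N) (frickeGL N) (embG_frickeEquiv N)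

theorem TStarReps_rep {p : ℕ} (hp : p.Prime) (hpN : ¬ p ∣ N) (x : OnePoint (ZMod p)) :
    (TStarReps N hp hpN).rep x = frickeGL N * heckeRep p x * (frickeGL N)⁻¹ := rfl

/-- `T_p` commutes with the Fricke involution, on the level of cosets: every
`w_N δ_x w_N⁻¹` lies in a coset `Γ₀(N) δ_y`. -/
theorem exists_TStarReps_rep_eq {p : ℕ} (hp : p.Prime) (hpN : ¬ p ∣ N) (x : OnePoint (ZMod p)) :
    ∃ (γ : Gamma0 N) (y : OnePoint (ZMod p)),
      (TStarReps N hp hpN).rep x = embG N γ * (TReps N hp hpN).rep y := by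
  haveI : Fact p.Prime := ⟨hp⟩
  have hp0 : p ≠ 0 := hp.ne_zero
  induction x using OnePoint.rec with
  | infty =>
    refine ⟨1, ((0 : ZMod p) : OnePoint (ZMod p)), ?_⟩
    rw [TStarReps_rep, map_one, one_mul, TReps_rep, mul_inv_eq_iff_eq_mul, heckeRep_infty,
      heckeRep_coe]
    refine gl_ext_of_val (val_mul_fin_two (val_frickeGL N) (val_heckeDiagMatrix hp0))
      (val_mul_fin_two (val_heckeMatrix hp0 _) (val_frickeGL N)) ?_ ?_ ?_ ?_ <;> simp <;> ring
  | coe j =>
    by_cases hj : j = 0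
    · subst hj
      refine ⟨1, OnePoint.infty, ?_⟩
      rw [TStarReps_rep, map_one, one_mul, TReps_rep, mul_inv_eq_iff_eq_mul, heckeRep_infty,
        heckeRep_coe]
      refine gl_ext_of_val (val_mul_fin_two (val_frickeGL N) (val_heckeMatrix hp0 _))
        (val_mul_fin_two (val_heckeDiagMatrix hp0) (val_frickeGL N)) ?_ ?_ ?_ ?_ <;> simp
    · -- `j' = -(N j)⁻¹`
      have hNp : (N : ZMod p) ≠ 0 := by
        rw [Ne, ZMod.natCast_eq_zero_iff]
        exact hpN
      set j' : ZMod p := -((N : ZMod p) * j)⁻¹ with hj'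
      have hdvd : (p : ℤ) ∣ (N : ℤ) * j.val * j'.val + 1 := by
        rw [← ZMod.intCast_zmod_eq_zero_iff_dvd]
        push_cast
        rw [ZMod.natCast_zmod_val, ZMod.natCast_zmod_val, hj', mul_neg,
          mul_inv_cancel₀ (mul_ne_zero hNp hj)]
        ring
      obtain ⟨t, ht⟩ := hdvd
      have hdet : (p : ℤ) * t - (-(j'.val : ℤ)) * (-((N : ℤ) * j.val)) = 1 := by
        linear_combination -ht
      refine ⟨⟨mkSL p (-(j'.val : ℤ)) (-((N : ℤ) * j.val)) t hdet,
        mkSL_mem_Gamma0 N _ _ _ _ hdet (Dvd.dvd.neg_right (dvd_mul_right _ _))⟩,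
        ((j' : ZMod p) : OnePoint (ZMod p)), ?_⟩
      rw [TStarReps_rep, TReps_rep, mul_inv_eq_iff_eq_mul, embG_apply, heckeRep_coe, heckeRep_coe]
      have ht' : ((N : ℝ) * (j.val : ℝ) * (j'.val : ℝ) + 1) = (p : ℝ) * (t : ℝ) := by
        exact_mod_cast ht
      refine gl_ext_of_val (val_mul_fin_two (val_frickeGL N) (val_heckeMatrix hp0 _))
        (val_mul_fin_two (val_mul_fin_two (val_mapGL _) (val_heckeMatrix hp0 _)) (val_frickeGL N))
        ?_ ?_ ?_ ?_
      · simp only [mkSL_zero_zero, mkSL_zero_one, mkSL_one_zero, mkSL_one_one]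
        push_cast
        ring
      · simp only [mkSL_zero_zero, mkSL_zero_one, mkSL_one_zero, mkSL_one_one]
        push_cast
        ring
      · simp only [mkSL_zero_zero, mkSL_zero_one, mkSL_one_zero, mkSL_one_one]
        push_cast
        linear_combination (N : ℝ) * ht'
      · simp only [mkSL_zero_zero, mkSL_zero_one, mkSL_one_zero, mkSL_one_one]
        push_cast
        ring

variable {M : Type*} [AddCommGroup M]

/-- **`T_p` commutes with the Fricke involution**: the transfer of the conjugated coset system is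
the transfer of `T_p`. -/
theorem transfer_TStarReps {p : ℕ} (hp : p.Prime) (hpN : ¬ p ∣ N) :
    haveI : NeZero p := ⟨hp.ne_zero⟩
    ((TStarReps N hp hpN).transfer : (Additive (Gamma0 N) →+ M) →+ _) =
      (TReps N hp hpN).transfer := by
  haveI : NeZero p := ⟨hp.ne_zero⟩
  choose g e h using exists_TStarReps_rep_eq N hp hpN
  exact (TReps N hp hpN).transfer_eq_of_reps' (TStarReps N hp hpN) e rfl g h

end Star

section Parabolic

open ModularCurve.Period

/-- Cayley–Hamilton for `2 × 2` matrices of determinant one -/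
theorem mul_self_of_det_eq_one (A : Matrix (Fin 2) (Fin 2) ℤ) (hdet : A.det = 1) :
    A * A = A.trace • A - 1 := by
  have hd : A 0 0 * A 1 1 - A 0 1 * A 1 0 = 1 := by rw [← Matrix.det_fin_two]; exact hdet
  ext i j
  rw [Matrix.sub_apply, Matrix.smul_apply, smul_eq_mul, Matrix.mul_apply, Fin.sum_univ_two,
    Matrix.trace_fin_two, Matrix.one_apply]
  fin_cases i <;> fin_cases j <;> simp <;>
    first
      | ring1
      | linear_combination -hd
      | linear_combination hd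

/-- the class `trace ^ 2 = 4` (parabolic elements and `± 1`) is stable under powers -/
theorem trace_pow_sq_eq_four (A : Matrix (Fin 2) (Fin 2) ℤ) (hdet : A.det = 1)
    (ht : A.trace ^ 2 = 4) (r : ℕ) : (A ^ r).trace ^ 2 = 4 := by
  obtain ⟨ε, hε, htε⟩ : ∃ ε : ℤ, ε ^ 2 = 1 ∧ A.trace = 2 * ε := by
    have h0 : (A.trace - 2) * (A.trace + 2) = 0 := by linear_combination ht
    rcases mul_eq_zero.mp h0 with h | h
    · exact ⟨1, by norm_num, by linarith⟩
    · exact ⟨-1, by norm_num, by linarith⟩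
  have hrec : ∀ r : ℕ, (A ^ (r + 2)).trace = A.trace * (A ^ (r + 1)).trace - (A ^ r).trace := by
    intro r
    have h1 : A ^ (r + 2) = A.trace • A ^ (r + 1) - A ^ r := by
      rw [pow_add, pow_two, mul_self_of_det_eq_one A hdet, mul_sub, mul_one,
        Matrix.mul_smul, ← pow_succ]
    rw [h1, Matrix.trace_sub, Matrix.trace_smul, smul_eq_mul]
  have key : ∀ r : ℕ, (A ^ r).trace = 2 * ε ^ r ∧ (A ^ (r + 1)).trace = 2 * ε ^ (r + 1) := by
    intro r
    induction r with
    | zero =>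
      refine ⟨?_, ?_⟩
      · simp [Matrix.trace_fin_two]
      · simpa using htε
    | succ r ih =>
      refine ⟨ih.2, ?_⟩
      rw [hrec r, ih.1, ih.2, htε]
      linear_combination (2 * ε ^ r) * hε
  rw [(key r).1]
  have h2 : (ε ^ r) ^ 2 = 1 := by rw [← pow_mul, mul_comm, pow_mul, hε, one_pow]
  linear_combination 4 * h2

variable {N : ℕ} {ι : Type*} [Fintype ι]

/-- **The transfer operators preserve parabolic homomorphisms** (torsion free coefficients). -/
theorem transfer_mem_parabolicHoms (D : CosetReps (embG N) ι) (R : Type*) [Semiring R]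
    {M : Type*} [AddCommGroup M] [Module R M]
    (htf : ∀ (n : ℕ) (x : M), n ≠ 0 → n • x = 0 → x = 0)
    {φ : Additive (Gamma0 N) →+ M} (hφ : φ ∈ parabolicHoms R (Gamma0 N) M) :
    D.transfer φ ∈ parabolicHoms R (Gamma0 N) M := by
  rw [mem_parabolicHoms_iff] at hφ ⊢
  intro γ hγ
  refine D.transfer_apply_eq_zero_of_pred htf
    (fun γ : Gamma0 N => ((γ : SL(2, ℤ)) : Matrix (Fin 2) (Fin 2) ℤ).trace ^ 2 = 4)
    ?_ ?_ φ (fun γ h => hφ γ h) γ hγ
  · intro γ h r
    have : (((γ ^ r : Gamma0 N) : SL(2, ℤ)) : Matrix (Fin 2) (Fin 2) ℤ) =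
        ((γ : SL(2, ℤ)) : Matrix (Fin 2) (Fin 2) ℤ) ^ r := by
      rw [Subgroup.coe_pow, Matrix.SpecialLinearGroup.coe_pow]
    rw [this]
    exact trace_pow_sq_eq_four _ (γ : SL(2, ℤ)).det_coe h r
  · intro γ c g h hc
    have h1 : ((embG N c : GL (Fin 2) ℝ) : Matrix (Fin 2) (Fin 2) ℝ).trace =
        ((embG N γ : GL (Fin 2) ℝ) : Matrix (Fin 2) (Fin 2) ℝ).trace := by
      rw [hc, Units.val_mul, Units.val_mul, Matrix.trace_units_conj]
    rw [embG_apply, embG_apply, val_mapGL, val_mapGL, Matrix.trace_fin_two_of,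
      Matrix.trace_fin_two_of] at h1
    have h2 : ((c : SL(2, ℤ)) : Matrix (Fin 2) (Fin 2) ℤ).trace =
        ((γ : SL(2, ℤ)) : Matrix (Fin 2) (Fin 2) ℤ).trace := by
      rw [Matrix.trace_fin_two, Matrix.trace_fin_two]
      exact_mod_cast h1
    show ((c : SL(2, ℤ)) : Matrix (Fin 2) (Fin 2) ℤ).trace ^ 2 = 4
    rw [h2]
    exact h

end Parabolic

section Unified

open ModularCurve.Period

variable (N : ℕ) [NeZero N]

/-- The Hecke transfer operator on `Hom(Γ₀(N), M)` attached to the double coset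
`Γ₀(N) diag(l,1) Γ₀(N)`: `T_l` for `l ∤ N` (representatives `diag(l,1)`, `[1,j;0,l]`), and
`U_l^* = w_N U_l w_N⁻¹` for `l ∣ N` (representatives `[l,0;-N j,1]`). This is the operator matching
the Prelude's `heckeOperatorAlong`. -/
noncomputable def heckeTransfer (l : Nat.Primes) (M : Type*) [AddCommGroup M] :
    (Additive (Gamma0 N) →+ M) →+ (Additive (Gamma0 N) →+ M) :=
  haveI : NeZero (l : ℕ) := ⟨l.2.ne_zero⟩
  if h : (l : ℕ) ∣ N then (UStarReps N h).transfer else (TReps N l.2 h).transfer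

/-- The classical Hecke transfer operator: `T_l` for `l ∤ N`, `U_l` for `l ∣ N` (representatives
`[1,j;0,l]`). -/
noncomputable def heckeTransferClassical (l : Nat.Primes) (M : Type*) [AddCommGroup M] :
    (Additive (Gamma0 N) →+ M) →+ (Additive (Gamma0 N) →+ M) :=
  haveI : NeZero (l : ℕ) := ⟨l.2.ne_zero⟩
  if h : (l : ℕ) ∣ N then (UReps N h).transfer else (TReps N l.2 h).transfer

variable {N}

theorem heckeTransfer_of_dvd {l : Nat.Primes} (M : Type*) [AddCommGroup M] (h : (l : ℕ) ∣ N) :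
    heckeTransfer N l M =
      (haveI : NeZero (l : ℕ) := ⟨l.2.ne_zero⟩; (UStarReps N h).transfer) := dif_pos h

theorem heckeTransfer_of_not_dvd {l : Nat.Primes} (M : Type*) [AddCommGroup M]
    (h : ¬ (l : ℕ) ∣ N) :
    heckeTransfer N l M =
      (haveI : NeZero (l : ℕ) := ⟨l.2.ne_zero⟩; (TReps N l.2 h).transfer) := dif_neg h

theorem heckeTransferClassical_of_dvd {l : Nat.Primes} (M : Type*) [AddCommGroup M]
    (h : (l : ℕ) ∣ N) :
    heckeTransferClassical N l M =
      (haveI : NeZero (l : ℕ) := ⟨l.2.ne_zero⟩; (UReps N h).transfer) := dif_pos h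

theorem heckeTransferClassical_of_not_dvd {l : Nat.Primes} (M : Type*) [AddCommGroup M]
    (h : ¬ (l : ℕ) ∣ N) :
    heckeTransferClassical N l M =
      (haveI : NeZero (l : ℕ) := ⟨l.2.ne_zero⟩; (TReps N l.2 h).transfer) := dif_neg h

variable (N)

/-- naturality of `heckeTransfer` in the coefficients -/
theorem heckeTransfer_comp (l : Nat.Primes) {M M' : Type*} [AddCommGroup M] [AddCommGroup M']
    (f : M →+ M') (φ : Additive (Gamma0 N) →+ M) :
    heckeTransfer N l M' (f.comp φ) = f.comp (heckeTransfer N l M φ) := by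
  haveI : NeZero (l : ℕ) := ⟨l.2.ne_zero⟩
  by_cases h : (l : ℕ) ∣ N
  · rw [heckeTransfer_of_dvd M h, heckeTransfer_of_dvd M' h]
    exact CosetReps.transfer_comp _ f φ
  · rw [heckeTransfer_of_not_dvd M h, heckeTransfer_of_not_dvd M' h]
    exact CosetReps.transfer_comp _ f φ

theorem heckeTransfer_smul (l : Nat.Primes) {R M : Type*} [AddCommGroup M] [Monoid R]
    [DistribMulAction R M] (r : R) (φ : Additive (Gamma0 N) →+ M) :
    heckeTransfer N l M (r • φ) = r • heckeTransfer N l M φ := by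
  haveI : NeZero (l : ℕ) := ⟨l.2.ne_zero⟩
  by_cases h : (l : ℕ) ∣ N
  · rw [heckeTransfer_of_dvd M h]
    exact CosetReps.transfer_smul _ r φ
  · rw [heckeTransfer_of_not_dvd M h]
    exact CosetReps.transfer_smul _ r φ

/-- `heckeTransfer` preserves parabolic homomorphisms (torsion free coefficients). -/
theorem heckeTransfer_mem_parabolicHoms (l : Nat.Primes) (R : Type*) [Semiring R] {M : Type*}
    [AddCommGroup M] [Module R M] (htf : ∀ (n : ℕ) (x : M), n ≠ 0 → n • x = 0 → x = 0)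
    {φ : Additive (Gamma0 N) →+ M} (hφ : φ ∈ parabolicHoms R (Gamma0 N) M) :
    heckeTransfer N l M φ ∈ parabolicHoms R (Gamma0 N) M := by
  haveI : NeZero (l : ℕ) := ⟨l.2.ne_zero⟩
  by_cases h : (l : ℕ) ∣ N
  · rw [heckeTransfer_of_dvd M h]
    exact transfer_mem_parabolicHoms _ R htf hφ
  · rw [heckeTransfer_of_not_dvd M h]
    exact transfer_mem_parabolicHoms _ R htf hφ

/-- **Fricke twist**: composing with the Fricke involution of `Γ₀(N)` intertwines the classical
operators `T_l`, `U_l` with the operators `T_l`, `U_l^*` of `heckeTransfer`. -/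
theorem heckeTransfer_comp_fricke (l : Nat.Primes) {M : Type*} [AddCommGroup M]
    (φ : Additive (Gamma0 N) →+ M) :
    heckeTransfer N l M (φ.comp (MonoidHom.toAdditive (frickeEquiv N).toMonoidHom)) =
      (heckeTransferClassical N l M φ).comp (MonoidHom.toAdditive (frickeEquiv N).toMonoidHom) := by
  haveI : NeZero (l : ℕ) := ⟨l.2.ne_zero⟩
  have key : ∀ {ι : Type} [Fintype ι] (D : CosetReps (embG N) ι),
      (D.conj (frickeEquiv N) (frickeGL N) (embG_frickeEquiv N)).transfer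
          (φ.comp (MonoidHom.toAdditive (frickeEquiv N).toMonoidHom)) =
        (D.transfer φ).comp (MonoidHom.toAdditive (frickeEquiv N).toMonoidHom) := by
    intro ι _ D
    refine AddMonoidHom.ext fun γ' => ?_
    obtain ⟨γ, rfl⟩ := Additive.ofMul.surjective γ'
    have h1 := D.transfer_conj (frickeEquiv N) (frickeGL N) (embG_frickeEquiv N)
      (φ.comp (MonoidHom.toAdditive (frickeEquiv N).toMonoidHom)) (frickeEquiv N γ)
    rw [frickeEquiv_frickeEquiv] at h1
    rw [h1]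
    have h2 : (φ.comp (MonoidHom.toAdditive (frickeEquiv N).toMonoidHom)).comp
        (MonoidHom.toAdditive (frickeEquiv N).toMonoidHom) = φ := by
      refine AddMonoidHom.ext fun δ' => ?_
      obtain ⟨δ, rfl⟩ := Additive.ofMul.surjective δ'
      show φ (Additive.ofMul (frickeEquiv N (frickeEquiv N δ))) = φ (Additive.ofMul δ)
      rw [frickeEquiv_frickeEquiv]
    rw [h2]
    rfl
  by_cases h : (l : ℕ) ∣ N
  · rw [heckeTransfer_of_dvd M h, heckeTransferClassical_of_dvd M h]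
    exact key (UReps N h)
  · rw [heckeTransfer_of_not_dvd M h, heckeTransferClassical_of_not_dvd M h]
    have e : ((TReps N l.2 h).transfer : (Additive (Gamma0 N) →+ M) →+ _) =
        (TStarReps N l.2 h).transfer := (transfer_TStarReps N l.2 h).symm
    conv_lhs => rw [e]
    exact key (TReps N l.2 h)

/-- the lattice `Λ = Hom_par(Γ₀(N), ℤ)` -/
abbrev Lam : Submodule ℤ (Additive (Gamma0 N) →+ ℤ) := parabolicHoms ℤ (Gamma0 N) ℤ

theorem int_torsionFree (n : ℕ) (x : ℤ) (hn : n ≠ 0) (h : n • x = 0) : x = 0 := by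
  rcases smul_eq_zero.mp h with h | h
  · exact absurd h hn
  · exact h

theorem complex_torsionFree (n : ℕ) (x : ℂ) (hn : n ≠ 0) (h : n • x = 0) : x = 0 := by
  rcases smul_eq_zero.mp h with h | h
  · exact absurd h hn
  · exact h

/-- the Hecke operator `T_l` (`U_l^*` for `l ∣ N`) on the lattice `Λ` -/
noncomputable def TLam (l : Nat.Primes) : Lam N →ₗ[ℤ] Lam N :=
  (heckeTransfer N l ℤ).toIntLinearMap.restrict
    (fun _ hφ => heckeTransfer_mem_parabolicHoms N l ℤ int_torsionFree hφ)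

@[simp] theorem coe_TLam_apply (l : Nat.Primes) (lam : Lam N) :
    ((TLam N l lam : Lam N) : Additive (Gamma0 N) →+ ℤ) = heckeTransfer N l ℤ lam := rfl

end Unified

end Fermat.Agent.Jac
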