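import Mathlib
import Fermat.Agent.Jac.AlgebraicityCore

/-!
# Program J, node (J4), analytic half, part 1: composition with Möbius transformations

For `g : GL (Fin 2) ℝ` of positive determinant, `z ↦ g • z` is a holomorphic automorphism of `ℍ`;
composition with it is a ring endomorphism of the ring `HolH` of holomorphic functions, which
extends to the field `MerH` of meromorphic functions.

* `holComp g : HolH →+* HolH`, `merComp g : MerH →+* MerH` (the identity if `det g ≤ 0`);
  **right action convention**: `(holComp g f)(z) = f (g • z)`, hence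
  `merComp (g * h) = (merComp h).comp (merComp g)`;
* `merComp_algebraMap`, `merComp_constMer`, `merComp_one`, `merComp_mul`, `merComp_inv_cancel`;
* `ratGL` : the subgroup of `GL (Fin 2) ℝ` of matrices with rational entries, and
  `isCusp_smul_of_mem_ratGL` : it preserves the cusps of `SL(2, ℤ)`;
* `isBoundedAtImInfty_slash_slash_of_mem_ratGL` : if `f ∣[k] σ` is bounded at `i∞` for all
  `σ ∈ SL(2, ℤ)` then so is `(f ∣[k] g) ∣[k] σ` for rational `g`.
-/

set_option autoImplicit false

open UpperHalfPlane ModularForm Matrix.SpecialLinearGroup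
open scoped MatrixGroups ModularForm Manifold

noncomputable section

namespace Fermat.Agent.Jac

open Fermat.Agent.X0

/-! ### Composition on holomorphic functions -/

/-- Composition of a holomorphic function with `z ↦ g • z`, `det g > 0` (the identity if
`det g ≤ 0`). -/
def holComp (g : GL (Fin 2) ℝ) : HolH →+* HolH :=
  if hg : 0 < g.det.val then
    { toFun := fun f => ⟨fun z => (f : ℍ → ℂ) (g • z), f.2.comp (mdifferentiable_smul hg)⟩
      map_one' := rfl
      map_mul' := fun _ _ => rfl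
      map_zero' := rfl
      map_add' := fun _ _ => rfl }
  else RingHom.id _

theorem coe_holComp {g : GL (Fin 2) ℝ} (hg : 0 < g.det.val) (f : HolH) (z : ℍ) :
    (holComp g f : ℍ → ℂ) z = (f : ℍ → ℂ) (g • z) := by
  rw [holComp, dif_pos hg]
  rfl

theorem holComp_one : holComp 1 = RingHom.id HolH := by
  have h1 : 0 < (1 : GL (Fin 2) ℝ).det.val := by simp
  ext f z
  rw [coe_holComp h1, one_smul]
  rfl

theorem det_mul_pos {g h : GL (Fin 2) ℝ} (hg : 0 < g.det.val) (hh : 0 < h.det.val) :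
    0 < (g * h).det.val := by
  rw [map_mul, Units.val_mul]
  exact mul_pos hg hh

theorem det_inv_pos {g : GL (Fin 2) ℝ} (hg : 0 < g.det.val) : 0 < (g⁻¹).det.val := by
  rw [map_inv, Units.val_inv_eq_inv_val]
  exact inv_pos.mpr hg

theorem holComp_mul {g h : GL (Fin 2) ℝ} (hg : 0 < g.det.val) (hh : 0 < h.det.val) :
    holComp (g * h) = (holComp h).comp (holComp g) := by
  ext f z
  rw [coe_holComp (det_mul_pos hg hh), RingHom.comp_apply, coe_holComp hh, coe_holComp hg, mul_smul]

theorem holComp_constHol (g : GL (Fin 2) ℝ) (c : ℂ) : holComp g (constHol c) = constHol c := by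
  by_cases hg : 0 < g.det.val
  · ext z
    rw [coe_holComp hg]
    rfl
  · rw [holComp, dif_neg hg]
    rfl

theorem holComp_injective (g : GL (Fin 2) ℝ) : Function.Injective (holComp g) := by
  by_cases hg : 0 < g.det.val
  · intro a b hab
    ext z
    have h := congrArg (fun f : HolH => (f : ℍ → ℂ) (g⁻¹ • z)) hab
    simp only [coe_holComp hg] at h
    rwa [smul_inv_smul] at h
  · rw [holComp, dif_neg hg]
    exact Function.injective_id

/-! ### Composition on meromorphic functions -/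

/-- Composition of a meromorphic function with `z ↦ g • z`, `det g > 0`. -/
def merComp (g : GL (Fin 2) ℝ) : MerH →+* MerH :=
  IsFractionRing.lift (A := HolH) (K := MerH) (g := (algebraMap HolH MerH).comp (holComp g))
    ((IsFractionRing.injective HolH MerH).comp (holComp_injective g))

@[simp] theorem merComp_algebraMap (g : GL (Fin 2) ℝ) (f : HolH) :
    merComp g (algebraMap HolH MerH f) = algebraMap HolH MerH (holComp g f) :=
  IsFractionRing.lift_algebraMap _ f

theorem merComp_ext {φ ψ : MerH →+* MerH}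
    (h : ∀ f : HolH, φ (algebraMap HolH MerH f) = ψ (algebraMap HolH MerH f)) : φ = ψ :=
  IsLocalization.ringHom_ext (nonZeroDivisors HolH) (RingHom.ext h)

theorem merComp_one : merComp 1 = RingHom.id MerH :=
  merComp_ext fun f => by rw [merComp_algebraMap, holComp_one]; rfl

theorem merComp_mul {g h : GL (Fin 2) ℝ} (hg : 0 < g.det.val) (hh : 0 < h.det.val) :
    merComp (g * h) = (merComp h).comp (merComp g) :=
  merComp_ext fun f => by
    rw [merComp_algebraMap, holComp_mul hg hh, RingHom.comp_apply, RingHom.comp_apply,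
      merComp_algebraMap, merComp_algebraMap]

theorem merComp_mul_apply {g h : GL (Fin 2) ℝ} (hg : 0 < g.det.val) (hh : 0 < h.det.val)
    (G : MerH) : merComp (g * h) G = merComp h (merComp g G) := by
  rw [merComp_mul hg hh]
  rfl

@[simp] theorem merComp_constMer (g : GL (Fin 2) ℝ) (c : ℂ) :
    merComp g (constMer c) = constMer c := by
  rw [constMer, RingHom.comp_apply, merComp_algebraMap, holComp_constHol]

theorem merComp_inv_cancel {g : GL (Fin 2) ℝ} (hg : 0 < g.det.val) (G : MerH) :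
    merComp g⁻¹ (merComp g G) = G := by
  rw [← merComp_mul_apply hg (det_inv_pos hg), mul_inv_cancel, merComp_one]
  rfl

theorem merComp_cancel_inv {g : GL (Fin 2) ℝ} (hg : 0 < g.det.val) (G : MerH) :
    merComp g (merComp g⁻¹ G) = G := by
  rw [← merComp_mul_apply (det_inv_pos hg) hg, inv_mul_cancel, merComp_one]
  rfl

theorem merComp_injective (g : GL (Fin 2) ℝ) : Function.Injective (merComp g) :=
  (merComp g).injective

theorem merComp_ne_zero (g : GL (Fin 2) ℝ) {G : MerH} (hG : G ≠ 0) : merComp g G ≠ 0 :=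
  (map_ne_zero (merComp g)).mpr hG

/-- `SL(2, ℤ)` has positive determinant in `GL (Fin 2) ℝ`. -/
theorem det_mapGL_pos (γ : SL(2, ℤ)) : 0 < (mapGL ℝ γ : GL (Fin 2) ℝ).det.val := by
  simp

/-! ### Rational matrices and cusps -/

/-- The subgroup of `GL (Fin 2) ℝ` of matrices with rational entries. -/
def ratGL : Subgroup (GL (Fin 2) ℝ) := (Matrix.GeneralLinearGroup.map (Rat.castHom ℝ)).range

theorem mem_ratGL_iff {g : GL (Fin 2) ℝ} :
    g ∈ ratGL ↔ ∃ q : GL (Fin 2) ℚ, q.map (Rat.castHom ℝ) = g := Iff.rfl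

/-- A matrix in `GL (Fin 2) ℝ` whose entries are rational is in `ratGL`. -/
theorem mem_ratGL_of_val {g : GL (Fin 2) ℝ} (M : Matrix (Fin 2) (Fin 2) ℚ)
    (h : (g : Matrix (Fin 2) (Fin 2) ℝ) = M.map (Rat.castHom ℝ)) : g ∈ ratGL := by
  have hdet : M.det ≠ 0 := by
    intro h0
    have h1 : (g : Matrix (Fin 2) (Fin 2) ℝ).det = 0 := by
      rw [h, ← RingHom.mapMatrix_apply, ← RingHom.map_det, h0, map_zero]
    exact g.det_ne_zero h1
  refine ⟨Matrix.GeneralLinearGroup.mkOfDetNeZero M hdet, ?_⟩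
  apply Units.ext
  rw [h]
  rfl

theorem mapGL_mem_ratGL (γ : SL(2, ℤ)) : (mapGL ℝ γ : GL (Fin 2) ℝ) ∈ ratGL := by
  refine mem_ratGL_of_val ((γ : Matrix (Fin 2) (Fin 2) ℤ).map (Int.castRingHom ℚ)) ?_
  ext i j
  simp

/-- Rational matrices preserve the cusps of `SL(2, ℤ)`. -/
theorem isCusp_smul_of_mem_ratGL {g : GL (Fin 2) ℝ} (hg : g ∈ ratGL) {c : OnePoint ℝ}
    (hc : IsCusp c 𝒮ℒ) : IsCusp (g • c) 𝒮ℒ := by
  obtain ⟨q, rfl⟩ := hg
  rw [isCusp_SL2Z_iff] at hc ⊢
  obtain ⟨c', rfl⟩ := hc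
  refine ⟨q • c', ?_⟩
  rw [← Rat.coe_castHom, OnePoint.map_smul]

/-- If `f ∣[k] σ` is bounded at `i∞` for every `σ ∈ SL(2, ℤ)` then `f` is bounded at every cusp
of `SL(2, ℤ)`. -/
theorem isBoundedAt_of_forall_SL2Z {f : ℍ → ℂ} {k : ℤ}
    (hf : ∀ σ : SL(2, ℤ), IsBoundedAtImInfty (f ∣[k] σ)) {c : OnePoint ℝ} (hc : IsCusp c 𝒮ℒ) :
    c.IsBoundedAt f k :=
  (OnePoint.isBoundedAt_iff_forall_SL2Z hc).mpr fun σ _ => hf σ

/-- Boundedness at all cusps is preserved by the slash action of rational matrices. -/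
theorem isBoundedAtImInfty_slash_slash_of_mem_ratGL {f : ℍ → ℂ} {k : ℤ}
    (hf : ∀ σ : SL(2, ℤ), IsBoundedAtImInfty (f ∣[k] σ)) {g : GL (Fin 2) ℝ} (hg : g ∈ ratGL)
    (σ : SL(2, ℤ)) : IsBoundedAtImInfty ((f ∣[k] g) ∣[k] σ) := by
  have hc : IsCusp ((g * mapGL ℝ σ) • (OnePoint.infty : OnePoint ℝ)) 𝒮ℒ := by
    rw [mul_smul]
    exact isCusp_smul_of_mem_ratGL hg (isCusp_SL2Z_iff'.mpr ⟨σ, rfl⟩)
  have h := isBoundedAt_of_forall_SL2Z hf hc (g * mapGL ℝ σ) rfl
  rwa [SlashAction.slash_mul] at h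

end Fermat.Agent.Jac
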