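import Mathlib
import Fermat.Agent.Jac.MerComp
import Fermat.Agent.Jac.AlgebraicityChar
import Fermat.Agent.Jac.HeckeReps

/-!
# Program J, node (J4), analytic half, part 2: the Hecke product of a multiplicative function

Let `D : CosetReps (embG N) ι` be a finite system of representatives `δ_i ∈ GL₂(ℝ)` of left cosets
`Γ₀(N) δ_i` stable under right multiplication by `Γ₀(N)` (`δ_i γ = γ_i δ_{σ i}`), with all `δ_i`
rational of positive determinant (`D.IsRatPos`).

* `CharForm.heckeProd hD A : CharForm N (k * card ι) (D.transferMul χ)` : the product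
  `∏ i, A ∣[k] δ_i` of the translates of a form with character `χ` is a form with character the
  transfer of `χ`;
* `heckeProdMer D : MerH →* MerH`, `G ↦ ∏ i, G ∘ δ_i` : the operator `H` of
  `KummerData.HeckeData`;
* `heckeProdMer_mer_div` : `H (A / B) = heckeProd A / heckeProd B`;
* `IsCharRatio.heckeProdMer` : `H` preserves quotients of forms with characters of finite order;
* `merComp_heckeProdMer` : if `G ∘ γ = χ γ • G` for `γ ∈ Γ₀(N)` then
  `H G ∘ γ = transferMul χ γ • H G`; `merComp_inv_heckeProdMer` : the same for the left action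
  `γ • G := G ∘ γ⁻¹`.
* the concrete systems `TReps`, `UReps`, `UStarReps`, `TStarReps` of `Jac/HeckeReps.lean` are
  `IsRatPos`.
-/

set_option autoImplicit false
set_option linter.unusedSectionVars false

open UpperHalfPlane ModularForm CongruenceSubgroup Matrix.SpecialLinearGroup
open scoped MatrixGroups ModularForm Manifold

noncomputable section

namespace Fermat.Agent.Jac

open Fermat.Agent.X0

/-! ### Finite products of functions on `ℍ` -/

theorem mdifferentiable_finset_prod {ι : Type*} (s : Finset ι) (f : ι → ℍ → ℂ)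
    (h : ∀ i ∈ s, MDiff (f i)) : MDiff (∏ i ∈ s, f i) := by
  classical
  induction s using Finset.induction_on with
  | empty =>
    rw [Finset.prod_empty]
    exact mdifferentiable_const
  | insert a t ha ih =>
    rw [Finset.prod_insert ha]
    exact (h a (Finset.mem_insert_self a t)).mul
      (ih fun i hi => h i (Finset.mem_insert_of_mem hi))

theorem isBoundedAtImInfty_finset_prod {ι : Type*} (s : Finset ι) (f : ι → ℍ → ℂ)
    (h : ∀ i ∈ s, IsBoundedAtImInfty (f i)) : IsBoundedAtImInfty (∏ i ∈ s, f i) := by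
  classical
  induction s using Finset.induction_on with
  | empty =>
    rw [Finset.prod_empty]
    exact Filter.const_boundedAtFilter _ (1 : ℂ)
  | insert a t ha ih =>
    rw [Finset.prod_insert ha]
    exact (h a (Finset.mem_insert_self a t)).mul
      (ih fun i hi => h i (Finset.mem_insert_of_mem hi))

/-- The slash action of `SL(2, ℤ)` on a finite product. -/
theorem finset_prod_slash_SL2 {ι : Type*} (s : Finset ι) (f : ι → ℍ → ℂ) (k : ℤ)
    (γ : SL(2, ℤ)) : (∏ i ∈ s, f i) ∣[k * s.card] γ = ∏ i ∈ s, f i ∣[k] γ := by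
  rw [SL_slash, ModularForm.prod_slash]
  simp [SL_slash]

/-- The slash action by a matrix of positive determinant commutes with scalars. -/
theorem smul_slash_of_det_pos {g : GL (Fin 2) ℝ} (hg : 0 < g.det.val) (k : ℤ) (f : ℍ → ℂ)
    (c : ℂ) : (c • f) ∣[k] g = c • f ∣[k] g := by
  rw [ModularForm.smul_slash, UpperHalfPlane.σ, if_pos hg]
  rfl

/-! ### Rational coset systems of positive determinant -/

section Abstract

variable {N : ℕ} {ι : Type*} [Fintype ι]

/-- All representatives of the coset system are rational of positive determinant. -/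
structure CosetReps.IsRatPos (D : CosetReps (embG N) ι) : Prop where
  pos : ∀ i, 0 < (D.rep i).det.val
  rat : ∀ i, D.rep i ∈ ratGL

variable {D : CosetReps (embG N) ι} {k k' : ℤ} {χ χ' : ↥(Gamma0 N) →* ℂˣ}

/-- The basic relation: `(A ∣ δ_i) ∣ γ = χ (γ_i) • A ∣ δ_{σ i}`. -/
theorem CharForm.slash_rep_slash (hD : D.IsRatPos) (A : CharForm N k χ) (γ : ↥(Gamma0 N))
    (i : ι) :
    ((A : ℍ → ℂ) ∣[k] D.rep i) ∣[k] (γ : SL(2, ℤ)) =
      ((χ (D.coc γ i) : ℂˣ) : ℂ) • ((A : ℍ → ℂ) ∣[k] D.rep (D.next γ i)) := by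
  have h1 : ((A : ℍ → ℂ) ∣[k] D.rep i) ∣[k] (γ : SL(2, ℤ)) =
      (A : ℍ → ℂ) ∣[k] (D.rep i * embG N γ) := by
    rw [SL_slash, SlashAction.slash_mul]
    rfl
  rw [h1, D.rel γ i, SlashAction.slash_mul]
  have h2 : (A : ℍ → ℂ) ∣[k] embG N (D.coc γ i) =
      ((χ (D.coc γ i) : ℂˣ) : ℂ) • (A : ℍ → ℂ) := A.slash (D.coc γ i)
  rw [h2, smul_slash_of_det_pos (hD.pos _)]

/-- **The Hecke product of a form with character**: `∏ i, A ∣[k] δ_i` is a form of weight
`k * card ι` with character the transfer of `χ`. -/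
def CharForm.heckeProd (hD : D.IsRatPos) (A : CharForm N k χ) :
    CharForm N (k * (Finset.univ : Finset ι).card) (D.transferMul χ) where
  toFun := ∏ i, (A : ℍ → ℂ) ∣[k] D.rep i
  holo' := mdifferentiable_finset_prod _ _ fun i _ => A.holo.slash k (D.rep i)
  slash' γ := by
    rw [finset_prod_slash_SL2]
    simp_rw [A.slash_rep_slash hD γ]
    rw [Finset.prod_smul, CosetReps.transferMul_apply, Units.coe_prod]
    congr 1
    exact Equiv.prod_comp (D.nextEquiv γ) (fun i => (A : ℍ → ℂ) ∣[k] D.rep i)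
  bdd' σ := by
    rw [finset_prod_slash_SL2]
    exact isBoundedAtImInfty_finset_prod _ _ fun i _ =>
      isBoundedAtImInfty_slash_slash_of_mem_ratGL A.bdd (hD.rat i) σ

theorem CharForm.heckeProd_apply (hD : D.IsRatPos) (A : CharForm N k χ) (z : ℍ) :
    A.heckeProd hD z = ∏ i, ((A : ℍ → ℂ) ∣[k] D.rep i) z := by
  show (∏ i, (A : ℍ → ℂ) ∣[k] D.rep i) z = _
  rw [Finset.prod_apply]

/-- The translate `A ∣[k] g` as a holomorphic function. -/
def CharForm.slashHol (A : CharForm N k χ) (g : GL (Fin 2) ℝ) : HolH :=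
  ⟨(A : ℍ → ℂ) ∣[k] g, A.holo.slash k g⟩

@[simp] theorem CharForm.coe_slashHol (A : CharForm N k χ) (g : GL (Fin 2) ℝ) :
    (A.slashHol g : ℍ → ℂ) = (A : ℍ → ℂ) ∣[k] g := rfl

theorem CharForm.slashHol_ne_zero {A : CharForm N k χ} (hA : A.mer ≠ 0) (g : GL (Fin 2) ℝ) :
    A.slashHol g ≠ 0 := by
  intro h
  have h1 : (A : ℍ → ℂ) ∣[k] g = 0 := congrArg (fun f : HolH => (f : ℍ → ℂ)) h
  rw [SlashAction.slash_eq_zero_iff] at h1
  exact hA ((A.mer_eq_zero_iff).mpr fun z => congrFun h1 z)

theorem CharForm.hol_heckeProd (hD : D.IsRatPos) (A : CharForm N k χ) :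
    (A.heckeProd hD).hol = ∏ i, A.slashHol (D.rep i) := by
  apply Subtype.ext
  have h := map_prod HolH.subtype (fun i => A.slashHol (D.rep i)) Finset.univ
  exact h.symm

theorem CharForm.mer_heckeProd (hD : D.IsRatPos) (A : CharForm N k χ) :
    (A.heckeProd hD).mer = ∏ i, algebraMap HolH MerH (A.slashHol (D.rep i)) := by
  rw [CharForm.mer, CharForm.hol_heckeProd, map_prod]

theorem CharForm.mer_heckeProd_ne_zero (hD : D.IsRatPos) {A : CharForm N k χ} (hA : A.mer ≠ 0) :
    (A.heckeProd hD).mer ≠ 0 := by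
  rw [CharForm.mer_heckeProd, Finset.prod_ne_zero_iff]
  intro i _
  exact (map_ne_zero_iff _ (IsFractionRing.injective HolH MerH)).mpr (A.slashHol_ne_zero hA _)

/-- Composition with `g` and the slash action by `g` differ by a factor depending only on the
weight: cross-multiplied form. -/
theorem CharForm.merComp_mer_mul_slashHol {g : GL (Fin 2) ℝ} (hg : 0 < g.det.val)
    (A : CharForm N k χ) (B : CharForm N k χ') :
    merComp g A.mer * algebraMap HolH MerH (B.slashHol g) =
      merComp g B.mer * algebraMap HolH MerH (A.slashHol g) := by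
  rw [CharForm.mer, CharForm.mer, merComp_algebraMap, merComp_algebraMap, ← map_mul, ← map_mul]
  congr 1
  ext z
  show (holComp g A.hol : ℍ → ℂ) z * ((B : ℍ → ℂ) ∣[k] g) z =
    (holComp g B.hol : ℍ → ℂ) z * ((A : ℍ → ℂ) ∣[k] g) z
  rw [coe_holComp hg, coe_holComp hg, ModularForm.slash_apply, ModularForm.slash_apply,
    UpperHalfPlane.σ, if_pos hg]
  simp only [CharForm.coe_hol, ContinuousAlgEquiv.refl_apply]
  ring

theorem CharForm.merComp_mer_div {g : GL (Fin 2) ℝ} (hg : 0 < g.det.val)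
    (A : CharForm N k χ) {B : CharForm N k χ'} (hB : B.mer ≠ 0) :
    merComp g (A.mer / B.mer) =
      algebraMap HolH MerH (A.slashHol g) / algebraMap HolH MerH (B.slashHol g) := by
  have hB' : algebraMap HolH MerH (B.slashHol g) ≠ 0 :=
    (map_ne_zero_iff _ (IsFractionRing.injective HolH MerH)).mpr (B.slashHol_ne_zero hB g)
  rw [map_div₀, div_eq_div_iff (merComp_ne_zero g hB) hB']
  exact (CharForm.merComp_mer_mul_slashHol hg A B).trans (mul_comm _ _)

/-! ### The Hecke product on meromorphic functions -/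

variable (D)

/-- **The Hecke product** `G ↦ ∏ i, G ∘ δ_i` on meromorphic functions. -/
def heckeProdMer : MerH →* MerH where
  toFun G := ∏ i, merComp (D.rep i) G
  map_one' := by simp
  map_mul' G G' := by simp [Finset.prod_mul_distrib]

theorem heckeProdMer_apply (G : MerH) : heckeProdMer D G = ∏ i, merComp (D.rep i) G := rfl

theorem heckeProdMer_pow (G : MerH) (m : ℕ) : heckeProdMer D (G ^ m) = heckeProdMer D G ^ m :=
  map_pow _ G m

theorem heckeProdMer_ne_zero {G : MerH} (hG : G ≠ 0) : heckeProdMer D G ≠ 0 := by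
  rw [heckeProdMer_apply, Finset.prod_ne_zero_iff]
  exact fun i _ => merComp_ne_zero _ hG

theorem heckeProdMer_zero [Nonempty ι] : heckeProdMer D 0 = 0 := by
  rw [heckeProdMer_apply]
  exact Finset.prod_eq_zero (Finset.mem_univ (Classical.arbitrary ι)) (map_zero _)

theorem heckeProdMer_inv (G : MerH) : heckeProdMer D G⁻¹ = (heckeProdMer D G)⁻¹ := by
  rw [heckeProdMer_apply, heckeProdMer_apply, ← Finset.prod_inv_distrib]
  exact Finset.prod_congr rfl fun i _ => map_inv₀ _ G

theorem heckeProdMer_div (G G' : MerH) :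
    heckeProdMer D (G / G') = heckeProdMer D G / heckeProdMer D G' := by
  rw [div_eq_mul_inv, map_mul, heckeProdMer_inv, div_eq_mul_inv]

theorem heckeProdMer_constMer (c : ℂ) :
    heckeProdMer D (constMer c) = constMer (c ^ (Finset.univ : Finset ι).card) := by
  rw [heckeProdMer_apply]
  simp only [merComp_constMer]
  rw [Finset.prod_const, map_pow]

variable {D}

/-- `H (A / B) = heckeProd A / heckeProd B` for two forms of the same weight. -/
theorem heckeProdMer_mer_div (hD : D.IsRatPos) (A : CharForm N k χ) {B : CharForm N k χ'}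
    (hB : B.mer ≠ 0) :
    heckeProdMer D (A.mer / B.mer) = (A.heckeProd hD).mer / (B.heckeProd hD).mer := by
  rw [heckeProdMer_apply, CharForm.mer_heckeProd, CharForm.mer_heckeProd,
    ← Finset.prod_div_distrib]
  exact Finset.prod_congr rfl fun i _ => CharForm.merComp_mer_div (hD.pos i) A hB

/-! ### The transfer of a character of finite order -/

theorem transferMul_pow_apply (D : CosetReps (embG N) ι) (χ : ↥(Gamma0 N) →* ℂˣ) (m : ℕ)
    (γ : ↥(Gamma0 N)) : D.transferMul (χ ^ m) γ = (D.transferMul χ γ) ^ m := by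
  rw [CosetReps.transferMul_apply, CosetReps.transferMul_apply, ← Finset.prod_pow]
  rfl

theorem transferMul_one_apply (D : CosetReps (embG N) ι) (γ : ↥(Gamma0 N)) :
    D.transferMul (1 : ↥(Gamma0 N) →* ℂˣ) γ = 1 := by
  rw [CosetReps.transferMul_apply]
  exact Finset.prod_eq_one fun i _ => rfl

theorem transferMul_inv_apply (D : CosetReps (embG N) ι) (χ : ↥(Gamma0 N) →* ℂˣ)
    (γ : ↥(Gamma0 N)) : D.transferMul χ⁻¹ γ = (D.transferMul χ γ)⁻¹ := by
  rw [CosetReps.transferMul_apply, CosetReps.transferMul_apply, ← Finset.prod_inv_distrib]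
  rfl

theorem isOfFinOrder_transferMul (D : CosetReps (embG N) ι) {χ : ↥(Gamma0 N) →* ℂˣ}
    (hχ : IsOfFinOrder χ) : IsOfFinOrder (D.transferMul χ) := by
  obtain ⟨m, hm, hχm⟩ := isOfFinOrder_iff_pow_eq_one.mp hχ
  refine isOfFinOrder_iff_pow_eq_one.mpr ⟨m, hm, ?_⟩
  ext γ
  rw [MonoidHom.pow_apply, ← transferMul_pow_apply, hχm, transferMul_one_apply]
  rfl

/-- **`H` preserves admissibility**: the Hecke product of a quotient of two forms of the same
weight with characters of finite order is again such a quotient. -/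
theorem IsCharRatio.heckeProdMer (hD : D.IsRatPos) {G : MerH} (hG : IsCharRatio N G) :
    IsCharRatio N (heckeProdMer D G) := by
  obtain ⟨k, χ, χ', A, B, hχ, hχ', hB, e⟩ := hG
  have hG' : G = A.mer / B.mer := by rw [← e, mul_div_cancel_right₀ _ hB]
  rw [hG', heckeProdMer_mer_div hD A hB]
  exact CharForm.isCharRatio_div (isOfFinOrder_transferMul D hχ) (isOfFinOrder_transferMul D hχ')
    _ _ (CharForm.mer_heckeProd_ne_zero hD hB)

/-! ### The character of the Hecke product -/

/-- **The character of the Hecke product, right action form**: if `G ∘ γ = χ γ • G` for all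
`γ ∈ Γ₀(N)` then `H G ∘ γ = transferMul χ γ • H G`. -/
theorem merComp_heckeProdMer (hD : D.IsRatPos) (χ : ↥(Gamma0 N) →* ℂˣ) {G : MerH}
    (hG : ∀ γ : ↥(Gamma0 N), merComp (embG N γ) G = constMer ((χ γ : ℂˣ) : ℂ) * G)
    (γ : ↥(Gamma0 N)) :
    merComp (embG N γ) (heckeProdMer D G) =
      constMer ((D.transferMul χ γ : ℂˣ) : ℂ) * heckeProdMer D G := by
  have hγ : ∀ γ' : ↥(Gamma0 N), 0 < (embG N γ').det.val := fun γ' => det_mapGL_pos _
  rw [heckeProdMer_apply, map_prod]
  have h1 : ∀ i, merComp (embG N γ) (merComp (D.rep i) G) =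
      constMer ((χ (D.coc γ i) : ℂˣ) : ℂ) * merComp (D.rep (D.next γ i)) G := by
    intro i
    rw [← merComp_mul_apply (hD.pos i) (hγ γ), D.rel γ i,
      merComp_mul_apply (hγ _) (hD.pos _), hG, map_mul, merComp_constMer]
  simp_rw [h1]
  rw [Finset.prod_mul_distrib, CosetReps.transferMul_apply, Units.coe_prod, map_prod]
  congr 1
  exact Equiv.prod_comp (D.nextEquiv γ) (fun i => merComp (D.rep i) G)

/-- **The character of the Hecke product, left action form** (`γ • G := G ∘ γ⁻¹`): if
`γ • G = χ γ • G` for all `γ ∈ Γ₀(N)` then `γ • H G = transferMul χ γ • H G`. -/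
theorem merComp_inv_heckeProdMer (hD : D.IsRatPos) (χ : ↥(Gamma0 N) →* ℂˣ) {G : MerH}
    (hG : ∀ γ : ↥(Gamma0 N), merComp (embG N γ⁻¹) G = constMer ((χ γ : ℂˣ) : ℂ) * G)
    (γ : ↥(Gamma0 N)) :
    merComp (embG N γ⁻¹) (heckeProdMer D G) =
      constMer ((D.transferMul χ γ : ℂˣ) : ℂ) * heckeProdMer D G := by
  have hG' : ∀ γ' : ↥(Gamma0 N),
      merComp (embG N γ') G = constMer (((χ⁻¹) γ' : ℂˣ) : ℂ) * G := by
    intro γ'
    have h := hG γ'⁻¹
    rw [inv_inv] at h
    rw [h, MonoidHom.inv_apply, ← map_inv]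
  have h := merComp_heckeProdMer hD χ⁻¹ hG' γ⁻¹
  rw [h, transferMul_inv_apply, ← map_inv, inv_inv]

end Abstract

/-! ### The concrete Hecke coset systems are rational of positive determinant -/

section Concrete

open P2MW.S_ModularForm_heckeT_slash_eq_self_of_mem_Gamma0.ModularForm.HeckeSlashInvariance

theorem heckeMatrix_mem_ratGL (p j : ℕ) : heckeMatrix p j ∈ ratGL := by
  rcases eq_or_ne p 0 with rfl | hp
  · rw [heckeMatrix_zero]
    exact one_mem _
  · refine mem_ratGL_of_val !![1, (j : ℚ); 0, (p : ℚ)] ?_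
    rw [val_heckeMatrix hp]
    ext a b
    fin_cases a <;> fin_cases b <;> simp

theorem heckeDiagMatrix_mem_ratGL (p : ℕ) : heckeDiagMatrix p ∈ ratGL := by
  rcases eq_or_ne p 0 with rfl | hp
  · rw [heckeDiagMatrix_zero]
    exact one_mem _
  · refine mem_ratGL_of_val !![(p : ℚ), 0; 0, 1] ?_
    rw [val_heckeDiagMatrix hp]
    ext a b
    fin_cases a <;> fin_cases b <;> simp

theorem heckeRep_mem_ratGL (p : ℕ) (x : OnePoint (ZMod p)) : heckeRep p x ∈ ratGL := by
  induction x using OnePoint.rec with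
  | infty => exact heckeDiagMatrix_mem_ratGL p
  | coe j => exact heckeMatrix_mem_ratGL p _

theorem det_heckeRep_pos (p : ℕ) (x : OnePoint (ZMod p)) : 0 < (heckeRep p x).det.val := by
  induction x using OnePoint.rec with
  | infty => exact det_heckeDiagMatrix_pos p
  | coe j => exact det_heckeMatrix_pos p _

theorem frickeGL_mem_ratGL (N : ℕ) [NeZero N] : frickeGL N ∈ ratGL := by
  refine mem_ratGL_of_val !![0, -1; (N : ℚ), 0] ?_
  rw [val_frickeGL]
  ext a b
  fin_cases a <;> fin_cases b <;> simp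

theorem TReps_isRatPos (N : ℕ) {p : ℕ} (hp : p.Prime) (hpN : ¬ p ∣ N) :
    (TReps N hp hpN).IsRatPos :=
  ⟨fun x => det_heckeRep_pos p x, fun x => heckeRep_mem_ratGL p x⟩

theorem UReps_isRatPos (N : ℕ) {q : ℕ} [NeZero q] (hqN : q ∣ N) : (UReps N hqN).IsRatPos :=
  ⟨fun _ => det_heckeMatrix_pos q _, fun _ => heckeMatrix_mem_ratGL q _⟩

/-- Conjugation preserves positivity of the determinant. -/
theorem det_conj_pos {g w : GL (Fin 2) ℝ} (hg : 0 < g.det.val) : 0 < (w * g * w⁻¹).det.val := by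
  have h : (w * g * w⁻¹).det = g.det := by
    rw [map_mul, map_mul, map_inv, mul_comm, inv_mul_cancel_left]
  rwa [h]

theorem UStarReps_isRatPos (N : ℕ) [NeZero N] {q : ℕ} [NeZero q] (hqN : q ∣ N) :
    (UStarReps N hqN).IsRatPos :=
  ⟨fun _ => det_conj_pos (det_heckeMatrix_pos q _),
    fun _ => ratGL.mul_mem (ratGL.mul_mem (frickeGL_mem_ratGL N) (heckeMatrix_mem_ratGL q _))
      (ratGL.inv_mem (frickeGL_mem_ratGL N))⟩

theorem TStarReps_isRatPos (N : ℕ) [NeZero N] {p : ℕ} (hp : p.Prime) (hpN : ¬ p ∣ N) :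
    (TStarReps N hp hpN).IsRatPos :=
  ⟨fun x => det_conj_pos (det_heckeRep_pos p x),
    fun x => ratGL.mul_mem (ratGL.mul_mem (frickeGL_mem_ratGL N) (heckeRep_mem_ratGL p x))
      (ratGL.inv_mem (frickeGL_mem_ratGL N))⟩

end Concrete

end Fermat.Agent.Jac
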