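import Mathlib
import Fermat.Agent.Jac.HeckeProd
import Fermat.Agent.Jac.KappaLamC

/-!
# Program J, node (J4), analytic half, part 3: the Hecke data of the concrete Kummer data

* `smul_eq_merComp` : the left action of `SL(2, ℤ)` on `MerH` (`Jac/MerAction.lean`) is
  `γ • G = merComp (γ⁻¹) G`;
* `isMF_heckeProdMer` : **the `isMF` field of `KummerData.HeckeData`** for `kummerDataC N hD4`,
  `H = heckeProdMer D`, `τ = D.transferMul`;
* `heckeDataC` : the Hecke data for `kummerDataC N hD4`, in hypothesis form on the algebraic half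
  (`T`, `Nm`, `T (div y) = div (Nm y)`, `H (θ y) = θ (Nm y)`);
* `heckeMerOp N l`, `heckeCharOp N l` : the unified operators at a prime `l` (`UStarReps` if
  `l ∣ N`, `TReps` otherwise); `heckeCharOp_charOf` : `τ (charOf ζ lam) = charOf ζ (TLam N l lam)`;
* `kappaLamC_hecke` : **Hecke equivariance of the Kummer homomorphism**
  `Tb (kappaLamC lam) = kappaLamC (TLam N l lam)`, in hypothesis form on the algebraic half.
-/

set_option autoImplicit false
set_option linter.unusedSectionVars false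
set_option linter.style.haveILetI false

open UpperHalfPlane ModularForm CongruenceSubgroup Matrix.SpecialLinearGroup AlgebraicCurve
open scoped MatrixGroups ModularForm Manifold

noncomputable section

namespace Fermat.Agent.Jac

open Fermat.Agent.X0 (HolH MerH)
open Fermat.Agent.Red

/-! ### The left action is composition with the inverse -/

theorem smul_hol_eq_holComp (γ : SL(2, ℤ)) (f : HolH) :
    γ • f = holComp (mapGL ℝ γ⁻¹) f := by
  apply Subtype.ext
  funext z
  rw [coe_holComp (det_mapGL_pos _)]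
  rfl

/-- The left action of `SL(2, ℤ)` on meromorphic functions is composition with the inverse. -/
theorem smul_eq_merComp (γ : SL(2, ℤ)) (G : MerH) : γ • G = merComp (mapGL ℝ γ⁻¹) G := by
  have h : (MulSemiringAction.toRingHom SL(2, ℤ) MerH γ) = merComp (mapGL ℝ γ⁻¹) :=
    merComp_ext fun f => by
      rw [MulSemiringAction.toRingHom_apply, smul_algebraMap_hol, merComp_algebraMap,
        smul_hol_eq_holComp]
  exact congrArg (fun φ : MerH →+* MerH => φ G) h

theorem subgroup_smul_eq_merComp {N : ℕ} (γ : ↥(Gamma0 N)) (G : MerH) :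
    γ • G = merComp (embG N γ⁻¹) G := by
  rw [subgroup_smul_mer, smul_eq_merComp]
  rfl

/-! ### The `isMF` field -/

section IsMF

variable {N : ℕ} [NeZero N] {ι : Type*} [Fintype ι] {D : CosetReps (embG N) ι}

attribute [local instance] KC.hasPrincipalDivisorsFc

/-- **The `isMF` field of `KummerData.HeckeData`**: the Hecke product of a multiplicative function
with character `χ` is a multiplicative function with character the transfer of `χ`. -/
theorem isMF_heckeProdMer (hD : D.IsRatPos) hD4 {χ : ↥(Gamma0 N) →* ℂˣ} {G : MerH}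
    (h : (kummerDataC N hD4).IsMF χ G) :
    (kummerDataC N hD4).IsMF (D.transferMul χ) (heckeProdMer D G) := by
  obtain ⟨hG0, hGa, hGχ⟩ := h
  refine ⟨heckeProdMer_ne_zero D hG0, IsCharRatio.heckeProdMer hD hGa, fun γ => ?_⟩
  rw [subgroup_smul_eq_merComp, algebraMap_mer]
  refine merComp_inv_heckeProdMer hD χ (fun γ' => ?_) γ
  rw [← subgroup_smul_eq_merComp, ← algebraMap_mer]
  exact hGχ γ'

/-- **The Hecke data of the concrete Kummer data**, in hypothesis form on the algebraic half. -/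
def heckeDataC (hD : D.IsRatPos) hD4
    (T : Divisor ℂ (DictC.Fc N) →+ Divisor ℂ (DictC.Fc N)) (Nm : DictC.Fc N → DictC.Fc N)
    (hT : ∀ y : DictC.Fc N, y ≠ 0 → T (divOf ℂ y) = divOf ℂ (Nm y))
    (hθ : ∀ y : DictC.Fc N, y ≠ 0 → heckeProdMer D (thetaMer N y) = thetaMer N (Nm y)) :
    (kummerDataC N hD4).HeckeData where
  T := T
  Nm := Nm
  T_divOf := hT
  H := heckeProdMer D
  H_pow := heckeProdMer_pow D
  H_θ := hθ
  τ := D.transferMul
  isMF := fun _ h => isMF_heckeProdMer hD hD4 h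

/-- **Abstract Hecke equivariance of the Kummer class over `ℂ`** for a rational coset system of
positive determinant, in hypothesis form on the algebraic half. -/
theorem kappa_transferMul (hD : D.IsRatPos) hD4
    (T : Divisor ℂ (DictC.Fc N) →+ Divisor ℂ (DictC.Fc N)) (Nm : DictC.Fc N → DictC.Fc N)
    (hT : ∀ y : DictC.Fc N, y ≠ 0 → T (divOf ℂ y) = divOf ℂ (Nm y))
    (hθ : ∀ y : DictC.Fc N, y ≠ 0 → heckeProdMer D (thetaMer N y) = thetaMer N (Nm y))
    (Tb : Pic0 ℂ (DictC.Fc N) →+ Pic0 ℂ (DictC.Fc N))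
    (hTb : ∀ E : Divisor.degZero (K := ℂ) (F := DictC.Fc N),
      ∃ h, Tb (Pic0.mk E) = Pic0.mk ⟨T E, h⟩)
    {m : ℕ} (hm : 0 < m) {χ : ↥(Gamma0 N) →* ℂˣ} (hχ : χ ∈ goodCharC N) (hχm : χ ^ m = 1) :
    Tb ((kummerDataC N hD4).kappa m χ) = (kummerDataC N hD4).kappa m (D.transferMul χ) :=
  KummerData.kappa_hecke_pic0 (heckeDataC hD hD4 T Nm hT hθ) hm hχ hχm Tb hTb

end IsMF

/-! ### The unified operators at a prime `l` -/

section Unified

variable (N : ℕ) [NeZero N]

/-- The Hecke product on meromorphic functions at the prime `l`: representatives `UStarReps` if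
`l ∣ N`, `TReps` otherwise (matching `heckeTransfer N l`). -/
def heckeMerOp (l : Nat.Primes) : MerH →* MerH :=
  haveI : NeZero (l : ℕ) := ⟨l.2.ne_zero⟩
  if h : (l : ℕ) ∣ N then heckeProdMer (UStarReps N h) else heckeProdMer (TReps N l.2 h)

/-- The transfer of characters at the prime `l`. -/
def heckeCharOp (l : Nat.Primes) (χ : ↥(Gamma0 N) →* ℂˣ) : ↥(Gamma0 N) →* ℂˣ :=
  haveI : NeZero (l : ℕ) := ⟨l.2.ne_zero⟩
  if h : (l : ℕ) ∣ N then (UStarReps N h).transferMul χ else (TReps N l.2 h).transferMul χ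

variable {N}

theorem heckeMerOp_of_dvd {l : Nat.Primes} (h : (l : ℕ) ∣ N) :
    heckeMerOp N l = (haveI : NeZero (l : ℕ) := ⟨l.2.ne_zero⟩; heckeProdMer (UStarReps N h)) :=
  dif_pos h

theorem heckeMerOp_of_not_dvd {l : Nat.Primes} (h : ¬ (l : ℕ) ∣ N) :
    heckeMerOp N l = (haveI : NeZero (l : ℕ) := ⟨l.2.ne_zero⟩; heckeProdMer (TReps N l.2 h)) :=
  dif_neg h

theorem heckeCharOp_of_dvd {l : Nat.Primes} (h : (l : ℕ) ∣ N) (χ : ↥(Gamma0 N) →* ℂˣ) :
    heckeCharOp N l χ =
      (haveI : NeZero (l : ℕ) := ⟨l.2.ne_zero⟩; (UStarReps N h).transferMul χ) := dif_pos h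

theorem heckeCharOp_of_not_dvd {l : Nat.Primes} (h : ¬ (l : ℕ) ∣ N) (χ : ↥(Gamma0 N) →* ℂˣ) :
    heckeCharOp N l χ =
      (haveI : NeZero (l : ℕ) := ⟨l.2.ne_zero⟩; (TReps N l.2 h).transferMul χ) := dif_neg h

theorem heckeMerOp_pow (l : Nat.Primes) (G : MerH) (m : ℕ) :
    heckeMerOp N l (G ^ m) = heckeMerOp N l G ^ m := map_pow _ G m

/-- The `isMF` field for the unified operators. -/
theorem isMF_heckeMerOp (l : Nat.Primes) hD4 {χ : ↥(Gamma0 N) →* ℂˣ} {G : MerH}
    (h : (kummerDataC N hD4).IsMF χ G) :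
    (kummerDataC N hD4).IsMF (heckeCharOp N l χ) (heckeMerOp N l G) := by
  haveI : NeZero (l : ℕ) := ⟨l.2.ne_zero⟩
  by_cases hl : (l : ℕ) ∣ N
  · rw [heckeMerOp_of_dvd hl, heckeCharOp_of_dvd hl]
    exact isMF_heckeProdMer (UStarReps_isRatPos N hl) hD4 h
  · rw [heckeMerOp_of_not_dvd hl, heckeCharOp_of_not_dvd hl]
    exact isMF_heckeProdMer (TReps_isRatPos N l.2 hl) hD4 h

/-- The transfer of the character `charOf ζ lam` is `charOf ζ (heckeTransfer lam)`. -/
theorem heckeCharOp_charOf (l : Nat.Primes) (ζ : ℂˣ) (lam : Additive ↥(Gamma0 N) →+ ℤ) :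
    heckeCharOp N l (KC.charOf ζ lam) = KC.charOf ζ (heckeTransfer N l ℤ lam) := by
  haveI : NeZero (l : ℕ) := ⟨l.2.ne_zero⟩
  have key : ∀ {ι : Type} [Fintype ι] (D : CosetReps (embG N) ι),
      D.transferMul (KC.charOf ζ lam) = KC.charOf ζ (D.transfer lam) := by
    intro ι _ D
    ext γ
    rw [D.transferMul_eq_of_eq_comp (zpowersHom ℂˣ ζ) lam (KC.charOf ζ lam) (fun γ' => ?_) γ]
    · rw [KC.charOf_apply]
      rfl
    · rw [KC.charOf_apply]
      rfl
  by_cases hl : (l : ℕ) ∣ N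
  · rw [heckeCharOp_of_dvd hl, heckeTransfer_of_dvd ℤ hl]
    exact key (UStarReps N hl)
  · rw [heckeCharOp_of_not_dvd hl, heckeTransfer_of_not_dvd ℤ hl]
    exact key (TReps N l.2 hl)

attribute [local instance] KC.hasPrincipalDivisorsFc

/-- The Hecke data at the prime `l`, in hypothesis form on the algebraic half. -/
def heckeDataAt (l : Nat.Primes) hD4
    (T : Divisor ℂ (DictC.Fc N) →+ Divisor ℂ (DictC.Fc N)) (Nm : DictC.Fc N → DictC.Fc N)
    (hT : ∀ y : DictC.Fc N, y ≠ 0 → T (divOf ℂ y) = divOf ℂ (Nm y))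
    (hθ : ∀ y : DictC.Fc N, y ≠ 0 → heckeMerOp N l (thetaMer N y) = thetaMer N (Nm y)) :
    (kummerDataC N hD4).HeckeData where
  T := T
  Nm := Nm
  T_divOf := hT
  H := heckeMerOp N l
  H_pow := heckeMerOp_pow l
  H_θ := hθ
  τ := heckeCharOp N l
  isMF := fun _ h => isMF_heckeMerOp l hD4 h

/-- **Hecke equivariance of the Kummer homomorphism `kappaLamC`** (node (J4)), in hypothesis form
on the algebraic half: `T` an operator on divisors with `T (div y) = div (Nm y)`, inducing `Tb` on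
`Pic⁰`, and `H (θ y) = θ (Nm y)` for the Hecke product `H = heckeMerOp N l`. -/
theorem kappaLamC_hecke (l : Nat.Primes) hD4
    (T : Divisor ℂ (DictC.Fc N) →+ Divisor ℂ (DictC.Fc N)) (Nm : DictC.Fc N → DictC.Fc N)
    (hT : ∀ y : DictC.Fc N, y ≠ 0 → T (divOf ℂ y) = divOf ℂ (Nm y))
    (hθ : ∀ y : DictC.Fc N, y ≠ 0 → heckeMerOp N l (thetaMer N y) = thetaMer N (Nm y))
    (Tb : Pic0 ℂ (DictC.Fc N) →+ Pic0 ℂ (DictC.Fc N))
    (hTb : ∀ E : Divisor.degZero (K := ℂ) (F := DictC.Fc N),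
      ∃ h, Tb (Pic0.mk E) = Pic0.mk ⟨T E, h⟩)
    {m : ℕ} (hm : 0 < m) {ζ : ℂˣ} (hζ : IsPrimitiveRoot ζ m) (lam : ↥(Lam N)) :
    Tb (KC.kappaLamC N hD4 hm hζ lam) = KC.kappaLamC N hD4 hm hζ (TLam N l lam) := by
  rw [KC.kappaLamC_apply, KC.kappaLamC_apply, coe_TLam_apply, ← heckeCharOp_charOf]
  exact KummerData.kappa_hecke_pic0 (heckeDataAt l hD4 T Nm hT hθ) hm
    (KC.charOf_mem_goodCharC hm hζ.pow_eq_one lam.2)
    (KC.charOf_pow_eq_one hζ.pow_eq_one _) Tb hTb

end Unified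

end Fermat.Agent.Jac
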