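import Mathlib
import Fermat.Agent.Jac.HeckeReps

/-!
# Program J, node (J4): explicit double coset decompositions of the Hecke representatives

Every representative of the coset systems `TReps N hp hpN` (`p ∤ N`) and `UStarReps N hqN`
(`q ∣ N`) lies in the double coset `Γ₀(N) diag(ℓ, 1) Γ₀(N)`:

* `TReps_decomp` : `[1, j; 0, p] = [p, q; N, s]⁻¹ * diag(p, 1) * [1, j + q; N, N j + s p]`
  with `p s - q N = 1`;
* `UStarReps_decomp` : `[q, 0; -N j, 1] = diag(q, 1) * [1, 0; -N j, 1]`;
* `card_onePoint_zmod`, `card_zmod'` : the number of representatives.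
-/

set_option autoImplicit false
set_option linter.unusedSectionVars false
set_option linter.unusedSimpArgs false
set_option linter.style.haveILetI false

namespace Fermat.Agent.Jac.RepsDecomp

open Matrix.SpecialLinearGroup CongruenceSubgroup ModularForm Fermat.Agent.Jac
open scoped MatrixGroups
open P2MW.S_ModularForm_heckeT_slash_eq_self_of_mem_Gamma0.ModularForm.HeckeSlashInvariance

/-- An element of `Γ₀(N)` from its entries. -/
def mkGamma0 (N : ℕ) (a b c d : ℤ) (h : a * d - b * c = 1) (hc : (N : ℤ) ∣ c) : ↥(Gamma0 N) :=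
  ⟨mkSL a b c d h, mkSL_mem_Gamma0 N a b c d h hc⟩

theorem val_embG_mkGamma0 (N : ℕ) (a b c d : ℤ) (h : a * d - b * c = 1) (hc : (N : ℤ) ∣ c) :
    ((embG N (mkGamma0 N a b c d h hc) : GL (Fin 2) ℝ) : Matrix (Fin 2) (Fin 2) ℝ) =
      !![(a : ℝ), (b : ℝ); (c : ℝ), (d : ℝ)] := by
  rw [embG_apply, val_mapGL]
  rfl

/-- The key matrix identity for `T_p`: `[p, q; N, s] * [1, j; 0, p] = diag(p, 1) *
[1, j + q; N, N j + s p]`. -/
theorem mul_heckeMatrix_eq (N : ℕ) {p : ℕ} (hp : p ≠ 0) (j : ℕ) (s q : ℤ)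
    (h : (p : ℤ) * s - q * N = 1) :
    embG N (mkGamma0 N p q N s h (dvd_refl _)) * heckeMatrix p j =
      heckeDiagMatrix p *
        embG N (mkGamma0 N 1 (j + q) N (N * j + s * p) (by linear_combination h) (dvd_refl _)) := by
  refine gl_ext_of_val
    (val_mul_fin_two (val_embG_mkGamma0 N _ _ _ _ _ _) (val_heckeMatrix hp j))
    (val_mul_fin_two (val_heckeDiagMatrix hp) (val_embG_mkGamma0 N _ _ _ _ _ _)) ?_ ?_ ?_ ?_
  · push_cast; ring
  · push_cast; ring
  · push_cast; ring
  · push_cast; ring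

/-- **Double coset decomposition of the representatives of `T_p`, `p ∤ N`.** -/
theorem TReps_decomp (N : ℕ) [NeZero N] {p : ℕ} (hp : p.Prime) (hpN : ¬ p ∣ N)
    (x : OnePoint (ZMod p)) :
    ∃ g γ : ↥(Gamma0 N), (TReps N hp hpN).rep x = embG N g * heckeDiagMatrix p * embG N γ := by
  haveI : Fact p.Prime := ⟨hp⟩
  induction x using OnePoint.rec with
  | infty =>
    refine ⟨1, 1, ?_⟩
    rw [TReps_rep, heckeRep_infty, map_one, one_mul, mul_one]
  | coe j =>
    have hcop : IsCoprime (p : ℤ) (N : ℤ) := by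
      rw [Int.isCoprime_iff_gcd_eq_one, Int.gcd_natCast_natCast]
      exact (Nat.Prime.coprime_iff_not_dvd hp).mpr hpN
    obtain ⟨a, b, hab⟩ := hcop
    have h : (p : ℤ) * a - (-b) * N = 1 := by linear_combination hab
    have key := mul_heckeMatrix_eq N hp.ne_zero j.val a (-b) h
    refine ⟨(mkGamma0 N p (-b) N a h (dvd_refl _))⁻¹,
      mkGamma0 N 1 (j.val + -b) N (N * j.val + a * p) (by linear_combination h) (dvd_refl _), ?_⟩
    rw [TReps_rep, heckeRep_coe, map_inv, mul_assoc, ← key, inv_mul_cancel_left]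

/-- **Double coset decomposition of the representatives of `U_q^*`, `q ∣ N`.** -/
theorem UStarReps_decomp (N : ℕ) [NeZero N] {q : ℕ} [NeZero q] (hqN : q ∣ N) (j : ZMod q) :
    ∃ g γ : ↥(Gamma0 N),
      (UStarReps N hqN).rep j = embG N g * heckeDiagMatrix q * embG N γ := by
  refine ⟨1, mkGamma0 N 1 0 (-(N * (j.val : ℤ))) 1 (by ring) (Dvd.dvd.neg_right ⟨_, rfl⟩), ?_⟩
  rw [UStarReps_rep_eq, map_one, one_mul]
  refine gl_ext_of_val (val_starMatrix N q j.val)
    (val_mul_fin_two (val_heckeDiagMatrix (NeZero.ne q)) (val_embG_mkGamma0 N _ _ _ _ _ _))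
    ?_ ?_ ?_ ?_
  · push_cast; ring
  · push_cast; ring
  · push_cast; ring
  · push_cast; ring

/-- The number of representatives of `T_p`. -/
theorem card_onePoint_zmod (p : ℕ) [NeZero p] : Fintype.card (OnePoint (ZMod p)) = p + 1 := by
  show Fintype.card (Option (ZMod p)) = p + 1
  rw [Fintype.card_option, ZMod.card]

/-- The number of representatives of `U_q^*`. -/
theorem card_zmod' (q : ℕ) [NeZero q] : Fintype.card (ZMod q) = q := ZMod.card q

theorem card_univ_onePoint_zmod (p : ℕ) [NeZero p] :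
    (Finset.univ : Finset (OnePoint (ZMod p))).card = p + 1 := by
  rw [Finset.card_univ, card_onePoint_zmod]

theorem card_univ_zmod (q : ℕ) [NeZero q] : (Finset.univ : Finset (ZMod q)).card = q := by
  rw [Finset.card_univ, ZMod.card]

end Fermat.Agent.Jac.RepsDecomp
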