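import Mathlib
import Fermat.Agent.Jac.KappaLamC
import Fermat.Agent.Jac.HeckeProd
import Fermat.Agent.Jac.DictC.HeckeGlue

/-!
# Program J, node (J4), final assembly: Hecke equivariance of the Kummer homomorphism over `ℂ`

Inputs (all on main):
* helper9's abstract `KummerData.HeckeData` / `KummerData.kappa_hecke_pic0` (`Jac/Kappa.lean`);
* helper4's concrete Kummer data `kummerDataC N hD4` and `KC.kappaLamC` (`Jac/KummerC.lean`,
  `Jac/KappaLamC.lean`);
* helper18's Hecke product `heckeProdMer D` on meromorphic functions and its character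
  (`Jac/MerComp.lean`, `Jac/HeckeProd.lean`);
* helper15's coset systems and transfer operators (`Jac/Transfer.lean`, `Jac/HeckeReps.lean`);
* helper13's Hecke inputs over an arbitrary field of characteristic zero
  (`Hecke/HeckeInputsGen.lean`) and helper26's instantiation over `ℂ` (`Jac/DictC/HeckeGlue.lean`).

The only hypothesis is `HTheta` (node (J4-alg)): the Hecke product of `θ y` is `θ` of the norm
`Nm_α (β y)`.

Main results:
* `smul_eq_merComp` : the left action of `SL(2,ℤ)` on `MerH` is `merComp` of the inverse;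
* `heckeDataC` : the `KummerData.HeckeData` of a coset system `D` with `HTheta`;
* `heckeOperatorAlong_kappa` : `T_ℓ (kappa m χ) = kappa m (transferMul χ)`;
* `kappaLamC_transfer`, `kappaLamC_TLam` : **(J4)**
  `kappaLamC (TLam l lam) = heckeOperatorAlong ℂ N l (kappaLamC lam)`.
-/

set_option autoImplicit false
set_option linter.unusedSectionVars false
set_option linter.style.haveILetI false

open UpperHalfPlane ModularForm CongruenceSubgroup Matrix.SpecialLinearGroup
open AlgebraicCurve ModularCurve IntermediateField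
open scoped MatrixGroups ModularForm Manifold

noncomputable section

namespace Fermat.Agent.Jac.KH

open Fermat.Agent.X0 (HolH MerH)
open Fermat.Agent.Jac Fermat.Agent.Red Fermat.Agent.Hecke.Gen

/-! ### The left action of `SL(2, ℤ)` on `MerH` in terms of `merComp` -/

theorem smul_hol_eq_holComp (γ : SL(2, ℤ)) (f : HolH) :
    γ • f = holComp (mapGL ℝ γ⁻¹ : GL (Fin 2) ℝ) f := by
  apply Subtype.ext
  funext z
  rw [coe_holComp (det_mapGL_pos γ⁻¹)]
  rfl

/-- The left action `(γ • G)(z) = G (γ⁻¹ z)` is composition with `γ⁻¹`. -/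
theorem smul_eq_merComp (γ : SL(2, ℤ)) (G : MerH) :
    γ • G = merComp (mapGL ℝ γ⁻¹ : GL (Fin 2) ℝ) G := by
  have h : (MulSemiringAction.toRingHom SL(2, ℤ) MerH γ) =
      merComp (mapGL ℝ γ⁻¹ : GL (Fin 2) ℝ) := by
    apply merComp_ext
    intro f
    rw [MulSemiringAction.toRingHom_apply, smul_algebraMap_hol, merComp_algebraMap,
      smul_hol_eq_holComp]
  exact congrArg (fun φ : MerH →+* MerH => φ G) h

theorem subgroup_smul_eq_merComp {N : ℕ} (γ : ↥(Gamma0 N)) (G : MerH) :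
    γ • G = merComp (embG N γ⁻¹) G := by
  rw [subgroup_smul_mer, smul_eq_merComp]
  rfl


/-! ### The Hecke data of a coset system -/

section HeckeData

variable (N : ℕ) [NeZero N]

/-- Principal divisors on the function field of `X₀(M)` over `ℂ` (local instance). -/
theorem hasPrincipalDivisorsFL (M : ℕ) [NeZero M] : HasPrincipalDivisors ℂ (FL ℂ M) :=
  DictC.hasPrincipalDivisors_FL_C M

theorem hasPrincipalDivisorsFc' (M : ℕ) [NeZero M] : HasPrincipalDivisors ℂ (DictC.Fc M) :=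
  DictC.hasPrincipalDivisors_C M

theorem finiteDimensionalFL (M : ℕ) [NeZero M] : FiniteDimensional ℂ⟮jL ℂ M⟯ (FL ℂ M) :=
  DictC.finiteDimensional_over_jL_C M

attribute [local instance] hasPrincipalDivisorsFL hasPrincipalDivisorsFc' finiteDimensionalFL

variable (ℓ : ℕ) [NeZero ℓ]

/-- The multiplicative Hecke operator on functions over `ℂ`: `y ↦ Nm_{F_{Nℓ}/α(F_N)} (β y)`. -/
def heckeNormC (y : DictC.Fc N) : DictC.Fc N :=
  normAlphaL N ℓ (heckeBetaBar ℂ N ℓ y)

theorem heckeAlphaIntegralC : HeckeAlphaBarIntegral ℂ N ℓ :=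
  heckeAlphaBarIntegral_of N ℓ (jL ℂ (N * ℓ)) (jL_transcendental ℂ N)

theorem heckeBetaIntegralC : HeckeBetaBarIntegral ℂ N ℓ :=
  heckeBetaBarIntegral_of N ℓ (jL ℂ (N * ℓ)) (jL_transcendental ℂ N)

/-- The Hecke correspondence on divisors of `X₀(N)` over `ℂ`. -/
def heckeDivC : Divisor ℂ (DictC.Fc N) →+ Divisor ℂ (DictC.Fc N) :=
  heckeDivBar (heckeAlphaIntegralC N ℓ) (heckeBetaIntegralC N ℓ)

/-- `T_ℓ (div y) = div (Nm_α (β y))` over `ℂ`. -/
theorem heckeDivC_divOf (y : DictC.Fc N) (hy : y ≠ 0) :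
    heckeDivC N ℓ (divOf ℂ y) = divOf ℂ (heckeNormC N ℓ y) := by
  ext P
  rw [divOf_apply]
  exact heckeDivBar_principal_of N ℓ (jL ℂ (N * ℓ)) (jL_transcendental ℂ N) y hy (divOf ℂ y)
    (fun Q => divOf_apply y Q) P

theorem heckeDivC_mem_degZero (E : Divisor.degZero (K := ℂ) (F := DictC.Fc N)) :
    heckeDivC N ℓ E ∈ Divisor.degZero (K := ℂ) (F := DictC.Fc N) :=
  Divisor.correspondence_mem_degZero _ _ _ _
    (fundamentalIdentityAlong_beta_of N ℓ (jL ℂ (N * ℓ)) (jL_transcendental ℂ N)) E.2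

/-- The Prelude's Hecke operator over `ℂ` on the class of a divisor. -/
theorem heckeOperatorAlong_mk (E : Divisor.degZero (K := ℂ) (F := DictC.Fc N)) :
    heckeOperatorAlong ℂ N ℓ (Pic0.mk E) =
      Pic0.mk ⟨heckeDivC N ℓ E, heckeDivC_mem_degZero N ℓ E⟩ := by
  rw [heckeOperatorAlong_eq_of N ℓ (jL ℂ (N * ℓ)) (jL_transcendental ℂ N)]
  rfl


/-- The hypothesis (J4-alg): the Hecke product of `θ y` over the coset system `D` is `θ` of the
norm `Nm_α (β y)`. -/
def HTheta {ι : Type*} [Fintype ι] (D : CosetReps (embG N) ι) : Prop :=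
  ∀ y : DictC.Fc N, y ≠ 0 →
    heckeProdMer D (thetaMer N y) = thetaMer N (heckeNormC N ℓ y)

variable {N ℓ}

/-- The (D4) hypothesis of `kummerDataC`. -/
abbrev HD4 (N : ℕ) : Prop :=
  ∀ (m : ℕ) (k : ℤ) (χa χb : ↥(Gamma0 N) →* ℂˣ) (A : CharForm N k χa)
    (B : CharForm N k χb), IsOfFinOrder χa → IsOfFinOrder χb → A.mer ≠ 0 → B.mer ≠ 0 →
    χb / χa ∈ goodCharC N → ∀ y : DictC.Fc N, thetaMer N y = (A.mer / B.mer) ^ m →
    ∀ P : Place ℂ (DictC.Fc N), (m : ℤ) ∣ P.ord y

/-- **The Hecke data** attached to a coset system `D` (rational, positive determinants) whose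
Hecke product realises the norm `Nm_α ∘ β` (`HTheta`). -/
def heckeDataC (hD4 : HD4 N) {ι : Type*} [Fintype ι] {D : CosetReps (embG N) ι}
    (hD : D.IsRatPos) (hH : HTheta N ℓ D) : (kummerDataC N hD4).HeckeData where
  T := heckeDivC N ℓ
  Nm := heckeNormC N ℓ
  T_divOf y hy := heckeDivC_divOf N ℓ y hy
  H := heckeProdMer D
  H_pow G m := heckeProdMer_pow D G m
  H_θ y hy := hH y hy
  τ := D.transferMul
  isMF := by
    rintro χ G - ⟨hG0, hGa, hGχ⟩
    refine ⟨heckeProdMer_ne_zero D hG0, IsCharRatio.heckeProdMer hD hGa, fun γ => ?_⟩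
    rw [subgroup_smul_eq_merComp, algebraMap_mer]
    refine merComp_inv_heckeProdMer hD χ (fun γ' => ?_) γ
    rw [← subgroup_smul_eq_merComp, ← algebraMap_mer]
    exact hGχ γ'

/-- **Hecke equivariance of the Kummer class over `ℂ`** (character form):
`T_ℓ (kappa m χ) = kappa m (transferMul χ)`. -/
theorem heckeOperatorAlong_kappa (hD4 : HD4 N) {ι : Type*} [Fintype ι]
    {D : CosetReps (embG N) ι} (hD : D.IsRatPos) (hH : HTheta N ℓ D) {m : ℕ} (hm : 0 < m)
    {χ : ↥(Gamma0 N) →* ℂˣ} (hχ : χ ∈ goodCharC N) (hχm : χ ^ m = 1) :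
    heckeOperatorAlong ℂ N ℓ ((kummerDataC N hD4).kappa m χ) =
      (kummerDataC N hD4).kappa m (D.transferMul χ) :=
  KummerData.kappa_hecke_pic0 (heckeDataC hD4 hD hH) hm hχ hχm (heckeOperatorAlong ℂ N ℓ)
    fun E => ⟨heckeDivC_mem_degZero N ℓ E, heckeOperatorAlong_mk N ℓ E⟩


/-! ### The lattice form -/

/-- The transfer of the character of `lam` is the character of the transfer of `lam`. -/
theorem transferMul_charOf {ι : Type*} [Fintype ι] (D : CosetReps (embG N) ι) (ζ : ℂˣ)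
    (lam : Additive ↥(Gamma0 N) →+ ℤ) :
    D.transferMul (KC.charOf ζ lam) = KC.charOf ζ (D.transfer lam) := by
  ext γ
  have h := D.transferMul_eq_of_eq_comp (zpowersHom ℂˣ ζ) lam (KC.charOf ζ lam)
    (fun γ' => by rw [KC.charOf_apply, zpowersHom_apply, toAdd_ofAdd]) γ
  rw [h, KC.charOf_apply, zpowersHom_apply, toAdd_ofAdd]

/-- **(J4), coset system form**: for a coset system `D` stable on `Lam N` whose Hecke product
realises `Nm_α ∘ β`, the Kummer homomorphism intertwines the transfer of `D` with the Hecke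
operator `T_ℓ` on `Pic⁰(X₀(N)_ℂ)`. -/
theorem kappaLamC_transfer (hD4 : HD4 N) {ι : Type*} [Fintype ι]
    {D : CosetReps (embG N) ι} (hD : D.IsRatPos) (hH : HTheta N ℓ D) {m : ℕ} (hm : 0 < m)
    {ζ : ℂˣ} (hζ : IsPrimitiveRoot ζ m) (lam lam' : ↥(KC.Lam N))
    (h : (lam' : Additive ↥(Gamma0 N) →+ ℤ) = D.transfer (lam : Additive ↥(Gamma0 N) →+ ℤ)) :
    KC.kappaLamC N hD4 hm hζ lam' =
      heckeOperatorAlong ℂ N ℓ (KC.kappaLamC N hD4 hm hζ lam) := by
  rw [KC.kappaLamC_apply, KC.kappaLamC_apply, h, ← transferMul_charOf,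
    heckeOperatorAlong_kappa hD4 hD hH hm (KC.charOf_mem_goodCharC hm hζ.pow_eq_one lam.2)
      (KC.charOf_pow_eq_one hζ.pow_eq_one _)]

end HeckeData

/-! ### The Hecke operators `TLam l` -/

section TLam

variable (N : ℕ) [NeZero N]

attribute [local instance] hasPrincipalDivisorsFL hasPrincipalDivisorsFc' finiteDimensionalFL

/-- The hypothesis (J4-alg) at a prime `l`, for the coset system of `heckeTransfer N l`
(`UStarReps` for `l ∣ N`, `TReps` for `l ∤ N`). -/
def HThetaAt (l : Nat.Primes) : Prop :=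
  haveI : NeZero (l : ℕ) := ⟨l.2.ne_zero⟩
  (∀ h : (l : ℕ) ∣ N, HTheta N l (UStarReps N h)) ∧
    ∀ h : ¬ (l : ℕ) ∣ N, HTheta N l (TReps N l.2 h)

variable {N}

/-- **(J4)** Hecke equivariance of the Kummer homomorphism over `ℂ`:
`kappa (T_l lam) = T_l (kappa lam)`, where `T_l` is `TLam N l` on the lattice and the Prelude's
`heckeOperatorAlong ℂ N l` on `Pic⁰(X₀(N)_ℂ)`. -/
theorem kappaLamC_TLam (hD4 : HD4 N) (l : Nat.Primes) (hH : HThetaAt N l) {m : ℕ} (hm : 0 < m)
    {ζ : ℂˣ} (hζ : IsPrimitiveRoot ζ m) (lam : ↥(Lam N)) :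
    KC.kappaLamC N hD4 hm hζ (TLam N l lam) =
      (haveI : NeZero (l : ℕ) := ⟨l.2.ne_zero⟩
       heckeOperatorAlong ℂ N l (KC.kappaLamC N hD4 hm hζ lam)) := by
  haveI : NeZero (l : ℕ) := ⟨l.2.ne_zero⟩
  by_cases h : (l : ℕ) ∣ N
  · exact kappaLamC_transfer hD4 (UStarReps_isRatPos N h) (hH.1 h) hm hζ lam (TLam N l lam)
      (by rw [coe_TLam_apply, heckeTransfer_of_dvd ℤ h])
  · exact kappaLamC_transfer hD4 (TReps_isRatPos N l.2 h) (hH.2 h) hm hζ lam (TLam N l lam)
      (by rw [coe_TLam_apply, heckeTransfer_of_not_dvd ℤ h])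

/-- **(J3)+(J4) packaged for (J8)**: for every `m ≥ 1` there is a homomorphism
`κ : Lam N →+ Pic⁰(X₀(N)_ℂ)` with kernel `m • Lam N`, killed by `m`, and Hecke equivariant. -/
theorem exists_kummerHom (hD4 : HD4 N) (hH : ∀ l : Nat.Primes, HThetaAt N l) {m : ℕ}
    (hm : 0 < m) :
    ∃ κ : ↥(Lam N) →+ Pic0 ℂ (DictC.Fc N),
      (∀ lam, κ lam = 0 ↔ ∃ lam' : ↥(Lam N), lam = m • lam') ∧ (∀ lam, m • κ lam = 0) ∧
      ∀ (l : Nat.Primes) (lam : ↥(Lam N)), κ (TLam N l lam) =
        (haveI : NeZero (l : ℕ) := ⟨l.2.ne_zero⟩; heckeOperatorAlong ℂ N l (κ lam)) := by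
  obtain ⟨ζ, hζ⟩ := KC.exists_primitiveRoot_units hm
  exact ⟨KC.kappaLamC N hD4 hm hζ, fun lam => KC.kappaLamC_eq_zero_iff hD4 hm hζ lam,
    fun lam => KC.nsmul_kappaLamC hD4 hm hζ lam, fun l lam => kappaLamC_TLam hD4 l (hH l) hm hζ lam⟩

end TLam

end Fermat.Agent.Jac.KH
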