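import Mathlib

/-!
# Program J, node (J6), part 2: constant field extensions, degree invariance

`F/K`, `E/L` fields over fields, `ι₀ : K →+* L`, `ι : F →+* E` compatible.  `ConstExt ι₀ ι` says
that `E` is a *constant field extension* of `F`: `K`-linearly independent families of `F` stay
`L`-linearly independent in `E` (linear disjointness) and `E` is generated by `L` and `ι(F)`.

Main results:
* `ConstExt.transcendental_map` : `ι f` is transcendental over `L` if `f` is over `K`;
* `ConstExt.basis_map` / `ConstExt.finrank_adjoin_simple_eq` : a `K(f)`-basis of `F` maps to an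
  `L(ι f)`-basis of `E`; hence `[E : L(ι f)] = [F : K(f)]`.
-/

set_option autoImplicit false

open Polynomial IntermediateField
open scoped IntermediateField.algebraAdjoinAdjoin

namespace Fermat.Agent.Jac.Descent

variable {K F L E : Type*} [Field K] [Field F] [Algebra K F] [Field L] [Field E] [Algebra L E]


/-- The powers of a transcendental element are linearly independent. -/
theorem linearIndependent_pow_of_transcendental {R A : Type*} [Field R] [Field A] [Algebra R A]
    {f : A} (hf : Transcendental R f) : LinearIndependent R (fun n : ℕ => f ^ n) := by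
  classical
  rw [linearIndependent_iff']
  intro s g hg i hi
  have hp : Polynomial.aeval f (∑ j ∈ s, Polynomial.monomial j (g j)) = 0 := by
    rw [map_sum]
    simpa [Polynomial.aeval_monomial, Algebra.smul_def] using hg
  have h0 := (transcendental_iff.mp hf) _ hp
  have := congrArg (fun q : R[X] => q.coeff i) h0
  simpa [Polynomial.finsetSum_coeff, Polynomial.coeff_monomial, hi] using this

/-- If the powers of `x` are linearly independent then `x` is transcendental. -/
theorem transcendental_of_linearIndependent_pow {R A : Type*} [Field R] [Field A] [Algebra R A]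
    {x : A} (hx : LinearIndependent R (fun n : ℕ => x ^ n)) : Transcendental R x := by
  rw [transcendental_iff]
  intro p hp
  rw [Polynomial.aeval_eq_sum_range] at hp
  have hli := (linearIndependent_iff'.mp hx) (Finset.range (p.natDegree + 1))
    (fun n => p.coeff n) hp
  ext n
  by_cases hn : n ∈ Finset.range (p.natDegree + 1)
  · simpa using hli n hn
  · rw [Finset.mem_range, not_lt] at hn
    simp [Polynomial.coeff_eq_zero_of_natDegree_lt (show p.natDegree < n by omega)]

/-- `E/L` is a constant field extension of `F/K` along `(ι₀, ι)`. -/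
structure ConstExt (ι₀ : K →+* L) (ι : F →+* E) : Prop where
  comm : ∀ a : K, ι (algebraMap K F a) = algebraMap L E (ι₀ a)
  linDisj : ∀ t : Set F, LinearIndependent K (fun i : t => (i : F)) →
    LinearIndependent L (fun i : t => ι (i : F))
  gen : IntermediateField.adjoin L (Set.range ι) = ⊤

namespace ConstExt

variable {ι₀ : K →+* L} {ι : F →+* E} (h : ConstExt ι₀ ι)

include h

/-- Linear disjointness for arbitrary families. -/
theorem linearIndependent_map {J : Type*} {b : J → F} (hb : LinearIndependent K b) :
    LinearIndependent L (fun j => ι (b j)) := by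
  have h1 : LinearIndependent K (fun i : Set.range b => (i : F)) := hb.linearIndepOn_id
  have h2 := h.linDisj (Set.range b) h1
  have h3 := h2.comp (fun j : J => (⟨b j, j, rfl⟩ : Set.range b)) (by
    intro j j' hjj
    exact hb.injective (congrArg Subtype.val hjj))
  exact h3

/-- The image of a transcendental element is transcendental. -/
theorem transcendental_map {f : F} (hf : Transcendental K f) : Transcendental L (ι f) := by
  have hpow' : LinearIndependent L (fun n : ℕ => ι f ^ n) := by
    have := h.linearIndependent_map (linearIndependent_pow_of_transcendental hf)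
    simpa using this
  exact transcendental_of_linearIndependent_pow hpow'

/-- `ι` maps `K(f)` into `L(ι f)`. -/
theorem map_mem_adjoin_simple (f : F) {a : F} (ha : a ∈ K⟮f⟯) : ι a ∈ L⟮ι f⟯ := by
  rw [IntermediateField.mem_adjoin_simple_iff] at ha ⊢
  obtain ⟨r, s, rfl⟩ := ha
  refine ⟨r.map ι₀, s.map ι₀, ?_⟩
  have key : ∀ p : K[X], ι (Polynomial.aeval f p) = Polynomial.aeval (ι f) (p.map ι₀) := by
    intro p
    rw [Polynomial.aeval_def, Polynomial.aeval_def, Polynomial.eval₂_map, Polynomial.hom_eval₂]
    congr 1
    ext a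
    exact h.comm a
  rw [map_div₀, key, key]

/-- The ring homomorphism `K(f) → L(ι f)` induced by `ι`. -/
noncomputable def adjoinMap (f : F) : K⟮f⟯ →+* L⟮ι f⟯ where
  toFun a := ⟨ι (a : F), h.map_mem_adjoin_simple f a.2⟩
  map_one' := Subtype.ext (by simp)
  map_mul' a b := Subtype.ext (by simp)
  map_zero' := Subtype.ext (by simp)
  map_add' a b := Subtype.ext (by simp)

@[simp]
theorem coe_adjoinMap (f : F) (a : K⟮f⟯) : ((h.adjoinMap f a : L⟮ι f⟯) : E) = ι (a : F) := rfl

section Basis

variable {f : F} (hf : Transcendental K f) {d : Type*} [Fintype d] (b : Module.Basis d K⟮f⟯ F)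

omit h in
variable (L) in
/-- The `L(ι f)`-span of the image of a `K(f)`-basis of `F`. -/
noncomputable def spanMap (ι : F →+* E) {f : F} {d : Type*} (b : Module.Basis d K⟮f⟯ F) :
    Submodule L⟮ι f⟯ E :=
  Submodule.span L⟮ι f⟯ (Set.range fun i => ι (b i))

theorem map_mul_mem_spanMap (g : F) {m : E} (hm : m ∈ spanMap L ι b) : ι g * m ∈ spanMap L ι b := by
  classical
  unfold spanMap at hm ⊢
  induction hm using Submodule.span_induction with
  | mem x hx =>
    obtain ⟨i, rfl⟩ := hx
    have hrepr : g * b i = ∑ k, ((b.repr (g * b i) k : K⟮f⟯) : F) * b k := by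
      conv_lhs => rw [← b.sum_repr (g * b i)]
      simp [Algebra.smul_def]
    rw [← map_mul, hrepr, map_sum]
    refine Submodule.sum_mem _ fun k _ => ?_
    rw [map_mul]
    have : ι ((b.repr (g * b i) k : K⟮f⟯) : F) * ι (b k) =
        (h.adjoinMap f (b.repr (g * b i) k)) • ι (b k) := by
      rw [Algebra.smul_def]
      rfl
    rw [this]
    exact Submodule.smul_mem _ _ (Submodule.subset_span ⟨k, rfl⟩)
  | zero => simp
  | add x y _ _ hx hy => rw [mul_add]; exact Submodule.add_mem _ hx hy
  | smul c x _ hx =>
    rw [Algebra.smul_def, mul_left_comm, ← Algebra.smul_def]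
    exact Submodule.smul_mem _ _ hx

theorem one_mem_spanMap : (1 : E) ∈ spanMap L ι b := by
  classical
  have hrepr : (1 : F) = ∑ k, ((b.repr 1 k : K⟮f⟯) : F) * b k := by
    conv_lhs => rw [← b.sum_repr 1]
    simp [Algebra.smul_def]
  have h1 : (1 : E) = ι 1 := (map_one ι).symm
  rw [h1, hrepr, map_sum]
  refine Submodule.sum_mem _ fun k _ => ?_
  rw [map_mul]
  have : ι ((b.repr 1 k : K⟮f⟯) : F) * ι (b k) = (h.adjoinMap f (b.repr 1 k)) • ι (b k) := by
    rw [Algebra.smul_def]
    rfl
  rw [this]
  exact Submodule.smul_mem _ _ (Submodule.subset_span ⟨k, rfl⟩)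

theorem map_mem_spanMap (g : F) : ι g ∈ spanMap L ι b := by
  have := h.map_mul_mem_spanMap b g (h.one_mem_spanMap b)
  rwa [mul_one] at this

theorem mul_mem_spanMap {m m' : E} (hm : m ∈ spanMap L ι b) (hm' : m' ∈ spanMap L ι b) :
    m * m' ∈ spanMap L ι b := by
  unfold spanMap at hm
  induction hm using Submodule.span_induction with
  | mem x hx =>
    obtain ⟨i, rfl⟩ := hx
    exact h.map_mul_mem_spanMap b (b i) hm'
  | zero => simp
  | add x y _ _ hx hy => rw [add_mul]; exact Submodule.add_mem _ hx hy
  | smul c x _ hx =>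
    rw [Algebra.smul_def, mul_assoc, ← Algebra.smul_def]
    exact Submodule.smul_mem _ _ hx

theorem algebraMap_mem_spanMap (c : L) : algebraMap L E c ∈ spanMap L ι b := by
  have h1 : algebraMap L E c = (algebraMap L L⟮ι f⟯ c) • (1 : E) := by
    rw [Algebra.smul_def, mul_one]
    rfl
  rw [h1]
  exact Submodule.smul_mem _ _ (h.one_mem_spanMap b)

theorem inv_mem_spanMap {m : E} (hm : m ∈ spanMap L ι b) : m⁻¹ ∈ spanMap L ι b := by
  classical
  rcases eq_or_ne m 0 with rfl | hm0
  · simp
  -- multiplication by `m` on the finite-dimensional space `spanMap` is injective, hence surjective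
  have : FiniteDimensional L⟮ι f⟯ (spanMap L ι b) :=
    FiniteDimensional.span_of_finite _ (Set.finite_range _)
  let μ : (spanMap L ι b) →ₗ[L⟮ι f⟯] (spanMap L ι b) :=
    { toFun := fun x => ⟨m * x, h.mul_mem_spanMap b hm x.2⟩
      map_add' := fun x y => Subtype.ext (mul_add _ _ _)
      map_smul' := fun c x => Subtype.ext (by
        show m * (c • (x : E)) = c • (m * (x : E))
        rw [Algebra.smul_def, Algebra.smul_def, mul_left_comm]) }
  have hinj : Function.Injective μ := by
    rw [injective_iff_map_eq_zero]
    intro x hx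
    have : m * (x : E) = 0 := congrArg Subtype.val hx
    exact Subtype.ext ((mul_eq_zero.mp this).resolve_left hm0)
  obtain ⟨x, hx⟩ := (LinearMap.injective_iff_surjective.mp hinj) ⟨1, h.one_mem_spanMap b⟩
  have hx' : m * (x : E) = 1 := congrArg Subtype.val hx
  have : m⁻¹ = (x : E) := (eq_inv_of_mul_eq_one_right hx').symm
  rw [this]
  exact x.2

/-- The span is everything. -/
theorem spanMap_eq_top : spanMap L ι b = ⊤ := by
  rw [eq_top_iff]
  intro y _
  -- the span is an intermediate field containing `ι(F)`
  let M : IntermediateField L E :=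
    { carrier := spanMap L ι b
      mul_mem' := fun ha hb => h.mul_mem_spanMap b ha hb
      one_mem' := h.one_mem_spanMap b
      add_mem' := fun ha hb => Submodule.add_mem _ ha hb
      zero_mem' := Submodule.zero_mem _
      algebraMap_mem' := fun c => h.algebraMap_mem_spanMap b c
      inv_mem' := fun _ ha => h.inv_mem_spanMap b ha }
  have hle : IntermediateField.adjoin L (Set.range ι) ≤ M := by
    rw [IntermediateField.adjoin_le_iff]
    rintro _ ⟨g, rfl⟩
    exact h.map_mem_spanMap b g
  rw [h.gen] at hle
  exact hle (IntermediateField.mem_top)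

omit [Fintype d] in
include hf in
/-- The image of a `K(f)`-basis of `F` is linearly independent over `L(ι f)`. -/
theorem linearIndependent_map_basis :
    LinearIndependent L⟮ι f⟯ (fun i => ι (b i)) := by
  classical
  rw [← LinearIndependent.iff_fractionRing (R := Algebra.adjoin L {ι f}) (K := L⟮ι f⟯)]
  -- the family `f^j b_i` is `K`-linearly independent
  have hpow : LinearIndependent K
      (fun n : ℕ => (⟨f, mem_adjoin_simple_self K f⟩ : K⟮f⟯) ^ n) := by
    apply LinearIndependent.of_comp (K⟮f⟯.val.toLinearMap)
    have h1 := linearIndependent_pow_of_transcendental hf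
    have heq : (⇑(K⟮f⟯.val.toLinearMap) ∘ fun n : ℕ =>
        (⟨f, mem_adjoin_simple_self K f⟩ : K⟮f⟯) ^ n) = fun n : ℕ => f ^ n := by
      funext n
      simp
    rw [heq]
    exact h1
  have hu : LinearIndependent K (fun p : ℕ × d =>
      (⟨f, mem_adjoin_simple_self K f⟩ : K⟮f⟯) ^ p.1 • b p.2) :=
    linearIndependent_smul hpow b.linearIndependent
  have hu' : LinearIndependent L (fun p : ℕ × d => ι f ^ p.1 * ι (b p.2)) := by
    have := h.linearIndependent_map hu
    have heq : (fun p : ℕ × d => ι ((⟨f, mem_adjoin_simple_self K f⟩ : K⟮f⟯) ^ p.1 • b p.2)) =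
        (fun p : ℕ × d => ι f ^ p.1 * ι (b p.2)) := by
      funext p
      rw [Algebra.smul_def, map_mul]
      congr 1
      simp
    rwa [heq] at this
  rw [linearIndependent_iff']
  intro s g hg i hi
  -- write the coefficients as polynomials in `ι f`
  have hR : ∀ k : d, ∃ R : L[X], ((g k : Algebra.adjoin L {ι f}) : E) = Polynomial.aeval (ι f) R := by
    intro k
    have hmem : ((g k : Algebra.adjoin L {ι f}) : E) ∈
        (Polynomial.aeval (R := L) (ι f)).range := by
      rw [← Algebra.adjoin_singleton_eq_range_aeval]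
      exact (g k).2
    obtain ⟨R, hR⟩ := hmem
    exact ⟨R, hR.symm⟩
  choose R hR using hR
  obtain ⟨B, hB⟩ : ∃ B : ℕ, ∀ k ∈ s, (R k).natDegree < B :=
    ⟨s.sup (fun k => (R k).natDegree) + 1, fun k hk =>
      Nat.lt_succ_of_le (Finset.le_sup (f := fun k => (R k).natDegree) hk)⟩
  have hsum : ∑ p ∈ Finset.range B ×ˢ s, (R p.2).coeff p.1 • (ι f ^ p.1 * ι (b p.2)) = 0 := by
    rw [Finset.sum_product_right]
    have hg' : ∑ k ∈ s, ((g k : Algebra.adjoin L {ι f}) : E) * ι (b k) = 0 := by
      have := hg
      simpa [Algebra.smul_def, Subalgebra.smul_def] using this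
    rw [← hg']
    refine Finset.sum_congr rfl fun k hk => ?_
    rw [hR k, Polynomial.aeval_eq_sum_range' (hB k hk), Finset.sum_mul]
    refine Finset.sum_congr rfl fun j _ => ?_
    rw [Algebra.smul_def, Algebra.smul_def, mul_assoc]
  have hzero := (linearIndependent_iff'.mp hu') (Finset.range B ×ˢ s)
    (fun p => (R p.2).coeff p.1) hsum
  have hRi : R i = 0 := by
    ext j
    by_cases hj : j < B
    · have := hzero (j, i) (Finset.mem_product.mpr ⟨Finset.mem_range.mpr hj, hi⟩)
      simpa using this
    · rw [Polynomial.coeff_zero]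
      exact Polynomial.coeff_eq_zero_of_natDegree_lt (lt_of_lt_of_le (hB i hi) (not_lt.mp hj))
  apply Subtype.ext
  rw [hR i, hRi, map_zero]
  rfl

include hf in
/-- **Basis of the constant field extension.** The image of a `K(f)`-basis of `F` is an
`L(ι f)`-basis of `E`. -/
noncomputable def basisMap : Module.Basis d L⟮ι f⟯ E :=
  Module.Basis.mk (h.linearIndependent_map_basis hf b) (by
    have := h.spanMap_eq_top b
    unfold spanMap at this
    rw [this])

include hf in
theorem basisMap_apply (i : d) : h.basisMap hf b i = ι (b i) := by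
  unfold basisMap
  rw [Module.Basis.mk_apply]

end Basis

/-- **Degree invariance under constant field extension**: `[E : L(ι f)] = [F : K(f)]`. -/
theorem finrank_adjoin_simple_eq {f : F} (hf : Transcendental K f) [FiniteDimensional K⟮f⟯ F] :
    FiniteDimensional L⟮ι f⟯ E ∧ Module.finrank L⟮ι f⟯ E = Module.finrank K⟮f⟯ F := by
  let b := Module.finBasis K⟮f⟯ F
  let b' := h.basisMap hf b
  refine ⟨Module.Finite.of_basis b', ?_⟩
  rw [Module.finrank_eq_card_basis b', Fintype.card_fin]

end ConstExt

end Fermat.Agent.Jac.Descent
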