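import Mathlib
import Fermat.Prelude.Def_AlgebraicCurve_DivisorClassGroup
import Fermat.Agent.X0.Alg.PlaceBasic

/-!
# Program J, node (J6), part 1: restriction of places along an embedding of function fields with
change of the constant field

`F/K` and `E/L` fields over fields, `ι : F →+* E` a ring homomorphism mapping the constants `K`
into the constants `L` (`hι`).  For a place `w` of `E/L`:

* `Place.restrictHom ι hι w hne : Place K F` : the restriction `ι⁻¹(O_w)`, defined when it is not
  all of `F` (`hne`);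
* `Place.ramIdxHom`, `Place.ord_map_eq` : `ord_w (ι f) = e · ord_{w ∩ F} (f)`, `e ≥ 1`;
* `Place.ord_map_eq_zero_of_comap_eq_top` : if `ι⁻¹(O_w) = F` then `ord_w (ι f) = 0` for `f ≠ 0`.

The proofs follow `FF/PlaceExt.lean` (algebraic extensions over a fixed constant field).
-/

set_option autoImplicit false

open AlgebraicCurve

namespace Fermat.Agent.Jac.Descent

variable {K F L E : Type*} [Field K] [Field F] [Algebra K F] [Field L] [Field E] [Algebra L E]
  (ι : F →+* E)

section Comap

variable (w : Place L E)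

/-- An element of minimal order in a nonzero ideal of the restricted valuation ring. -/
theorem exists_ord_min (I : Ideal (w.toValuationSubring.comap ι)) (hI : I ≠ ⊥) :
    ∃ a ∈ I, a ≠ 0 ∧ ∀ b ∈ I, b ≠ 0 → w.ord (ι (a : F)) ≤ w.ord (ι (b : F)) := by
  classical
  obtain ⟨a₀, ha₀, ha₀0⟩ := Submodule.exists_mem_ne_zero_of_ne_bot hI
  have hnonneg : ∀ b : w.toValuationSubring.comap ι, 0 ≤ w.ord (ι (b : F)) := fun b =>
    Fermat.Agent.X0.Place.ord_nonneg_of_mem w b.2
  let S : Set ℕ := {n | ∃ b ∈ I, b ≠ 0 ∧ (w.ord (ι (b : F))).toNat = n}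
  have hS : S.Nonempty := ⟨_, a₀, ha₀, ha₀0, rfl⟩
  obtain ⟨a, ha, ha0, han⟩ := Nat.sInf_mem hS
  refine ⟨a, ha, ha0, fun b hb hb0 => ?_⟩
  have h1 : sInf S ≤ (w.ord (ι (b : F))).toNat := Nat.sInf_le ⟨b, hb, hb0, rfl⟩
  rw [← han] at h1
  have := hnonneg a
  have := hnonneg b
  omega

/-- The restriction of the valuation ring of a place along `ι` is a principal ideal ring. -/
theorem isPrincipalIdealRing_comap :
    IsPrincipalIdealRing (w.toValuationSubring.comap ι) := by
  refine ⟨fun I => ?_⟩
  by_cases hI : I = ⊥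
  · exact ⟨0, by rw [hI]; simp⟩
  obtain ⟨a, ha, ha0, hmin⟩ := exists_ord_min ι w I hI
  refine ⟨a, le_antisymm (fun b hb => ?_) ?_⟩
  · rw [Submodule.mem_span_singleton]
    by_cases hb0 : b = 0
    · exact ⟨0, by rw [hb0, zero_smul]⟩
    have haF : (a : F) ≠ 0 := fun h => ha0 (Subtype.ext h)
    have hbF : (b : F) ≠ 0 := fun h => hb0 (Subtype.ext h)
    have haF' : ι (a : F) ≠ 0 := (map_ne_zero _).mpr haF
    have hbF' : ι (b : F) ≠ 0 := (map_ne_zero _).mpr hbF
    have hq : (b : F) * (a : F)⁻¹ ∈ w.toValuationSubring.comap ι := by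
      rw [ValuationSubring.mem_comap, map_mul, map_inv₀]
      apply Fermat.Agent.X0.Place.mem_of_ord_nonneg
      rw [w.ord_mul hbF' (inv_ne_zero haF'), w.ord_inv]
      have := hmin b hb hb0
      omega
    refine ⟨⟨(b : F) * (a : F)⁻¹, hq⟩, Subtype.ext ?_⟩
    show (b : F) * (a : F)⁻¹ * (a : F) = (b : F)
    rw [inv_mul_cancel_right₀ haF]
  · rw [Submodule.span_le, Set.singleton_subset_iff]
    exact ha

variable (hι : ∀ a : K, ∃ b : L, ι (algebraMap K F a) = algebraMap L E b)

/-- **The restriction of a place `w` of `E/L` to `F/K` along `ι`**, when it is not trivial. -/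
def _root_.AlgebraicCurve.Place.restrictHom (w : Place L E)
    (hne : w.toValuationSubring.comap ι ≠ ⊤) : Place K F where
  toValuationSubring := w.toValuationSubring.comap ι
  algebraMap_mem' a := by
    obtain ⟨b, hb⟩ := hι a
    show ι (algebraMap K F a) ∈ w.toValuationSubring
    rw [hb]
    exact w.algebraMap_mem' b
  ne_top' := hne
  isPrincipalIdealRing' := isPrincipalIdealRing_comap ι w

@[simp]
theorem restrictHom_toValuationSubring (hne : w.toValuationSubring.comap ι ≠ ⊤) :
    (w.restrictHom ι hι hne).toValuationSubring = w.toValuationSubring.comap ι := rfl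

theorem mem_restrictHom_iff (hne : w.toValuationSubring.comap ι ≠ ⊤) (f : F) :
    f ∈ (w.restrictHom ι hι hne).toValuationSubring ↔ ι f ∈ w.toValuationSubring :=
  Iff.rfl

/-- The restriction is nontrivial as soon as some element of `F` has positive order at `w`. -/
theorem comap_ne_top_of_ord_pos {t : F} (ht : 0 < w.ord (ι t)) :
    w.toValuationSubring.comap ι ≠ ⊤ := by
  intro htop
  have ht0 : t ≠ 0 := by
    rintro rfl
    simp at ht
  have hmem : t⁻¹ ∈ w.toValuationSubring.comap ι := by rw [htop]; trivial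
  rw [ValuationSubring.mem_comap, map_inv₀] at hmem
  have := Fermat.Agent.X0.Place.ord_nonneg_of_mem w hmem
  rw [w.ord_inv] at this
  omega

/-- If the restriction is trivial, all nonzero elements of `F` are units at `w`. -/
theorem ord_map_eq_zero_of_comap_eq_top (htop : w.toValuationSubring.comap ι = ⊤) (f : F) :
    w.ord (ι f) = 0 := by
  rcases eq_or_ne f 0 with rfl | hf
  · simp
  have h1 : f ∈ w.toValuationSubring.comap ι := by rw [htop]; trivial
  have h2 : f⁻¹ ∈ w.toValuationSubring.comap ι := by rw [htop]; trivial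
  rw [ValuationSubring.mem_comap] at h1 h2
  rw [map_inv₀] at h2
  have h3 := Fermat.Agent.X0.Place.ord_nonneg_of_mem w h1
  have h4 := Fermat.Agent.X0.Place.ord_nonneg_of_mem w h2
  rw [w.ord_inv] at h4
  omega

end Comap

section RamIdx

variable (hι : ∀ a : K, ∃ b : L, ι (algebraMap K F a) = algebraMap L E b)
  (w : Place L E) (hne : w.toValuationSubring.comap ι ≠ ⊤)

/-- A unit of `O_v`, `v = w ∩ F`, has order `0` at `w`. -/
theorem ord_map_unit (u : (w.restrictHom ι hι hne).toValuationSubringˣ) :
    w.ord (ι ((u : (w.restrictHom ι hι hne).toValuationSubring) : F)) = 0 := by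
  have h1 : 0 ≤ w.ord (ι ((u : (w.restrictHom ι hι hne).toValuationSubring) : F)) :=
    Fermat.Agent.X0.Place.ord_nonneg_of_mem w (u : (w.restrictHom ι hι hne).toValuationSubring).2
  have h2 : 0 ≤ w.ord (ι
      (((u⁻¹ : (w.restrictHom ι hι hne).toValuationSubringˣ) :
        (w.restrictHom ι hι hne).toValuationSubring) : F)) :=
    Fermat.Agent.X0.Place.ord_nonneg_of_mem w
      ((u⁻¹ : (w.restrictHom ι hι hne).toValuationSubringˣ) :
        (w.restrictHom ι hι hne).toValuationSubring).2
  have h3 : (((u⁻¹ : (w.restrictHom ι hι hne).toValuationSubringˣ) :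
      (w.restrictHom ι hι hne).toValuationSubring) : F) =
      ((u : (w.restrictHom ι hι hne).toValuationSubring) : F)⁻¹ := by
    have h := congrArg Subtype.val (u.inv_mul)
    exact eq_inv_of_mul_eq_one_left h
  rw [h3, map_inv₀, w.ord_inv] at h2
  omega

/-- A non-unit of `O_v` has positive order at `w`. -/
theorem ord_map_pos_of_not_isUnit {a : (w.restrictHom ι hι hne).toValuationSubring}
    (ha0 : a ≠ 0) (ha : ¬ IsUnit a) : 0 < w.ord (ι (a : F)) := by
  have h1 : 0 ≤ w.ord (ι (a : F)) := Fermat.Agent.X0.Place.ord_nonneg_of_mem w a.2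
  rcases h1.lt_or_eq with h | h
  · exact h
  exfalso
  apply ha
  have haF : (a : F) ≠ 0 := fun h => ha0 (Subtype.ext h)
  have hinv : (a : F)⁻¹ ∈ (w.restrictHom ι hι hne).toValuationSubring := by
    rw [mem_restrictHom_iff, map_inv₀]
    exact Fermat.Agent.X0.Place.inv_mem_of_ord_nonpos w h.symm.le
  exact IsUnit.of_mul_eq_one (⟨(a : F)⁻¹, hinv⟩ : (w.restrictHom ι hι hne).toValuationSubring)
    (Subtype.ext (mul_inv_cancel₀ haF))

/-- **The ramification index** of `w` over its restriction. -/
noncomputable def ramIdxHom : ℕ :=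
  (w.ord (ι ((Classical.choose
    (IsDiscreteValuationRing.exists_irreducible (w.restrictHom ι hι hne).toValuationSubring) :
      (w.restrictHom ι hι hne).toValuationSubring) : F))).toNat

theorem ramIdxHom_pos : 0 < ramIdxHom ι hι w hne := by
  have hπ := Classical.choose_spec
    (IsDiscreteValuationRing.exists_irreducible (w.restrictHom ι hι hne).toValuationSubring)
  have := ord_map_pos_of_not_isUnit ι hι w hne hπ.ne_zero hπ.not_isUnit
  unfold ramIdxHom
  omega

/-- **`ord_w (ι f) = e · ord_v (f)`** for `f ∈ F`, `v = w ∩ F`. -/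
theorem ord_map_eq (f : F) :
    w.ord (ι f) = (ramIdxHom ι hι w hne : ℤ) * (w.restrictHom ι hι hne).ord f := by
  rcases eq_or_ne f 0 with rfl | hf
  · simp
  have hπ := Classical.choose_spec
    (IsDiscreteValuationRing.exists_irreducible (w.restrictHom ι hι hne).toValuationSubring)
  set π := Classical.choose
    (IsDiscreteValuationRing.exists_irreducible (w.restrictHom ι hι hne).toValuationSubring)
    with hπdef
  have hpos := ord_map_pos_of_not_isUnit ι hι w hne hπ.ne_zero hπ.not_isUnit
  have he : (ramIdxHom ι hι w hne : ℤ) = w.ord (ι (π : F)) := by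
    unfold ramIdxHom
    rw [Int.toNat_of_nonneg hpos.le]
  obtain ⟨u, hu⟩ := (w.restrictHom ι hι hne).exists_unit_mul_zpow hf hπ
  have hπF : (π : F) ≠ 0 := fun h => hπ.ne_zero (Subtype.ext h)
  have huF : ((u : (w.restrictHom ι hι hne).toValuationSubring) : F) ≠ 0 := by
    intro h
    rw [h, zero_mul] at hu
    exact hf hu
  conv_lhs => rw [hu]
  rw [map_mul, map_zpow₀, w.ord_mul ((map_ne_zero _).mpr huF)
    (zpow_ne_zero _ ((map_ne_zero _).mpr hπF)), ord_map_unit, zero_add, w.ord_zpow, he]
  ring

end RamIdx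

end Fermat.Agent.Jac.Descent
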