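import Mathlib
import Fermat.Agent.Jac.DescentRestrict
import Fermat.Agent.Good.PoleDegree

/-!
# Program J (J6c): the genus does not go up under a constant field extension

`ι : F →+* E` a homomorphism of function fields over `ι₀ : K → L` (constants to constants)
preserving linear independence (`K`-independent families of `F` are `L`-independent in `E`).
With Riemann packages on both sides and an element `x ∈ F` whose pole divisors in `F` and in `E`
have the same positive degree `d`:

* `map_mem_riemannRochSpace_poleDiv` : `ι (L_K(s (x)_∞)) ⊆ L_L(s (ι x)_∞)`;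
* `genusFF_le_of_linearIndependent_map` : `genusFF L E ≤ genusFF K F`.
-/

set_option autoImplicit false

open AlgebraicCurve Module

namespace Fermat.Agent.Jac.Descent

open Fermat.Agent.Red Fermat.Agent.Good.GenusCharts

variable {K F L E : Type*} [Field K] [Field F] [Algebra K F] [Field L] [Field E] [Algebra L E]
  (ι : F →+* E)

/-- `ι` maps `L(s (x)_∞)` into `L(s (ι x)_∞)`. -/
theorem map_mem_riemannRochSpace_poleDiv [HasPrincipalDivisors K F] [HasPrincipalDivisors L E]
    (hι : ∀ a : K, ∃ b : L, ι (algebraMap K F a) = algebraMap L E b) (x : F) (s : ℕ) {f : F}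
    (hf : f ∈ riemannRochSpace (s • poleDiv K x)) :
    ι f ∈ riemannRochSpace (s • poleDiv L (ι x)) := by
  rw [mem_riemannRochSpace_iff] at hf ⊢
  intro w
  rcases eq_or_ne f 0 with rfl | hf0
  · left; simp
  right
  rw [nsmul_poleDiv_apply]
  by_cases htop : w.toValuationSubring.comap ι = ⊤
  · rw [ord_map_eq_zero_of_comap_eq_top ι w htop f, ord_map_eq_zero_of_comap_eq_top ι w htop x]
    simp
  · have h1 := (hf (w.restrictHom ι hι htop)).resolve_left hf0
    rw [nsmul_poleDiv_apply] at h1
    rw [ord_map_eq ι hι w htop f, ord_map_eq ι hι w htop x]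
    have he : (0 : ℤ) < (ramIdxHom ι hι w htop : ℤ) := by
      exact_mod_cast ramIdxHom_pos ι hι w htop
    set e : ℤ := (ramIdxHom ι hι w htop : ℤ)
    set a : ℤ := (w.restrictHom ι hι htop).ord x
    set b : ℤ := (w.restrictHom ι hι htop).ord f
    have h2 : max 0 (-(e * a)) = e * max 0 (-a) := by
      rw [mul_max_of_nonneg _ _ he.le, mul_zero, mul_neg]
    rw [h2]
    have h3 : e * (-((s : ℤ) * max 0 (-a))) ≤ e * b := mul_le_mul_of_nonneg_left h1 he.le
    linarith [h3]

/-- **The genus does not go up under a constant field extension.** -/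
theorem genusFF_le_of_linearIndependent_map [HasPrincipalDivisors K F] [HasPrincipalDivisors L E]
    (hι : ∀ a : K, ∃ b : L, ι (algebraMap K F a) = algebraMap L E b)
    (hlin : ∀ (n : ℕ) (b : Fin n → F), LinearIndependent K b →
      LinearIndependent L (fun j => ι (b j)))
    (hF : RiemannPkg K F) (hE : RiemannPkg L E) (x : F) (d : ℕ) (hd : 0 < d)
    (hdF : Divisor.degree (poleDiv K x) = d) (hdE : Divisor.degree (poleDiv L (ι x)) = d) :
    genusFF L E ≤ genusFF K F := by
  classical
  obtain ⟨c, hc⟩ := hF.riemann_eq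
  obtain ⟨c', hc'⟩ := hE.riemann_eq
  set s : ℕ := max c.toNat c'.toNat with hs
  have hsd : (s : ℤ) ≤ (s : ℤ) * d := by
    have : (1 : ℤ) ≤ d := by exact_mod_cast hd
    nlinarith [Int.natCast_nonneg s]
  have hcs : c ≤ (s : ℤ) * d := by
    have h1 : c ≤ (c.toNat : ℤ) := Int.self_le_toNat c
    have h2 : (c.toNat : ℤ) ≤ s := by exact_mod_cast le_max_left _ _
    linarith
  have hcs' : c' ≤ (s : ℤ) * d := by
    have h1 : c' ≤ (c'.toNat : ℤ) := Int.self_le_toNat c'
    have h2 : (c'.toNat : ℤ) ≤ s := by exact_mod_cast le_max_right _ _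
    linarith
  have hdeg : Divisor.degree (s • poleDiv K x) = (s : ℤ) * d := by
    rw [map_nsmul, hdF, nsmul_eq_mul]
  have hdeg' : Divisor.degree (s • poleDiv L (ι x)) = (s : ℤ) * d := by
    rw [map_nsmul, hdE, nsmul_eq_mul]
  have h1 := hc (s • poleDiv K x) (by rw [hdeg]; exact hcs)
  have h2 := hc' (s • poleDiv L (ι x)) (by rw [hdeg']; exact hcs')
  rw [hdeg] at h1
  rw [hdeg'] at h2
  haveI : Module.Finite K (riemannRochSpace (s • poleDiv K x)) := hF.finite_L _
  haveI : Module.Finite L (riemannRochSpace (s • poleDiv L (ι x))) := hE.finite_L _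
  set n := finrank K (riemannRochSpace (s • poleDiv K x)) with hn
  let b : Basis (Fin n) K (riemannRochSpace (s • poleDiv K x)) := Module.finBasis K _
  have hb : LinearIndependent K (fun j : Fin n => ((b j : riemannRochSpace (s • poleDiv K x)) : F)) :=
    b.linearIndependent.map' (Submodule.subtype _) (Submodule.ker_subtype _)
  have hb' := hlin n _ hb
  let g : Fin n → riemannRochSpace (s • poleDiv L (ι x)) := fun j =>
    ⟨ι (b j : F), map_mem_riemannRochSpace_poleDiv ι hι x s (b j).2⟩
  have hg : LinearIndependent L g := by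
    apply LinearIndependent.of_comp (Submodule.subtype _)
    exact hb'
  have h3 := hg.fintype_card_le_finrank
  rw [Fintype.card_fin] at h3
  have h4 : (n : ℤ) ≤ finrank L (riemannRochSpace (s • poleDiv L (ι x))) := by exact_mod_cast h3
  have h5 : (genusFF L E : ℤ) ≤ genusFF K F := by linarith
  exact_mod_cast h5

end Fermat.Agent.Jac.Descent
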