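import Mathlib
import Fermat.Prelude.Def_ModularCurve_LaurentCoeff
import Fermat.Agent.Jac.DescentGenus

/-!
# Program J (J6c): constant field extension in the Laurent model

`ι₀ : K →+* L` a homomorphism of fields of characteristic zero, `F₀ ⊆ ℚ((q))`.

* `linearIndependent_coeffMap` : `K`-linearly independent Laurent series stay `L`-linearly
  independent after base change of the coefficients;
* `bcHom ι₀ F₀ : laurentBaseChange K F₀ →+* laurentBaseChange L F₀` : the coefficientwise map;
* `genusFF_laurentBaseChange_le` : `genusFF L (laurentBaseChange L F₀) ≤ genusFF K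
  (laurentBaseChange K F₀)` from Riemann packages and an element with pole divisors of equal
  positive degree.
-/

set_option autoImplicit false

open AlgebraicCurve Module ModularCurve

namespace Fermat.Agent.Jac.Descent

open Fermat.Agent.Red Fermat.Agent.Good.GenusCharts

variable {K L : Type*} [Field K] [Field L]

/-- Multiplication by a constant is coefficientwise. -/
theorem coeff_algebraMap_mul (c : K) (x : LaurentSeries K) (m : ℤ) :
    (algebraMap K (LaurentSeries K) c * x).coeff m = c * x.coeff m := by
  rw [algebraMap_laurentSeries_eq_single, ← HahnSeries.C_apply,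
    HahnSeries.C_mul_eq_smul, HahnSeries.coeff_smul, smul_eq_mul]

/-- Linear disjointness in the Laurent model: base change of the coefficients preserves linear
independence (explicit form, avoiding the module structures on `K((q))`). -/
theorem eq_zero_of_sum_coeffMap (ι₀ : K →+* L) {J : Type*} [Fintype J]
    (b : J → LaurentSeries K)
    (hb : ∀ c : J → K, ∑ j, algebraMap K (LaurentSeries K) (c j) * b j = 0 → ∀ j, c j = 0)
    (c : J → L) (hc : ∑ j, algebraMap L (LaurentSeries L) (c j) * coeffMap ι₀ (b j) = 0) :
    ∀ j, c j = 0 := by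
  classical
  letI : Algebra K L := ι₀.toAlgebra
  intro i
  rw [← Module.forall_dual_apply_eq_zero_iff K]
  intro φ
  refine hb (fun i => φ (c i)) ?_ i
  ext m
  have hm := congrArg (fun x : LaurentSeries L => x.coeff m) hc
  simp only [HahnSeries.coeff_sum, coeff_algebraMap_mul, coeffMap_coeff,
    HahnSeries.coeff_zero] at hm ⊢
  have h2 := congrArg φ hm
  rw [map_sum, map_zero] at h2
  rw [← h2]
  refine Finset.sum_congr rfl fun j _ => ?_
  have : c j * ι₀ ((b j).coeff m) = (b j).coeff m • c j := by
    rw [Algebra.smul_def, mul_comm]; rfl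
  rw [this, map_smul, smul_eq_mul, mul_comm]

variable [Algebra ℚ K] [Algebra ℚ L] (ι₀ : K →+* L) (F₀ : IntermediateField ℚ (LaurentSeries ℚ))

theorem coeffMap_coeffEmb_hom (z : LaurentSeries ℚ) :
    coeffMap ι₀ (coeffEmb K z) = coeffEmb L z := by
  rw [coeffEmb, coeffMap_coeffMap]
  exact coeffMap_congr (RingHom.ext_rat _ _) z

theorem coeffMap_algebraMap_hom (a : K) :
    coeffMap ι₀ (algebraMap K (LaurentSeries K) a) = algebraMap L (LaurentSeries L) (ι₀ a) := by
  rw [algebraMap_laurentSeries_eq_single, algebraMap_laurentSeries_eq_single, coeffMap_single]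

variable {F₀} in
theorem coeffMap_mem_laurentBaseChange_hom {x : LaurentSeries K}
    (hx : x ∈ laurentBaseChange K F₀) : coeffMap ι₀ x ∈ laurentBaseChange L F₀ := by
  rw [mem_laurentBaseChange_iff] at hx
  induction hx using Subfield.closure_induction with
  | mem y hy =>
      rcases hy with ⟨a, rfl⟩ | ⟨z, hz, rfl⟩
      · rw [coeffMap_algebraMap_hom]
        exact (laurentBaseChange L F₀).algebraMap_mem _
      · rw [coeffMap_coeffEmb_hom]
        exact coeffEmb_mem_laurentBaseChange L hz
  | one => simp
  | add x y _ _ hx hy => simpa using add_mem hx hy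
  | neg x _ hx => simpa using neg_mem hx
  | inv x _ hx => simpa using inv_mem hx
  | mul x y _ _ hx hy => simpa using mul_mem hx hy

/-- The coefficientwise base change `laurentBaseChange K F₀ →+* laurentBaseChange L F₀`. -/
noncomputable def bcHom : laurentBaseChange K F₀ →+* laurentBaseChange L F₀ where
  toFun x := ⟨coeffMap ι₀ (x : LaurentSeries K), coeffMap_mem_laurentBaseChange_hom ι₀ x.2⟩
  map_one' := Subtype.ext (map_one (coeffMap ι₀))
  map_mul' _ _ := Subtype.ext (map_mul (coeffMap ι₀) _ _)
  map_zero' := Subtype.ext (map_zero (coeffMap ι₀))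
  map_add' _ _ := Subtype.ext (map_add (coeffMap ι₀) _ _)

@[simp]
theorem coe_bcHom (x : laurentBaseChange K F₀) :
    ((bcHom ι₀ F₀ x : laurentBaseChange L F₀) : LaurentSeries L) =
      coeffMap ι₀ (x : LaurentSeries K) := rfl

theorem bcHom_algebraMap (a : K) :
    bcHom ι₀ F₀ (algebraMap K (laurentBaseChange K F₀) a) =
      algebraMap L (laurentBaseChange L F₀) (ι₀ a) :=
  Subtype.ext (coeffMap_algebraMap_hom ι₀ a)

theorem linearIndependent_bcHom {J : Type*} [Fintype J] (b : J → laurentBaseChange K F₀)
    (hb : LinearIndependent K b) : LinearIndependent L (fun j => bcHom ι₀ F₀ (b j)) := by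
  rw [Fintype.linearIndependent_iff] at hb ⊢
  intro c hc
  refine eq_zero_of_sum_coeffMap ι₀ (fun j => ((b j : laurentBaseChange K F₀) : LaurentSeries K))
    (fun c' hc' => hb c' ?_) c ?_
  · apply Subtype.ext
    simp only [Algebra.smul_def]
    push_cast
    exact hc'
  · have h1 := congrArg (fun x : laurentBaseChange L F₀ => (x : LaurentSeries L)) hc
    simp only [Algebra.smul_def] at h1
    push_cast at h1
    exact h1

/-- **(J6c), Laurent model.** The genus does not go up under base change of the constants. -/
theorem genusFF_laurentBaseChange_le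
    [HasPrincipalDivisors K (laurentBaseChange K F₀)]
    [HasPrincipalDivisors L (laurentBaseChange L F₀)]
    (hF : RiemannPkg K (laurentBaseChange K F₀)) (hE : RiemannPkg L (laurentBaseChange L F₀))
    (x : laurentBaseChange K F₀) (d : ℕ) (hd : 0 < d)
    (hdF : Divisor.degree (poleDiv K x) = d)
    (hdE : Divisor.degree (poleDiv L (bcHom ι₀ F₀ x)) = d) :
    genusFF L (laurentBaseChange L F₀) ≤ genusFF K (laurentBaseChange K F₀) :=
  genusFF_le_of_linearIndependent_map (bcHom ι₀ F₀)
    (fun a => ⟨ι₀ a, bcHom_algebraMap ι₀ F₀ a⟩)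
    (fun _ b hb => linearIndependent_bcHom ι₀ F₀ b hb) hF hE x d hd hdF hdE

end Fermat.Agent.Jac.Descent
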