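import Mathlib
import Fermat.Agent.Jac.DescentLaurent
import Fermat.Agent.Jac.DescentDegree
import Fermat.Agent.FF.RiemannPkg

/-!
# Program J (J6c): the Laurent base change is a constant field extension

* `constExt_bcHom` : `bcHom ι₀ F₀ : laurentBaseChange K F₀ → laurentBaseChange L F₀` is a constant
  field extension (`ConstExt`): linear disjointness and generation;
* `isSepVarS_bcHom` : a separating variable of degree `n` stays a separating variable of degree `n`
  (characteristic zero);
* consequently `HasPrincipalDivisors` and the Riemann package transfer from `K` to `L`.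
-/

set_option autoImplicit false

open AlgebraicCurve Module ModularCurve IntermediateField

namespace Fermat.Agent.Jac.Descent

open Fermat.Agent.Red Fermat.Agent.FF Fermat.Agent.X0

variable {K L : Type*} [Field K] [Field L] [Algebra ℚ K] [Algebra ℚ L] (ι₀ : K →+* L)
  (F₀ : IntermediateField ℚ (LaurentSeries ℚ))

/-- The images of the elements of `F₀` are in the range of `bcHom`. -/
theorem coeffEmb_mem_range_bcHom {z : LaurentSeries ℚ} (hz : z ∈ F₀) :
    (⟨coeffEmb L z, coeffEmb_mem_laurentBaseChange L hz⟩ : laurentBaseChange L F₀) ∈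
      Set.range (bcHom ι₀ F₀) :=
  ⟨⟨coeffEmb K z, coeffEmb_mem_laurentBaseChange K hz⟩,
    Subtype.ext (coeffMap_coeffEmb_hom ι₀ z)⟩

/-- `laurentBaseChange L F₀` is generated over `L` by the image of `laurentBaseChange K F₀`. -/
theorem adjoin_range_bcHom :
    IntermediateField.adjoin L (Set.range (bcHom ι₀ F₀)) = ⊤ := by
  rw [eq_top_iff]
  intro x _
  set M := IntermediateField.adjoin L (Set.range (bcHom ι₀ F₀)) with hM
  have h1 : ((x : laurentBaseChange L F₀) : LaurentSeries L) ∈
      M.map (laurentBaseChange L F₀).val := by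
    rw [hM, IntermediateField.adjoin_map]
    have h2 : laurentBaseChange L F₀ ≤
        IntermediateField.adjoin L ((laurentBaseChange L F₀).val '' Set.range (bcHom ι₀ F₀)) := by
      apply IntermediateField.adjoin.mono
      rintro _ ⟨z, hz, rfl⟩
      exact ⟨_, coeffEmb_mem_range_bcHom ι₀ F₀ hz, rfl⟩
    exact h2 x.2
  obtain ⟨y, hy, hxy⟩ := (IntermediateField.mem_map M).mp h1
  have : y = x := Subtype.ext hxy
  rwa [← this]

/-- **The Laurent base change is a constant field extension.** -/
theorem constExt_bcHom : ConstExt ι₀ (bcHom ι₀ F₀) where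
  comm := bcHom_algebraMap ι₀ F₀
  linDisj := by
    intro t ht
    rw [linearIndependent_iff_finset_linearIndependent] at ht ⊢
    intro s
    exact linearIndependent_bcHom ι₀ F₀ _ (ht s)
  gen := adjoin_range_bcHom ι₀ F₀

variable {F₀} in
/-- A separating variable of `laurentBaseChange K F₀ / K` of degree `n` maps to a separating
variable of `laurentBaseChange L F₀ / L` of degree `n`. -/
theorem isSepVarS_bcHom {x : laurentBaseChange K F₀} {n : ℕ} (hx : IsSepVarS K x n) :
    IsSepVarS L (bcHom ι₀ F₀ x) n := by
  have h := constExt_bcHom ι₀ F₀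
  haveI := hx.finite
  obtain ⟨hfin, hrank⟩ := h.finrank_adjoin_simple_eq hx.transcendental
  haveI : CharZero L := algebraRat.charZero L
  haveI := hfin
  refine ⟨⟨h.transcendental_map hx.transcendental, hfin, ?_⟩, inferInstance⟩
  rw [hrank, hx.finrank_eq]

end Fermat.Agent.Jac.Descent
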