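import Mathlib
import Fermat.Agent.Jac.DescentLaurent
import Fermat.Agent.Jac.DictC.Defs
import Fermat.Agent.Val.RiemannPkgBar
import Fermat.Agent.Val.GenusSemicont

/-!
# Program J (J6c): `genusFF ℚ̄ (F̄_N) = genusFF ℂ (Fc N)`

* `bcHomC N ι₀ : Fb N →+* Fc N` : the coefficientwise inclusion along `ι₀ : ℚ̄ → ℂ`;
* `genusFF_Fc_le` : `genusFF ℂ (Fc N) ≤ genusFF ℚ̄ (Fb N)` from `j` being a separating variable of
  degree `ψ(N)` of `Fc N / ℂ` (J-DICT (D3));
* `genusFF_bar_eq_genusFF_Fc` : equality, given moreover a constant reduction of `Fc N` with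
  residue function field `Fb N` (semicontinuity, `Val.ConstRed.genusFF_le`).
-/

set_option autoImplicit false

open AlgebraicCurve Module ModularCurve

namespace Fermat.Agent.Jac.Descent

open Fermat.Agent.Red Fermat.Agent.Good.GenusCharts Fermat.Agent.X0 Fermat.Agent.FF

variable (N : ℕ) (ι₀ : Kb →+* ℂ)

/-- The coefficientwise inclusion `F̄_N → Fc N` along `ℚ̄ → ℂ`. -/
noncomputable def bcHomC : Fb N →+* DictC.Fc N :=
  bcHom ι₀ (modularFunctionFieldFull N)

@[simp]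
theorem coe_bcHomC (x : Fb N) :
    ((bcHomC N ι₀ x : DictC.Fc N) : LaurentSeries ℂ) =
      coeffMap ι₀ (x : LaurentSeries Kb) := rfl

theorem bcHomC_algebraMap (a : Kb) :
    bcHomC N ι₀ (algebraMap Kb (Fb N) a) = algebraMap ℂ (DictC.Fc N) (ι₀ a) :=
  bcHom_algebraMap _ _ a

theorem bcHomC_jBar : bcHomC N ι₀ (jBar N) = DictC.jBar N :=
  Subtype.ext (coeffMap_coeffEmb_hom ι₀ jq)

theorem bcHomC_jBarD (d : ℕ) [NeZero d] (hd : d ∣ N) :
    bcHomC N ι₀ (jBarD N d hd) = DictC.jBarD N d hd :=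
  Subtype.ext (coeffMap_coeffEmb_hom ι₀ _)

theorem linearIndependent_bcHomC {J : Type*} [Fintype J] (b : J → Fb N)
    (hb : LinearIndependent Kb b) : LinearIndependent ℂ (fun j => bcHomC N ι₀ (b j)) :=
  linearIndependent_bcHom _ _ b hb

variable [NeZero N]

/-- **(J6c), first half**: the genus of `Fc N / ℂ` is at most the genus of `F̄_N / ℚ̄`. -/
theorem genusFF_Fc_le (hsepC : IsSepVarS ℂ (DictC.jBar N) (dedekindPsi N)) :
    genusFF ℂ (DictC.Fc N) ≤ genusFF Kb (Fb N) := by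
  have hsep := Val.jBar_isSepVarS N
  obtain ⟨ι₀⟩ : Nonempty (Kb →+* ℂ) := by
    letI : Algebra ℚ Kb := AlgebraicClosure.instAlgebra ℚ
    haveI : Algebra.IsAlgebraic ℚ Kb := AlgebraicClosure.isAlgebraic ℚ
    exact ⟨((IsAlgClosed.lift : Kb →ₐ[ℚ] ℂ) : Kb →+* ℂ)⟩
  haveI := hasPrincipalDivisors_S hsep
  haveI := hasPrincipalDivisors_S hsepC
  refine genusFF_laurentBaseChange_le ι₀ (modularFunctionFieldFull N)
    (riemannPkg hsep) (riemannPkg hsepC) (jBar N) (dedekindPsi N) hsep.pos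
    (Good.degree_poleDiv_of_isSepVarS hsep) ?_
  have h := Good.degree_poleDiv_of_isSepVarS hsepC
  rw [← bcHomC_jBar N ι₀] at h
  exact h

/-- **(J6c)**: equality of the genera, given a constant reduction of `Fc N` onto `F̄_N`. -/
theorem genusFF_bar_eq_genusFF_Fc (hsepC : IsSepVarS ℂ (DictC.jBar N) (dedekindPsi N))
    {A : ValuationSubring ℂ} {π : A →+* Kb}
    (S : Val.ConstRed (F := DictC.Fc N) (Ft := Fb N) A π) (hπ : Function.Surjective π) :
    genusFF Kb (Fb N) = genusFF ℂ (DictC.Fc N) :=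
  le_antisymm (S.genusFF_le hπ (riemannPkg hsepC) (Val.riemannPkg_bar N))
    (genusFF_Fc_le N hsepC)

end Fermat.Agent.Jac.Descent
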