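import Mathlib
import Fermat.Agent.Jac.DescentLaurentExt
import Fermat.Agent.Jac.GenusFc
import Fermat.Agent.Hecke.HeckeDegrees

/-!
# Program J (J6c), unconditional form: the function field of `X₀(N)` over an algebraically closed
field `L ⊇ ℚ̄` of characteristic zero (e.g. `ℂ`)

All statements are obtained by base change from `ℚ̄` (constant field extension), with NO analytic
input:

* `isSepVarS_jBC` : `j` is a separating variable of `laurentBaseChange L (F_N) / L` of degree `ψ(N)`;
* `hasPrincipalDivisors_bc`, `riemannPkg_bc` : principal divisors and the Riemann package;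
* `genusFF_bc_le` : `genusFF L (F_N ⊗ L) ≤ genusFF ℚ̄ (F̄_N)`;
* `finrankAlong_heckeAlphaBar_bc` : `[F_{Nℓ} L : α(F_N L)] = [F̄_{Nℓ} : α(F̄_N)]`;
* the specialisations to `ℂ` in the notation of `Jac/DictC` (`isSepVarS_jBarC`, `riemannPkg_Fc`,
  `genusFF_Fc_le_bar`, `genusFF_bar_eq_Fc`).
-/

set_option autoImplicit false

open AlgebraicCurve Module ModularCurve IntermediateField

namespace Fermat.Agent.Jac.Descent

open Fermat.Agent.Red Fermat.Agent.FF Fermat.Agent.X0 Fermat.Agent.Good.GenusCharts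

section General

variable (L : Type*) [Field L] [Algebra ℚ L]

/-- The `j`-function in `laurentBaseChange L (modularFunctionFieldFull N)`. -/
noncomputable def jBC (N : ℕ) : laurentBaseChange L (modularFunctionFieldFull N) :=
  ⟨coeffEmb L jq, by
    have h := jqd_mem_full N (one_dvd N)
    rw [qExpand_one_apply] at h
    exact coeffEmb_mem_laurentBaseChange L h⟩

@[simp] theorem coe_jBC (N : ℕ) :
    ((jBC L N : laurentBaseChange L (modularFunctionFieldFull N)) : LaurentSeries L) =
      coeffEmb L jq := rfl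

theorem bcHom_jBar (ι₀ : Kb →+* L) (N : ℕ) :
    bcHom ι₀ (modularFunctionFieldFull N) (jBar N) = jBC L N :=
  Subtype.ext (coeffMap_coeffEmb_hom ι₀ jq)

theorem heckeAlphaBar_jBC (N ℓ : ℕ) [NeZero N] [NeZero ℓ] :
    heckeAlphaBar L N ℓ (jBC L N) = jBC L (N * ℓ) :=
  Subtype.ext (by rw [coe_heckeAlphaBar]; rfl)

variable [IsAlgClosed L]

/-- An embedding `ℚ̄ → L`. -/
theorem nonempty_ringHom_Kb : Nonempty (Kb →+* L) := by
  letI : Algebra ℚ Kb := AlgebraicClosure.instAlgebra ℚ
  haveI : Algebra.IsAlgebraic ℚ Kb := AlgebraicClosure.isAlgebraic ℚ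
  exact ⟨((IsAlgClosed.lift : Kb →ₐ[ℚ] L) : Kb →+* L)⟩

variable (N : ℕ) [NeZero N]

/-- `j` is a separating variable of degree `ψ(N)` over any algebraically closed field of
characteristic zero. -/
theorem isSepVarS_jBC : IsSepVarS L (jBC L N) (dedekindPsi N) := by
  obtain ⟨ι₀⟩ := nonempty_ringHom_Kb L
  rw [← bcHom_jBar L ι₀ N]
  exact isSepVarS_bcHom ι₀ (Val.jBar_isSepVarS N)

theorem hasPrincipalDivisors_bc :
    HasPrincipalDivisors L (laurentBaseChange L (modularFunctionFieldFull N)) :=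
  hasPrincipalDivisors_S (isSepVarS_jBC L N)

theorem riemannPkg_bc : RiemannPkg L (laurentBaseChange L (modularFunctionFieldFull N)) :=
  riemannPkg (isSepVarS_jBC L N)

/-- The genus does not go up from `ℚ̄` to `L`. -/
theorem genusFF_bc_le :
    genusFF L (laurentBaseChange L (modularFunctionFieldFull N)) ≤ genusFF Kb (Fb N) := by
  obtain ⟨ι₀⟩ := nonempty_ringHom_Kb L
  have hsep := Val.jBar_isSepVarS N
  have hsepL := isSepVarS_jBC L N
  haveI := hasPrincipalDivisors_S hsep
  haveI := hasPrincipalDivisors_S hsepL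
  refine genusFF_laurentBaseChange_le ι₀ (modularFunctionFieldFull N)
    (riemannPkg hsep) (riemannPkg hsepL) (jBar N) (dedekindPsi N) hsep.pos
    (Good.degree_poleDiv_of_isSepVarS hsep) ?_
  rw [bcHom_jBar]
  exact Good.degree_poleDiv_of_isSepVarS hsepL

/-- The degree of the degeneracy map `α` is the same over `L` and over `ℚ̄`. -/
theorem finrankAlong_heckeAlphaBar_bc (ℓ : ℕ) [NeZero ℓ] :
    finrankAlong L (heckeAlphaBar L N ℓ) = finrankAlong Kb (heckeAlphaBar Kb N ℓ) := by
  have h1 := Fermat.Agent.Hecke.Deg.finrank_mul_finrankAlong (heckeAlphaBar L N ℓ) (jBC L N)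
  have h2 := Fermat.Agent.Hecke.Deg.finrank_mul_finrankAlong (heckeAlphaBar Kb N ℓ) (jBar N)
  rw [heckeAlphaBar_jBC, (isSepVarS_jBC L N).finrank_eq,
    (isSepVarS_jBC L (N * ℓ)).finrank_eq] at h1
  rw [Fermat.Agent.Hecke.Deg.heckeAlphaBar_jBar, (Val.jBar_isSepVarS N).finrank_eq,
    (Val.jBar_isSepVarS (N * ℓ)).finrank_eq] at h2
  have hpos := (Val.jBar_isSepVarS N).pos
  exact Nat.eq_of_mul_eq_mul_left hpos (h1.trans h2.symm)

end General

section Complex

variable (N : ℕ) [NeZero N]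

theorem jBC_complex : jBC ℂ N = DictC.jBar N := rfl

/-- **J-DICT (D3), algebraic proof**: `j` is a separating variable of `Fc N / ℂ` of degree `ψ(N)`. -/
theorem isSepVarS_jBarC : IsSepVarS ℂ (DictC.jBar N) (dedekindPsi N) :=
  isSepVarS_jBC ℂ N

theorem hasPrincipalDivisors_Fc : HasPrincipalDivisors ℂ (DictC.Fc N) :=
  hasPrincipalDivisors_bc ℂ N

/-- The Riemann package of `Fc N / ℂ`. -/
theorem riemannPkg_Fc : RiemannPkg ℂ (DictC.Fc N) :=
  riemannPkg_bc ℂ N

/-- **(J6c), first half, unconditional.** -/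
theorem genusFF_Fc_le_bar : genusFF ℂ (DictC.Fc N) ≤ genusFF Kb (Fb N) :=
  genusFF_bc_le ℂ N

/-- **(J6c), unconditional given a constant reduction.** -/
theorem genusFF_bar_eq_Fc {A : ValuationSubring ℂ} {π : A →+* Kb}
    (S : Val.ConstRed (F := DictC.Fc N) (Ft := Fb N) A π) (hπ : Function.Surjective π) :
    genusFF Kb (Fb N) = genusFF ℂ (DictC.Fc N) :=
  genusFF_bar_eq_genusFF_Fc N (isSepVarS_jBarC N) S hπ

end Complex

end Fermat.Agent.Jac.Descent
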