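/-
Program J, node (J7): the full Atkin–Lehner involution `W_N` of `Fb N = ℚ̄(X₀(N))`.

`W_N` is the `ℚ̄`-automorphism of `Fb N` with `j(q^d) ↦ j(q^{N/d})` for every `d ∣ N`
(analytically `z ↦ -1/(N z)`).  For every `ℓ` the pairs `(W_N, W_{Nℓ})` intertwine the two
degeneracy maps: `W_{Nℓ} ∘ α = β ∘ W_N` and `W_{Nℓ} ∘ β = α ∘ W_N`.

The construction follows helper28's `Hecke/AtkinLehner.lean` (partial involution `w_ℓ`):
the kernel of the evaluation `ℚ̄[X_d : d ∣ N] → Rb N` is stable under `X_d ↦ X_{N/d}` because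
`Ψ(ev (swap p))(z) = Ψ(ev p)(S • (N z))`.
-/
import Mathlib
import Fermat.Agent.X0.Psi
import Fermat.Agent.Hecke.AtkinLehner

set_option autoImplicit false
set_option linter.style.haveILetI false
set_option linter.unusedSectionVars false

noncomputable section

namespace Fermat.Agent.Jac.ALF

open UpperHalfPlane ModularCurve AlgebraicCurve Fermat.Agent.X0 Fermat.Agent.Hecke.AL
open Fermat.Agent.S23 Fermat.Agent.S23.PrimEltQExp
open scoped MatrixGroups

/-! ## The analytic map `z ↦ -1/(N z)` -/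

/-- The matrix `S = [[0,-1],[1,0]]`. -/
def matS : SL(2, ℤ) := ⟨!![0, -1; 1, 0], by rw [Matrix.det_fin_two_of]; norm_num⟩

/-- `d · (S • (d e z)) = S • (e z)`. -/
theorem scaleH_matS_smul (d e : ℕ) [NeZero d] [NeZero e] [NeZero (d * e)] (z : ℍ) :
    scaleH d (matS • scaleH (d * e) z) = matS • scaleH e z := by
  apply UpperHalfPlane.ext
  have h1 : matS 0 0 = 0 := rfl
  have h2 : matS 0 1 = -1 := rfl
  have h3 : matS 1 0 = 1 := rfl
  have h4 : matS 1 1 = 0 := rfl
  rw [coe_scaleH, coe_specialLinearGroup_apply, coe_specialLinearGroup_apply, coe_scaleH,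
    coe_scaleH, h1, h2, h3, h4]
  simp only [algebraMap_int_eq, eq_intCast, Int.cast_zero, Int.cast_one, Int.cast_neg]
  push_cast
  have hd : (d : ℂ) ≠ 0 := Nat.cast_ne_zero.mpr (NeZero.ne d)
  have he : (e : ℂ) ≠ 0 := Nat.cast_ne_zero.mpr (NeZero.ne e)
  have hz : (z : ℂ) ≠ 0 := ne_zero z
  field_simp
  ring

/-- The analytic Atkin–Lehner map: `j(d · W z) = j((N/d) z)` for `W z = S • (N z)`. -/
theorem jAn_scaleH_W (d e : ℕ) [NeZero d] [NeZero e] [NeZero (d * e)] (z : ℍ) :
    jAn (scaleH d (matS • scaleH (d * e) z)) = jAn (scaleH e z) := by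
  rw [scaleH_matS_smul, jAn_smul]

/-! ## The generators -/

section Algebraic

variable (N : ℕ) [NeZero N]

/-- Index type for the generators `j(q^d)`, `d ∣ N`. -/
abbrev Idx : Type := {d : ℕ // d ∣ N}

instance neZero_idx (i : Idx N) : NeZero (i : ℕ) :=
  ⟨ne_zero_of_dvd_ne_zero (NeZero.ne N) i.2⟩

/-- The swap `d ↦ N / d`. -/
def swap (i : Idx N) : Idx N := ⟨N / i, Nat.div_dvd_of_dvd i.2⟩

theorem swap_swap (i : Idx N) : swap N (swap N i) = i :=
  Subtype.ext (Nat.div_div_self i.2 (NeZero.ne N))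

theorem swap_comp_swap : swap N ∘ swap N = id := funext (swap_swap N)

theorem coe_mul_swap (i : Idx N) : (i : ℕ) * (swap N i : ℕ) = N :=
  Nat.mul_div_cancel' i.2

/-- The generators `j(q^d)`. -/
def gen (i : Idx N) : Fb N := jBarD N i i.2

theorem gen_mem_Rb (i : Idx N) : gen N i ∈ Rb N := jBarD_mem_Rb _ _ _

theorem genSetB_eq_range : genSetB N = Set.range (gen N) := by
  ext x
  constructor
  · rintro ⟨d, hd0, hd, rfl⟩
    exact ⟨⟨d, hd⟩, rfl⟩
  · rintro ⟨i, rfl⟩
    exact jBarD_mem_genSetB _ _ _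

/-- The evaluation `Kb[X_d] → Rb N`. -/
def evR : MvPolynomial (Idx N) Kb →ₐ[Kb] Rb N :=
  (MvPolynomial.aeval (gen N)).codRestrict (Rb N) (by
    intro p
    have h1 : MvPolynomial.aeval (gen N) p ∈ (MvPolynomial.aeval (R := Kb) (gen N)).range :=
      ⟨p, rfl⟩
    rw [← Algebra.adjoin_range_eq_range_aeval, ← genSetB_eq_range] at h1
    exact h1)

theorem coe_evR (p : MvPolynomial (Idx N) Kb) :
    ((evR N p : Rb N) : Fb N) = MvPolynomial.aeval (gen N) p := rfl

theorem evR_X (i : Idx N) : evR N (MvPolynomial.X i) = ⟨gen N i, gen_mem_Rb N i⟩ :=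
  Subtype.ext (by rw [coe_evR, MvPolynomial.aeval_X])

theorem evR_surjective : Function.Surjective (evR N) := by
  rintro ⟨r, hr⟩
  have h1 : r ∈ Algebra.adjoin Kb (Set.range (gen N)) := by
    rw [← genSetB_eq_range]; exact hr
  rw [Algebra.adjoin_range_eq_range_aeval] at h1
  obtain ⟨p, hp⟩ := h1
  exact ⟨p, Subtype.ext hp⟩

/-- `Ψ ∘ ev` is evaluation at the points `j(d z)`. -/
theorem Psi_evR (p : MvPolynomial (Idx N) Kb) (z : ℍ) :
    Psi N (evR N p) z =
      MvPolynomial.eval₂ iotaC (fun i : Idx N => jAn (scaleH (i : ℕ) z)) p := by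
  have h : ((Pi.evalRingHom (fun _ : ℍ => ℂ) z).comp
      ((Psi N).comp (evR N).toRingHom)) =
      MvPolynomial.eval₂Hom iotaC (fun i : Idx N => jAn (scaleH (i : ℕ) z)) := by
    apply MvPolynomial.ringHom_ext
    · intro r
      have e1 : (evR N).toRingHom (MvPolynomial.C r) = algebraMap Kb (Rb N) r := by
        rw [← MvPolynomial.algebraMap_eq]
        exact (evR N).commutes r
      simp only [RingHom.coe_comp, Function.comp_apply, Pi.evalRingHom_apply, e1, Psi_algebraMap,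
        MvPolynomial.coe_eval₂Hom, MvPolynomial.eval₂_C]
    · intro i
      have e1 : (evR N).toRingHom (MvPolynomial.X i) = ⟨gen N i, gen_mem_Rb N i⟩ :=
        evR_X N i
      simp only [RingHom.coe_comp, Function.comp_apply, Pi.evalRingHom_apply, e1,
        MvPolynomial.coe_eval₂Hom, MvPolynomial.eval₂_X]
      unfold gen
      rw [Psi_jBarD]
  exact congrArg (fun f => f p) h

/-- The swap preserves the kernel of the evaluation. -/
theorem evR_rename_swap_eq_zero (p : MvPolynomial (Idx N) Kb)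
    (hp : evR N p = 0) : evR N (MvPolynomial.rename (swap N) p) = 0 := by
  apply Psi_injective
  funext z
  rw [Psi_evR, MvPolynomial.eval₂_rename, map_zero]
  have h2 : ((fun i : Idx N => jAn (scaleH (i : ℕ) z)) ∘ swap N) =
      fun i : Idx N => jAn (scaleH (i : ℕ) (matS • scaleH N z)) := by
    funext i
    haveI : NeZero ((i : ℕ) * (swap N i : ℕ)) := ⟨by rw [coe_mul_swap]; exact NeZero.ne N⟩
    show jAn (scaleH (swap N i : ℕ) z) = jAn (scaleH (i : ℕ) (matS • scaleH N z))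
    rw [scaleH_congr (d := N) (d' := (i : ℕ) * (swap N i : ℕ)) (coe_mul_swap N i).symm z,
      jAn_scaleH_W]
  rw [h2, ← Psi_evR, hp, map_zero]
  rfl

/-! ## The involution on `Rb N` -/

/-- The Atkin–Lehner involution on `Rb N`, as an algebra endomorphism. -/
def wR : Rb N →ₐ[Kb] Rb N :=
  (Ideal.Quotient.liftₐ (RingHom.ker (evR N)) ((evR N).comp (MvPolynomial.rename (swap N)))
      (fun a ha => (AlgHom.comp_apply _ _ a).trans
        (evR_rename_swap_eq_zero N a (RingHom.mem_ker.mp ha)))).comp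
    (Ideal.quotientKerAlgEquivOfSurjective (evR_surjective N)).symm.toAlgHom

theorem wR_evR (p : MvPolynomial (Idx N) Kb) :
    wR N (evR N p) = evR N (MvPolynomial.rename (swap N) p) := by
  unfold wR
  rw [AlgHom.comp_apply]
  have h1 : (Ideal.quotientKerAlgEquivOfSurjective (evR_surjective N)).symm.toAlgHom
      (evR N p) = Ideal.Quotient.mk (RingHom.ker (evR N)) p :=
    Ideal.quotientKerAlgEquivOfSurjective_symm_apply (evR_surjective N) p
  rw [h1]
  rfl

theorem wR_wR (r : Rb N) : wR N (wR N r) = r := by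
  obtain ⟨p, rfl⟩ := evR_surjective N r
  rw [wR_evR, wR_evR, MvPolynomial.rename_rename, swap_comp_swap, MvPolynomial.rename_id]
  rfl

theorem wR_gen (i : Idx N) :
    wR N ⟨gen N i, gen_mem_Rb N i⟩ = ⟨gen N (swap N i), gen_mem_Rb N _⟩ := by
  rw [← evR_X, wR_evR, MvPolynomial.rename_X, evR_X]

/-- The Atkin–Lehner involution on `Rb N`, as an algebra automorphism. -/
def wREquiv : Rb N ≃ₐ[Kb] Rb N :=
  AlgEquiv.ofAlgHom (wR N) (wR N)
    (AlgHom.ext fun r => wR_wR N r) (AlgHom.ext fun r => wR_wR N r)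

/-! ## The involution on `Fb N` -/

/-- **The full Atkin–Lehner involution** `W_N` of `Fb N`. -/
def atkinLehnerFull : Fb N ≃ₐ[Kb] Fb N :=
  AlgEquiv.ofRingEquiv
    (f := (IsFractionRing.ringEquivOfRingEquiv (K := Fb N) (L := Fb N)
      (wREquiv N).toRingEquiv)) (by
    intro c
    have h1 : algebraMap Kb (Fb N) c =
        algebraMap (Rb N) (Fb N) (algebraMap Kb (Rb N) c) := rfl
    rw [h1, IsFractionRing.ringEquivOfRingEquiv_algebraMap]
    congr 1
    exact (wREquiv N).commutes c)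

theorem atkinLehnerFull_coe (r : Rb N) :
    atkinLehnerFull N (r : Fb N) = ((wR N r : Rb N) : Fb N) :=
  IsFractionRing.ringEquivOfRingEquiv_algebraMap (K := Fb N) (L := Fb N)
    (wREquiv N).toRingEquiv r

theorem atkinLehnerFull_gen (i : Idx N) :
    atkinLehnerFull N (gen N i) = gen N (swap N i) := by
  have h := atkinLehnerFull_coe N ⟨gen N i, gen_mem_Rb N i⟩
  rw [wR_gen] at h
  exact h

/-- `W_N (j(q^d)) = j(q^e)` when `d e = N`. -/
theorem atkinLehnerFull_jBarD (d e : ℕ) [NeZero d] [NeZero e] (hde : d * e = N) :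
    atkinLehnerFull N (jBarD N d (Dvd.intro e hde)) = jBarD N e (Dvd.intro_left d hde) := by
  have h := atkinLehnerFull_gen N ⟨d, Dvd.intro e hde⟩
  have he : N / d = e := by
    rw [← hde]; exact Nat.mul_div_cancel_left e (Nat.pos_of_ne_zero (NeZero.ne d))
  rw [show gen N ⟨d, Dvd.intro e hde⟩ = jBarD N d (Dvd.intro e hde) from rfl] at h
  rw [h]
  exact jBarD_congr N (by simp [swap, he]) _ _

theorem atkinLehnerFull_atkinLehnerFull (f : Fb N) :
    atkinLehnerFull N (atkinLehnerFull N f) = f := by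
  obtain ⟨g, h, -, rfl⟩ := exists_Rb_div N f
  rw [map_div₀, map_div₀, atkinLehnerFull_coe, atkinLehnerFull_coe, atkinLehnerFull_coe,
    atkinLehnerFull_coe, wR_wR, wR_wR]

/-! ## Compatibility with the degeneracy maps -/

variable (ℓ : ℕ) [NeZero ℓ]

/-- `W_{Nℓ} ∘ α = β ∘ W_N`. -/
theorem atkinLehnerFull_alpha (x : Fb N) :
    atkinLehnerFull (N * ℓ) (heckeAlphaBar Kb N ℓ x) =
      heckeBetaBar Kb N ℓ (atkinLehnerFull N x) := by
  have h := algHom_ext_Fb N
    ((atkinLehnerFull (N * ℓ)).toAlgHom.comp (heckeAlphaBar Kb N ℓ))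
    ((heckeBetaBar Kb N ℓ).comp (atkinLehnerFull N).toAlgHom) (by
      intro d _ hd
      obtain ⟨e, rfl⟩ := hd
      haveI : NeZero e := ⟨fun h0 => NeZero.ne (d * e) (by rw [h0, mul_zero])⟩
      haveI : NeZero (e * ℓ) := ⟨Nat.mul_ne_zero (NeZero.ne e) (NeZero.ne ℓ)⟩
      show atkinLehnerFull (d * e * ℓ) (heckeAlphaBar Kb (d * e) ℓ (jBarD (d * e) d _)) =
        heckeBetaBar Kb (d * e) ℓ (atkinLehnerFull (d * e) (jBarD (d * e) d _))
      rw [heckeAlphaBar_jBarD, atkinLehnerFull_jBarD (d * e) d e rfl, heckeBetaBar_jBarD,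
        atkinLehnerFull_jBarD (d * e * ℓ) d (e * ℓ) (by ring)])
  exact congrArg (fun f => f x) h

/-- `W_{Nℓ} ∘ β = α ∘ W_N`. -/
theorem atkinLehnerFull_beta (x : Fb N) :
    atkinLehnerFull (N * ℓ) (heckeBetaBar Kb N ℓ x) =
      heckeAlphaBar Kb N ℓ (atkinLehnerFull N x) := by
  have h := atkinLehnerFull_alpha N ℓ (atkinLehnerFull N x)
  rw [atkinLehnerFull_atkinLehnerFull] at h
  rw [← h, atkinLehnerFull_atkinLehnerFull]

end Algebraic

end Fermat.Agent.Jac.ALF
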