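/-
Program J, node (J7), abstract part.

Correspondences `ψ_* ∘ φ^*` on divisors of function fields:
* positivity (`correspondence_nonneg`);
* value on principal divisors: `correspondence (div f) = div (Nm_ψ (φ f))`
  (`correspondence_divOf`);
* **commutation criterion** (`comp_comm_of_comm_on_functions`): two positive additive maps
  `T₁ T₂ : Div(F) → Div(F)` multiplying degrees by constants, given on principal divisors by
  function-level maps `M₁ M₂` which commute up to divisors, commute on `Div⁰(F)`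
  (helper1's constancy lemma `Hecke.eq_of_eq_on_principal`).
-/
import Mathlib
import Fermat.Prelude.Def_AlgebraicCurve_Correspondence
import Fermat.Agent.Hecke.ESConstancy

set_option autoImplicit false
set_option linter.style.haveILetI false

namespace Fermat.Agent.Jac

open AlgebraicCurve Fermat.Agent.Red

section Positivity

variable {K F F' : Type*} [Field K] [Field F] [Field F'] [Algebra K F] [Algebra K F']

/-- Pull-back of divisors preserves effectivity. -/
theorem pullbackAlong_nonneg [HasPrincipalDivisors K F'] (φ : F →ₐ[K] F')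
    (hφ : φ.toRingHom.IsIntegral) {D : Divisor K F} (hD : 0 ≤ D) :
    0 ≤ Divisor.pullbackAlong φ hφ D := by
  letI := algebraAlong φ
  haveI := isScalarTower_along φ
  haveI := isIntegral_along φ hφ
  intro w
  show (0 : ℤ) ≤ Divisor.pullback F' D w
  rw [Divisor.pullback_apply]
  exact mul_nonneg (Int.natCast_nonneg _) (hD _)

/-- Push-forward of divisors preserves effectivity. -/
theorem pushforwardAlong_nonneg (ψ : F →ₐ[K] F') (hψ : ψ.toRingHom.IsIntegral)
    {D : Divisor K F'} (hD : 0 ≤ D) : 0 ≤ Divisor.pushforwardAlong ψ hψ D := by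
  classical
  letI := algebraAlong ψ
  haveI := isScalarTower_along ψ
  haveI := isIntegral_along ψ hψ
  intro v
  show (0 : ℤ) ≤ Divisor.pushforward F D v
  rw [Divisor.pushforward_apply]
  refine Finset.sum_nonneg fun w _ => ?_
  split_ifs
  · exact mul_nonneg (hD w) (Int.natCast_nonneg _)
  · exact le_rfl

/-- A correspondence preserves effectivity. -/
theorem correspondence_nonneg [HasPrincipalDivisors K F'] (φ ψ : F →ₐ[K] F')
    (hφ : φ.toRingHom.IsIntegral) (hψ : ψ.toRingHom.IsIntegral) {D : Divisor K F}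
    (hD : 0 ≤ D) : 0 ≤ Divisor.correspondence φ ψ hφ hψ D := by
  rw [Divisor.correspondence_apply]
  exact pushforwardAlong_nonneg ψ hψ (pullbackAlong_nonneg φ hφ hD)

end Positivity

section Principal

variable {K F F' : Type*} [Field K] [Field F] [Field F'] [Algebra K F] [Algebra K F']

/-- The norm of `F'` over `F` along the homomorphism `ψ : F → F'`. -/
noncomputable def normAlong (ψ : F →ₐ[K] F') (g : F') : F :=
  letI := algebraAlong ψ
  Algebra.norm F g

theorem normAlong_ne_zero (ψ : F →ₐ[K] F') (hfin : FiniteAlong K ψ) {g : F'} (hg : g ≠ 0) :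
    normAlong ψ g ≠ 0 := by
  letI := algebraAlong ψ
  haveI : Module.Finite F F' := hfin
  exact Algebra.norm_ne_zero_iff.mpr hg

theorem normAlong_mul (ψ : F →ₐ[K] F') (g h : F') :
    normAlong ψ (g * h) = normAlong ψ g * normAlong ψ h := by
  letI := algebraAlong ψ
  exact map_mul (Algebra.norm F) g h

variable [HasPrincipalDivisors K F] [HasPrincipalDivisors K F']

/-- Pull-back of the divisor of a function. -/
theorem pullbackAlong_divOf (φ : F →ₐ[K] F') (hφ : φ.toRingHom.IsIntegral) (f : F) :
    Divisor.pullbackAlong φ hφ (divOf K f) = divOf K (φ f) := by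
  letI := algebraAlong φ
  haveI := isScalarTower_along φ
  haveI := isIntegral_along φ hφ
  ext w
  show Divisor.pullback F' (divOf K f) w = _
  rw [Divisor.pullback_apply_eq_ord (f := f) (fun v => divOf_apply f v), divOf_apply]
  rfl

/-- Push-forward of the divisor of a function (norm formula). -/
theorem pushforwardAlong_divOf (ψ : F →ₐ[K] F') (hψ : ψ.toRingHom.IsIntegral)
    (hfin : FiniteAlong K ψ) (hN : NormFormulaAlong K ψ hfin) {g : F'} (hg : g ≠ 0) :
    Divisor.pushforwardAlong ψ hψ (divOf K g) = divOf K (normAlong ψ g) := by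
  letI := algebraAlong ψ
  haveI := isScalarTower_along ψ
  haveI := isIntegral_along ψ hψ
  haveI : Module.Finite F F' := hfin
  exact Divisor.pushforward_eq_of_normFormula hN hg (fun w => divOf_apply g w)
    (fun v => divOf_apply _ v)

/-- **A correspondence on principal divisors**: `ψ_* φ^* (div f) = div (Nm_ψ (φ f))`. -/
theorem correspondence_divOf (φ ψ : F →ₐ[K] F') (hφ : φ.toRingHom.IsIntegral)
    (hψ : ψ.toRingHom.IsIntegral) (hfin : FiniteAlong K ψ) (hN : NormFormulaAlong K ψ hfin)
    {f : F} (hf : f ≠ 0) :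
    Divisor.correspondence φ ψ hφ hψ (divOf K f) = divOf K (normAlong ψ (φ f)) := by
  rw [Divisor.correspondence_apply, pullbackAlong_divOf,
    pushforwardAlong_divOf ψ hψ hfin hN ((map_ne_zero φ).mpr hf)]

end Principal

section Commutation

variable {K F : Type*} [Field K] [Field F] [Algebra K F] [HasPrincipalDivisors K F]

/-- **Commutation criterion.** Two positive additive maps `T₁ T₂` on divisors, multiplying
degrees by constants, which on principal divisors are induced by maps `M₁ M₂` on functions with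
`div (M₁ (M₂ f)) = div (M₂ (M₁ f))`, commute on divisors of degree zero. -/
theorem comp_comm_of_comm_on_functions (hF : RiemannPkg K F)
    (T₁ T₂ : Divisor K F →+ Divisor K F)
    (pos₁ : ∀ D, 0 ≤ D → 0 ≤ T₁ D) (pos₂ : ∀ D, 0 ≤ D → 0 ≤ T₂ D) (c₁ c₂ : ℤ)
    (deg₁ : ∀ D, Divisor.degree (T₁ D) = c₁ * Divisor.degree D)
    (deg₂ : ∀ D, Divisor.degree (T₂ D) = c₂ * Divisor.degree D)
    (M₁ M₂ : F → F) (hM₁ : ∀ f, f ≠ 0 → M₁ f ≠ 0) (hM₂ : ∀ f, f ≠ 0 → M₂ f ≠ 0)
    (hT₁ : ∀ f, f ≠ 0 → T₁ (divOf K f) = divOf K (M₁ f))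
    (hT₂ : ∀ f, f ≠ 0 → T₂ (divOf K f) = divOf K (M₂ f))
    (hcomm : ∀ f, f ≠ 0 → divOf K (M₁ (M₂ f)) = divOf K (M₂ (M₁ f)))
    (D : Divisor K F) (hD : Divisor.degree D = 0) : T₁ (T₂ D) = T₂ (T₁ D) := by
  have := Fermat.Agent.Hecke.eq_of_eq_on_principal hF hF.deg_one (T₁.comp T₂) (T₂.comp T₁)
    (fun D hD => pos₁ _ (pos₂ _ hD)) (fun D hD => pos₂ _ (pos₁ _ hD)) (c₁ * c₂)
    (fun D => by rw [AddMonoidHom.comp_apply, deg₁, deg₂, mul_assoc])
    (fun D => by rw [AddMonoidHom.comp_apply, deg₂, deg₁]; ring)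
    (fun f hf => by
      rw [AddMonoidHom.comp_apply, AddMonoidHom.comp_apply, hT₂ f hf, hT₁ f hf,
        hT₁ _ (hM₂ f hf), hT₂ _ (hM₁ f hf), hcomm f hf]) D hD
  simpa using this

end Commutation

end Fermat.Agent.Jac
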