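/-
Program J, node (J7): `HeckeOperatorsCommuteBar N` (a HYPOTHESIS of S37, to be PROVED for
S29/S42) from commutation of the multiplicative Hecke operators on functions.

* `heckeNorm N ℓ y = Nm_{F_{Nℓ}/α F_N} (β y)` : the multiplicative Hecke operator on `Fb N`;
* `heckeDivBar_divOf` : `T_ℓ (div y) = div (heckeNorm N ℓ y)`;
* `FunctionLevelComm N` : `div (M_ℓ M_ℓ' y) = div (M_ℓ' M_ℓ y)` for all primes `ℓ ℓ'`;
* `heckeDivBar_comm` : `T_ℓ T_ℓ' = T_ℓ' T_ℓ` on `Div⁰`;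
* `heckeOperatorsCommuteBar_of_functionLevelComm` : `FunctionLevelComm N → HeckeOperatorsCommuteBar N`.
-/
import Mathlib
import Fermat.Prelude.Def_ModularCurve_HeckeModule
import Fermat.Agent.Jac.CorrComm
import Fermat.Agent.Hecke.HeckeInputs
import Fermat.Agent.Val.RiemannPkgBar

set_option autoImplicit false
set_option linter.style.haveILetI false

namespace Fermat.Agent.Jac

open AlgebraicCurve ModularCurve Fermat.Agent.X0 Fermat.Agent.Red Fermat.Agent.Hecke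

variable (N : ℕ) [NeZero N]

/-- The multiplicative Hecke operator on functions: `y ↦ Nm_{F_{Nℓ}/α(F_N)} (β y)`. -/
noncomputable def heckeNorm (ℓ : ℕ) [NeZero ℓ] (y : Fb N) : Fb N :=
  normAlong (heckeAlphaBar Kb N ℓ) (heckeBetaBar Kb N ℓ y)

theorem heckeNorm_ne_zero (ℓ : ℕ) [NeZero ℓ] {y : Fb N} (hy : y ≠ 0) : heckeNorm N ℓ y ≠ 0 :=
  normAlong_ne_zero _ (finiteAlong_heckeAlphaBar N ℓ) ((map_ne_zero _).mpr hy)

theorem heckeNorm_mul (ℓ : ℕ) [NeZero ℓ] (y z : Fb N) :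
    heckeNorm N ℓ (y * z) = heckeNorm N ℓ y * heckeNorm N ℓ z := by
  rw [heckeNorm, map_mul, normAlong_mul]
  rfl

/-- The Hecke correspondence on divisors of `X₀(N)` over `ℚ̄`. -/
noncomputable abbrev heckeDiv (ℓ : ℕ) [NeZero ℓ] : Divisor Kb (Fb N) →+ Divisor Kb (Fb N) :=
  heckeDivBar (heckeAlphaBarIntegral N ℓ) (heckeBetaBarIntegral N ℓ)

/-- `T_ℓ (div y) = div (Nm (β y))`. -/
theorem heckeDiv_divOf (ℓ : ℕ) [NeZero ℓ] {y : Fb N} (hy : y ≠ 0) :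
    heckeDiv N ℓ (divOf Kb y) = divOf Kb (heckeNorm N ℓ y) :=
  correspondence_divOf (heckeBetaBar Kb N ℓ) (heckeAlphaBar Kb N ℓ) (heckeBetaBarIntegral N ℓ)
    (heckeAlphaBarIntegral N ℓ) (finiteAlong_heckeAlphaBar N ℓ) (normFormulaAlong_alpha N ℓ) hy

theorem heckeDiv_nonneg (ℓ : ℕ) [NeZero ℓ] {D : Divisor Kb (Fb N)} (hD : 0 ≤ D) :
    0 ≤ heckeDiv N ℓ D :=
  correspondence_nonneg _ _ _ _ hD

theorem degree_heckeDiv (ℓ : ℕ) [NeZero ℓ] (D : Divisor Kb (Fb N)) :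
    Divisor.degree (heckeDiv N ℓ D) =
      (finrankAlong Kb (heckeBetaBar Kb N ℓ) : ℤ) * Divisor.degree D :=
  Divisor.degree_correspondence _ _ _ _ (fundamentalIdentityAlong_beta N ℓ) D

/-- Commutation of the multiplicative Hecke operators on functions, up to constants
(in divisor form). -/
def FunctionLevelComm : Prop :=
  ∀ (ℓ ℓ' : ℕ) [NeZero ℓ] [NeZero ℓ'], ℓ.Prime → ℓ'.Prime → ∀ y : Fb N, y ≠ 0 →
    divOf Kb (heckeNorm N ℓ (heckeNorm N ℓ' y)) = divOf Kb (heckeNorm N ℓ' (heckeNorm N ℓ y))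

theorem functionLevelComm_of_eq
    (h : ∀ (ℓ ℓ' : ℕ) [NeZero ℓ] [NeZero ℓ'], ℓ.Prime → ℓ'.Prime → ∀ y : Fb N, y ≠ 0 →
      heckeNorm N ℓ (heckeNorm N ℓ' y) = heckeNorm N ℓ' (heckeNorm N ℓ y)) :
    FunctionLevelComm N := fun ℓ ℓ' _ _ hℓ hℓ' y hy => by rw [h ℓ ℓ' hℓ hℓ' y hy]

variable {N}

/-- `T_ℓ T_ℓ' = T_ℓ' T_ℓ` on divisors of degree zero. -/
theorem heckeDiv_comm (h : FunctionLevelComm N) (ℓ ℓ' : ℕ) [NeZero ℓ] [NeZero ℓ']
    (hℓ : ℓ.Prime) (hℓ' : ℓ'.Prime) (D : Divisor Kb (Fb N)) (hD : Divisor.degree D = 0) :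
    heckeDiv N ℓ (heckeDiv N ℓ' D) = heckeDiv N ℓ' (heckeDiv N ℓ D) :=
  comp_comm_of_comm_on_functions (Fermat.Agent.Val.riemannPkg_bar N) (heckeDiv N ℓ)
    (heckeDiv N ℓ') (fun _ hD => heckeDiv_nonneg N ℓ hD) (fun _ hD => heckeDiv_nonneg N ℓ' hD) _ _
    (degree_heckeDiv N ℓ) (degree_heckeDiv N ℓ') (heckeNorm N ℓ) (heckeNorm N ℓ')
    (fun _ hf => heckeNorm_ne_zero N ℓ hf) (fun _ hf => heckeNorm_ne_zero N ℓ' hf)
    (fun _ hf => heckeDiv_divOf N ℓ hf) (fun _ hf => heckeDiv_divOf N ℓ' hf)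
    (fun y hy => h ℓ ℓ' hℓ hℓ' y hy) D hD

/-- The Prelude's Hecke operator on `JZero N`, on the class of a divisor. -/
theorem heckeOperatorBar_mk (ℓ : Nat.Primes) (D : Divisor.degZero (K := Kb) (F := Fb N)) :
    heckeOperatorBar N ℓ (Pic0.mk D) =
      (haveI : NeZero (ℓ : ℕ) := ⟨ℓ.2.ne_zero⟩
       Pic0.mk ⟨heckeDiv N ℓ D, Divisor.correspondence_mem_degZero _ _ _ _
        (fundamentalIdentityAlong_beta N ℓ) D.2⟩) := by
  haveI : NeZero (ℓ : ℕ) := ⟨ℓ.2.ne_zero⟩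
  rw [heckeOperatorBar_apply, heckeOperatorAlong_eq_heckePic0Bar]
  rfl

/-- **(J7)** The Hecke operators on `JZero N` commute, provided the multiplicative Hecke
operators on functions commute up to constants. -/
theorem heckeOperatorsCommuteBar_of_functionLevelComm (h : FunctionLevelComm N) :
    HeckeOperatorsCommuteBar N := by
  intro ℓ ℓ'
  haveI : NeZero (ℓ : ℕ) := ⟨ℓ.2.ne_zero⟩
  haveI : NeZero (ℓ' : ℕ) := ⟨ℓ'.2.ne_zero⟩
  ext x
  obtain ⟨D, rfl⟩ := Pic0.mk_surjective x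
  rw [Module.End.mul_apply, Module.End.mul_apply, heckeOperatorBar_mk, heckeOperatorBar_mk,
    heckeOperatorBar_mk, heckeOperatorBar_mk]
  congr 1
  apply Subtype.ext
  exact heckeDiv_comm h ℓ ℓ' ℓ.2 ℓ'.2 D (Divisor.mem_degZero.mp D.2)

end Fermat.Agent.Jac
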