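/-
Program J, node (J7), series level: the multiplicative Hecke operators on Laurent series
commute.

For a domain `C`, `ℓ ≥ 1` and `f ∈ C((q))`:
* `rootProd ℓ f = ∏_{ξ ∈ μ_ℓ(C)} f(ξ q)`;
* `multHecke ε ℓ f = f(q^{ℓ²})^ε · rootProd ℓ f`  (`ε = 1`: the `T_ℓ`-shape, `ε = 0`: the
  `U_ℓ`-shape), the right-hand side of the product formula
  `(Nm (β y))(q^ℓ) = y(q^{ℓ²}) ∏_{b<ℓ} y(ζ^b q)`.

Main results: `qExpand_rootProd`, `rootProd_comm`, `qExpand_multHecke`, `multHecke_comm`,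
`prod_range_scale_eq_rootProd`, and the abstract consequence `comm_of_productFormula`.
-/
import Mathlib
import Fermat.Agent.Igusa.Subst

set_option autoImplicit false

namespace Fermat.Agent.Jac

open HahnSeries ModularCurve Fermat.Agent.Igusa

variable {C : Type*} [CommRing C] [IsDomain C]

/-- Local `Fintype` structure on the roots of unity (Mathlib only provides `Finite`). -/
noncomputable local instance rootsOfUnityFintype (ℓ : ℕ) [NeZero ℓ] :
    Fintype (rootsOfUnity ℓ C) := Fintype.ofFinite _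

/-- `∏_{ξ ∈ μ_ℓ} f(ξ q)`. -/
noncomputable def rootProd (ℓ : ℕ) [NeZero ℓ] (f : LaurentSeries C) : LaurentSeries C :=
  ∏ ξ : rootsOfUnity ℓ C, scale (ξ : Cˣ) f

section RootProd

variable (ℓ : ℕ) [NeZero ℓ]

theorem rootProd_mul (f g : LaurentSeries C) :
    rootProd ℓ (f * g) = rootProd ℓ f * rootProd ℓ g := by
  simp only [rootProd, map_mul, Finset.prod_mul_distrib]

theorem rootProd_pow (f : LaurentSeries C) (n : ℕ) :
    rootProd ℓ (f ^ n) = rootProd ℓ f ^ n := by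
  simp only [rootProd, map_pow, Finset.prod_pow]

omit [IsDomain C] [NeZero ℓ] in
/-- The power map `ξ ↦ ξ ^ m` on `μ_ℓ` for `m` prime to `ℓ`. -/
theorem pow_injective_rootsOfUnity {m : ℕ} (h : Nat.Coprime m ℓ) :
    Function.Injective fun ξ : rootsOfUnity ℓ C => ξ ^ m := by
  intro ξ η hξη
  have hξ : ξ ^ ℓ = 1 := Subtype.ext ((mem_rootsOfUnity ℓ _).mp ξ.2)
  have hη : η ^ ℓ = 1 := Subtype.ext ((mem_rootsOfUnity ℓ _).mp η.2)
  have key : ∀ ζ : rootsOfUnity ℓ C, ζ ^ ℓ = 1 →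
      ζ = (ζ ^ m) ^ (Nat.gcdA m ℓ) := by
    intro ζ hζ
    have hb := Nat.gcd_eq_gcd_ab m ℓ
    rw [h] at hb
    have : ζ ^ ((m : ℤ) * Nat.gcdA m ℓ + (ℓ : ℤ) * Nat.gcdB m ℓ) = ζ := by
      rw [← hb]; simp
    rw [zpow_add, zpow_mul, zpow_mul, zpow_natCast, zpow_natCast, hζ, one_zpow, mul_one] at this
    exact this.symm
  rw [key ξ hξ, key η hη]
  exact congrArg (· ^ Nat.gcdA m ℓ) hξη

theorem pow_bijective_rootsOfUnity {m : ℕ} (h : Nat.Coprime m ℓ) :
    Function.Bijective fun ξ : rootsOfUnity ℓ C => ξ ^ m :=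
  Finite.injective_iff_bijective.mp (pow_injective_rootsOfUnity ℓ h)

/-- `f ↦ f(q^m)` commutes with `rootProd ℓ` for `m` prime to `ℓ`. -/
theorem qExpand_rootProd {m : ℕ} [NeZero m] (h : Nat.Coprime m ℓ) (f : LaurentSeries C) :
    qExpand C m (rootProd ℓ f) = rootProd ℓ (qExpand C m f) := by
  simp only [rootProd, map_prod, scale_qExpand]
  exact (Fintype.prod_bijective _ (pow_bijective_rootsOfUnity ℓ h) _ _ fun ξ => by
    simp).symm

/-- `rootProd ℓ` and `rootProd ℓ'` commute. -/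
theorem rootProd_comm (ℓ' : ℕ) [NeZero ℓ'] (f : LaurentSeries C) :
    rootProd ℓ (rootProd ℓ' f) = rootProd ℓ' (rootProd ℓ f) := by
  simp only [rootProd, map_prod, scale_scale]
  rw [Finset.prod_comm]
  refine Finset.prod_congr rfl fun η _ => Finset.prod_congr rfl fun ξ _ => ?_
  rw [mul_comm]

/-- For a primitive root `ζ`, the product over `b < ℓ` of `f(ζ^b q)` is `rootProd ℓ f`. -/
theorem prod_range_scale_eq_rootProd {ζ : Cˣ} (hζ : IsPrimitiveRoot ζ ℓ) (f : LaurentSeries C) :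
    ∏ b ∈ Finset.range ℓ, scale (ζ ^ b) f = rootProd ℓ f := by
  rw [rootProd]
  refine Finset.prod_bij (fun b _ => (⟨ζ ^ b, ?_⟩ : rootsOfUnity ℓ C)) (fun _ _ => Finset.mem_univ _)
    ?_ ?_ (fun _ _ => rfl)
  · rw [mem_rootsOfUnity, ← pow_mul, mul_comm, pow_mul, hζ.pow_eq_one, one_pow]
  · intro a ha b hb hab
    exact hζ.pow_inj (Finset.mem_range.mp ha) (Finset.mem_range.mp hb)
      (congrArg Subtype.val hab)
  · intro ξ _
    obtain ⟨i, hi, hiξ⟩ := hζ.eq_pow_of_mem_rootsOfUnity ξ.2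
    exact ⟨i, Finset.mem_range.mpr hi, Subtype.ext hiξ⟩

end RootProd

/-- The right-hand side of the product formula: `f(q^{ℓ²})^ε · ∏_{ξ ∈ μ_ℓ} f(ξ q)`. -/
noncomputable def multHecke (ε ℓ : ℕ) [NeZero ℓ] (f : LaurentSeries C) : LaurentSeries C :=
  qExpand C (ℓ * ℓ) f ^ ε * rootProd ℓ f

section MultHecke

variable (ε ε' ℓ ℓ' : ℕ) [NeZero ℓ] [NeZero ℓ']

theorem multHecke_mul (f g : LaurentSeries C) :
    multHecke ε ℓ (f * g) = multHecke ε ℓ f * multHecke ε ℓ g := by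
  simp only [multHecke, map_mul, rootProd_mul, mul_pow]
  ring

/-- `f ↦ f(q^m)` commutes with `multHecke ε ℓ` for `m` prime to `ℓ`. -/
theorem qExpand_multHecke {m : ℕ} [NeZero m] (h : Nat.Coprime m ℓ) (f : LaurentSeries C) :
    qExpand C m (multHecke ε ℓ f) = multHecke ε ℓ (qExpand C m f) := by
  rw [multHecke, multHecke, map_mul, map_pow, qExpand_rootProd ℓ h, qExpand_qExpand,
    qExpand_qExpand]
  congr 2
  exact qExpand_congr (mul_comm _ _) f

/-- **The multiplicative Hecke operators commute** (for coprime `ℓ`, `ℓ'`). -/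
theorem multHecke_comm (h : Nat.Coprime ℓ ℓ') (f : LaurentSeries C) :
    multHecke ε ℓ (multHecke ε' ℓ' f) = multHecke ε' ℓ' (multHecke ε ℓ f) := by
  have h1 : Nat.Coprime (ℓ * ℓ) ℓ' := Nat.Coprime.mul_left h h
  have h2 : Nat.Coprime (ℓ' * ℓ') ℓ := Nat.Coprime.mul_left h.symm h.symm
  have e : qExpand C (ℓ * ℓ) (qExpand C (ℓ' * ℓ') f) =
      qExpand C (ℓ' * ℓ') (qExpand C (ℓ * ℓ) f) := by
    rw [qExpand_qExpand, qExpand_qExpand]
    exact qExpand_congr (mul_comm _ _) f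
  simp only [multHecke, map_mul, map_pow, rootProd_mul, rootProd_pow, qExpand_rootProd ℓ' h1,
    qExpand_rootProd ℓ h2, rootProd_comm ℓ ℓ', e, mul_pow]
  ring

end MultHecke

/-- **Abstract consequence of two product formulas.**  Let `X` be a type with an injective
map `ι` to Laurent series, and `M M' : X → X` two maps satisfying product formulas
`(M y)(q^ℓ) = multHecke ε ℓ y` and `(M' y)(q^{ℓ'}) = multHecke ε' ℓ' y` with `ℓ`, `ℓ'` coprime.
Then `M (M' y) = M' (M y)`. -/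
theorem comm_of_productFormula {ε ε' ℓ ℓ' : ℕ} [NeZero ℓ] [NeZero ℓ'] (h : Nat.Coprime ℓ ℓ')
    {X : Type*} (ι : X → LaurentSeries C) (hι : Function.Injective ι) (M M' : X → X)
    (hPF : ∀ y, qExpand C ℓ (ι (M y)) = multHecke ε ℓ (ι y))
    (hPF' : ∀ y, qExpand C ℓ' (ι (M' y)) = multHecke ε' ℓ' (ι y))
    (y : X) : M (M' y) = M' (M y) := by
  apply hι
  apply qExpand_injective (R := C) (ℓ' * ℓ)
  have e1 : qExpand C (ℓ' * ℓ) (ι (M (M' y))) = multHecke ε ℓ (multHecke ε' ℓ' (ι y)) := by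
    rw [← qExpand_qExpand, hPF, qExpand_multHecke ε ℓ h.symm, hPF']
  have e2 : qExpand C (ℓ' * ℓ) (ι (M' (M y))) = multHecke ε' ℓ' (multHecke ε ℓ (ι y)) := by
    rw [qExpand_congr (mul_comm ℓ' ℓ), ← qExpand_qExpand, hPF', qExpand_multHecke ε' ℓ' h, hPF]
  rw [e1, e2, multHecke_comm ε ε' ℓ ℓ' h]

end Fermat.Agent.Jac
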