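/-
Program J, node (J7): the transposed multiplicative Hecke operator
`heckeNormT N ℓ y = Nm_{F_{Nℓ}/β(F_N)} (α y)` and its product formula for `ℓ ∣ N`.

* `atkinLehnerFull_heckeNorm` : `W_N (Nm_α (β y)) = Nm_β (α (W_N y))`;
* `finrankAlong_heckeBetaBar_eq` : `[F_{Nℓ} : β F_N] = [F_{Nℓ} : α F_N]` (all `ℓ`);
* `finrankAlong_heckeAlphaBar_of_dvd` : `[F_{Nℓ} : α F_N] = ℓ` for a prime `ℓ ∣ N`;
* `qExpand_normAlong_beta` : if `[F_{Nℓ} : β F_N] = ℓ` then for all `x ∈ F_{Nℓ}`: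
  `(Nm_β x)(q^ℓ) = ∏_{ξ ∈ μ_ℓ} x(ξ q)`  (the `ℓ` embeddings over `β F_N` are `q ↦ ξ q`);
* `qExpand_heckeNormT_of_dvd` : the `U`-shaped product formula for `heckeNormT`, `ℓ ∣ N`.
-/
import Mathlib
import Fermat.Agent.Jac.AtkinLehnerFull
import Fermat.Agent.Jac.HeckeComm
import Fermat.Agent.Jac.MultHecke

set_option autoImplicit false
set_option linter.style.haveILetI false
set_option linter.unusedSectionVars false

namespace Fermat.Agent.Jac

open AlgebraicCurve ModularCurve HahnSeries Fermat.Agent.X0 Fermat.Agent.Hecke Fermat.Agent.Igusa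
  Fermat.Agent.Jac.ALF

attribute [local instance] rootsOfUnityFintype

variable (N ℓ : ℕ) [NeZero N] [NeZero ℓ]

/-- The transposed multiplicative Hecke operator `y ↦ Nm_{F_{Nℓ}/β(F_N)} (α y)`. -/
noncomputable def heckeNormT (y : Fb N) : Fb N :=
  normAlong (heckeBetaBar Kb N ℓ) (heckeAlphaBar Kb N ℓ y)

/-- The intertwining relation `β ∘ W_N = W_{Nℓ} ∘ α` at the level of ring homs. -/
theorem algebraMap_comp_atkinLehnerFull :
    RingHom.comp (algebraAlong (heckeBetaBar Kb N ℓ)).algebraMap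
        ((atkinLehnerFull N).toRingEquiv : Fb N →+* Fb N) =
      RingHom.comp ((atkinLehnerFull (N * ℓ)).toRingEquiv : Fb (N * ℓ) →+* Fb (N * ℓ))
        (algebraAlong (heckeAlphaBar Kb N ℓ)).algebraMap :=
  RingHom.ext fun x => (atkinLehnerFull_alpha N ℓ x).symm

/-- `W_N (Nm_α (β y)) = Nm_β (α (W_N y))`. -/
theorem atkinLehnerFull_heckeNorm (y : Fb N) :
    atkinLehnerFull N (heckeNorm N ℓ y) = heckeNormT N ℓ (atkinLehnerFull N y) := by
  have h := @Algebra.norm_eq_of_equiv_equiv (Fb N) (Fb (N * ℓ)) (Fb N) (Fb (N * ℓ)) _ _ _ _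
    (algebraAlong (heckeAlphaBar Kb N ℓ)) (algebraAlong (heckeBetaBar Kb N ℓ))
    (atkinLehnerFull N).toRingEquiv (atkinLehnerFull (N * ℓ)).toRingEquiv
    (algebraMap_comp_atkinLehnerFull N ℓ) (heckeBetaBar Kb N ℓ y)
  have h2 : (atkinLehnerFull (N * ℓ)).toRingEquiv (heckeBetaBar Kb N ℓ y) =
      heckeAlphaBar Kb N ℓ (atkinLehnerFull N y) := atkinLehnerFull_beta N ℓ y
  rw [h2] at h
  show atkinLehnerFull N (normAlong (heckeAlphaBar Kb N ℓ) (heckeBetaBar Kb N ℓ y)) = _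
  unfold normAlong heckeNormT
  rw [h]
  exact (atkinLehnerFull N).toRingEquiv.apply_symm_apply _

/-- `[F_{Nℓ} : β F_N] = [F_{Nℓ} : α F_N]`. -/
theorem finrankAlong_heckeBetaBar_eq :
    finrankAlong Kb (heckeBetaBar Kb N ℓ) = finrankAlong Kb (heckeAlphaBar Kb N ℓ) := by
  have h := @Algebra.finrank_eq_of_equiv_equiv (Fb N) (Fb (N * ℓ)) _ _
    (algebraAlong (heckeAlphaBar Kb N ℓ)) (Fb N) (Fb (N * ℓ)) _ _
    (algebraAlong (heckeBetaBar Kb N ℓ))
    (atkinLehnerFull N).toRingEquiv (atkinLehnerFull (N * ℓ)).toRingEquiv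
    (algebraMap_comp_atkinLehnerFull N ℓ)
  exact h.symm

omit [NeZero N] [NeZero ℓ] in
/-- `ψ(N ℓ) = ψ(N) ℓ` for a prime `ℓ ∣ N`. -/
theorem dedekindPsi_mul_prime_of_dvd (hN : N ≠ 0) (hℓ : ℓ.Prime) (hℓN : ℓ ∣ N) :
    dedekindPsi (N * ℓ) = dedekindPsi N * ℓ := by
  obtain ⟨a, m, hm, rfl⟩ := Nat.exists_eq_pow_mul_and_not_dvd hN ℓ hℓ.ne_one
  have ha : 0 < a := by
    rcases Nat.eq_zero_or_pos a with rfl | h
    · rw [pow_zero, one_mul] at hℓN; exact absurd hℓN hm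
    · exact h
  have hcop : Nat.Coprime (ℓ ^ a) m :=
    Nat.Coprime.pow_left a ((Nat.Prime.coprime_iff_not_dvd hℓ).mpr hm)
  have hcop' : Nat.Coprime (ℓ ^ (a + 1)) m :=
    Nat.Coprime.pow_left (a + 1) ((Nat.Prime.coprime_iff_not_dvd hℓ).mpr hm)
  have e : ℓ ^ a * m * ℓ = ℓ ^ (a + 1) * m := by ring
  rw [e, Fermat.Agent.X0.Count.dedekindPsi_mul hcop, Fermat.Agent.X0.Count.dedekindPsi_mul hcop',
    Fermat.Agent.X0.Count.dedekindPsi_prime_pow hℓ ha,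
    Fermat.Agent.X0.Count.dedekindPsi_prime_pow hℓ (Nat.succ_pos a)]
  obtain ⟨b, rfl⟩ : ∃ b, a = b + 1 := ⟨a - 1, by omega⟩
  simp only [Nat.succ_eq_add_one, Nat.add_sub_cancel]
  ring

/-- `[F_{Nℓ} : α F_N] = ℓ` for a prime `ℓ ∣ N`. -/
theorem finrankAlong_heckeAlphaBar_of_dvd (hℓ : ℓ.Prime) (hℓN : ℓ ∣ N) :
    finrankAlong Kb (heckeAlphaBar Kb N ℓ) = ℓ := by
  have h1 := Deg.finrank_mul_finrankAlong (heckeAlphaBar Kb N ℓ) (jBar N)
  rw [Deg.heckeAlphaBar_jBar, (jBar_isSepVar N).finrank_eq, (jBar_isSepVar (N * ℓ)).finrank_eq,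
    dedekindPsi_mul_prime_of_dvd N ℓ (NeZero.ne N) hℓ hℓN] at h1
  exact Nat.eq_of_mul_eq_mul_left (Deg.dedekindPsi_pos N) h1

theorem finrankAlong_heckeBetaBar_of_dvd (hℓ : ℓ.Prime) (hℓN : ℓ ∣ N) :
    finrankAlong Kb (heckeBetaBar Kb N ℓ) = ℓ := by
  rw [finrankAlong_heckeBetaBar_eq, finrankAlong_heckeAlphaBar_of_dvd N ℓ hℓ hℓN]

/-! ### The embeddings `q ↦ ξ q` over `β F_N` -/

section Embeddings

/-- The ambient algebraically closed field. -/
abbrev OmegaBar : Type := AlgebraicClosure (LaurentSeries Kb)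

/-- `Fb (N ℓ) → ℚ̄((q)) → Ω̄`, twisted by `q ↦ ξ q`. -/
noncomputable def scaleEmbRingHom (ξ : Kbˣ) : Fb (N * ℓ) →+* OmegaBar :=
  (algebraMap (LaurentSeries Kb) OmegaBar).comp
    ((scale ξ).comp (algebraMap (Fb (N * ℓ)) (LaurentSeries Kb)))

theorem scaleEmbRingHom_apply (ξ : Kbˣ) (x : Fb (N * ℓ)) :
    scaleEmbRingHom N ℓ ξ x =
      algebraMap (LaurentSeries Kb) OmegaBar (scale ξ (x : LaurentSeries Kb)) := rfl

/-- `q ↦ ξ q` fixes `β F_N` pointwise when `ξ^ℓ = 1`. -/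
theorem scale_heckeBetaBar {ξ : Kbˣ} (hξ : ξ ^ ℓ = 1) (y : Fb N) :
    scale ξ ((heckeBetaBar Kb N ℓ y : Fb (N * ℓ)) : LaurentSeries Kb) =
      ((heckeBetaBar Kb N ℓ y : Fb (N * ℓ)) : LaurentSeries Kb) := by
  rw [coe_heckeBetaBar, scale_qExpand, hξ, scale_one_apply]

end Embeddings

/-- **Norms along `β` as products over `μ_ℓ`.** If `[F_{Nℓ} : β F_N] = ℓ` then
`(Nm_β x)(q^ℓ) = ∏_{ξ ∈ μ_ℓ} x(ξ q)` for every `x ∈ F_{Nℓ}`. -/
theorem qExpand_normAlong_beta (hdeg : finrankAlong Kb (heckeBetaBar Kb N ℓ) = ℓ)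
    (x : Fb (N * ℓ)) :
    qExpand Kb ℓ ((normAlong (heckeBetaBar Kb N ℓ) x : Fb N) : LaurentSeries Kb) =
      rootProd ℓ (x : LaurentSeries Kb) := by
  letI := algebraAlong (heckeBetaBar Kb N ℓ)
  haveI : FiniteDimensional (Fb N) (Fb (N * ℓ)) := finiteAlong_heckeBetaBar N ℓ
  haveI : Algebra.IsSeparable (Fb N) (Fb (N * ℓ)) :=
    isSeparable_along_of_charZero _ (finiteAlong_heckeBetaBar N ℓ)
  letI : Algebra (Fb N) OmegaBar :=
    ((algebraMap (LaurentSeries Kb) OmegaBar).comp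
      ((algebraMap (Fb (N * ℓ)) (LaurentSeries Kb)).comp
        (heckeBetaBar Kb N ℓ).toRingHom)).toAlgebra
  have hι : Function.Injective (algebraMap (LaurentSeries Kb) OmegaBar) :=
    (algebraMap (LaurentSeries Kb) OmegaBar).injective
  -- the embeddings
  let τ : rootsOfUnity ℓ Kb → (Fb (N * ℓ) →ₐ[Fb N] OmegaBar) := fun ξ =>
    { scaleEmbRingHom N ℓ (ξ : Kbˣ) with
      commutes' := fun y => by
        show algebraMap (LaurentSeries Kb) OmegaBar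
            (scale (ξ : Kbˣ) ((heckeBetaBar Kb N ℓ y : Fb (N * ℓ)) : LaurentSeries Kb)) =
          algebraMap (LaurentSeries Kb) OmegaBar
            ((heckeBetaBar Kb N ℓ y : Fb (N * ℓ)) : LaurentSeries Kb)
        rw [scale_heckeBetaBar N ℓ ((mem_rootsOfUnity ℓ _).mp ξ.2)] }
  have hτ : ∀ ξ z, τ ξ z = algebraMap (LaurentSeries Kb) OmegaBar
      (scale (ξ : Kbˣ) (z : LaurentSeries Kb)) := fun _ _ => rfl
  -- injectivity of `τ`
  have hinj : Function.Injective τ := by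
    intro ξ η h
    have h1 := congrArg (fun σ => σ (jBar (N * ℓ))) h
    simp only [hτ] at h1
    have h2 := congrArg (fun s : LaurentSeries Kb => s.coeff (-1)) (hι h1)
    simp only [scale_coeff, coe_jBar, coeffEmb_coeff, coeff_jq_neg_one, map_one, mul_one] at h2
    apply Subtype.ext
    have h3 : ((ξ : Kbˣ) ^ (-1 : ℤ)) = ((η : Kbˣ) ^ (-1 : ℤ)) := Units.ext h2
    simpa using h3
  -- cardinalities
  have hcard : Fintype.card (rootsOfUnity ℓ Kb) =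
      Fintype.card (Fb (N * ℓ) →ₐ[Fb N] OmegaBar) := by
    rw [AlgHom.card (Fb N) (Fb (N * ℓ)) OmegaBar]
    have : Module.finrank (Fb N) (Fb (N * ℓ)) = ℓ := hdeg
    rw [this, Fintype.card_eq_nat_card]
    exact HasEnoughRootsOfUnity.natCard_rootsOfUnity Kb ℓ
  have hbij : Function.Bijective τ :=
    (Fintype.bijective_iff_injective_and_card τ).mpr ⟨hinj, hcard⟩
  -- the norm is the product over all embeddings
  have hnorm := Algebra.norm_eq_prod_embeddings (Fb N) OmegaBar x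
  rw [← Fintype.prod_bijective τ hbij (fun ξ => τ ξ x) (fun σ => σ x) (fun _ => rfl)] at hnorm
  simp only [hτ] at hnorm
  rw [← map_prod] at hnorm
  apply hι
  rw [rootProd, ← hnorm]
  rfl

/-- **The `U`-shaped product formula** for the transposed operator, `ℓ ∣ N` prime. -/
theorem qExpand_heckeNormT_of_dvd (hℓ : ℓ.Prime) (hℓN : ℓ ∣ N) (y : Fb N) :
    qExpand Kb ℓ ((heckeNormT N ℓ y : Fb N) : LaurentSeries Kb) =
      multHecke 0 ℓ (y : LaurentSeries Kb) := by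
  rw [heckeNormT, qExpand_normAlong_beta N ℓ (finrankAlong_heckeBetaBar_of_dvd N ℓ hℓ hℓN),
    coe_heckeAlphaBar, multHecke, pow_zero, one_mul]

end Fermat.Agent.Jac
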