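import Mathlib
import Fermat.Agent.Jac.HThetaGal
import Fermat.Agent.Jac.HeckeProdC
import Fermat.Agent.Jac.SepVarFc
import Fermat.Agent.Jac.TransposeNorm
import Fermat.Agent.ES.ProductFormulaC
import Fermat.Agent.Jac.HeckeRepsDecomp
import Fermat.Agent.Jac.KappaHecke

/-!
# Program J, node (J4-alg), part 3: `H_θ` for the coset systems `TReps` and `UStarReps`

* `heckeProdMer_thetaMer` : for a coset system `D` whose representatives factor as
  `δ_i = g_i · diag(ℓ, 1) · γ_i` with `g_i, γ_i ∈ Γ₀(N)` and `card = [Fc (N ℓ) : α (Fc N)]`: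
  `heckeProdMer D (θ_N y) = θ_N (Nm_α (β y))`;
* `hTheta_TReps`, `hTheta_UStarReps`, **`hThetaAt`** : the hypotheses `KH.HTheta` / `KH.HThetaAt` of
  `Jac/KappaHecke.lean` at every prime `l` (`TReps` for `l ∤ N`, `UStarReps` for `l ∣ N`);
* `heckeMerOp_thetaMer` : the same for the unified operator `heckeMerOp N l` of
  `Jac/HeckeProdC.lean`;
* `kappaLamC_TLam`, `exists_kummerHom` : the unconditional-in-(J4) forms of the final statements of
  `Jac/KappaHecke.lean` (only hypothesis left: (D4)).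
-/

set_option autoImplicit false
set_option linter.unusedSectionVars false
set_option linter.style.haveILetI false

open UpperHalfPlane ModularForm CongruenceSubgroup AlgebraicCurve ModularCurve
  Matrix.SpecialLinearGroup
open scoped MatrixGroups ModularForm Manifold

noncomputable section

namespace Fermat.Agent.Jac.HTh

open Fermat.Agent.X0 (HolH MerH jFun)
open Fermat.Agent.Jac.DictC (Fc Rb Psi jBarD jBar)
open Fermat.Agent.S23.PrimEltQExp (scaleH)

theorem isCompOn_merComp {g : GL (Fin 2) ℝ} (hg : 0 < g.det.val) :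
    IsCompOn (fun z => g • z) (merComp g) :=
  fun f => ⟨holComp g f, fun z => coe_holComp hg f z, merComp_algebraMap g f⟩

/-- `diag(ℓ,1) κ = κ' diag(ℓ,1)` with `κ' ∈ Γ₀(N)` for `κ ∈ Γ₀(N ℓ)`. -/
theorem exists_diagGL_mul_mapGL (N ℓ : ℕ) [NeZero ℓ] {κ : SL(2, ℤ)} (hκ : κ ∈ Gamma0 (N * ℓ)) :
    ∃ κ' ∈ Gamma0 N, diagGL ℓ * mapGL ℝ κ = mapGL ℝ κ' * diagGL ℓ := by
  have hc : ((N * ℓ : ℕ) : ℤ) ∣ κ 1 0 :=
    (ZMod.intCast_zmod_eq_zero_iff_dvd _ _).mp (Gamma0_mem.mp hκ)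
  obtain ⟨c₀, hc₀⟩ := hc
  have hdet : κ 0 0 * κ 1 1 - κ 0 1 * κ 1 0 = 1 := by
    have := Matrix.SpecialLinearGroup.det_coe κ
    rw [Matrix.det_fin_two] at this
    exact this
  have hc₀' : κ 1 0 = (N : ℤ) * (ℓ : ℤ) * c₀ := by
    rw [hc₀]
    push_cast
    ring
  have hdet' : κ 0 0 * κ 1 1 - ((ℓ : ℤ) * κ 0 1) * ((N : ℤ) * c₀) = 1 := by
    linear_combination hdet + (κ 0 1) * hc₀'
  refine ⟨mkSL (κ 0 0) ((ℓ : ℤ) * κ 0 1) ((N : ℤ) * c₀) (κ 1 1) hdet',
    mkSL_mem_Gamma0 N _ _ _ _ hdet' (Dvd.intro _ rfl), ?_⟩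
  refine gl_ext_of_val (val_mul_fin_two (coe_diagGL ℓ) (val_mapGL κ))
    (val_mul_fin_two (val_mapGL _) (coe_diagGL ℓ)) ?_ ?_ ?_ ?_
  · simp only [mkSL_zero_zero]; ring
  · simp only [mkSL_zero_zero, mkSL_zero_one]; push_cast; ring
  · simp only [mkSL_one_zero, mkSL_one_one, hc₀']; push_cast; ring
  · simp only [mkSL_one_zero, mkSL_one_one]; ring

section Generic

variable {N ℓ : ℕ} [NeZero N] [NeZero ℓ] {ι : Type*} [Fintype ι]

/-- **`H_θ` for a factored coset system.** -/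
theorem heckeProdMer_thetaMer (D : CosetReps (embG N) ι) (g γ : ι → ↥(Gamma0 N))
    (hrep : ∀ i, D.rep i = embG N (g i) * diagGL ℓ * embG N (γ i))
    (hfin : FiniteAlong ℂ (heckeAlphaBar ℂ N ℓ))
    (hcard : Fintype.card ι = finrankAlong ℂ (heckeAlphaBar ℂ N ℓ)) (y : Fc N) :
    heckeProdMer D (thetaMer N y) =
      thetaMer N (Fermat.Agent.Hecke.Gen.normAlphaL (L := ℂ) N ℓ (heckeBetaBar ℂ N ℓ y)) := by
  have hpos : ∀ i, 0 < (D.rep i).det.val := by
    intro i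
    rw [hrep i]
    exact det_mul_pos (det_mul_pos (det_mapGL_pos _) (det_diagGL_pos ℓ)) (det_mapGL_pos _)
  rw [heckeProdMer_apply]
  refine hTheta_of_isCompOn N ℓ (fun i z => D.rep i • z) (fun i => merComp (D.rep i))
    (fun i => isCompOn_merComp (hpos i)) (fun i => (g i : SL(2, ℤ))) (fun i => (γ i : SL(2, ℤ)))
    (fun i => (g i).2) (fun i => (γ i).2) ?_ ?_ hfin hcard y
  · intro i z
    show D.rep i • z = _
    rw [hrep i, mul_smul, mul_smul, diagGL_smul]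
    rfl
  · intro i i' hκ
    obtain ⟨κ', hκ', hconj⟩ := exists_diagGL_mul_mapGL N ℓ hκ
    refine D.distinct i i' (g i * ⟨κ', hκ'⟩ * (g i')⁻¹) ?_
    rw [hrep i, hrep i', map_mul, map_mul, map_inv]
    have h1 : embG N (γ i) = mapGL ℝ ((γ i : SL(2, ℤ)) * (γ i' : SL(2, ℤ))⁻¹) * embG N (γ i') := by
      rw [embG_apply, embG_apply, ← map_mul, inv_mul_cancel_right]
    have h2 : embG N ⟨κ', hκ'⟩ = mapGL ℝ κ' := rfl
    rw [h1, h2]
    calc embG N (g i) * diagGL ℓ *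
          (mapGL ℝ ((γ i : SL(2, ℤ)) * (γ i' : SL(2, ℤ))⁻¹) * embG N (γ i'))
        = embG N (g i) * (diagGL ℓ * mapGL ℝ ((γ i : SL(2, ℤ)) * (γ i' : SL(2, ℤ))⁻¹)) *
            embG N (γ i') := by group
      _ = embG N (g i) * (mapGL ℝ κ' * diagGL ℓ) * embG N (γ i') := by rw [hconj]
      _ = embG N (g i) * mapGL ℝ κ' * (embG N (g i'))⁻¹ *
            (embG N (g i') * diagGL ℓ * embG N (γ i')) := by group

end Generic

/-! ### The concrete coset systems -/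

section Concrete

variable (N : ℕ) [NeZero N]

theorem heckeDiagMatrix_eq_diagGL (p : ℕ) [NeZero p] : heckeDiagMatrix p = diagGL p :=
  Units.ext (by rw [val_heckeDiagMatrix (NeZero.ne p), coe_diagGL])

/-- **`H_θ` for `T_p`, `p ∤ N`.** -/
theorem hTheta_TReps {p : ℕ} [NeZero p] (hp : p.Prime) (hpN : ¬ p ∣ N) :
    KH.HTheta N p (TReps N hp hpN) := by
  intro y _
  choose g γ hrep using RepsDecomp.TReps_decomp N hp hpN
  refine heckeProdMer_thetaMer (ℓ := p) (TReps N hp hpN) g γ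
    (fun i => by rw [hrep i, heckeDiagMatrix_eq_diagGL]) Fermat.Agent.ES.Gen.finiteAlong_heckeAlphaC
    ?_ y
  rw [RepsDecomp.card_onePoint_zmod, Fermat.Agent.ES.Gen.finrankAlong_heckeAlphaC hp hpN]

/-- **`H_θ` for `U_q^*`, `q ∣ N` prime.** -/
theorem hTheta_UStarReps {q : ℕ} [NeZero q] (hq : q.Prime) (hqN : q ∣ N) :
    KH.HTheta N q (UStarReps N hqN) := by
  intro y _
  choose g γ hrep using RepsDecomp.UStarReps_decomp N hqN
  refine heckeProdMer_thetaMer (ℓ := q) (UStarReps N hqN) g γ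
    (fun i => by rw [hrep i, heckeDiagMatrix_eq_diagGL]) Fermat.Agent.ES.Gen.finiteAlong_heckeAlphaC
    ?_ y
  rw [RepsDecomp.card_zmod', Descent.finrankAlong_heckeAlphaBar_bc ℂ N q,
    finrankAlong_heckeAlphaBar_of_dvd N q hq hqN]

/-- **(J4-alg)**: the hypothesis `KH.HThetaAt N l` holds at every prime `l`. -/
theorem hThetaAt (l : Nat.Primes) : KH.HThetaAt N l := by
  haveI : NeZero (l : ℕ) := ⟨l.2.ne_zero⟩
  exact ⟨fun h => hTheta_UStarReps N l.2 h, fun h => hTheta_TReps N l.2 h⟩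

/-- `H_θ` for the unified operator of `Jac/HeckeProdC.lean`. -/
theorem heckeMerOp_thetaMer (l : Nat.Primes) (y : Fc N) (hy : y ≠ 0) :
    heckeMerOp N l (thetaMer N y) =
      (haveI : NeZero (l : ℕ) := ⟨l.2.ne_zero⟩; thetaMer N (KH.heckeNormC N l y)) := by
  haveI : NeZero (l : ℕ) := ⟨l.2.ne_zero⟩
  by_cases h : (l : ℕ) ∣ N
  · rw [heckeMerOp_of_dvd h]
    exact hTheta_UStarReps N l.2 h y hy
  · rw [heckeMerOp_of_not_dvd h]
    exact hTheta_TReps N l.2 h y hy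

variable {N}

/-- **Hecke equivariance of the Kummer homomorphism over `ℂ`** ((J4) complete; the only remaining
hypothesis is (D4)). -/
theorem kappaLamC_TLam (hD4 : KH.HD4 N) (l : Nat.Primes) {m : ℕ} (hm : 0 < m)
    {ζ : ℂˣ} (hζ : IsPrimitiveRoot ζ m) (lam : ↥(Lam N)) :
    KC.kappaLamC N hD4 hm hζ (TLam N l lam) =
      (haveI : NeZero (l : ℕ) := ⟨l.2.ne_zero⟩
       heckeOperatorAlong ℂ N l (KC.kappaLamC N hD4 hm hζ lam)) :=
  KH.kappaLamC_TLam hD4 l (hThetaAt N l) hm hζ lam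

/-- The Kummer homomorphism `κ : Lam N →+ Pic⁰(X₀(N)_ℂ)` with kernel `m Lam`, killed by `m`,
Hecke-equivariant for all primes (only hypothesis: (D4)). -/
theorem exists_kummerHom (hD4 : KH.HD4 N) {m : ℕ} (hm : 0 < m) :
    ∃ κ : ↥(Lam N) →+ Pic0 ℂ (DictC.Fc N),
      (∀ lam, κ lam = 0 ↔ ∃ lam' : ↥(Lam N), lam = m • lam') ∧ (∀ lam, m • κ lam = 0) ∧
      ∀ (l : Nat.Primes) (lam : ↥(Lam N)), κ (TLam N l lam) =
        (haveI : NeZero (l : ℕ) := ⟨l.2.ne_zero⟩; heckeOperatorAlong ℂ N l (κ lam)) :=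
  KH.exists_kummerHom hD4 (fun l => hThetaAt N l) hm

end Concrete

end Fermat.Agent.Jac.HTh
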