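/-
Program J (J5)(b1) / Program R (R5)(a) (helper15): a normalised eigenform in the sense of the
Prelude (`CuspForm.IsNormalizedEigenform`: multiplicativity relations of the `q`-coefficients) is an
eigenvector of all Hecke operators `T_ℓ` (`ℓ ∤ N`) and `U_ℓ` (`ℓ ∣ N`), with eigenvalue `a_ℓ`.
-/
import Fermat.Agent.S49.Forms
import Fermat.Prelude.Def_FLTPrelim_Modularity

set_option autoImplicit false

namespace Fermat.Agent.Jac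

open CuspForm CongruenceSubgroup ModularFormClass Fermat.Agent.S49

variable {N : ℕ} [NeZero N]

omit [NeZero N] in
/-- the arithmetic identity behind `T_ℓ g = a_ℓ g`, `U_ℓ g = a_ℓ g` -/
theorem qCoeff_mul_prime_of_isNormalizedEigenform {g : CuspForm (Gamma0 N) 2}
    (hg : g.IsNormalizedEigenform) (ℓ : Nat.Primes) (n : ℕ) :
    qCoeff ⇑g (n * ℓ) +
        (lvlEps N ℓ : ℂ) * (if (ℓ : ℕ) ∣ n then ((ℓ : ℕ) : ℂ) * qCoeff ⇑g (n / ℓ) else 0) =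
      qCoeff ⇑g ℓ * qCoeff ⇑g n := by
  have hℓ : (ℓ : ℕ).Prime := ℓ.2
  rcases Nat.eq_zero_or_pos n with rfl | hn
  · simp [qCoeff_zero_cusp]
  obtain ⟨r, m, hm, rfl⟩ := Nat.exists_eq_pow_mul_and_not_dvd hn.ne' (ℓ : ℕ) hℓ.ne_one
  have hcop : ∀ s : ℕ, ((ℓ : ℕ) ^ s).Coprime m := fun s =>
    Nat.Coprime.pow_left s ((Nat.Prime.coprime_iff_not_dvd hℓ).2 hm)
  have h1 : (ℓ : ℕ) ^ r * m * ℓ = (ℓ : ℕ) ^ (r + 1) * m := by ring
  rw [h1, hg.qCoeff_mul_of_coprime _ _ (hcop (r + 1)), hg.qCoeff_mul_of_coprime _ _ (hcop r)]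
  cases r with
  | zero =>
    have hnd : ¬ (ℓ : ℕ) ∣ (ℓ : ℕ) ^ 0 * m := by simpa using hm
    rw [if_neg hnd, mul_zero, add_zero, pow_zero, hg.qCoeff_one, zero_add, pow_one]
    ring
  | succ s =>
    have hd : (ℓ : ℕ) ∣ (ℓ : ℕ) ^ (s + 1) * m := Dvd.dvd.mul_right (dvd_pow_self _ (by omega)) m
    have hdiv : (ℓ : ℕ) ^ (s + 1) * m / ℓ = (ℓ : ℕ) ^ s * m := by
      rw [pow_succ, mul_comm ((ℓ : ℕ) ^ s) ℓ, mul_assoc, Nat.mul_div_cancel_left _ hℓ.pos]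
    rw [if_pos hd, hdiv, hg.qCoeff_mul_of_coprime _ _ (hcop s)]
    unfold lvlEps
    by_cases hN : (ℓ : ℕ) ∣ N
    · rw [if_pos hN, hg.qCoeff_prime_pow_of_dvd ℓ s hℓ hN]
      push_cast
      ring
    · rw [if_neg hN, hg.qCoeff_prime_pow_of_not_dvd ℓ s hℓ hN]
      push_cast
      ring

/-- **A normalised eigenform is a Hecke eigenvector**: `T_ℓ g = a_ℓ g` for `ℓ ∤ N`,
`U_ℓ g = a_ℓ g` for `ℓ ∣ N` (in the packaging `heckeFam` of `S49/Forms.lean`). -/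
theorem heckeFam_eq_smul {g : CuspForm (Gamma0 N) 2} (hg : g.IsNormalizedEigenform)
    (ℓ : Nat.Primes) : heckeFam N ℓ g = qCoeff ⇑g ℓ • g := by
  rw [← sub_eq_zero]
  refine eq_zero_of_qCoeff_eq_zero _ fun n => ?_
  have h1 : heckeFam N ℓ g - qCoeff ⇑g ℓ • g = heckeFam N ℓ g + (-1 : ℂ) • (qCoeff ⇑g ℓ • g) := by
    rw [neg_one_smul, sub_eq_add_neg]
  rw [h1, qCoeff_add', qCoeff_smul', qCoeff_smul', qCoeff_heckeFam,
    qCoeff_mul_prime_of_isNormalizedEigenform hg ℓ n]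
  ring

/-- `T_ℓ g = a_ℓ g` for `ℓ ∤ N`. -/
theorem heckeTLin_eq_smul {g : CuspForm (Gamma0 N) 2} (hg : g.IsNormalizedEigenform)
    {ℓ : ℕ} (hℓ : ℓ.Prime) (hℓN : ¬ ℓ ∣ N) :
    CuspForm.heckeTLin 2 hℓ hℓN g = qCoeff ⇑g ℓ • g := by
  have h := heckeFam_eq_smul hg ⟨ℓ, hℓ⟩
  unfold heckeFam at h
  rw [dif_neg hℓN] at h
  exact h

/-- `U_ℓ g = a_ℓ g` for `ℓ ∣ N`. -/
theorem heckeULin_eq_smul {g : CuspForm (Gamma0 N) 2} (hg : g.IsNormalizedEigenform)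
    {ℓ : ℕ} (hℓ : ℓ.Prime) (hℓN : ℓ ∣ N) :
    CuspForm.heckeULin 2 hℓN g = qCoeff ⇑g ℓ • g := by
  have h := heckeFam_eq_smul hg ⟨ℓ, hℓ⟩
  unfold heckeFam at h
  rw [dif_pos hℓN] at h
  exact h

end Fermat.Agent.Jac
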