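/-
Program J, node (J5)(b) (helper15): Hecke equivariance of the period map and the complex
eigenvector of the transfer operators.

* `periodMap_heckeTLin`, `periodMap_heckeULin` : the period homomorphism of `T_p f` (resp. `U_q f`)
  is the transfer of the period homomorphism of `f` (coset systems `TReps`, `UReps`).
* `heckeTransferClassical_periodMap` : for a normalised eigenform `g`, `periodMap N g` is an
  eigenvector of all classical transfer operators with eigenvalues `a_l(g)`.
* `eigenHom N g := periodMap N g ∘ (Fricke involution)`, `heckeTransfer_eigenHom` : it is an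
  eigenvector of the operators `heckeTransfer N l ℂ` (`T_l`, `U_l^*`) with eigenvalues `a_l(g)`;
  `eigenHom_ne_zero`, `eigenHom_mem_parabolicHoms`.
-/
import Fermat.Agent.Jac.HeckeReps
import Fermat.Agent.Jac.EigenHecke
import Fermat.Agent.S22.HeckeStableT
import Fermat.Agent.S22.H22EichlerMap
import Fermat.Agent.X0.S21.Primitive
import Fermat.Agent.X0.S21.Injective
import Fermat.Agent.X0.S21.Parabolic

set_option autoImplicit false
set_option linter.style.haveILetI false
set_option linter.unusedSectionVars false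

namespace Fermat.Agent.Jac

open Matrix.SpecialLinearGroup CongruenceSubgroup ModularForm UpperHalfPlane
open ModularCurve ModularCurve.Period ModularFormClass
open Fermat.Agent.S22 Fermat.Agent.X0.S21
open scoped MatrixGroups ModularForm
open P2MW.S_ModularForm_heckeT_slash_eq_self_of_mem_Gamma0.ModularForm.HeckeSlashInvariance

variable {N : ℕ} [NeZero N]

/-- weight `0` slash action of `SL(2, ℤ)` -/
theorem slash_zero_SL_apply (F : ℍ → ℂ) (g : SL(2, ℤ)) (z : ℍ) : (F ∣[(0 : ℤ)] g) z = F (g • z) := by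
  rw [ModularForm.SL_slash_apply]
  simp

/-- the defect of the Eichler primitive along `g ∈ Γ₀(N)` is the constant `periodMap N f g` -/
theorem slash_zero_sub_eichlerPrimitive (f : CuspForm (Gamma0 N) 2) (g : Gamma0 N) :
    eichlerPrimitive f ∣[(0 : ℤ)] (g : SL(2, ℤ)) - eichlerPrimitive f =
      fun _ => periodMap N f (Additive.ofMul g) := by
  funext w
  rw [Pi.sub_apply, slash_zero_SL_apply,
    periodMap_apply (hasEquivariantPrimitive_eichlerPrimitive f) g w]

theorem const_slash_zero_heckeRep {p : ℕ} (hp : p ≠ 0) (c : ℂ) (x : OnePoint (ZMod p)) (z : ℍ) :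
    ((fun _ : ℍ => c) ∣[(0 : ℤ)] heckeRep p x) z = (p : ℂ)⁻¹ * c := by
  induction x using OnePoint.rec with
  | infty =>
    rw [heckeRep_infty, slash_heckeDiagMatrix_apply _ hp]
    norm_num
  | coe j =>
    rw [heckeRep_coe, slash_heckeMatrix_apply _ hp]

/-- the Eichler primitive of `T_p f` -/
theorem eichlerPrimitive_heckeTLin {p : ℕ} (hp : p.Prime) (hpN : ¬ p ∣ N)
    (f : CuspForm (Gamma0 N) 2) :
    eichlerPrimitive (CuspForm.heckeTLin 2 hp hpN f) =
      (p : ℂ) • ModularForm.heckeT 0 p (eichlerPrimitive f) := by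
  have h := eichlerMap_heckeT (N := N) (k := 2) 0 (by norm_num) hp hpN f
  have e1 : ((p : ℂ) ^ ((2 : ℤ) - 1)) = (p : ℂ) := by norm_num
  have e2 : ((2 : ℤ) - 2) = 0 := by norm_num
  rw [e1, e2] at h
  exact h

/-- the Eichler primitive of `U_q f` -/
theorem eichlerPrimitive_heckeULin {q : ℕ} (hq : q.Prime) (hqN : q ∣ N)
    (f : CuspForm (Gamma0 N) 2) :
    eichlerPrimitive (CuspForm.heckeULin 2 hqN f) =
      (q : ℂ) • ModularForm.heckeU 0 q (eichlerPrimitive f) := by
  have h := eichlerMap_heckeU (N := N) (k := 2) 0 (by norm_num) hq hqN f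
  have e1 : ((q : ℂ) ^ ((2 : ℤ) - 1)) = (q : ℂ) := by norm_num
  have e2 : ((2 : ℤ) - 2) = 0 := by norm_num
  rw [e1, e2] at h
  exact h

/-- **Hecke equivariance of the period map, `T_p`.** -/
theorem periodMap_heckeTLin {p : ℕ} (hp : p.Prime) (hpN : ¬ p ∣ N) (f : CuspForm (Gamma0 N) 2) :
    haveI : NeZero p := ⟨hp.ne_zero⟩
    periodMap N (CuspForm.heckeTLin 2 hp hpN f) = (TReps N hp hpN).transfer (periodMap N f) := by
  haveI : NeZero p := ⟨hp.ne_zero⟩
  have hpc : (p : ℂ) ≠ 0 := by exact_mod_cast hp.ne_zero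
  refine AddMonoidHom.ext fun γ' => ?_
  obtain ⟨γ, rfl⟩ := Additive.ofMul.surjective γ'
  set D := TReps N hp hpN with hD
  set F := eichlerPrimitive f with hF
  have hrel : ∀ x : OnePoint (ZMod p), heckeRep p x * mapGL ℝ (γ : SL(2, ℤ)) =
      mapGL ℝ ((D.coc γ x : Gamma0 N) : SL(2, ℤ)) * heckeRep p (D.nextEquiv γ x) :=
    fun x => D.rel γ x
  have h1 := heckeT_slash_sub_eq_sum (0 : ℤ) F (γ : SL(2, ℤ))
    (fun x => ((D.coc γ x : Gamma0 N) : SL(2, ℤ))) (D.nextEquiv γ) hrel
  have h2 := congrFun h1 UpperHalfPlane.I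
  rw [Pi.sub_apply, slash_zero_SL_apply, Finset.sum_apply] at h2
  rw [periodMap_apply (hasEquivariantPrimitive_eichlerPrimitive _) γ UpperHalfPlane.I,
    eichlerPrimitive_heckeTLin hp hpN f, Pi.smul_apply, Pi.smul_apply, smul_eq_mul, smul_eq_mul,
    ← mul_sub, h2, CosetReps.transfer_apply, Finset.mul_sum]
  refine Finset.sum_congr rfl fun x _ => ?_
  rw [slash_zero_sub_eichlerPrimitive f (D.coc γ x), const_slash_zero_heckeRep hp.ne_zero,
    ← mul_assoc, mul_inv_cancel₀ hpc, one_mul]

/-- **Hecke equivariance of the period map, `U_q`.** -/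
theorem periodMap_heckeULin {q : ℕ} (hq : q.Prime) (hqN : q ∣ N) (f : CuspForm (Gamma0 N) 2) :
    haveI : NeZero q := ⟨hq.ne_zero⟩
    periodMap N (CuspForm.heckeULin 2 hqN f) = (UReps N hqN).transfer (periodMap N f) := by
  haveI : NeZero q := ⟨hq.ne_zero⟩
  have hqc : (q : ℂ) ≠ 0 := by exact_mod_cast hq.ne_zero
  refine AddMonoidHom.ext fun γ' => ?_
  obtain ⟨γ, rfl⟩ := Additive.ofMul.surjective γ'
  set D := UReps N hqN with hD
  set F := eichlerPrimitive f with hF
  have hrel : ∀ x : ZMod q, heckeMatrix q x.val * mapGL ℝ (γ : SL(2, ℤ)) =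
      mapGL ℝ ((D.coc γ x : Gamma0 N) : SL(2, ℤ)) * heckeMatrix q (D.nextEquiv γ x).val :=
    fun x => D.rel γ x
  have h1 := heckeU_slash_sub_eq_sum (0 : ℤ) F (γ : SL(2, ℤ))
    (fun x => ((D.coc γ x : Gamma0 N) : SL(2, ℤ))) (D.nextEquiv γ) hrel
  have h2 := congrFun h1 UpperHalfPlane.I
  rw [Pi.sub_apply, slash_zero_SL_apply, Finset.sum_apply] at h2
  rw [periodMap_apply (hasEquivariantPrimitive_eichlerPrimitive _) γ UpperHalfPlane.I,
    eichlerPrimitive_heckeULin hq hqN f, Pi.smul_apply, Pi.smul_apply, smul_eq_mul, smul_eq_mul,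
    ← mul_sub, h2, CosetReps.transfer_apply, Finset.mul_sum]
  refine Finset.sum_congr rfl fun x _ => ?_
  rw [slash_zero_sub_eichlerPrimitive f (D.coc γ x), slash_heckeMatrix_apply _ hq.ne_zero,
    ← mul_assoc, mul_inv_cancel₀ hqc, one_mul]

/-- For a normalised eigenform `g`, the period homomorphism is an eigenvector of the classical
transfer operators `T_l` (`l ∤ N`), `U_l` (`l ∣ N`) with eigenvalue `a_l(g)`. -/
theorem heckeTransferClassical_periodMap {g : CuspForm (Gamma0 N) 2}
    (hg : g.IsNormalizedEigenform) (l : Nat.Primes) :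
    heckeTransferClassical N l ℂ (periodMap N g) = qCoeff ⇑g l • periodMap N g := by
  by_cases h : (l : ℕ) ∣ N
  · rw [heckeTransferClassical_of_dvd ℂ h, ← periodMap_heckeULin l.2 h g,
      heckeULin_eq_smul hg l.2 h]
    exact (periodMapLinear N).map_smul _ g
  · rw [heckeTransferClassical_of_not_dvd ℂ h, ← periodMap_heckeTLin l.2 h g,
      heckeTLin_eq_smul hg l.2 h]
    exact (periodMapLinear N).map_smul _ g

variable (N) in
/-- The complex eigenvector: the period homomorphism of `g ∣ W_N`, i.e. `periodMap N g` composed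
with the Fricke involution of `Γ₀(N)`. -/
noncomputable def eigenHom (g : CuspForm (Gamma0 N) 2) : Additive (Gamma0 N) →+ ℂ :=
  (periodMap N g).comp (MonoidHom.toAdditive (frickeEquiv N).toMonoidHom)

theorem eigenHom_apply (g : CuspForm (Gamma0 N) 2) (γ : Gamma0 N) :
    eigenHom N g (Additive.ofMul γ) = periodMap N g (Additive.ofMul (frickeEquiv N γ)) := rfl

/-- **The eigenvector property**: `T_l ψ = a_l(g) ψ` (`l ∤ N`), `U_l^* ψ = a_l(g) ψ` (`l ∣ N`) for
`ψ = eigenHom N g`. -/
theorem heckeTransfer_eigenHom {g : CuspForm (Gamma0 N) 2} (hg : g.IsNormalizedEigenform)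
    (l : Nat.Primes) : heckeTransfer N l ℂ (eigenHom N g) = qCoeff ⇑g l • eigenHom N g := by
  unfold eigenHom
  rw [heckeTransfer_comp_fricke, heckeTransferClassical_periodMap hg l]
  rfl

theorem periodMap_ne_zero {g : CuspForm (Gamma0 N) 2} (hg : g ≠ 0) : periodMap N g ≠ 0 := by
  intro h0
  apply hg
  have h1 : periodHomPair N (g, 0) = 0 := by
    refine AddMonoidHom.ext fun γ' => ?_
    obtain ⟨γ, rfl⟩ := Additive.ofMul.surjective γ'
    have hz : periodMap N (0 : CuspForm (Gamma0 N) 2) = 0 := (periodMapLinear N).map_zero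
    rw [periodHomPair_apply, h0, hz]
    simp
  have h2 := periodHomPair_injective N (h1.trans (map_zero (periodHomPair N)).symm)
  exact (Prod.ext_iff.mp h2).1

theorem eigenHom_ne_zero {g : CuspForm (Gamma0 N) 2} (hg : g ≠ 0) : eigenHom N g ≠ 0 := by
  intro h0
  apply periodMap_ne_zero hg
  refine AddMonoidHom.ext fun γ' => ?_
  obtain ⟨γ, rfl⟩ := Additive.ofMul.surjective γ'
  have := congrArg (fun φ : Additive (Gamma0 N) →+ ℂ => φ (Additive.ofMul (frickeEquiv N γ))) h0
  simp only [eigenHom_apply, frickeEquiv_frickeEquiv, AddMonoidHom.zero_apply] at this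
  exact this

theorem eigenHom_mem_parabolicHoms (g : CuspForm (Gamma0 N) 2) :
    eigenHom N g ∈ parabolicHoms ℂ (Gamma0 N) ℂ := by
  have h := periodMap_mem_parabolicHoms N g
  rw [mem_parabolicHoms_iff] at h ⊢
  intro γ hγ
  rw [eigenHom_apply]
  refine h (frickeEquiv N γ) ?_
  rw [trace_frickeEquiv]
  exact hγ

end Fermat.Agent.Jac
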