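/-
Program J, node (J5)(c) (helper15): the lattice `Λ = Hom_par(Γ₀(N), ℤ)` is a finitely generated
`ℤ`-module, and it spans `Hom_par(Γ₀(N), ℂ)` over `ℂ`.
-/
import Fermat.Agent.Jac.HeckeReps
import Fermat.Agent.S22.Gamma0FG

set_option autoImplicit false
set_option linter.style.haveILetI false
set_option linter.unusedSectionVars false

namespace Fermat.Agent.Jac

open CongruenceSubgroup ModularCurve.Period
open scoped MatrixGroups

variable (N : ℕ) [NeZero N]

theorem addGroupFG_additive_gamma0 : AddGroup.FG (Additive (Gamma0 N)) :=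
  GroupFG.iff_add_fg.mp (Fermat.Agent.S22.gamma0_groupFG N)

/-- `Hom(Γ₀(N), ℤ)` is a finitely generated `ℤ`-module. -/
theorem finite_hom_int : Module.Finite ℤ (Additive (Gamma0 N) →+ ℤ) := by
  obtain ⟨S, hS⟩ := (AddGroup.fg_def).mp (addGroupFG_additive_gamma0 N)
  let ev : (Additive (Gamma0 N) →+ ℤ) →ₗ[ℤ] (S → ℤ) :=
    { toFun := fun φ s => φ s
      map_add' := fun _ _ => rfl
      map_smul' := fun _ _ => rfl }
  have hev : Function.Injective ev := by
    intro φ ψ h
    refine AddMonoidHom.eq_of_eqOn_dense hS fun s hs => ?_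
    exact congrFun h ⟨s, hs⟩
  exact Module.Finite.of_injective ev hev

/-- The lattice `Λ` is a finitely generated `ℤ`-module. -/
theorem finite_Lam : Module.Finite ℤ (Lam N) := by
  haveI := finite_hom_int N
  exact Module.Finite.of_injective (Lam N).subtype Subtype.val_injective

/-- the inclusion `Hom(Γ₀(N), ℤ) → Hom(Γ₀(N), ℂ)` -/
noncomputable def lamCastHom : (Additive (Gamma0 N) →+ ℤ) →+ (Additive (Gamma0 N) →+ ℂ) where
  toFun lam := (Int.castAddHom ℂ).comp lam
  map_zero' := by ext; simp
  map_add' a b := by ext; simp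

@[simp] theorem lamCastHom_apply (lam : Additive (Gamma0 N) →+ ℤ) (γ : Additive (Gamma0 N)) :
    lamCastHom N lam γ = ((lam γ : ℤ) : ℂ) := rfl

/-- `lamCastHom` intertwines the Hecke transfer operators. -/
theorem heckeTransfer_lamCastHom (l : Nat.Primes) (lam : Additive (Gamma0 N) →+ ℤ) :
    heckeTransfer N l ℂ (lamCastHom N lam) = lamCastHom N (heckeTransfer N l ℤ lam) :=
  heckeTransfer_comp N l (Int.castAddHom ℂ) lam

/-- **(J5)(c)** Every complex valued parabolic homomorphism is a finite `ℂ`-linear combination of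
elements of the lattice `Λ`. -/
theorem exists_eq_sum_lamCastHom {φ : Additive (Gamma0 N) →+ ℂ}
    (hφ : IsParabolicHom (Gamma0 N) φ) :
    ∃ (n : ℕ) (c : Fin n → ℂ) (lam : Fin n → Lam N),
      φ = ∑ k, c k • lamCastHom N (lam k : Additive (Gamma0 N) →+ ℤ) := by
  classical
  -- the image of `φ` is a finitely generated torsion free abelian group, hence free
  set A : AddSubgroup ℂ := AddMonoidHom.range φ with hA
  have hAfg : AddGroup.FG A := by
    haveI := addGroupFG_additive_gamma0 N
    exact AddGroup.fg_of_surjective (f := φ.rangeRestrict) φ.rangeRestrict_surjective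
  haveI : Module.Finite ℤ A := Module.Finite.iff_addGroup_fg.mpr hAfg
  haveI : Module.IsTorsionFree ℤ A := inferInstance
  haveI : Module.Free ℤ A := Module.free_of_finite_type_torsion_free'
  let b := Module.finBasis ℤ A
  set n := Module.finrank ℤ A with hn
  let φ' : Additive (Gamma0 N) →+ A := φ.rangeRestrict
  refine ⟨n, fun k => ((b k : A) : ℂ),
    fun k => ⟨((b.coord k : A →ₗ[ℤ] ℤ).toAddMonoidHom).comp φ', ?_⟩, ?_⟩
  · -- parabolicity of the coordinates
    rw [mem_parabolicHoms_iff]
    intro γ hγ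
    have h0 : φ' (Additive.ofMul γ) = 0 := Subtype.ext (hφ γ hγ)
    show b.coord k (φ' (Additive.ofMul γ)) = 0
    rw [h0, map_zero]
  · refine AddMonoidHom.ext fun γ => ?_
    have h1 : (φ' γ : A) = ∑ k, b.repr (φ' γ) k • b k := (b.sum_repr (φ' γ)).symm
    have h2 : φ γ = ((φ' γ : A) : ℂ) := rfl
    rw [h2, h1]
    simp only [AddSubgroup.val_finsetSum, AddSubgroup.coe_zsmul, AddMonoidHom.finsetSum_apply,
      AddMonoidHom.smul_apply, lamCastHom_apply, smul_eq_mul, zsmul_eq_mul]
    refine Finset.sum_congr rfl fun k _ => ?_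
    show _ = ((b k : A) : ℂ) * ((b.coord k (φ' γ) : ℤ) : ℂ)
    rw [Module.Basis.coord_apply, mul_comm]

end Fermat.Agent.Jac
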