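/-
Program J, node (J5)(d) (helper15): the lattice `Λ = Hom_par(Γ₀(N), ℤ)` as a module over the
abstract Hecke algebra `HeckeAlg = ℤ[X_l]`, and `Ann(Λ) ≤ 𝔪` for every eigenform ideal `𝔪`.

* `heckeEvalOf T hT : HeckeAlg →+* Module.End ℤ Λ` for a commuting family `T`, `heckeModuleOf`,
  `map_heckeEvalOf` (equivariance of maps intertwining the generators),
  `map_heckeEvalOf_eq_smul_heckeModuleBar` (the same with target `JZero N`).
* `aeval_eq_zero_of_heckeEvalOf_eq_zero` : a polynomial in the `TLam N l` which vanishes on `Λ`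
  vanishes at the eigenvalues of any nonzero complex parabolic eigenvector.
* `annihilator_Lam_le_of_isEigenformIdeal` : `Ann_{HeckeAlg} Λ ≤ 𝔪` for `IsEigenformIdeal N 𝔪`.
* `isMaximal_of_isEigenformIdeal`.
-/
import Fermat.Agent.Jac.LamEigen
import Fermat.Agent.Jac.LamSpan
import Fermat.Prelude.Def_ModularCurve_EigenformIdeal
import Fermat.Prelude.Def_ModularCurve_HeckeModule
import Fermat.Prelude.Def_FLTPrelim_ModularRep

set_option autoImplicit false
set_option linter.style.haveILetI false
set_option linter.unusedSectionVars false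

namespace Fermat.Agent.Jac

open CongruenceSubgroup ModularCurve ModularCurve.Period ModularFormClass
open scoped MatrixGroups

noncomputable section

section Abstract

variable {Λ : Type*} [AddCommGroup Λ] (T : Nat.Primes → Module.End ℤ Λ)

theorem isMulCommutative_adjoin_of_commute (hT : ∀ l l', Commute (T l) (T l')) :
    IsMulCommutative (Algebra.adjoin ℤ (Set.range T)) :=
  Algebra.isMulCommutative_adjoin ℤ (by
    rintro _ ⟨l, rfl⟩ _ ⟨l', rfl⟩
    exact hT l l')

open scoped IsMulCommutative in
/-- evaluation of Hecke polynomials at a commuting family, with values in the commutative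
subalgebra generated by the family -/
def heckeEvalOfAux (hT : ∀ l l', Commute (T l) (T l')) :
    HeckeAlg →ₐ[ℤ] (Algebra.adjoin ℤ (Set.range T) : Subalgebra ℤ (Module.End ℤ Λ)) :=
  haveI := isMulCommutative_adjoin_of_commute T hT
  MvPolynomial.aeval fun l =>
    (⟨T l, Algebra.subset_adjoin (Set.mem_range_self l)⟩ : Algebra.adjoin ℤ (Set.range T))

/-- evaluation of Hecke polynomials at a commuting family of endomorphisms -/
def heckeEvalOf (hT : ∀ l l', Commute (T l) (T l')) : HeckeAlg →+* Module.End ℤ Λ :=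
  ((Algebra.adjoin ℤ (Set.range T)).val.comp (heckeEvalOfAux T hT)).toRingHom

variable {T}

open scoped IsMulCommutative in
theorem heckeEvalOf_heckeGen (hT : ∀ l l', Commute (T l) (T l')) (l : Nat.Primes) :
    heckeEvalOf T hT (heckeGen l) = T l := by
  haveI := isMulCommutative_adjoin_of_commute T hT
  show ((heckeEvalOfAux T hT (heckeGen l) : Algebra.adjoin ℤ (Set.range T)) :
    Module.End ℤ Λ) = T l
  unfold heckeEvalOfAux heckeGen
  rw [MvPolynomial.aeval_X]

theorem heckeEvalOf_C (hT : ∀ l l', Commute (T l) (T l')) (a : ℤ) :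
    heckeEvalOf T hT (MvPolynomial.C a) = (a : Module.End ℤ Λ) := by
  rw [← MvPolynomial.algebraMap_eq, eq_intCast, map_intCast]

variable (T) in
/-- the `HeckeAlg`-module structure attached to a commuting family of endomorphisms -/
@[reducible] def heckeModuleOf (hT : ∀ l l', Commute (T l) (T l')) : Module HeckeAlg Λ :=
  Module.compHom Λ (heckeEvalOf T hT)

theorem heckeModuleOf_smul_def (hT : ∀ l l', Commute (T l) (T l')) (t : HeckeAlg) (x : Λ) :
    (letI := heckeModuleOf T hT; t • x) = heckeEvalOf T hT t x := rfl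

theorem heckeModuleOf_heckeGen_smul (hT : ∀ l l', Commute (T l) (T l')) (l : Nat.Primes)
    (x : Λ) : (letI := heckeModuleOf T hT; heckeGen l • x) = T l x := by
  rw [heckeModuleOf_smul_def, heckeEvalOf_heckeGen]

/-- An additive map intertwining the generators intertwines all Hecke polynomials. -/
theorem map_heckeEvalOf {J : Type*} [AddCommGroup J] {S : Nat.Primes → Module.End ℤ J}
    (hT : ∀ l l', Commute (T l) (T l')) (hS : ∀ l l', Commute (S l) (S l'))
    (f : Λ →+ J) (hf : ∀ l x, f (T l x) = S l (f x)) (t : HeckeAlg) (x : Λ) :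
    f (heckeEvalOf T hT t x) = heckeEvalOf S hS t (f x) := by
  induction t using MvPolynomial.induction_on generalizing x with
  | C a =>
    rw [heckeEvalOf_C, heckeEvalOf_C]
    simp
  | add p q hp hq =>
    rw [map_add, map_add, LinearMap.add_apply, LinearMap.add_apply, map_add, hp, hq]
  | mul_X p l hp =>
    have hX : (MvPolynomial.X l : HeckeAlg) = heckeGen l := rfl
    rw [map_mul, map_mul, hX, heckeEvalOf_heckeGen, heckeEvalOf_heckeGen, Module.End.mul_apply,
      Module.End.mul_apply, hp, hf]

/-- The same with target `JZero N` and its Prelude `HeckeAlg`-module structure. -/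
theorem map_heckeEvalOf_eq_smul_heckeModuleBar {N : ℕ} [NeZero N]
    (hcomm : HeckeOperatorsCommuteBar N) (hT : ∀ l l', Commute (T l) (T l'))
    (f : Λ →+ JZero N) (hf : ∀ l x, f (T l x) = heckeOperatorBar N l (f x)) (t : HeckeAlg)
    (x : Λ) :
    f (heckeEvalOf T hT t x) = (letI := heckeModuleBar N; t • f x) := by
  rw [heckeModuleBar_smul_def hcomm]
  induction t using MvPolynomial.induction_on generalizing x with
  | C a =>
    rw [heckeEvalOf_C, heckeEvalBar_C]
    simp
  | add p q hp hq =>
    rw [map_add, map_add, LinearMap.add_apply, LinearMap.add_apply, map_add, hp, hq]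
  | mul_X p l hp =>
    have hX : (MvPolynomial.X l : HeckeAlg) = heckeGen l := rfl
    rw [map_mul, map_mul, hX, heckeEvalOf_heckeGen, heckeEvalBar_heckeGen, Module.End.mul_apply,
      Module.End.mul_apply, hp, hf]

end Abstract

section Ann

variable (N : ℕ) [NeZero N]

set_option maxHeartbeats 1000000 in
/-- **Key step of (J5)(d).** If a Hecke polynomial `t` acts as zero on `Λ`, it vanishes at the
system of eigenvalues of every nonzero parabolic eigenvector `ψ : Γ₀(N) → ℂ` of the operators
`heckeTransfer N l ℂ`. -/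
theorem aeval_eq_zero_of_heckeEvalOf_eq_zero (hT : ∀ l l', Commute (TLam N l) (TLam N l'))
    {ψ : Additive (Gamma0 N) →+ ℂ} (hψpar : IsParabolicHom (Gamma0 N) ψ) (hψ0 : ψ ≠ 0)
    (a : Nat.Primes → ℂ) (hψ : ∀ l, heckeTransfer N l ℂ ψ = a l • ψ) (t : HeckeAlg)
    (ht : heckeEvalOf (TLam N) hT t = 0) : MvPolynomial.aeval a t = 0 := by
  obtain ⟨n, c, lam0, hsum⟩ := exists_eq_sum_lamCastHom N hψpar
  -- the general claim, for all families `lam` with the same coefficients
  have claim : ∀ (t : HeckeAlg) (lam : Fin n → Lam N) (ψ' : Additive (Gamma0 N) →+ ℂ),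
      ψ' = ∑ k, c k • lamCastHom N (lam k : Additive (Gamma0 N) →+ ℤ) →
      (∀ l, heckeTransfer N l ℂ ψ' = a l • ψ') →
      ∑ k, c k • lamCastHom N ((heckeEvalOf (TLam N) hT t (lam k) : Lam N) :
        Additive (Gamma0 N) →+ ℤ) = MvPolynomial.aeval a t • ψ' := by
    intro t
    induction t using MvPolynomial.induction_on with
    | C z =>
      intro lam ψ' h1 _
      rw [heckeEvalOf_C, MvPolynomial.aeval_C, h1, Finset.smul_sum]
      refine Finset.sum_congr rfl fun k _ => ?_
      have : (((z : Module.End ℤ (Lam N)) (lam k) : Lam N) : Additive (Gamma0 N) →+ ℤ) =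
          z • (lam k : Additive (Gamma0 N) →+ ℤ) := by
        rw [Module.End.intCast_apply]
        rfl
      rw [this, map_zsmul, smul_comm (c k) z, eq_intCast, Int.cast_smul_eq_zsmul]
    | add p q hp hq =>
      intro lam ψ' h1 h2
      rw [map_add, map_add, add_smul, ← hp lam ψ' h1 h2, ← hq lam ψ' h1 h2,
        ← Finset.sum_add_distrib]
      refine Finset.sum_congr rfl fun k _ => ?_
      rw [LinearMap.add_apply, Submodule.coe_add, map_add, smul_add]
    | mul_X p l hp =>
      intro lam ψ' h1 h2
      have hX : (MvPolynomial.X l : HeckeAlg) = heckeGen l := rfl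
      have h3 : a l • ψ' = ∑ k, c k • lamCastHom N ((TLam N l (lam k) : Lam N) :
          Additive (Gamma0 N) →+ ℤ) := by
        rw [← h2 l, h1, map_sum]
        refine Finset.sum_congr rfl fun k _ => ?_
        rw [heckeTransfer_smul, heckeTransfer_lamCastHom, coe_TLam_apply]
      have h4 : ∀ l', heckeTransfer N l' ℂ (a l • ψ') = a l' • (a l • ψ') := by
        intro l'
        rw [heckeTransfer_smul, h2 l', smul_comm]
      have := hp (fun k => TLam N l (lam k)) (a l • ψ') h3 h4
      rw [map_mul, map_mul, hX, heckeEvalOf_heckeGen, aeval_heckeGen, mul_smul]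
      simp only [Module.End.mul_apply]
      exact this
  have h := claim t lam0 ψ hsum hψ
  rw [ht] at h
  simp only [LinearMap.zero_apply, Submodule.coe_zero, map_zero, smul_zero,
    Finset.sum_const_zero] at h
  rcases smul_eq_zero.mp h.symm with h | h
  · exact h
  · exact absurd h hψ0

theorem isMaximal_eigenIdeal_of_finite {k : Type*} [Field k] [Finite k] (c : Nat.Primes → k) :
    (eigenIdeal c).IsMaximal := by
  haveI : (eigenIdeal c).IsPrime := RingHom.ker_isPrime _
  haveI : Finite (HeckeAlg ⧸ eigenIdeal c) :=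
    Finite.of_injective (RingHom.kerLift (MvPolynomial.aeval (R := ℤ) c).toRingHom)
      (RingHom.kerLift_injective _)
  exact Ideal.Quotient.maximal_of_isField _ (Finite.isField_of_domain _)

/-- eigenform ideals are maximal -/
theorem isMaximal_of_isEigenformIdeal {𝔪 : Ideal HeckeAlg} (h : IsEigenformIdeal N 𝔪) :
    𝔪.IsMaximal := by
  obtain ⟨f, _, k, _, _, 𝒪, h𝒪, φ, rfl⟩ := h
  exact isMaximal_eigenIdeal_of_finite _

/-- **(J5)(d)** The annihilator of the lattice `Λ` in the abstract Hecke algebra is contained in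
every eigenform ideal. -/
theorem annihilator_Lam_le_of_isEigenformIdeal (hT : ∀ l l', Commute (TLam N l) (TLam N l'))
    {𝔪 : Ideal HeckeAlg} (h : IsEigenformIdeal N 𝔪) :
    (letI := heckeModuleOf (TLam N) hT; Module.annihilator HeckeAlg (Lam N)) ≤ 𝔪 := by
  letI := heckeModuleOf (TLam N) hT
  obtain ⟨g, hg, k, _, _, 𝒪, h𝒪, φ, rfl⟩ := h
  intro t ht
  rw [Module.mem_annihilator] at ht
  have ht0 : heckeEvalOf (TLam N) hT t = 0 := LinearMap.ext fun x => ht x
  have hgne : g ≠ 0 := CuspForm.IsNormalizedEigenform.ne_zero hg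
  have h1 := aeval_eq_zero_of_heckeEvalOf_eq_zero N hT
    ((mem_parabolicHoms_iff (R := ℂ)).mp (eigenHom_mem_parabolicHoms g)) (eigenHom_ne_zero hgne)
    (fun l : Nat.Primes => qCoeff ⇑g l) (fun l => heckeTransfer_eigenHom hg l) t ht0
  rw [mem_eigenIdeal_iff]
  -- transport along `𝒪 ⊆ ℂ` and `φ`
  set b : Nat.Primes → 𝒪 := fun l => ⟨qCoeff ⇑g l, h𝒪 l⟩ with hb
  have h2 : (𝒪.subtype : 𝒪 →+* ℂ) (MvPolynomial.aeval b t) =
      MvPolynomial.aeval (fun l : Nat.Primes => qCoeff ⇑g l) t := by
    have := MvPolynomial.comp_aeval (R := ℤ) b (𝒪.subtype.toIntAlgHom)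
    exact congrArg (fun F : HeckeAlg →ₐ[ℤ] ℂ => F t) this
  have h3 : MvPolynomial.aeval b t = 0 := by
    apply Subtype.val_injective
    rw [← Subring.coe_subtype, h2, h1]
    rfl
  have h4 : φ (MvPolynomial.aeval b t) = MvPolynomial.aeval (fun l => φ (b l)) t := by
    have := MvPolynomial.comp_aeval (R := ℤ) b (φ.toIntAlgHom)
    exact congrArg (fun F : HeckeAlg →ₐ[ℤ] k => F t) this
  rw [← h4, h3, map_zero]

end Ann

end

end Fermat.Agent.Jac
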