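/-
Program J, node (J5), algebra core ("socle lemma").

* `exists_ne_zero_smul_eq_zero_of_annihilator_le`: a finite module `M` over a commutative
  ring whose annihilator is contained in a maximal ideal `m` contains a nonzero element
  killed by `m`.
* `annihilator_quotient_smul_top_le`: for a finitely generated module `Λ` with
  `Ann Λ ≤ m` and an ideal `I ≤ m`, also `Ann (Λ / I Λ) ≤ m`.
* `torsionBySet_quotient_smul_top_ne_bot`: hence `(Λ / I Λ)[m] ≠ ⊥` whenever `Λ / I Λ` is finite.
* `torsionBySet_ne_bot_of_injective`: transport of `[m] ≠ ⊥` along an injective linear map.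
-/
import Mathlib

namespace Fermat.Agent.Jac

open Submodule

section Socle

variable {R M : Type*} [CommRing R] [AddCommGroup M] [Module R M]

/-- If `r - 1 ∈ m` for a proper ideal `m`, then `r ∉ m`. -/
theorem not_mem_of_sub_one_mem {m : Ideal R} (hm : m ≠ ⊤) {r : R} (hr : r - 1 ∈ m) : r ∉ m := by
  intro h
  apply hm
  rw [Ideal.eq_top_iff_one]
  have : (1 : R) = r - (r - 1) := by ring
  rw [this]
  exact sub_mem h hr

/-- **Socle lemma.** A finite module whose annihilator lies in the maximal ideal `m` contains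
a nonzero element killed by `m`. -/
theorem exists_ne_zero_smul_eq_zero_of_annihilator_le [Finite M] (m : Ideal R)
    (hm : m.IsMaximal) (h : Module.annihilator R M ≤ m) :
    ∃ x : M, x ≠ 0 ∧ ∀ t ∈ m, t • x = 0 := by
  -- the descending chain `m ^ n • ⊤` stabilises
  have hanti : Antitone fun n : ℕ => (m ^ n • (⊤ : Submodule R M)) := by
    apply antitone_nat_of_succ_le
    intro n
    rw [pow_succ', mul_smul]
    exact Submodule.smul_le_right
  obtain ⟨a, ha⟩ := IsArtinian.monotone_stabilizes
    (⟨fun n => OrderDual.toDual (m ^ n • (⊤ : Submodule R M)), fun i j hij => hanti hij⟩ :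
      ℕ →o (Submodule R M)ᵒᵈ)
  have ha1 : m ^ a • (⊤ : Submodule R M) = m ^ (a + 1) • (⊤ : Submodule R M) :=
    congrArg OrderDual.ofDual (ha (a + 1) (Nat.le_succ a))
  -- Nakayama
  obtain ⟨r, hr1, hr⟩ := Submodule.exists_sub_one_mem_and_smul_eq_zero_of_fg_of_le_smul m
    (m ^ a • (⊤ : Submodule R M)) Submodule.FG.of_finite (by
      conv_lhs => rw [ha1]
      rw [pow_succ', mul_smul])
  have hrm : r ∉ m := not_mem_of_sub_one_mem hm.ne_top hr1
  -- `r` does not kill `M`
  have hrann : r ∉ Module.annihilator R M := fun h' => hrm (h h')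
  rw [Module.mem_annihilator] at hrann
  push Not at hrann
  obtain ⟨y, hy⟩ := hrann
  -- `x0 = r • y` is nonzero and killed by `m ^ a`
  have hx0 : ∀ t ∈ m ^ a, t • (r • y) = 0 := by
    intro t ht
    rw [smul_comm]
    exact hr _ (Submodule.smul_mem_smul ht mem_top)
  have hex : ∃ k : ℕ, ∀ t ∈ m ^ k, t • (r • y) = 0 := ⟨a, hx0⟩
  classical
  have hk0 : Nat.find hex ≠ 0 := by
    intro h0
    have := Nat.find_spec hex
    rw [h0, pow_zero] at this
    exact hy (by simpa using this 1 (by simp))
  obtain ⟨k', hk'⟩ := Nat.exists_eq_succ_of_ne_zero hk0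
  have hmin : ¬ ∀ t ∈ m ^ k', t • (r • y) = 0 := Nat.find_min hex (by omega)
  push Not at hmin
  obtain ⟨t, ht, htx⟩ := hmin
  refine ⟨t • (r • y), htx, fun s hs => ?_⟩
  rw [← mul_smul]
  apply Nat.find_spec hex
  rw [hk', Nat.succ_eq_add_one, pow_succ']
  exact Ideal.mul_mem_mul hs ht

/-- Same conclusion in `torsionBySet` form. -/
theorem torsionBySet_ne_bot_of_annihilator_le [Finite M] (m : Ideal R)
    (hm : m.IsMaximal) (h : Module.annihilator R M ≤ m) :
    Submodule.torsionBySet R M (m : Set R) ≠ ⊥ := by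
  obtain ⟨x, hx0, hx⟩ := exists_ne_zero_smul_eq_zero_of_annihilator_le m hm h
  intro hbot
  apply hx0
  have : x ∈ Submodule.torsionBySet R M (m : Set R) := by
    rw [Submodule.mem_torsionBySet_iff]
    exact fun t => hx t.1 t.2
  rw [hbot] at this
  simpa using this

end Socle

section Quotient

variable {R Λ : Type*} [CommRing R] [AddCommGroup Λ] [Module R Λ]

/-- For a finitely generated module `Λ` with `Ann Λ ≤ m` (`m` maximal) and an ideal `I ≤ m`,
the annihilator of `Λ / I Λ` is still contained in `m`. -/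
theorem annihilator_quotient_smul_top_le [Module.Finite R Λ] (m : Ideal R) (hm : m.IsMaximal)
    (h : Module.annihilator R Λ ≤ m) (I : Ideal R) (hI : I ≤ m) :
    Module.annihilator R (Λ ⧸ (I • (⊤ : Submodule R Λ))) ≤ m := by
  intro t ht
  by_contra htm
  -- `t Λ ⊆ I Λ ⊆ m Λ`
  have h1 : ∀ x : Λ, t • x ∈ m • (⊤ : Submodule R Λ) := by
    intro x
    rw [Module.mem_annihilator] at ht
    have := ht (Submodule.Quotient.mk x)
    rw [← Submodule.Quotient.mk_smul, Submodule.Quotient.mk_eq_zero] at this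
    exact Submodule.smul_mono_left hI this
  -- `(t) + m = ⊤`
  obtain ⟨s, hs⟩ : ∃ s : R, s * t - 1 ∈ m := by
    obtain ⟨s, u, hu, hs⟩ := hm.exists_inv htm
    exact ⟨s, by
      have : s * t - 1 = -u := by rw [← hs]; ring
      rw [this]; exact neg_mem hu⟩
  -- hence `Λ ≤ m Λ`
  have h2 : (⊤ : Submodule R Λ) ≤ m • (⊤ : Submodule R Λ) := by
    intro x _
    have hx : x = s • (t • x) - (s * t - 1) • x := by
      rw [sub_smul, one_smul, mul_smul]; abel
    rw [hx]
    exact sub_mem (Submodule.smul_mem _ _ (h1 x)) (Submodule.smul_mem_smul hs mem_top)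
  obtain ⟨r, hr1, hr⟩ := Submodule.exists_sub_one_mem_and_smul_eq_zero_of_fg_of_le_smul m
    (⊤ : Submodule R Λ) Module.Finite.fg_top h2
  have hrm : r ∉ m := not_mem_of_sub_one_mem hm.ne_top hr1
  exact hrm (h (Module.mem_annihilator.mpr fun x => hr x mem_top))

/-- **Eigen-nonvanishing, algebra core of (J5).** `Λ` finitely generated over `R`, `m` a
maximal ideal containing `Ann Λ` and `I`, with `Λ / I Λ` finite: then `(Λ / I Λ)[m] ≠ ⊥`. -/
theorem torsionBySet_quotient_smul_top_ne_bot [Module.Finite R Λ] (m : Ideal R)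
    (hm : m.IsMaximal) (h : Module.annihilator R Λ ≤ m) (I : Ideal R) (hI : I ≤ m)
    [Finite (Λ ⧸ (I • (⊤ : Submodule R Λ)))] :
    Submodule.torsionBySet R (Λ ⧸ (I • (⊤ : Submodule R Λ))) (m : Set R) ≠ ⊥ :=
  torsionBySet_ne_bot_of_annihilator_le m hm (annihilator_quotient_smul_top_le m hm h I hI)

end Quotient

section Transport

variable {R M M' : Type*} [CommRing R] [AddCommGroup M] [Module R M] [AddCommGroup M']
  [Module R M']

/-- `[m] ≠ ⊥` transports along injective linear maps. -/
theorem torsionBySet_ne_bot_of_injective (f : M →ₗ[R] M') (hf : Function.Injective f)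
    (s : Set R) (h : Submodule.torsionBySet R M s ≠ ⊥) :
    Submodule.torsionBySet R M' s ≠ ⊥ := by
  rw [Submodule.ne_bot_iff] at h ⊢
  obtain ⟨x, hx, hx0⟩ := h
  refine ⟨f x, ?_, fun h0 => hx0 (hf (by rw [h0, map_zero]))⟩
  rw [Submodule.mem_torsionBySet_iff] at hx ⊢
  intro t
  rw [← map_smul, hx t, map_zero]

/-- Additive-hom version: an injective additive map commuting with the `R`-actions. -/
theorem torsionBySet_ne_bot_of_injective_addMonoidHom (f : M →+ M')
    (hf : Function.Injective f) (hsmul : ∀ (t : R) (x : M), f (t • x) = t • f x)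
    (s : Set R) (h : Submodule.torsionBySet R M s ≠ ⊥) :
    Submodule.torsionBySet R M' s ≠ ⊥ :=
  torsionBySet_ne_bot_of_injective
    { toFun := f, map_add' := f.map_add, map_smul' := fun t x => hsmul t x } hf s h

end Transport

section Lattice

variable {R Λ J : Type*} [CommRing R] [AddCommGroup Λ] [Module R Λ] [AddCommGroup J] [Module R J]

/-- `(n : R) • x = n • x` (natural-number scalar) in any module over a commutative ring. -/
theorem natCast_smul_eq_nsmul' (n : ℕ) (x : Λ) : ((n : R)) • x = n • x :=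
  Nat.cast_smul_eq_nsmul R n x

/-- A quotient of a lattice by an `R`-submodule is finitely generated over `ℤ`. -/
theorem finite_int_quotient (N : Submodule R Λ) [Module.Finite ℤ Λ] :
    Module.Finite ℤ (Λ ⧸ N) := by
  have hsurj : Function.Surjective (N.mkQ.restrictScalars ℤ) := fun x => by
    obtain ⟨y, rfl⟩ := Submodule.Quotient.mk_surjective _ x
    exact ⟨y, rfl⟩
  exact Module.Finite.of_surjective _ hsurj

/-- For a lattice `Λ` (finitely generated over `ℤ`) and `p ≠ 0`, the quotient `Λ / p Λ` is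
finite. -/
theorem finite_quotient_span_natCast_smul_top [Module.Finite ℤ Λ] (p : ℕ) (hp : p ≠ 0) :
    Finite (Λ ⧸ (Ideal.span {(p : R)} • (⊤ : Submodule R Λ))) := by
  have : Module.Finite ℤ (Λ ⧸ (Ideal.span {(p : R)} • (⊤ : Submodule R Λ))) :=
    finite_int_quotient _
  apply Module.finite_of_fg_torsion
  intro x
  obtain ⟨y, rfl⟩ := Submodule.Quotient.mk_surjective _ x
  refine ⟨⟨(p : ℤ), mem_nonZeroDivisors_of_ne_zero (by exact_mod_cast hp)⟩, ?_⟩
  show ((p : ℤ)) • (Submodule.Quotient.mk y :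
    Λ ⧸ (Ideal.span {(p : R)} • (⊤ : Submodule R Λ))) = 0
  rw [natCast_zsmul, ← natCast_smul_eq_nsmul' (R := R), ← Submodule.Quotient.mk_smul,
    Submodule.Quotient.mk_eq_zero]
  exact Submodule.smul_mem_smul (Ideal.subset_span rfl) mem_top

/-- **Consumer shape of (J5).** `Λ` a lattice with an action of the commutative ring `R`,
`m` a maximal ideal of `R` containing `p` and the annihilator of `Λ`; `f : Λ →+ J` an
`R`-equivariant additive map with kernel exactly `p Λ`.  Then `J[m] ≠ ⊥`. -/
theorem torsionBySet_ne_bot_of_lattice [Module.Finite ℤ Λ] (m : Ideal R) (hm : m.IsMaximal)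
    (p : ℕ) (hp : p ≠ 0) (hpm : (p : R) ∈ m) (hann : Module.annihilator R Λ ≤ m)
    (f : Λ →+ J) (hsmul : ∀ (t : R) (x : Λ), f (t • x) = t • f x)
    (hker : ∀ x : Λ, f x = 0 ↔ ∃ y : Λ, x = p • y) :
    Submodule.torsionBySet R J (m : Set R) ≠ ⊥ := by
  have : Module.Finite R Λ := Module.Finite.of_restrictScalars_finite ℤ R Λ
  have := finite_quotient_span_natCast_smul_top (R := R) (Λ := Λ) p hp
  have hI : Ideal.span {(p : R)} ≤ m := by
    rw [Ideal.span_le]; rintro _ rfl; exact hpm
  have h1 := torsionBySet_quotient_smul_top_ne_bot (Λ := Λ) m hm hann _ hI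
  -- the linear map `Λ → J`
  let fl : Λ →ₗ[R] J := { toFun := f, map_add' := f.map_add, map_smul' := fun t x => hsmul t x }
  have hle : Ideal.span {(p : R)} • (⊤ : Submodule R Λ) ≤ LinearMap.ker fl := by
    rw [Submodule.smul_le]
    intro r hr x _
    rw [Ideal.mem_span_singleton'] at hr
    obtain ⟨a, rfl⟩ := hr
    rw [LinearMap.mem_ker]
    show f ((a * (p : R)) • x) = 0
    rw [mul_smul, hsmul, natCast_smul_eq_nsmul', (hker (p • x)).mpr ⟨x, rfl⟩, smul_zero]
  refine torsionBySet_ne_bot_of_injective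
    ((Ideal.span {(p : R)} • (⊤ : Submodule R Λ)).liftQ fl hle) ?_ _ h1
  rw [← LinearMap.ker_eq_bot]
  apply Submodule.ker_liftQ_eq_bot
  intro x hx
  rw [LinearMap.mem_ker] at hx
  obtain ⟨y, rfl⟩ := (hker x).mp hx
  rw [← natCast_smul_eq_nsmul' (R := R)]
  exact Submodule.smul_mem_smul (Ideal.subset_span rfl) mem_top

end Lattice

end Fermat.Agent.Jac
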