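/-
Program J, nodes (J5) conclusion / (J8) algebra (helper15): `EigenformSupportAt N p (JZero N)` from
the Kummer-type maps `(K)`:

  for every `m ≥ 1` a homomorphism `ρ_m : Λ → J₀(N)(ℚ̄)` with kernel `m Λ`, intertwining `TLam N l`
  with `heckeOperatorBar N l` for all primes `l`,

and the commutativity of the Hecke operators on `J₀(N)`.

* `commute_TLam_of_K` : the operators `TLam N l` commute on `Λ`.
* `eigenformSupportAt_of_K` : `EigenformSupportAt N p (JZero N)` for every `p`.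
-/
import Fermat.Agent.Jac.LamAnn
import Fermat.Agent.Jac.Socle

set_option autoImplicit false
set_option linter.style.haveILetI false
set_option linter.unusedSectionVars false

namespace Fermat.Agent.Jac

open CongruenceSubgroup ModularCurve ModularCurve.Period
open scoped MatrixGroups

variable (N : ℕ) [NeZero N]

/-- the hypothesis `(K)`: Kummer-type maps `Λ → J₀(N)` with kernel `m Λ`, Hecke equivariant -/
def KummerMaps : Prop :=
  ∀ m : ℕ, 0 < m → ∃ rho : Lam N →+ JZero N,
    (∀ lam : Lam N, rho lam = 0 ↔ ∃ y : Lam N, lam = m • y) ∧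
    ∀ (l : Nat.Primes) (lam : Lam N), rho (TLam N l lam) = heckeOperatorBar N l (rho lam)

/-- an element of `Λ` divisible by every positive integer is zero -/
theorem eq_zero_of_forall_dvd_Lam (x : Lam N) (h : ∀ m : ℕ, 0 < m → ∃ y : Lam N, x = m • y) :
    x = 0 := by
  apply Subtype.ext
  refine AddMonoidHom.ext fun γ => ?_
  show (x : Additive (Gamma0 N) →+ ℤ) γ = 0
  obtain ⟨y, hy⟩ := h (((x : Additive (Gamma0 N) →+ ℤ) γ).natAbs + 1) (Nat.succ_pos _)
  have h1 : (x : Additive (Gamma0 N) →+ ℤ) γ =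
      ((((x : Additive (Gamma0 N) →+ ℤ) γ).natAbs + 1 : ℕ) : ℤ) *
        (y : Additive (Gamma0 N) →+ ℤ) γ := by
    conv_lhs => rw [hy]
    rw [Submodule.coe_smul_of_tower, AddMonoidHom.smul_apply, nsmul_eq_mul]
  have h2 : ((((x : Additive (Gamma0 N) →+ ℤ) γ).natAbs + 1 : ℕ) : ℤ) ∣
      (x : Additive (Gamma0 N) →+ ℤ) γ := ⟨_, h1⟩
  refine Int.eq_zero_of_abs_lt_dvd h2 ?_
  rw [Int.abs_eq_natAbs]
  push_cast
  omega

variable {N}

/-- **The operators `TLam N l` commute**, given `(K)` and the commutativity on `J₀(N)`. -/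
theorem commute_TLam_of_K (hcomm : HeckeOperatorsCommuteBar N) (hK : KummerMaps N)
    (l l' : Nat.Primes) : Commute (TLam N l) (TLam N l') := by
  refine LinearMap.ext fun lam => ?_
  rw [← sub_eq_zero]
  refine eq_zero_of_forall_dvd_Lam N _ fun m hm => ?_
  obtain ⟨rho, hker, hrho⟩ := hK m hm
  rw [← hker, map_sub, Module.End.mul_apply, Module.End.mul_apply, hrho, hrho, hrho, hrho,
    sub_eq_zero]
  have := congrArg (fun F : Module.End ℤ (JZero N) => F (rho lam)) (hcomm l l')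
  simpa [Module.End.mul_apply] using this

/-- **(J5) + (J8) algebra**: `EigenformSupportAt N p (JZero N)` from `(K)` and the commutativity of
the Hecke operators on `J₀(N)(ℚ̄)`. -/
theorem eigenformSupportAt_of_K (hcomm : HeckeOperatorsCommuteBar N) (hK : KummerMaps N) (p : ℕ) :
    letI := heckeModuleBar N
    EigenformSupportAt N p (JZero N) := by
  letI := heckeModuleBar N
  have hT := commute_TLam_of_K hcomm hK
  intro 𝔪 h𝔪 _
  have hmax := isMaximal_of_isEigenformIdeal N h𝔪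
  have hann := annihilator_Lam_le_of_isEigenformIdeal N hT h𝔪
  -- the residue characteristic of `𝔪`
  obtain ⟨ℓ, hℓ0, hℓ𝔪⟩ : ∃ ℓ : ℕ, ℓ ≠ 0 ∧ ((ℓ : ℕ) : HeckeAlg) ∈ 𝔪 := by
    obtain ⟨f, _, k, _, _, 𝒪, h𝒪, φ, rfl⟩ := h𝔪
    haveI := Fintype.ofFinite k
    refine ⟨Fintype.card k, Fintype.card_ne_zero, ?_⟩
    rw [mem_eigenIdeal_iff, map_natCast]
    exact Nat.cast_card_eq_zero k
  obtain ⟨rho, hker, hrho⟩ := hK ℓ (Nat.pos_of_ne_zero hℓ0)
  letI := heckeModuleOf (TLam N) hT
  haveI := finite_Lam N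
  exact torsionBySet_ne_bot_of_lattice 𝔪 hmax ℓ hℓ0 hℓ𝔪 hann rho
    (fun t x => map_heckeEvalOf_eq_smul_heckeModuleBar hcomm hT rho hrho t x) hker

end Fermat.Agent.Jac
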