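import Mathlib
import Fermat.Agent.Jac.HThetaGalReps
import Fermat.Agent.Jac.DictC.KummerDvd
import Fermat.Agent.Jac.Spec.Final
import Fermat.Agent.Jac.LamSupport

/-!
# Program J (J8)-core: `KummerMaps N` from the specialization node

* `KMS.exists_kummerHomC` : the complex Kummer homomorphism
  `κ : Lam N →+ Pic⁰(X₀(N)_ℂ)` with kernel `m Lam`, killed by `m`, Hecke equivariant —
  **unconditional** (`HTh.exists_kummerHom` applied to `DictC.kummer_dvd`).
* `KMS.kummerMaps_of_specialization` : `Spec.SpecializationStatement N → KummerMaps N`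
  (compose `κ` with the specialization map `red`, which is injective on torsion and Hecke
  equivariant).
* `KMS.kummerMaps_of_heckeEquivariance` : `Spec.HeckeEquivariance N → KummerMaps N`.
-/

set_option autoImplicit false

namespace Fermat.Agent.Jac.KMS

open AlgebraicCurve ModularCurve Fermat.Agent Fermat.Agent.Jac

/-- The complex Kummer homomorphism, unconditionally. -/
theorem exists_kummerHomC (N : ℕ) [NeZero N] {m : ℕ} (hm : 0 < m) :
    ∃ κ : ↥(Lam N) →+ Pic0 ℂ (DictC.Fc N),
      (∀ lam, κ lam = 0 ↔ ∃ lam' : ↥(Lam N), lam = m • lam') ∧ (∀ lam, m • κ lam = 0) ∧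
      ∀ (l : Nat.Primes) (lam : ↥(Lam N)), κ (TLam N l lam) =
        (haveI : NeZero (l : ℕ) := ⟨l.2.ne_zero⟩; heckeOperatorAlong ℂ N l (κ lam)) :=
  HTh.exists_kummerHom (DictC.kummer_dvd N) hm

/-- **(J8)-core.** The Kummer maps `Lam N →+ J₀(N)(ℚ̄)` from the specialization statement. -/
theorem kummerMaps_of_specialization (N : ℕ) [NeZero N]
    (h : Spec.SpecializationStatement N) : KummerMaps N := by
  intro m hm
  obtain ⟨red, hinj, hH⟩ := h
  obtain ⟨κ, hker, htors, hT⟩ := exists_kummerHomC N hm
  refine ⟨red.comp κ, fun lam => ⟨fun h0 => ?_, fun h0 => ?_⟩, fun l lam => ?_⟩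
  · refine (hker lam).mp (hinj (κ lam) ⟨m, hm.ne', htors lam⟩ ?_)
    simpa using h0
  · rw [AddMonoidHom.comp_apply, (hker lam).mpr h0, map_zero]
  · rw [AddMonoidHom.comp_apply, AddMonoidHom.comp_apply, hT l lam]
    exact hH l (κ lam)

/-- `KummerMaps N` from the Hecke equivariance of the reduction map (J6d). -/
theorem kummerMaps_of_heckeEquivariance (N : ℕ) [NeZero N]
    (h : Spec.HeckeEquivariance N) : KummerMaps N :=
  kummerMaps_of_specialization N (Spec.specializationStatement_of_heckeEquivariance N h)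

end Fermat.Agent.Jac.KMS
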