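import Mathlib
import Fermat.Agent.Val.GaussA
import Fermat.Prelude.Thm_ModularCurve_coeffMap_qExpand

/-!
# Program J (J6d): the Gauss ring of `L((q))` and the substitution `q ↦ q^ℓ`

`qExpand L ℓ` preserves the Gauss ring `gaussRingA A π ⊆ L((q))` and commutes with its residue
map `gaussResA A π`.
-/

set_option autoImplicit false

open ModularCurve

namespace Fermat.Agent.Jac.RedHecke

open Fermat.Agent.Val

variable {L : Type*} [Field L] (A : ValuationSubring L) {k : Type*} [Field k] (π : A →+* k)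
  (ℓ : ℕ) [NeZero ℓ]

theorem aRed_qExpand (b : LaurentSeries A) : aRed π (qExpand A ℓ b) = qExpand k ℓ (aRed π b) :=
  coeffMap_qExpand π ℓ b

theorem aIota_qExpand (a : LaurentSeries A) :
    aIota A (qExpand A ℓ a) = qExpand L ℓ (aIota A a) :=
  coeffMap_qExpand A.subtype ℓ a

theorem qExpand_ne_zero_field {y : LaurentSeries k} (hy : y ≠ 0) :
    qExpand k ℓ y ≠ 0 := by
  intro h
  apply hy
  exact (qExpand k ℓ).injective (h.trans (map_zero _).symm)

theorem qExpand_mem_gaussRingA {x : LaurentSeries L} (hx : x ∈ gaussRingA A π) :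
    qExpand L ℓ x ∈ gaussRingA A π := by
  obtain ⟨a, b, hb, hab⟩ := (mem_gaussRingA_iff A π).mp hx
  refine (mem_gaussRingA_iff A π).mpr ⟨qExpand A ℓ a, qExpand A ℓ b, ?_, ?_⟩
  · rw [aRed_qExpand]
    exact qExpand_ne_zero_field ℓ hb
  · rw [aIota_qExpand, aIota_qExpand, ← map_mul, hab]

theorem gaussResA_qExpand (x : gaussRingA A π) :
    gaussResA A π ⟨qExpand L ℓ (x : LaurentSeries L), qExpand_mem_gaussRingA A π ℓ x.2⟩ =
      qExpand k ℓ (gaussResA A π x) := by
  obtain ⟨a, b, hb, hab⟩ := (mem_gaussRingA_iff A π).mp x.2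
  have hb' : aRed π (qExpand A ℓ b) ≠ 0 := by
    rw [aRed_qExpand]
    exact qExpand_ne_zero_field ℓ hb
  have hab' : qExpand L ℓ (x : LaurentSeries L) * aIota A (qExpand A ℓ b) =
      aIota A (qExpand A ℓ a) := by
    rw [aIota_qExpand, aIota_qExpand, ← map_mul, hab]
  have h1 := gaussResA_eq A π
    ⟨qExpand L ℓ (x : LaurentSeries L), qExpand_mem_gaussRingA A π ℓ x.2⟩ hb' hab'
  have h2 := gaussResA_eq A π x hb hab
  rw [h1, h2, aRed_qExpand, aRed_qExpand]
  exact (map_div₀ (qExpand k ℓ) _ _).symm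

end Fermat.Agent.Jac.RedHecke
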