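import Mathlib

/-!
# Program J (J6d): the norm commutes with the residue map in a defectless unramified extension
of valued fields

`F'/F` a finite extension of fields, `O ⊆ F`, `O' ⊆ F'` valuation subrings with residue maps
`res : O →+* Ft`, `res' : O' →+* Ft'`, `Ft'/Ft` a finite extension, compatible:
`y ∈ O ⇒ y ∈ O'` and `res' y = res y`.  If `[F' : F] = [Ft' : Ft]` and `res'` is surjective, then
for every `z ∈ O'`: `Nm_{F'/F} z ∈ O` and `res (Nm z) = Nm_{Ft'/Ft} (res' z)`
(`NormRes.exists_res_norm_eq`).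

Proof: lift a basis of `Ft'/Ft` to `O'`; it is an orthonormal basis of `F'/F`, so the matrix of
the multiplication by `z` has entries in `O` and reduces to the matrix of the multiplication by
`res' z`.
-/

set_option autoImplicit false

open Module

namespace Fermat.Agent.Jac.NormRes

variable {F F' Ft Ft' : Type*} [Field F] [Field F'] [Field Ft] [Field Ft'] [Algebra F F']
  [Algebra Ft Ft'] {O : ValuationSubring F} {O' : ValuationSubring F'}

/-- Compatibility of two valuation subrings with residue maps along `F → F'`, `Ft → Ft'`. -/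
structure Compat (res : O →+* Ft) (res' : O' →+* Ft') : Prop where
  res_eq_zero : ∀ x : O, ¬ IsUnit x → res x = 0
  map_mem : ∀ y : O, algebraMap F F' (y : F) ∈ O'
  res_map : ∀ y : O, res' ⟨algebraMap F F' (y : F), map_mem y⟩ = algebraMap Ft Ft' (res y)

variable {res : O →+* Ft} {res' : O' →+* Ft'} (hc : Compat res res')

include hc

/-- The inclusion `O → O'`. -/
noncomputable def Compat.liftO : O →+* O' :=
  ((algebraMap F F').comp O.subtype).codRestrict O' (fun y => hc.map_mem y)

@[simp]
theorem Compat.coe_liftO (y : O) : ((hc.liftO y : O') : F') = algebraMap F F' (y : F) := rfl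

theorem Compat.res_liftO (y : O) : res' (hc.liftO y) = algebraMap Ft Ft' (res y) :=
  hc.res_map y

variable {ι : Type*} [Fintype ι] (bt : Basis ι Ft Ft') (b : ι → O') (hb : ∀ i, res' (b i) = bt i)

/-- The integral combination `∑ i, d i • b i ∈ O'`. -/
noncomputable def Compat.wsum (d : ι → O) : O' := ∑ i, hc.liftO (d i) * b i

theorem Compat.coe_wsum (d : ι → O) :
    ((hc.wsum b d : O') : F') = ∑ i, ((d i : O) : F) • ((b i : O') : F') := by
  unfold Compat.wsum
  push_cast
  refine Finset.sum_congr rfl fun i _ => ?_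
  rw [Algebra.smul_def]
  rfl

include hb in
theorem Compat.res_wsum (d : ι → O) : res' (hc.wsum b d) = ∑ i, res (d i) • bt i := by
  unfold Compat.wsum
  rw [map_sum]
  refine Finset.sum_congr rfl fun i _ => ?_
  rw [map_mul, hc.res_liftO, hb, Algebra.smul_def]

include hb in
/-- An integral combination with a coefficient of nonzero residue has nonzero residue. -/
theorem Compat.res_wsum_ne_zero (d : ι → O) {i₀ : ι} (h0 : res (d i₀) ≠ 0) :
    res' (hc.wsum b d) ≠ 0 := by
  intro h
  rw [hc.res_wsum bt b hb] at h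
  exact h0 (Fintype.linearIndependent_iff.mp bt.linearIndependent _ h i₀)

omit hc in
/-- A nonzero family has a member of maximal valuation. -/
theorem exists_normalise (O : ValuationSubring F) (c : ι → F) (hc0 : c ≠ 0) :
    ∃ i₀, c i₀ ≠ 0 ∧ ∀ i, c i / c i₀ ∈ O := by
  obtain ⟨i₁, hi₁⟩ : ∃ i, c i ≠ 0 := by
    by_contra h
    push Not at h
    exact hc0 (funext h)
  obtain ⟨i₀, -, hmax⟩ := Finset.exists_max_image Finset.univ (fun i => O.valuation (c i))
    ⟨i₁, Finset.mem_univ _⟩
  have h0 : c i₀ ≠ 0 := by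
    intro h
    have h1 := hmax i₁ (Finset.mem_univ _)
    rw [h, map_zero] at h1
    exact hi₁ ((map_eq_zero _).mp (le_antisymm h1 zero_le))
  refine ⟨i₀, h0, fun i => ?_⟩
  rw [← O.valuation_le_one_iff, map_div₀]
  have hv0 : O.valuation (c i₀) ≠ 0 := (map_ne_zero _).mpr h0
  exact (div_le_one₀ (zero_lt_iff.mpr hv0)).mpr (hmax i (Finset.mem_univ _))

include hb in
/-- The lifted family is linearly independent over `F`. -/
theorem Compat.linearIndependent_lift :
    LinearIndependent F (fun i => ((b i : O') : F')) := by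
  rw [Fintype.linearIndependent_iff]
  intro c hsum
  by_contra hne
  push Not at hne
  have hc0 : c ≠ 0 := by
    obtain ⟨i, hi⟩ := hne
    exact fun h => hi (by rw [h]; rfl)
  obtain ⟨i₀, h0, hmem⟩ := exists_normalise O c hc0
  let d : ι → O := fun i => ⟨c i / c i₀, hmem i⟩
  have hd0 : res (d i₀) ≠ 0 := by
    have : d i₀ = 1 := Subtype.ext (div_self h0)
    rw [this, map_one]
    exact one_ne_zero
  have h1 := hc.res_wsum_ne_zero bt b hb d hd0
  apply h1
  have h2 : hc.wsum b d = 0 := by
    apply Subtype.ext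
    rw [hc.coe_wsum]
    have : ∑ i, ((d i : O) : F) • ((b i : O') : F') = (c i₀)⁻¹ • ∑ i, c i • ((b i : O') : F') := by
      rw [Finset.smul_sum]
      refine Finset.sum_congr rfl fun i _ => ?_
      rw [smul_smul]
      congr 1
      show c i / c i₀ = (c i₀)⁻¹ * c i
      rw [div_eq_mul_inv, mul_comm]
    rw [this, hsum, smul_zero]
    rfl
  rw [h2, map_zero]

include hb in
/-- **Orthonormality**: if `∑ i, c i • b i ∈ O'` then all `c i ∈ O`. -/
theorem Compat.coeff_mem (c : ι → F) (hw : ∑ i, c i • ((b i : O') : F') ∈ O') (i : ι) :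
    c i ∈ O := by
  by_cases hc0 : c = 0
  · rw [hc0]; exact O.zero_mem
  obtain ⟨i₀, h0, hmem⟩ := exists_normalise O c hc0
  by_cases hi₀ : c i₀ ∈ O
  · have : c i = (c i / c i₀) * c i₀ := by field_simp
    rw [this]
    exact O.mul_mem _ _ (hmem i) hi₀
  exfalso
  -- `e = (c i₀)⁻¹` is a nonunit of `O`
  have he : (c i₀)⁻¹ ∈ O := (O.mem_or_inv_mem (c i₀)).resolve_left hi₀
  have hres : res ⟨(c i₀)⁻¹, he⟩ = 0 := by
    apply hc.res_eq_zero
    intro hu
    obtain ⟨u, hu'⟩ := hu
    apply hi₀
    have h1 : ((u⁻¹ : Oˣ) : O) * ⟨(c i₀)⁻¹, he⟩ = 1 := by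
      rw [← hu']; exact u.inv_mul
    have h2 : (((u⁻¹ : Oˣ) : O) : F) * (c i₀)⁻¹ = 1 := congrArg Subtype.val h1
    have h3 : (((u⁻¹ : Oˣ) : O) : F) = c i₀ := by
      field_simp at h2
      exact h2
    rw [← h3]
    exact ((u⁻¹ : Oˣ) : O).2
  let d : ι → O := fun i => ⟨c i / c i₀, hmem i⟩
  have hd0 : res (d i₀) ≠ 0 := by
    have : d i₀ = 1 := Subtype.ext (div_self h0)
    rw [this, map_one]
    exact one_ne_zero
  apply hc.res_wsum_ne_zero bt b hb d hd0
  have h2 : hc.wsum b d = hc.liftO ⟨(c i₀)⁻¹, he⟩ * ⟨_, hw⟩ := by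
    apply Subtype.ext
    rw [hc.coe_wsum]
    show _ = algebraMap F F' (c i₀)⁻¹ * ∑ i, c i • ((b i : O') : F')
    rw [← Algebra.smul_def, Finset.smul_sum]
    refine Finset.sum_congr rfl fun i _ => ?_
    rw [smul_smul]
    congr 1
    show c i / c i₀ = (c i₀)⁻¹ * c i
    rw [div_eq_mul_inv, mul_comm]
  rw [h2, map_mul, hc.res_liftO, hres, map_zero, zero_mul]

section Main

omit [Fintype ι] in
/-- **The norm commutes with the residue map.** -/
theorem Compat.exists_res_norm_eq [Module.Finite F F'] [Module.Finite Ft Ft']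
    (hsurj : Function.Surjective res') (hdeg : finrank F F' = finrank Ft Ft') (z : O') :
    ∃ h : Algebra.norm F (z : F') ∈ O, res ⟨_, h⟩ = Algebra.norm Ft (res' z) := by
  classical
  set n := finrank Ft Ft' with hn
  let bt : Basis (Fin n) Ft Ft' := Module.finBasis Ft Ft'
  choose b hb using fun i => hsurj (bt i)
  have hli := hc.linearIndependent_lift bt b hb
  have hcard : Fintype.card (Fin n) = finrank F F' := by rw [Fintype.card_fin, hdeg]
  have hnpos : 0 < n := Module.finrank_pos
  haveI : Nonempty (Fin n) := Fin.pos_iff_nonempty.mp hnpos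
  let B : Basis (Fin n) F F' := basisOfLinearIndependentOfCardEqFinrank hli hcard
  have hB : ∀ i, B i = ((b i : O') : F') := fun i => by
    simp only [B, coe_basisOfLinearIndependentOfCardEqFinrank]
  -- the matrix of the multiplication by `z`
  set M := Algebra.leftMulMatrix B (z : F') with hMdef
  have hM : ∀ j, ∑ i, M i j • ((b i : O') : F') = (z : F') * ((b j : O') : F') := by
    intro j
    have h1 := B.sum_repr ((z : F') * B j)
    simp only [hB] at h1
    rw [← h1]
    refine Finset.sum_congr rfl fun i _ => ?_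
    rw [hMdef, Algebra.leftMulMatrix_eq_repr_mul, hB]
  have hmem : ∀ i j, M i j ∈ O := fun i j =>
    hc.coeff_mem bt b hb (fun i => M i j) (by rw [hM j]; exact (z * b j).2) i
  let M₀ : Matrix (Fin n) (Fin n) O := fun i j => ⟨M i j, hmem i j⟩
  have hM₀ : M = O.subtype.mapMatrix M₀ := by
    ext i j
    rfl
  -- its reduction is the matrix of the multiplication by `res' z`
  have hres : ∀ j, res' z * bt j = ∑ i, res (M₀ i j) • bt i := by
    intro j
    have h1 : z * b j = hc.wsum b (fun i => M₀ i j) := by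
      apply Subtype.ext
      rw [hc.coe_wsum]
      exact (hM j).symm
    rw [← hc.res_wsum bt b hb, ← h1, map_mul, hb]
  have hMt : Algebra.leftMulMatrix bt (res' z) = res.mapMatrix M₀ := by
    ext i j
    rw [Algebra.leftMulMatrix_eq_repr_mul, hres j, bt.repr_sum_self]
    rfl
  have hdet : Algebra.norm F (z : F') = ((M₀.det : O) : F) := by
    rw [Algebra.norm_eq_matrix_det B, ← hMdef, hM₀, ← RingHom.map_det]
    rfl
  refine ⟨hdet ▸ (M₀.det).2, ?_⟩
  rw [Algebra.norm_eq_matrix_det bt, hMt, ← RingHom.map_det]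
  congr 1
  exact Subtype.ext hdet

end Main

end Fermat.Agent.Jac.NormRes
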