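import Mathlib
import Fermat.Agent.Hecke.ESDivisor2
import Fermat.Agent.Jac.CorrComm

/-!
# Program J (J6d), abstract part: the reduction map commutes with correspondences

`S` a `RedSetup` for `F/K` with residue function field `Ft/k`; `φ, ψ : F → F'` and
`φt, ψt : Ft → Ft'` two pairs of homomorphisms of function fields, with correspondences
`T = ψ_* φ^*` on `Div(F)` and `Tt = ψt_* φt^*` on `Div(Ft)`.  If the norm is compatible with the
residue map on units (`hnorm`: `res (Nm_ψ (φ y)) = Nm_ψt (φt (res y))`), then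

* `mapDomain_r_correspondence` : `r_* (T D) = Tt (r_* D)` for divisors of degree zero;
* `redPic0_correspondence` : `red ∘ T = Tt ∘ red` on `Pic⁰`.
-/

set_option autoImplicit false

open AlgebraicCurve

namespace Fermat.Agent.Jac.RedHecke

open Fermat.Agent.Red Fermat.Agent.Hecke Fermat.Agent.Jac

variable {K F F' k Ft Ft' : Type*} [Field K] [Field F] [Field F'] [Algebra K F] [Algebra K F']
  [Field k] [Field Ft] [Field Ft'] [Algebra k Ft] [Algebra k Ft']
  {A : ValuationSubring K} {π : A →+* k} (S : RedSetup (F := F) (Ft := Ft) A π)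
  [HasPrincipalDivisors K F] [HasPrincipalDivisors K F'] [HasPrincipalDivisors k Ft]
  [HasPrincipalDivisors k Ft']
  (hF : RiemannPkg K F) (hFt : RiemannPkg k Ft)
  (φ ψ : F →ₐ[K] F') (hφ : φ.toRingHom.IsIntegral) (hψ : ψ.toRingHom.IsIntegral)
  (hFI : FundamentalIdentityAlong K φ hφ) (hfin : FiniteAlong K ψ)
  (hN : NormFormulaAlong K ψ hfin)
  (φt ψt : Ft →ₐ[k] Ft') (hφt : φt.toRingHom.IsIntegral) (hψt : ψt.toRingHom.IsIntegral)
  (hFIt : FundamentalIdentityAlong k φt hφt) (hfint : FiniteAlong k ψt)
  (hNt : NormFormulaAlong k ψt hfint)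

include hF hFt hFI hfin hN hFIt hfint hNt in
/-- **The reduction of places commutes with correspondences** on divisors of degree zero. -/
theorem mapDomain_r_correspondence
    (hnorm : ∀ y : S.O, S.res y ≠ 0 →
      ∃ h : normAlong ψ (φ (y : F)) ∈ S.O, S.res ⟨_, h⟩ = normAlong ψt (φt (S.res y)))
    (D : Divisor K F) (hD : Divisor.degree D = 0) :
    Finsupp.mapDomain S.r (Divisor.correspondence φ ψ hφ hψ D) =
      Divisor.correspondence φt ψt hφt hψt (Finsupp.mapDomain S.r D) := by
  have key := mapDomain_r_eq_of_units' S hF hFt (Divisor.correspondence φ ψ hφ hψ)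
    (fun D hD => correspondence_nonneg φ ψ hφ hψ hD)
    (Divisor.correspondence φt ψt hφt hψt) 0
    (fun E hE => correspondence_nonneg φt ψt hφt hψt hE) (fun E _ => le_rfl)
    (finrankAlong k φt : ℤ) 0 (finrankAlong K φ : ℤ)
    (fun D => Divisor.degree_correspondence φ ψ hφ hψ hFI D)
    (fun E => Divisor.degree_correspondence φt ψt hφt hψt hFIt E)
    (fun E => by simp) ?_ D hD
  · simpa using key
  · intro y hy
    have hy0 : (y : F) ≠ 0 := by
      intro h
      apply hy
      have : y = 0 := Subtype.ext h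
      rw [this, map_zero]
    obtain ⟨h, hres⟩ := hnorm y hy
    have hne : S.res ⟨_, h⟩ ≠ 0 := by
      rw [hres]
      exact normAlong_ne_zero ψt hfint ((map_ne_zero φt).mpr hy)
    rw [correspondence_divOf φ ψ hφ hψ hfin hN hy0, AddMonoidHom.zero_apply, add_zero,
      correspondence_divOf φt ψt hφt hψt hfint hNt hy, ← hres]
    have := pushPlaces_divOf_unit S ⟨_, h⟩ hne
    rw [pushPlaces_apply] at this
    exact this

include hF hFt in
/-- **The reduction map on `Pic⁰` commutes with correspondences.** -/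
theorem redPic0_correspondence
    (hnorm : ∀ y : S.O, S.res y ≠ 0 →
      ∃ h : normAlong ψ (φ (y : F)) ∈ S.O, S.res ⟨_, h⟩ = normAlong ψt (φt (S.res y)))
    (x : Pic0 K F) :
    redPic0 S (Pic0.correspondence φ ψ hφ hψ hFI hfin hN x) =
      Pic0.correspondence φt ψt hφt hψt hFIt hfint hNt (redPic0 S x) := by
  have key := redPic0_comm S (Divisor.correspondence φ ψ hφ hψ)
    (Divisor.correspondence φt ψt hφt hψt) 0
    (fun D hD => by
      rw [mapDomain_r_correspondence S hF hFt φ ψ hφ hψ hFI hfin hN φt ψt hφt hψt hFIt hfint hNt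
        hnorm D hD]
      simp)
    (Pic0.correspondence φ ψ hφ hψ hFI hfin hN)
    (Pic0.correspondence φt ψt hφt hψt hFIt hfint hNt) 0
    (fun D => ⟨Divisor.correspondence_mem_degZero φ ψ hφ hψ hFI D.2, rfl⟩)
    (fun E => ⟨Divisor.correspondence_mem_degZero φt ψt hφt hψt hFIt E.2, rfl⟩)
    (fun E => ⟨by simp [Divisor.mem_degZero], by
      simp only [AddMonoidHom.zero_apply]
      symm
      rw [Pic0.mk, QuotientAddGroup.eq_zero_iff, AddSubgroup.mem_addSubgroupOf]
      exact (Divisor.principal (K := k) (F := Ft)).zero_mem⟩) x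
  simpa using key

end Fermat.Agent.Jac.RedHecke
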