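import Mathlib
import Fermat.Agent.Jac.RedCorr
import Fermat.Agent.Jac.NormRes
import Fermat.Agent.Jac.GaussQExpand
import Fermat.Agent.Val.OrthoRedSetup
import Fermat.Prelude.Def_ModularCurve_HeckeOperatorTotal

/-!
# Program J (J6d): the reduction map commutes with the Hecke operators

`A ⊆ L` a valuation subring with residue map `π : A →+* k` (characteristic zero on both sides).
`FL M = laurentBaseChange L (F_M)`, `Fk M = laurentBaseChange k (F_M)`.  A constant reduction of
`FL M` onto `Fk M` is *Gauss* (`IsGauss`) if its valuation ring consists of the Gauss integral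
series and its residue map is the Gauss residue (this holds by definition for the constant
reductions `OrthoData.constRed` of L-VAL: `isGauss_constRed`).

* `exists_res_normAlong` : for Gauss constant reductions at the levels `N` and `N ℓ` and equal
  degrees of `α` over `L` and `k`: `res (Nm_α (β y)) = Nm_α (β (res y))`;
* `redPic0_heckeOperatorAlong` : `red ∘ T_ℓ = T_ℓ ∘ red` on `Pic⁰`.
-/

set_option autoImplicit false

open AlgebraicCurve ModularCurve

namespace Fermat.Agent.Jac.RedHecke

open Fermat.Agent.Red Fermat.Agent.Val Fermat.Agent.Hecke Fermat.Agent.Jac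

variable {L k : Type*} [Field L] [Field k] {A : ValuationSubring L} {π : A →+* k}

/-- A constant reduction of a subfield of `L((q))` is *Gauss* if it is cut out by the Gauss ring
of `L((q))` and its residue map is the Gauss residue map. -/
structure IsGauss {F : IntermediateField L (LaurentSeries L)}
    {Ft : IntermediateField k (LaurentSeries k)} (S : ConstRed (F := F) (Ft := Ft) A π) :
    Prop where
  mem_iff : ∀ f : F, f ∈ S.O ↔ ((f : F) : LaurentSeries L) ∈ gaussRingA A π
  res_eq : ∀ (f : S.O) (h : (((f : S.O) : F) : LaurentSeries L) ∈ gaussRingA A π),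
    ((S.res f : Ft) : LaurentSeries k) = gaussResA A π ⟨_, h⟩

/-- The constant reductions of L-VAL are Gauss. -/
theorem isGauss_constRed {F : IntermediateField L (LaurentSeries L)}
    {Ft : IntermediateField k (LaurentSeries k)} {n : ℕ} (D : OrthoData A π F Ft n)
    (hπ : ∀ a : A, a ∈ IsLocalRing.maximalIdeal A → π a = 0) (hπs : Function.Surjective π) :
    IsGauss (D.constRed hπ hπs) :=
  ⟨fun _ => Iff.rfl, fun _ _ => rfl⟩

section Levels

variable [Algebra ℚ L] [Algebra ℚ k] (N ℓ : ℕ) [NeZero N] [NeZero ℓ]
  {S : ConstRed (F := laurentBaseChange L (modularFunctionFieldFull N))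
    (Ft := laurentBaseChange k (modularFunctionFieldFull N)) A π}
  {S' : ConstRed (F := laurentBaseChange L (modularFunctionFieldFull (N * ℓ)))
    (Ft := laurentBaseChange k (modularFunctionFieldFull (N * ℓ))) A π}
  (hS : IsGauss S) (hS' : IsGauss S')

include hS in
theorem coe_mem_gaussRingA (y : S.O) :
    (((y : S.O) : laurentBaseChange L (modularFunctionFieldFull N)) : LaurentSeries L) ∈
      gaussRingA A π := (hS.mem_iff _).mp y.2

include hS hS'

theorem alpha_mem (y : S.O) :
    heckeAlphaBar L N ℓ (y : laurentBaseChange L (modularFunctionFieldFull N)) ∈ S'.O := by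
  have h1 := coe_mem_gaussRingA N hS y
  have h2 : ((heckeAlphaBar L N ℓ (y : laurentBaseChange L (modularFunctionFieldFull N)) :
      laurentBaseChange L (modularFunctionFieldFull (N * ℓ))) : LaurentSeries L) ∈
      gaussRingA A π := by
    rw [coe_heckeAlphaBar]
    exact h1
  exact (hS'.mem_iff _).mpr h2

theorem coe_res_alpha (y : S.O) :
    ((S'.res ⟨heckeAlphaBar L N ℓ (y : laurentBaseChange L (modularFunctionFieldFull N)),
        alpha_mem N ℓ hS hS' y⟩ : laurentBaseChange k (modularFunctionFieldFull (N * ℓ))) :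
      LaurentSeries k) =
      ((S.res y : laurentBaseChange k (modularFunctionFieldFull N)) : LaurentSeries k) := by
  have h1 := coe_mem_gaussRingA N hS y
  have e : ((heckeAlphaBar L N ℓ (y : laurentBaseChange L (modularFunctionFieldFull N)) :
      laurentBaseChange L (modularFunctionFieldFull (N * ℓ))) : LaurentSeries L) =
      (((y : S.O) : laurentBaseChange L (modularFunctionFieldFull N)) : LaurentSeries L) :=
    coe_heckeAlphaBar N ℓ _
  have h2 : ((heckeAlphaBar L N ℓ (y : laurentBaseChange L (modularFunctionFieldFull N)) :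
      laurentBaseChange L (modularFunctionFieldFull (N * ℓ))) : LaurentSeries L) ∈
      gaussRingA A π := by rw [e]; exact h1
  have e' : (⟨_, h2⟩ : gaussRingA A π) = ⟨_, h1⟩ := Subtype.ext e
  have h3 := hS'.res_eq ⟨heckeAlphaBar L N ℓ
    (y : laurentBaseChange L (modularFunctionFieldFull N)), alpha_mem N ℓ hS hS' y⟩ h2
  have h4 := hS.res_eq y h1
  exact h3.trans ((congrArg (gaussResA A π) e').trans (h4.symm))

omit hS hS' in
theorem coe_heckeAlphaBar_field (z : laurentBaseChange k (modularFunctionFieldFull N)) :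
    ((heckeAlphaBar k N ℓ z : laurentBaseChange k (modularFunctionFieldFull (N * ℓ))) :
      LaurentSeries k) =
      ((z : laurentBaseChange k (modularFunctionFieldFull N)) : LaurentSeries k) :=
  coe_heckeAlphaBar N ℓ _

theorem res_alpha (y : S.O) :
    S'.res ⟨heckeAlphaBar L N ℓ (y : laurentBaseChange L (modularFunctionFieldFull N)),
        alpha_mem N ℓ hS hS' y⟩ = heckeAlphaBar k N ℓ (S.res y) :=
  Subtype.ext ((coe_res_alpha N ℓ hS hS' y).trans (coe_heckeAlphaBar_field N ℓ (S.res y)).symm)

theorem beta_mem (y : S.O) :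
    heckeBetaBar L N ℓ (y : laurentBaseChange L (modularFunctionFieldFull N)) ∈ S'.O := by
  have h1 := coe_mem_gaussRingA N hS y
  have h2 : ((heckeBetaBar L N ℓ (y : laurentBaseChange L (modularFunctionFieldFull N)) :
      laurentBaseChange L (modularFunctionFieldFull (N * ℓ))) : LaurentSeries L) ∈
      gaussRingA A π := by
    rw [coe_heckeBetaBar]
    exact qExpand_mem_gaussRingA A π ℓ h1
  exact (hS'.mem_iff _).mpr h2

theorem res_beta (y : S.O) :
    S'.res ⟨heckeBetaBar L N ℓ (y : laurentBaseChange L (modularFunctionFieldFull N)),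
        beta_mem N ℓ hS hS' y⟩ = heckeBetaBar k N ℓ (S.res y) := by
  apply Subtype.ext
  have h1 := coe_mem_gaussRingA N hS y
  have h2 : ((heckeBetaBar L N ℓ (y : laurentBaseChange L (modularFunctionFieldFull N)) :
      laurentBaseChange L (modularFunctionFieldFull (N * ℓ))) : LaurentSeries L) ∈
      gaussRingA A π := by
    rw [coe_heckeBetaBar]
    exact qExpand_mem_gaussRingA A π ℓ h1
  have h3 := hS'.res_eq ⟨heckeBetaBar L N ℓ (y : laurentBaseChange L (modularFunctionFieldFull N)), beta_mem N ℓ hS hS' y⟩ h2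
  have h4 := hS.res_eq y h1
  rw [coe_heckeBetaBar, h4, ← gaussResA_qExpand A π ℓ ⟨_, h1⟩]
  refine h3.trans ?_
  congr 1

/-- Compatibility of the two constant reductions along `α`. -/
theorem compat_alpha :
    letI := algebraAlong (heckeAlphaBar L N ℓ)
    letI := algebraAlong (heckeAlphaBar k N ℓ)
    NormRes.Compat S.res S'.res := by
  letI := algebraAlong (heckeAlphaBar L N ℓ)
  letI := algebraAlong (heckeAlphaBar k N ℓ)
  exact
    { res_eq_zero := fun x hx => (S.res_eq_zero_iff x).mpr hx
      map_mem := fun y => alpha_mem N ℓ hS hS' y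
      res_map := fun y => res_alpha N ℓ hS hS' y }

/-- **The norm along `α` commutes with the residue maps**:
`res (Nm_α (β y)) = Nm_α (β (res y))`. -/
theorem exists_res_normAlong (hfin : FiniteAlong L (heckeAlphaBar L N ℓ))
    (hfint : FiniteAlong k (heckeAlphaBar k N ℓ))
    (hdeg : finrankAlong L (heckeAlphaBar L N ℓ) = finrankAlong k (heckeAlphaBar k N ℓ))
    (y : S.O) :
    ∃ h : normAlong (heckeAlphaBar L N ℓ) (heckeBetaBar L N ℓ (y : laurentBaseChange L (modularFunctionFieldFull N))) ∈ S.O,
      S.res ⟨_, h⟩ = normAlong (heckeAlphaBar k N ℓ) (heckeBetaBar k N ℓ (S.res y)) := by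
  letI := algebraAlong (heckeAlphaBar L N ℓ)
  letI := algebraAlong (heckeAlphaBar k N ℓ)
  haveI : Module.Finite (laurentBaseChange L (modularFunctionFieldFull N))
      (laurentBaseChange L (modularFunctionFieldFull (N * ℓ))) := hfin
  haveI : Module.Finite (laurentBaseChange k (modularFunctionFieldFull N))
      (laurentBaseChange k (modularFunctionFieldFull (N * ℓ))) := hfint
  have hc := compat_alpha N ℓ hS hS'
  obtain ⟨h, hres⟩ := hc.exists_res_norm_eq S'.res_surjective hdeg
    ⟨heckeBetaBar L N ℓ (y : laurentBaseChange L (modularFunctionFieldFull N)), beta_mem N ℓ hS hS' y⟩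
  refine ⟨h, ?_⟩
  rw [res_beta N ℓ hS hS' y] at hres
  exact hres

end Levels

section Main

variable [Algebra ℚ L] [Algebra ℚ k] (N ℓ : ℕ) [NeZero N] [NeZero ℓ]
  (R : RedSetup (F := laurentBaseChange L (modularFunctionFieldFull N))
    (Ft := laurentBaseChange k (modularFunctionFieldFull N)) A π)
  (S' : ConstRed (F := laurentBaseChange L (modularFunctionFieldFull (N * ℓ)))
    (Ft := laurentBaseChange k (modularFunctionFieldFull (N * ℓ))) A π)
  (hR : IsGauss R.toConstRed) (hS' : IsGauss S')
  [HasPrincipalDivisors L (laurentBaseChange L (modularFunctionFieldFull N))]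
  [HasPrincipalDivisors k (laurentBaseChange k (modularFunctionFieldFull N))]
  (hF : RiemannPkg L (laurentBaseChange L (modularFunctionFieldFull N)))
  (hFt : RiemannPkg k (laurentBaseChange k (modularFunctionFieldFull N)))

include hR hS' hF hFt in
/-- **(J6d)** The reduction map `Pic⁰(FL N) → Pic⁰(Fk N)` commutes with the Hecke operator `T_ℓ`
(any `ℓ`), given the Hecke inputs on both sides and equal degrees of `α`. -/
theorem redPic0_heckeOperatorAlong (h : HeckeInputsAlong L N ℓ) (ht : HeckeInputsAlong k N ℓ)
    (hdeg : finrankAlong L (heckeAlphaBar L N ℓ) = finrankAlong k (heckeAlphaBar k N ℓ))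
    (x : Pic0 L (laurentBaseChange L (modularFunctionFieldFull N))) :
    redPic0 R (heckeOperatorAlong L N ℓ x) = heckeOperatorAlong k N ℓ (redPic0 R x) := by
  obtain ⟨hα, hβ, hP, hfin, hFI, hN⟩ := h
  obtain ⟨hαt, hβt, hPt, hfint, hFIt, hNt⟩ := ht
  haveI := hP
  haveI := hPt
  rw [heckeOperatorAlong_eq hα hβ hFI hfin hN, heckeOperatorAlong_eq hαt hβt hFIt hfint hNt]
  unfold heckePic0Bar
  refine redPic0_correspondence R hF hFt (heckeBetaBar L N ℓ) (heckeAlphaBar L N ℓ) hβ hα hFI hfin
    hN (heckeBetaBar k N ℓ) (heckeAlphaBar k N ℓ) hβt hαt hFIt hfint hNt ?_ x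
  intro y _
  exact exists_res_normAlong N ℓ hR hS' hfin hfint hdeg y

end Main

end Fermat.Agent.Jac.RedHecke
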