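import Mathlib
import Fermat.Agent.Jac.RedHecke
import Fermat.Agent.Jac.SepVarFc
import Fermat.Prelude.Def_ModularCurve_HeckeModule

/-!
# Program J (J6d), concrete form: reduction `Pic⁰(Fc N) → JZero N` commutes with Hecke operators

`A ⊆ ℂ` a valuation subring with residue map `π : A →+* ℚ̄`, `R` a `RedSetup` of `Fc N` onto
`F̄_N` and `S'` a constant reduction of `Fc (N ℓ)` onto `F̄_{N ℓ}`, both Gauss (`IsGauss`; automatic
for `OrthoData.constRed`).  Then, given the Hecke inputs over `ℂ` and over `ℚ̄`,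

`redPic0 R (heckeOperatorAlong ℂ N ℓ x) = heckeOperatorAlong ℚ̄ N ℓ (redPic0 R x)`

(`redPic0_heckeOperatorAlong_C`), and in terms of `heckeOperatorBar` (`redPic0_heckeOperatorBar`).
No degree hypothesis: the degrees of `α` agree by `finrankAlong_heckeAlphaBar_bc`.
-/

set_option autoImplicit false

open AlgebraicCurve ModularCurve

namespace Fermat.Agent.Jac.RedHecke

open Fermat.Agent.Red Fermat.Agent.Val Fermat.Agent.Hecke Fermat.Agent.Jac Fermat.Agent.X0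
  Fermat.Agent.Jac.Descent

variable (N ℓ : ℕ) [NeZero N] [NeZero ℓ] {A : ValuationSubring ℂ} {π : A →+* Kb}
  [HasPrincipalDivisors ℂ (DictC.Fc N)] [HasPrincipalDivisors Kb (Fb N)]
  (R : RedSetup (F := DictC.Fc N) (Ft := Fb N) A π)
  (S' : ConstRed (F := DictC.Fc (N * ℓ)) (Ft := Fb (N * ℓ)) A π)
  (hR : IsGauss R.toConstRed) (hS' : IsGauss S')

include hR hS' in
/-- **(J6d)** over `ℂ`: the reduction map commutes with `T_ℓ`. -/
theorem redPic0_heckeOperatorAlong_C (h : HeckeInputsAlong ℂ N ℓ) (ht : HeckeInputsAlong Kb N ℓ)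
    (x : Pic0 ℂ (DictC.Fc N)) :
    redPic0 R (heckeOperatorAlong ℂ N ℓ x) = heckeOperatorAlong Kb N ℓ (redPic0 R x) :=
  redPic0_heckeOperatorAlong N ℓ R S' hR hS' (riemannPkg_Fc N) (riemannPkg_bar N) h ht
    (finrankAlong_heckeAlphaBar_bc ℂ N ℓ) x

end Fermat.Agent.Jac.RedHecke

namespace Fermat.Agent.Jac.RedHecke

open Fermat.Agent.Red Fermat.Agent.Val Fermat.Agent.Hecke Fermat.Agent.Jac Fermat.Agent.X0
  Fermat.Agent.Jac.Descent

variable (N : ℕ) [NeZero N] (ℓ : Nat.Primes) {A : ValuationSubring ℂ} {π : A →+* Kb}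
  [HasPrincipalDivisors ℂ (DictC.Fc N)] [HasPrincipalDivisors Kb (Fb N)]
  (R : RedSetup (F := DictC.Fc N) (Ft := Fb N) A π)
  (S' : ConstRed (F := DictC.Fc (N * ℓ)) (Ft := Fb (N * ℓ)) A π)
  (hR : IsGauss R.toConstRed) (hS' : IsGauss S')

include hR hS' in
/-- **(J6d)** in terms of `heckeOperatorBar`. -/
theorem redPic0_heckeOperatorBar
    (h : haveI : NeZero (ℓ : ℕ) := ⟨ℓ.2.ne_zero⟩; HeckeInputsAlong ℂ N ℓ)
    (ht : haveI : NeZero (ℓ : ℕ) := ⟨ℓ.2.ne_zero⟩; HeckeInputsAlong Kb N ℓ)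
    (x : Pic0 ℂ (DictC.Fc N)) :
    redPic0 R ((haveI : NeZero (ℓ : ℕ) := ⟨ℓ.2.ne_zero⟩; heckeOperatorAlong ℂ N ℓ) x) =
      heckeOperatorBar N ℓ (redPic0 R x) := by
  haveI : NeZero (ℓ : ℕ) := ⟨ℓ.2.ne_zero⟩
  rw [heckeOperatorBar_apply]
  exact redPic0_heckeOperatorAlong_C N ℓ R S' hR hS' h ht x

end Fermat.Agent.Jac.RedHecke
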