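import Mathlib
import Fermat.Agent.Jac.KummerMapsOfSpec
import Fermat.Agent.Jac.Spec.HeckeEquivarianceH1
import Fermat.Agent.Jac.HeckeCommUncond

/-!
# Program J, final statement (K): `KummerMaps N`, unconditionally

* `KMF.kummerMaps N : KummerMaps N` — for every `m > 0` a homomorphism
  `ρ_m : Lam N →+ J₀(N)(ℚ̄)` with kernel `m Lam`, equivariant for all Hecke operators `T_ℓ`
  (`ℓ` any prime).  `ρ_m = red ∘ κ_m` with `κ_m` the complex Kummer homomorphism
  (`KMS.exists_kummerHomC`) and `red` the specialization `Pic⁰(X₀(N)_ℂ) → J₀(N)(ℚ̄)`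
  (`Spec.specializationStatement`).
* `KMF.eigenformSupportAt N p : EigenformSupportAt N p (JZero N)` (node (J8) = (HJ8)).
-/

set_option autoImplicit false

namespace Fermat.Agent.Jac.KMF

open AlgebraicCurve ModularCurve Fermat.Agent Fermat.Agent.Jac

/-- **(K), unconditional.** -/
theorem kummerMaps (N : ℕ) [NeZero N] : KummerMaps N :=
  KMS.kummerMaps_of_specialization N (Spec.specializationStatement N)

/-- **(J8) = (HJ8), unconditional**: the eigenform support property of `J₀(N)(ℚ̄)`. -/
theorem eigenformSupportAt (N : ℕ) [NeZero N] (p : ℕ) :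
    letI := heckeModuleBar N
    EigenformSupportAt N p (JZero N) :=
  eigenformSupportAt_of_K (heckeOperatorsCommuteBar N) (kummerMaps N) p

end Fermat.Agent.Jac.KMF
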