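/-
Abstract lemma for Program T (T1)(a) (helper15), Mathlib only.

Let `a : ι → A`, `b : ι → B` be families in two `R`-algebras and `P` a subalgebra of `A × B`
containing all pairs `(a i, b i)` and such that `x.1 = y.1 → x.2 = y.2` on `P`. Then there is a unique
algebra homomorphism `adjoin R (range a) → adjoin R (range b)` with `a i ↦ b i`; moreover each pair
`(x, ψ x)` lies in `P`.
-/
import Mathlib

set_option autoImplicit false

namespace Fermat.Agent.Jac.AdjoinLift

variable {R A B ι : Type*} [CommSemiring R] [Semiring A] [Semiring B] [Algebra R A] [Algebra R B]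
variable (a : ι → A) (b : ι → B)

/-- the algebra generated by the pairs -/
def pairAlg : Subalgebra R (A × B) := Algebra.adjoin R (Set.range fun i => (a i, b i))

theorem map_fst_pairAlg :
    (pairAlg (R := R) a b).map (AlgHom.fst R A B) = Algebra.adjoin R (Set.range a) := by
  unfold pairAlg
  rw [AlgHom.map_adjoin, ← Set.range_comp]
  rfl

theorem map_snd_pairAlg :
    (pairAlg (R := R) a b).map (AlgHom.snd R A B) = Algebra.adjoin R (Set.range b) := by
  unfold pairAlg
  rw [AlgHom.map_adjoin, ← Set.range_comp]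
  rfl

/-- first projection, restricted -/
def pairFst : pairAlg (R := R) a b →ₐ[R] Algebra.adjoin R (Set.range a) :=
  ((AlgHom.fst R A B).comp (pairAlg (R := R) a b).val).codRestrict _ (fun x => by
    rw [← map_fst_pairAlg a b]
    exact ⟨x.1, x.2, rfl⟩)

/-- second projection, restricted -/
def pairSnd : pairAlg (R := R) a b →ₐ[R] Algebra.adjoin R (Set.range b) :=
  ((AlgHom.snd R A B).comp (pairAlg (R := R) a b).val).codRestrict _ (fun x => by
    rw [← map_snd_pairAlg a b]
    exact ⟨x.1, x.2, rfl⟩)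

@[simp] theorem coe_pairFst (x : pairAlg (R := R) a b) :
    ((pairFst a b x : Algebra.adjoin R (Set.range a)) : A) = (x : A × B).1 := rfl

@[simp] theorem coe_pairSnd (x : pairAlg (R := R) a b) :
    ((pairSnd a b x : Algebra.adjoin R (Set.range b)) : B) = (x : A × B).2 := rfl

theorem pairFst_surjective : Function.Surjective (pairFst (R := R) a b) := by
  rintro ⟨y, hy⟩
  rw [← map_fst_pairAlg a b] at hy
  obtain ⟨x, hx, rfl⟩ := hy
  exact ⟨⟨x, hx⟩, rfl⟩

variable {a b}

theorem pairFst_injective {P : Subalgebra R (A × B)} (hP : ∀ i, (a i, b i) ∈ P)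
    (hker : ∀ x ∈ P, ∀ y ∈ P, x.1 = y.1 → x.2 = y.2) : Function.Injective (pairFst (R := R) a b) := by
  have hle : pairAlg (R := R) a b ≤ P :=
    Algebra.adjoin_le (by rintro _ ⟨i, rfl⟩; exact hP i)
  intro x y hxy
  have h1 : (x : A × B).1 = (y : A × B).1 := congrArg Subtype.val hxy
  have h2 : (x : A × B).2 = (y : A × B).2 := hker _ (hle x.2) _ (hle y.2) h1
  exact Subtype.ext (Prod.ext h1 h2)

/-- the lift -/
noncomputable def lift {P : Subalgebra R (A × B)} (hP : ∀ i, (a i, b i) ∈ P)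
    (hker : ∀ x ∈ P, ∀ y ∈ P, x.1 = y.1 → x.2 = y.2) :
    Algebra.adjoin R (Set.range a) →ₐ[R] Algebra.adjoin R (Set.range b) :=
  (pairSnd a b).comp
    (AlgEquiv.ofBijective (pairFst (R := R) a b)
      ⟨pairFst_injective hP hker, pairFst_surjective a b⟩).symm.toAlgHom

theorem lift_pairFst {P : Subalgebra R (A × B)} (hP : ∀ i, (a i, b i) ∈ P)
    (hker : ∀ x ∈ P, ∀ y ∈ P, x.1 = y.1 → x.2 = y.2) (x : pairAlg (R := R) a b) :
    lift hP hker (pairFst a b x) = pairSnd a b x := by
  unfold lift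
  have h : (AlgEquiv.ofBijective (pairFst (R := R) a b)
      ⟨pairFst_injective hP hker, pairFst_surjective a b⟩).symm (pairFst a b x) = x := by
    apply (AlgEquiv.ofBijective (pairFst (R := R) a b)
      ⟨pairFst_injective hP hker, pairFst_surjective a b⟩).injective
    rw [AlgEquiv.apply_symm_apply]
    rfl
  show pairSnd a b ((AlgEquiv.ofBijective (pairFst (R := R) a b)
      ⟨pairFst_injective hP hker, pairFst_surjective a b⟩).symm (pairFst a b x)) = _
  rw [h]

theorem lift_gen {P : Subalgebra R (A × B)} (hP : ∀ i, (a i, b i) ∈ P)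
    (hker : ∀ x ∈ P, ∀ y ∈ P, x.1 = y.1 → x.2 = y.2) (i : ι) :
    lift hP hker ⟨a i, Algebra.subset_adjoin ⟨i, rfl⟩⟩ = ⟨b i, Algebra.subset_adjoin ⟨i, rfl⟩⟩ :=
  lift_pairFst hP hker ⟨(a i, b i), Algebra.subset_adjoin ⟨i, rfl⟩⟩

theorem pair_lift_mem {P : Subalgebra R (A × B)} (hP : ∀ i, (a i, b i) ∈ P)
    (hker : ∀ x ∈ P, ∀ y ∈ P, x.1 = y.1 → x.2 = y.2) (x : Algebra.adjoin R (Set.range a)) :
    ((x : A), ((lift hP hker x : Algebra.adjoin R (Set.range b)) : B)) ∈ P := by
  have hle : pairAlg (R := R) a b ≤ P :=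
    Algebra.adjoin_le (by rintro _ ⟨i, rfl⟩; exact hP i)
  obtain ⟨z, rfl⟩ := pairFst_surjective a b x
  rw [lift_pairFst]
  exact hle z.2

theorem lift_surjective {P : Subalgebra R (A × B)} (hP : ∀ i, (a i, b i) ∈ P)
    (hker : ∀ x ∈ P, ∀ y ∈ P, x.1 = y.1 → x.2 = y.2) : Function.Surjective (lift hP hker) := by
  rintro ⟨y, hy⟩
  rw [← map_snd_pairAlg a b] at hy
  obtain ⟨x, hx, rfl⟩ := hy
  exact ⟨pairFst a b ⟨x, hx⟩, lift_pairFst hP hker ⟨x, hx⟩⟩

end Fermat.Agent.Jac.AdjoinLift
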