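/-
Program T, node (T1)(a) (helper15): the comparison homomorphism from the Hecke algebra of the
lattice `Λ = Hom_par(Γ₀(N), ℤ)` to the Hecke algebra of weight-2 cusp forms.

For a set `S` of primes (as a set of naturals) put `I = {l : Nat.Primes // (l : ℕ) ∉ S}`,
`TLfam N S : I → End_ℤ(Λ)`, `i ↦ TLam N i`, and `TLamAlg N S = Algebra.adjoin ℤ (range (TLfam N S))`.
Then there is a ring homomorphism

  `lamPsi N S : TLamAlg N S →+* CuspForm.heckeAlgebra N 2 S`

with `lamPsi (TLam N l) = T_l` (`l ∤ N`), `= U_l` (`l ∣ N`).  No commutativity of the `TLam N l` is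
needed.  Method: in `End_ℤ(Λ) × End_ℂ(Hom(Γ₀(N), ℂ)) × End_ℂ(S₂)` the triples `(a, c, b)` with
`c ∘ cast = cast ∘ a` (on `Λ`) and `c ∘ ψ = ψ ∘ b` (`ψ = eigenHom N`, the Fricke-twisted period map)
form a subalgebra containing the triples `(TLam N l, heckeTransfer N l ℂ, heckeFam N l)`; on it
`a = 0 ⇒ b = 0` because the lattice spans the complex parabolic homomorphisms and `ψ` is injective.
-/
import Fermat.Agent.Jac.LamAnn
import Fermat.Agent.Jac.AdjoinLift

set_option autoImplicit false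
set_option linter.unusedSectionVars false

namespace Fermat.Agent.Jac

open CongruenceSubgroup ModularCurve ModularCurve.Period CuspForm Fermat.Agent.S49
open Fermat.Agent.X0.S21
open scoped MatrixGroups

variable (N : ℕ) [NeZero N]

/-- the classical transfer operators on period homomorphisms: `T_l`, `U_l` of the form -/
theorem heckeTransferClassical_periodMap_heckeFam (l : Nat.Primes) (f : CuspForm (Gamma0 N) 2) :
    heckeTransferClassical N l ℂ (periodMap N f) = periodMap N (heckeFam N l f) := by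
  unfold heckeFam
  by_cases h : (l : ℕ) ∣ N
  · rw [heckeTransferClassical_of_dvd ℂ h, dif_pos h, periodMap_heckeULin l.2 h f]
  · rw [heckeTransferClassical_of_not_dvd ℂ h, dif_neg h, periodMap_heckeTLin l.2 h f]

/-- `heckeTransfer` on the Fricke-twisted period homomorphisms -/
theorem heckeTransfer_eigenHom_heckeFam (l : Nat.Primes) (f : CuspForm (Gamma0 N) 2) :
    heckeTransfer N l ℂ (eigenHom N f) = eigenHom N (heckeFam N l f) := by
  unfold eigenHom
  rw [heckeTransfer_comp_fricke, heckeTransferClassical_periodMap_heckeFam]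

/-- the Fricke-twisted period map as a linear map -/
noncomputable def eigenHomLin : CuspForm (Gamma0 N) 2 →ₗ[ℂ] (Additive (Gamma0 N) →+ ℂ) where
  toFun := eigenHom N
  map_add' f g := by
    unfold eigenHom
    have h : periodMap N (f + g) = periodMap N f + periodMap N g := (periodMapLinear N).map_add f g
    rw [h]
    rfl
  map_smul' c f := by
    unfold eigenHom
    have h : periodMap N (c • f) = c • periodMap N f := (periodMapLinear N).map_smul c f
    rw [h]
    rfl

@[simp] theorem eigenHomLin_apply (f : CuspForm (Gamma0 N) 2) : eigenHomLin N f = eigenHom N f := rfl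

theorem eigenHom_injective : Function.Injective (eigenHom N) := by
  intro f g hfg
  by_contra hne
  have h1 : eigenHom N (f - g) ≠ 0 := eigenHom_ne_zero (sub_ne_zero.mpr hne)
  apply h1
  have h2 : eigenHomLin N (f - g) = eigenHomLin N f - eigenHomLin N g := map_sub _ f g
  rw [← eigenHomLin_apply, h2, eigenHomLin_apply, eigenHomLin_apply, hfg, sub_self]

/-- `heckeTransfer N l ℂ` as a `ℂ`-linear endomorphism -/
noncomputable def heckeTransferLin (l : Nat.Primes) : Module.End ℂ (Additive (Gamma0 N) →+ ℂ) where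
  toFun := heckeTransfer N l ℂ
  map_add' := map_add _
  map_smul' c φ := heckeTransfer_smul N l c φ

@[simp] theorem heckeTransferLin_apply (l : Nat.Primes) (φ : Additive (Gamma0 N) →+ ℂ) :
    heckeTransferLin N l φ = heckeTransfer N l ℂ φ := rfl

/-- the ambient algebra of triples -/
abbrev TripleEnd : Type :=
  Module.End ℤ (Lam N) × Module.End ℂ (Additive (Gamma0 N) →+ ℂ) ×
    Module.End ℂ (CuspForm (Gamma0 N) 2)

/-- the subalgebra of intertwining triples -/
noncomputable def intertwiners : Subalgebra ℤ (TripleEnd N) where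
  carrier := {x | (∀ lam : Lam N, x.2.1 (lamCastHom N lam) = lamCastHom N (x.1 lam)) ∧
    ∀ f : CuspForm (Gamma0 N) 2, x.2.1 (eigenHom N f) = eigenHom N (x.2.2 f)}
  mul_mem' := by
    rintro x y ⟨hx1, hx2⟩ ⟨hy1, hy2⟩
    refine ⟨fun lam => ?_, fun f => ?_⟩
    · show x.2.1 (y.2.1 (lamCastHom N lam)) = lamCastHom N (x.1 (y.1 lam))
      rw [hy1, hx1]
    · show x.2.1 (y.2.1 (eigenHom N f)) = eigenHom N (x.2.2 (y.2.2 f))
      rw [hy2, hx2]
  add_mem' := by
    rintro x y ⟨hx1, hx2⟩ ⟨hy1, hy2⟩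
    refine ⟨fun lam => ?_, fun f => ?_⟩
    · show x.2.1 (lamCastHom N lam) + y.2.1 (lamCastHom N lam) =
        lamCastHom N ((x.1 lam + y.1 lam : Lam N) : Additive (Gamma0 N) →+ ℤ)
      rw [hx1, hy1, Submodule.coe_add, map_add]
    · show x.2.1 (eigenHom N f) + y.2.1 (eigenHom N f) = eigenHom N (x.2.2 f + y.2.2 f)
      rw [hx2, hy2]
      exact ((eigenHomLin N).map_add _ _).symm
  algebraMap_mem' := by
    intro n
    rw [eq_intCast]
    refine ⟨fun lam => ?_, fun f => ?_⟩
    · show ((n : Module.End ℂ (Additive (Gamma0 N) →+ ℂ))) (lamCastHom N lam) =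
        lamCastHom N (((n : Module.End ℤ (Lam N)) lam : Lam N) : Additive (Gamma0 N) →+ ℤ)
      rw [Module.End.intCast_apply, Module.End.intCast_apply, Submodule.coe_smul, map_zsmul]
    · show ((n : Module.End ℂ (Additive (Gamma0 N) →+ ℂ))) (eigenHom N f) =
        eigenHom N ((n : Module.End ℂ (CuspForm (Gamma0 N) 2)) f)
      rw [Module.End.intCast_apply, Module.End.intCast_apply]
      exact ((eigenHomLin N).toAddMonoidHom.map_zsmul _ _).symm

theorem mem_intertwiners_iff {x : TripleEnd N} :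
    x ∈ intertwiners N ↔
      (∀ lam : Lam N, x.2.1 (lamCastHom N lam) = lamCastHom N (x.1 lam)) ∧
        ∀ f : CuspForm (Gamma0 N) 2, x.2.1 (eigenHom N f) = eigenHom N (x.2.2 f) := Iff.rfl

/-- **Key**: on intertwining triples, vanishing on the lattice forces vanishing on cusp forms. -/
theorem snd_snd_eq_zero_of_fst_eq_zero {x : TripleEnd N} (hx : x ∈ intertwiners N)
    (h : x.1 = 0) : x.2.2 = 0 := by
  obtain ⟨hx1, hx2⟩ := hx
  refine LinearMap.ext fun f => ?_
  apply eigenHom_injective N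
  rw [← hx2 f]
  obtain ⟨n, c, lam, hsum⟩ := exists_eq_sum_lamCastHom N
    ((mem_parabolicHoms_iff (R := ℂ)).mp (eigenHom_mem_parabolicHoms f))
  have h0 : eigenHom N ((0 : Module.End ℂ (CuspForm (Gamma0 N) 2)) f) = 0 :=
    (eigenHomLin N).map_zero
  rw [h0, hsum, map_sum]
  refine Finset.sum_eq_zero fun k _ => ?_
  rw [map_smul, hx1, h, LinearMap.zero_apply, Submodule.coe_zero, map_zero, smul_zero]

/-! ### The algebras away from `S` -/

variable (S : Set ℕ)

/-- the index set: primes outside `S` -/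
abbrev PrimesAway : Type := {l : Nat.Primes // (l : ℕ) ∉ S}

/-- the family of lattice Hecke operators away from `S` -/
noncomputable def TLfam (i : PrimesAway S) : Module.End ℤ (Lam N) := TLam N i.1

@[simp] theorem TLfam_apply (i : PrimesAway S) : TLfam N S i = TLam N i.1 := rfl

/-- the Hecke algebra of the lattice away from `S` -/
noncomputable def TLamAlg : Subalgebra ℤ (Module.End ℤ (Lam N)) :=
  Algebra.adjoin ℤ (Set.range (TLfam N S))

theorem TLam_mem_TLamAlg {l : Nat.Primes} (hlS : (l : ℕ) ∉ S) : TLam N l ∈ TLamAlg N S :=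
  Algebra.subset_adjoin ⟨⟨l, hlS⟩, rfl⟩

/-- the generating triples -/
noncomputable def tripleGen (l : Nat.Primes) : TripleEnd N :=
  (TLam N l, heckeTransferLin N l, heckeFam N l)

theorem tripleGen_mem_intertwiners (l : Nat.Primes) : tripleGen N l ∈ intertwiners N := by
  refine ⟨fun lam => ?_, fun f => ?_⟩
  · show heckeTransfer N l ℂ (lamCastHom N lam) = lamCastHom N (heckeTransfer N l ℤ lam)
    exact heckeTransfer_lamCastHom N l lam
  · exact heckeTransfer_eigenHom_heckeFam N l f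

theorem heckeFam_mem_heckeAlgebra {l : Nat.Primes} (hlS : (l : ℕ) ∉ S) :
    heckeFam N l ∈ heckeAlgebra N 2 S := by
  unfold heckeFam
  by_cases h : (l : ℕ) ∣ N
  · rw [dif_pos h]
    exact heckeULin_mem_heckeAlgebra l.2 h hlS
  · rw [dif_neg h]
    exact heckeTLin_mem_heckeAlgebra l.2 h hlS

/-- the family of Hecke operators on cusp forms away from `S` -/
noncomputable def heckeFamAway (i : PrimesAway S) : Module.End ℂ (CuspForm (Gamma0 N) 2) :=
  heckeFam N i.1

/-- projection of a triple to the pair (lattice, forms) -/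
noncomputable def pairProj :
    TripleEnd N →ₐ[ℤ] Module.End ℤ (Lam N) × Module.End ℂ (CuspForm (Gamma0 N) 2) :=
  AlgHom.prod (AlgHom.fst ℤ (Module.End ℤ (Lam N)) _)
    ((AlgHom.snd ℤ _ _).comp (AlgHom.snd ℤ (Module.End ℤ (Lam N)) _))

@[simp] theorem pairProj_apply (x : TripleEnd N) : pairProj N x = (x.1, x.2.2) := rfl

/-- the subalgebra of intertwined pairs -/
noncomputable def intertwinedPairs :
    Subalgebra ℤ (Module.End ℤ (Lam N) × Module.End ℂ (CuspForm (Gamma0 N) 2)) :=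
  (intertwiners N).map (pairProj N)

theorem gen_mem_intertwinedPairs (i : PrimesAway S) :
    (TLfam N S i, heckeFamAway N S i) ∈ intertwinedPairs N :=
  ⟨tripleGen N i.1, tripleGen_mem_intertwiners N i.1, rfl⟩

theorem snd_eq_zero_of_mem_intertwinedPairs
    (x : Module.End ℤ (Lam N) × Module.End ℂ (CuspForm (Gamma0 N) 2))
    (hx : x ∈ intertwinedPairs N) (h : x.1 = 0) : x.2 = 0 := by
  obtain ⟨t, ht, rfl⟩ := hx
  exact snd_snd_eq_zero_of_fst_eq_zero N ht h

theorem snd_eq_of_mem_intertwinedPairs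
    (x : Module.End ℤ (Lam N) × Module.End ℂ (CuspForm (Gamma0 N) 2))
    (hx : x ∈ intertwinedPairs N)
    (y : Module.End ℤ (Lam N) × Module.End ℂ (CuspForm (Gamma0 N) 2))
    (hy : y ∈ intertwinedPairs N) (h : x.1 = y.1) : x.2 = y.2 := by
  have h1 := snd_eq_zero_of_mem_intertwinedPairs N (x - y) (sub_mem hx hy)
    (by rw [Prod.fst_sub, h, sub_self])
  rw [Prod.snd_sub] at h1
  exact sub_eq_zero.mp h1

theorem adjoin_heckeFamAway_le :
    Algebra.adjoin ℤ (Set.range (heckeFamAway N S)) ≤ heckeAlgebra N 2 S :=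
  Algebra.adjoin_le (by rintro _ ⟨i, rfl⟩; exact heckeFam_mem_heckeAlgebra N S i.2)

/-- the comparison homomorphism onto the algebra generated by the `heckeFam N l`, `l ∉ S` -/
noncomputable def lamPsiAux :
    TLamAlg N S →ₐ[ℤ] Algebra.adjoin ℤ (Set.range (heckeFamAway N S)) :=
  AdjoinLift.lift (gen_mem_intertwinedPairs N S) (snd_eq_of_mem_intertwinedPairs N)

theorem lamPsiAux_TLfam (i : PrimesAway S) :
    lamPsiAux N S ⟨TLfam N S i, Algebra.subset_adjoin ⟨i, rfl⟩⟩ =
      ⟨heckeFamAway N S i, Algebra.subset_adjoin ⟨i, rfl⟩⟩ :=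
  AdjoinLift.lift_gen (gen_mem_intertwinedPairs N S) (snd_eq_of_mem_intertwinedPairs N) i

theorem pair_lamPsiAux_mem (x : TLamAlg N S) :
    ((x : Module.End ℤ (Lam N)),
      ((lamPsiAux N S x : Algebra.adjoin ℤ (Set.range (heckeFamAway N S))) :
        Module.End ℂ (CuspForm (Gamma0 N) 2))) ∈ intertwinedPairs N :=
  AdjoinLift.pair_lift_mem (gen_mem_intertwinedPairs N S) (snd_eq_of_mem_intertwinedPairs N) x

theorem lamPsiAux_surjective : Function.Surjective (lamPsiAux N S) :=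
  AdjoinLift.lift_surjective (gen_mem_intertwinedPairs N S) (snd_eq_of_mem_intertwinedPairs N)

/-- **(T1)(a)**, algebra homomorphism form. -/
noncomputable def lamPsiAlg : TLamAlg N S →ₐ[ℤ] heckeAlgebra N 2 S :=
  (Subalgebra.inclusion (adjoin_heckeFamAway_le N S)).comp (lamPsiAux N S)

theorem coe_lamPsiAlg (x : TLamAlg N S) :
    ((lamPsiAlg N S x : heckeAlgebra N 2 S) : Module.End ℂ (CuspForm (Gamma0 N) 2)) =
      ((lamPsiAux N S x : Algebra.adjoin ℤ (Set.range (heckeFamAway N S))) :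
          Module.End ℂ (CuspForm (Gamma0 N) 2)) := by
  unfold lamPsiAlg
  rw [AlgHom.comp_apply, Subalgebra.coe_inclusion]

theorem coe_lamPsiAlg_TLfam (i : PrimesAway S) :
    ((lamPsiAlg N S ⟨TLfam N S i, Algebra.subset_adjoin ⟨i, rfl⟩⟩ : heckeAlgebra N 2 S) :
      Module.End ℂ (CuspForm (Gamma0 N) 2)) = heckeFamAway N S i := by
  rw [coe_lamPsiAlg, lamPsiAux_TLfam]

/-- **(T1)(a)**: the comparison ring homomorphism `TLamAlg N S →+* heckeAlgebra N 2 S`. -/
noncomputable def lamPsi : TLamAlg N S →+* heckeAlgebra N 2 S := (lamPsiAlg N S).toRingHom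




theorem lamPsi_apply (x : TLamAlg N S) : lamPsi N S x = lamPsiAlg N S x := rfl

/-- `lamPsi (TLam N l) = heckeFam N l` (`= T_l` or `U_l`) -/
theorem coe_lamPsi_TLam {l : Nat.Primes} (hlS : (l : ℕ) ∉ S) :
    ((lamPsi N S ⟨TLam N l, TLam_mem_TLamAlg N S hlS⟩ : heckeAlgebra N 2 S) :
      Module.End ℂ (CuspForm (Gamma0 N) 2)) = heckeFam N l :=
  coe_lamPsiAlg_TLfam N S ⟨l, hlS⟩

/-- `lamPsi (TLam N l) = T_l` for `l ∤ N` -/
theorem lamPsi_TLam_of_not_dvd {l : Nat.Primes} (hlN : ¬ (l : ℕ) ∣ N) (hlS : (l : ℕ) ∉ S) :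
    lamPsi N S ⟨TLam N l, TLam_mem_TLamAlg N S hlS⟩ = heckeAlgebra.T l.2 hlN hlS := by
  apply Subtype.ext
  rw [coe_lamPsi_TLam N S hlS, heckeAlgebra.coe_T]
  unfold heckeFam
  rw [dif_neg hlN]

/-- `lamPsi (TLam N l) = U_l` for `l ∣ N` -/
theorem lamPsi_TLam_of_dvd {l : Nat.Primes} (hlN : (l : ℕ) ∣ N) (hlS : (l : ℕ) ∉ S) :
    lamPsi N S ⟨TLam N l, TLam_mem_TLamAlg N S hlS⟩ = heckeAlgebra.U l.2 hlN hlS := by
  apply Subtype.ext
  rw [coe_lamPsi_TLam N S hlS, heckeAlgebra.coe_U]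
  unfold heckeFam
  rw [dif_pos hlN]

/-- the defining property of `lamPsi`: `x` and `lamPsi x` are intertwined by a `ℂ`-linear
endomorphism of `Hom(Γ₀(N), ℂ)`. -/
theorem exists_intertwiner_lamPsi (x : TLamAlg N S) :
    ∃ c : Module.End ℂ (Additive (Gamma0 N) →+ ℂ),
      (∀ lam : Lam N, c (lamCastHom N lam) = lamCastHom N ((x : Module.End ℤ (Lam N)) lam)) ∧
        ∀ f : CuspForm (Gamma0 N) 2, c (eigenHom N f) =
          eigenHom N ((lamPsi N S x : Module.End ℂ (CuspForm (Gamma0 N) 2)) f) := by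
  obtain ⟨t, ht, h⟩ := pair_lamPsiAux_mem N S x
  have h1 : t.1 = (x : Module.End ℤ (Lam N)) := congrArg Prod.fst h
  have h2 : t.2.2 = (lamPsi N S x : Module.End ℂ (CuspForm (Gamma0 N) 2)) := by
    rw [lamPsi_apply, coe_lamPsiAlg]
    exact congrArg Prod.snd h
  refine ⟨t.2.1, ?_, ?_⟩
  · rw [← h1]; exact ht.1
  · rw [← h2]; exact ht.2

/-- index form: `lamPsi (TLfam N S i) = T_l` for `l = i ∤ N` -/
theorem lamPsi_TLfam_of_not_dvd (i : PrimesAway S) (hiN : ¬ ((i.1 : Nat.Primes) : ℕ) ∣ N) :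
    lamPsi N S ⟨TLfam N S i, Algebra.subset_adjoin ⟨i, rfl⟩⟩ = heckeAlgebra.T i.1.2 hiN i.2 :=
  lamPsi_TLam_of_not_dvd N S hiN i.2

/-- index form: `lamPsi (TLfam N S i) = U_l` for `l = i ∣ N` -/
theorem lamPsi_TLfam_of_dvd (i : PrimesAway S) (hiN : ((i.1 : Nat.Primes) : ℕ) ∣ N) :
    lamPsi N S ⟨TLfam N S i, Algebra.subset_adjoin ⟨i, rfl⟩⟩ = heckeAlgebra.U i.1.2 hiN i.2 :=
  lamPsi_TLam_of_dvd N S hiN i.2

theorem heckeGenerators_eq_range : heckeGenerators N 2 S = Set.range (heckeFamAway N S) := by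
  ext T
  constructor
  · rintro (⟨ℓ, hℓ, hℓN, hℓS, rfl⟩ | ⟨q, hqN, hq, hqS, rfl⟩)
    · refine ⟨⟨⟨ℓ, hℓ⟩, hℓS⟩, ?_⟩
      unfold heckeFamAway heckeFam
      rw [dif_neg hℓN]
    · refine ⟨⟨⟨q, hq⟩, hqS⟩, ?_⟩
      unfold heckeFamAway heckeFam
      rw [dif_pos hqN]
  · rintro ⟨i, rfl⟩
    unfold heckeFamAway heckeFam
    by_cases h : ((i.1 : Nat.Primes) : ℕ) ∣ N
    · rw [dif_pos h]
      exact heckeULin_mem_heckeGenerators i.1.2 h i.2
    · rw [dif_neg h]
      exact heckeTLin_mem_heckeGenerators i.1.2 h i.2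

theorem lamPsi_surjective : Function.Surjective (lamPsi N S) := by
  rintro ⟨y, hy⟩
  have hy' : y ∈ Algebra.adjoin ℤ (Set.range (heckeFamAway N S)) := by
    rw [← heckeGenerators_eq_range]
    exact hy
  obtain ⟨x, hx⟩ := lamPsiAux_surjective N S ⟨y, hy'⟩
  refine ⟨x, Subtype.ext ?_⟩
  rw [lamPsi_apply, coe_lamPsiAlg, hx]

/-! ### The lattice is a finite free `ℤ`-module -/

theorem isTorsionFree_Lam : Module.IsTorsionFree ℤ (Lam N) where
  isSMulRegular r hr x y hxy := by
    have hr0 : r ≠ 0 := hr.ne_zero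
    apply Subtype.ext
    refine AddMonoidHom.ext fun γ => ?_
    have h1 : ((r • x : Lam N) : Additive (Gamma0 N) →+ ℤ) γ =
        ((r • y : Lam N) : Additive (Gamma0 N) →+ ℤ) γ := by
      have h2 : (r • x : Lam N) = r • y := hxy
      rw [h2]
    rw [Submodule.coe_smul, Submodule.coe_smul, AddMonoidHom.smul_apply, AddMonoidHom.smul_apply,
      smul_eq_mul, smul_eq_mul] at h1
    exact mul_left_cancel₀ hr0 h1

theorem free_Lam : Module.Free ℤ (Lam N) := by
  have := finite_Lam N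
  have := isTorsionFree_Lam N
  infer_instance

end Fermat.Agent.Jac
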