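/-
Program J, node (J7b), abstract part: a positive additive map `T` on divisors which is given on
principal divisors by a function-level map `M` commuting with a semilinear automorphism `g`
commutes with `g` on `Div⁰`.
-/
import Mathlib
import Fermat.Agent.Jac.CorrComm

set_option autoImplicit false
set_option linter.style.haveILetI false

namespace Fermat.Agent.Jac

open AlgebraicCurve Fermat.Agent.Red

variable {K F : Type*} [Field K] [Field F] [Algebra K F]

/-- The action of a semilinear automorphism on divisors preserves effectivity. -/
theorem semilinearAut_smul_nonneg (g : SemilinearAut K F) {D : Divisor K F} (hD : 0 ≤ D) :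
    0 ≤ g • D := by
  intro w
  rw [SemilinearAut.divisor_smul_apply]
  exact hD _

variable [HasPrincipalDivisors K F]

/-- `g • div f = div (g • f)`. -/
theorem semilinearAut_smul_divOf (g : SemilinearAut K F) (f : F) :
    g • divOf K f = divOf K (g • f) := by
  ext w
  rw [SemilinearAut.divisor_smul_apply, divOf_apply, divOf_apply]
  have h := SemilinearAut.ord_smul g (g⁻¹ • w) f
  rw [smul_inv_smul] at h
  exact h.symm

/-- **Equivariance criterion.** -/
theorem smul_comm_of_comm_on_functions (hF : RiemannPkg K F) (g : SemilinearAut K F)
    (T : Divisor K F →+ Divisor K F) (pos : ∀ D, 0 ≤ D → 0 ≤ T D) (c : ℤ)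
    (deg : ∀ D, Divisor.degree (T D) = c * Divisor.degree D)
    (M : F → F) (hT : ∀ f, f ≠ 0 → T (divOf K f) = divOf K (M f))
    (hM : ∀ f, f ≠ 0 → divOf K (M (g • f)) = divOf K (g • M f))
    (D : Divisor K F) (hD : Divisor.degree D = 0) : T (g • D) = g • T D := by
  have hg0 : ∀ f : F, f ≠ 0 → g • f ≠ 0 := fun f hf => by
    rw [SemilinearAut.smul_def]
    exact (map_ne_zero_iff _ (SemilinearAut.toRingAut g).injective).mpr hf
  have := Fermat.Agent.Hecke.eq_of_eq_on_principal hF hF.deg_one
    (T.comp (DistribSMul.toAddMonoidHom (Divisor K F) g))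
    ((DistribSMul.toAddMonoidHom (Divisor K F) g).comp T)
    (fun D hD => pos _ (semilinearAut_smul_nonneg g hD))
    (fun D hD => semilinearAut_smul_nonneg g (pos _ hD)) c
    (fun D => by
      rw [AddMonoidHom.comp_apply, deg]
      show c * Divisor.degree (g • D) = _
      rw [SemilinearAut.degree_smul])
    (fun D => by
      rw [AddMonoidHom.comp_apply]
      show Divisor.degree (g • T D) = _
      rw [SemilinearAut.degree_smul, deg])
    (fun f hf => by
      rw [AddMonoidHom.comp_apply, AddMonoidHom.comp_apply]
      show T (g • divOf K f) = g • T (divOf K f)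
      rw [semilinearAut_smul_divOf, hT _ (hg0 f hf), hT f hf, semilinearAut_smul_divOf,
        hM f hf]) D hD
  exact this

end Fermat.Agent.Jac
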