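/-
Program J, node (J7b): the Galois action on `JZero N` commutes with the Hecke operators,
hence `SMulCommClass G_ℚ HeckeAlg (JZero N)` for the Prelude's `heckeModuleBar N`
(the second HYPOTHESIS of S37, needed PROVED for S29/S42).

Proof: both `α` and `β` commute with the coefficientwise Galois action, so the multiplicative
Hecke operator `heckeNorm` does (norms are preserved by compatible automorphisms); conclude on
`Div⁰` by the constancy lemma (`smul_comm_of_comm_on_functions`).
-/
import Mathlib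
import Fermat.Prelude.Thm_ModularCurve_coeffMap_qExpand
import Fermat.Agent.Jac.CorrGalois
import Fermat.Agent.Jac.HeckeComm

set_option autoImplicit false
set_option linter.style.haveILetI false

namespace Fermat.Agent.Jac

open AlgebraicCurve ModularCurve HahnSeries Fermat.Agent.X0 Fermat.Agent.Red Fermat.Agent.Hecke

/-- The absolute Galois group of `ℚ`. -/
abbrev GQ : Type := Kb ≃ₐ[ℚ] Kb

variable (N : ℕ) [NeZero N]

/-- The Galois action on the function field `Fb N` as a semilinear automorphism. -/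
noncomputable abbrev galAut (σ : GQ) : SemilinearAut Kb (Fb N) :=
  arithmeticGalois (modularFunctionFieldFull N) σ

omit [NeZero N] in
theorem coe_galAut_smul (σ : GQ) (y : Fb N) :
    ((galAut N σ • y : Fb N) : LaurentSeries Kb) =
      coeffMap (σ : Kb →+* Kb) (y : LaurentSeries Kb) := rfl

variable (ℓ : ℕ) [NeZero ℓ]

theorem heckeAlphaBar_galAut (σ : GQ) (y : Fb N) :
    heckeAlphaBar Kb N ℓ (galAut N σ • y) = galAut (N * ℓ) σ • heckeAlphaBar Kb N ℓ y := by
  apply Subtype.ext
  rw [coe_heckeAlphaBar, coe_galAut_smul, coe_galAut_smul, coe_heckeAlphaBar]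

omit [NeZero N] in
theorem heckeBetaBar_galAut (σ : GQ) (y : Fb N) :
    heckeBetaBar Kb N ℓ (galAut N σ • y) = galAut (N * ℓ) σ • heckeBetaBar Kb N ℓ y := by
  apply Subtype.ext
  rw [coe_heckeBetaBar, coe_galAut_smul, coe_galAut_smul, coe_heckeBetaBar, coeffMap_qExpand]

/-- Norms along `α` commute with the Galois action. -/
theorem normAlong_alpha_galAut (σ : GQ) (z : Fb (N * ℓ)) :
    normAlong (heckeAlphaBar Kb N ℓ) (galAut (N * ℓ) σ • z) =
      galAut N σ • normAlong (heckeAlphaBar Kb N ℓ) z := by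
  letI := algebraAlong (heckeAlphaBar Kb N ℓ)
  have he : RingHom.comp (algebraMap (Fb N) (Fb (N * ℓ)))
        ((SemilinearAut.toRingAut (galAut N σ) : Fb N ≃+* Fb N) : Fb N →+* Fb N) =
      RingHom.comp ((SemilinearAut.toRingAut (galAut (N * ℓ) σ) : Fb (N * ℓ) ≃+* Fb (N * ℓ)) :
        Fb (N * ℓ) →+* Fb (N * ℓ)) (algebraMap (Fb N) (Fb (N * ℓ))) := by
    exact RingHom.ext fun y => heckeAlphaBar_galAut N ℓ σ y
  have h := Algebra.norm_eq_of_equiv_equiv (SemilinearAut.toRingAut (galAut N σ))
    (SemilinearAut.toRingAut (galAut (N * ℓ) σ)) he z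
  show Algebra.norm (Fb N) (SemilinearAut.toRingAut (galAut (N * ℓ) σ) z) =
    SemilinearAut.toRingAut (galAut N σ) (Algebra.norm (Fb N) z)
  rw [h, RingEquiv.apply_symm_apply]

/-- The multiplicative Hecke operator commutes with the Galois action. -/
theorem heckeNorm_galAut (σ : GQ) (y : Fb N) :
    heckeNorm N ℓ (galAut N σ • y) = galAut N σ • heckeNorm N ℓ y := by
  rw [heckeNorm, heckeBetaBar_galAut, normAlong_alpha_galAut]
  rfl

variable {N}

/-- The Hecke correspondence commutes with the Galois action on `Div⁰`. -/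
theorem heckeDiv_galAut (ℓ : ℕ) [NeZero ℓ] (σ : GQ) (D : Divisor Kb (Fb N))
    (hD : Divisor.degree D = 0) :
    heckeDiv N ℓ (galAut N σ • D) = galAut N σ • heckeDiv N ℓ D :=
  smul_comm_of_comm_on_functions (Fermat.Agent.Val.riemannPkg_bar N) (galAut N σ) (heckeDiv N ℓ)
    (fun _ hD => heckeDiv_nonneg N ℓ hD) (finrankAlong Kb (heckeBetaBar Kb N ℓ) : ℤ)
    (degree_heckeDiv N ℓ) (heckeNorm N ℓ)
    (fun _ hf => heckeDiv_divOf N ℓ hf)
    (fun f _ => congrArg (divOf Kb) (heckeNorm_galAut N ℓ σ f)) D hD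

/-- The Hecke operators on `JZero N` commute with the Galois action. -/
theorem heckeOperatorBar_galois_smul (ℓ : Nat.Primes) (σ : GQ) (x : JZero N) :
    heckeOperatorBar N ℓ (σ • x) = σ • heckeOperatorBar N ℓ x := by
  haveI : NeZero (ℓ : ℕ) := ⟨ℓ.2.ne_zero⟩
  obtain ⟨D, rfl⟩ := Pic0.mk_surjective x
  have e1 : σ • Pic0.mk D = Pic0.mk (SemilinearAut.degZeroSMulHom (galAut N σ) D) := rfl
  rw [e1, heckeOperatorBar_mk, heckeOperatorBar_mk]
  refine Eq.trans ?_ (SemilinearAut.pic0_smul_mk (galAut N σ) _).symm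
  refine congrArg Pic0.mk (Subtype.ext ?_)
  exact heckeDiv_galAut (ℓ : ℕ) σ (D : Divisor Kb (Fb N)) (Divisor.mem_degZero.mp D.2)

/-- **(J7b)** Galois and Hecke actions on `JZero N` commute (for the Prelude's Hecke module
structure, in its non-degenerate branch). -/
theorem smulCommClass_galois_hecke (hcomm : HeckeOperatorsCommuteBar N) :
    letI := heckeModuleBar N
    SMulCommClass GQ HeckeAlg (JZero N) := by
  letI := heckeModuleBar N
  refine ⟨fun σ t x => ?_⟩
  induction t using MvPolynomial.induction_on generalizing x with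
  | C a =>
    rw [heckeModuleBar_C_smul, heckeModuleBar_C_smul]
    exact map_zsmul (DistribSMul.toAddMonoidHom (JZero N) σ) a x
  | add p q hp hq =>
    rw [add_smul, add_smul, smul_add, hp, hq]
  | mul_X p ℓ hp =>
    rw [mul_smul, mul_smul, hp]
    congr 1
    show σ • (heckeGen ℓ • x) = heckeGen ℓ • σ • x
    rw [heckeModuleBar_heckeGen_smul hcomm, heckeModuleBar_heckeGen_smul hcomm,
      heckeOperatorBar_galois_smul]

end Fermat.Agent.Jac
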