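import Mathlib

/-!
# Program J, node (J4-alg): the norm as a product over "coset embeddings" (abstract lemma)

Let `L/K` be a finite extension of fields of degree `n`, `θ : K →+* E` an embedding into a field
`E`, and `ψ i : L →+* E` (`i : ι`, `card ι = n`) ring homomorphisms extending `θ`
(not assumed pairwise distinct).  If the polynomial `∏ i, (X - ψ i w)` has coefficients in `θ K`,
then `θ (N_{L/K} w) = ∏ i, ψ i w`.

The coefficient condition is obtained by Lagrange interpolation from the weaker condition that
`∏ i, (θ c - ψ i w) ∈ θ K` for infinitely many `c : K`.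

In the application `K = ℂ(X₀(N))`, `L = ℂ(X₀(Nℓ))` (via `α`), `E` the field of meromorphic
functions on `ℍ`, `θ = thetaMer N`, `ψ i = (f ↦ f ∘ γ_i) ∘ thetaMer (N ℓ)` and `w = β y`: this gives
`∏ i, (θ y) ∘ δ_i = θ (N_α (β y))` for the coset representatives `δ_i` of the Hecke double coset,
uniformly in `ℓ` (no `q`-expansion product formula is needed).
-/

set_option autoImplicit false

namespace Fermat.Agent.Jac.NormCosets

open Polynomial IntermediateField

section Interp

variable {K E : Type*} [Field K] [Field E]

/-- **Lagrange descent**: a polynomial over `E` whose values at infinitely many points of `θ K`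
lie in `θ K` has coefficients in `θ K`. -/
theorem exists_map_eq_of_eval_mem (θ : K →+* E) (P : E[X]) (S : Set K) (hS : S.Infinite)
    (h : ∀ c ∈ S, P.eval (θ c) ∈ θ.range) : ∃ Q : K[X], Q.map θ = P := by
  classical
  obtain ⟨s, hsC, hs⟩ := hS.exists_subset_card_eq (P.natDegree + 1)
  choose! v hv using h
  refine ⟨Lagrange.interpolate s id v, ?_⟩
  have hinj : Set.InjOn (id : K → K) (s : Set K) := Function.injective_id.injOn
  have hdegQ : (Lagrange.interpolate s id v).degree < (s.card : WithBot ℕ) :=
    Lagrange.degree_interpolate_lt v hinj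
  have hcard : ((s.image θ).card : WithBot ℕ) = (s.card : WithBot ℕ) := by
    rw [Finset.card_image_of_injective s θ.injective]
  refine Polynomial.eq_of_degrees_lt_of_eval_finset_eq (s.image θ) ?_ ?_ ?_
  · rw [hcard]
    exact lt_of_le_of_lt (Polynomial.degree_map_le) hdegQ
  · rw [hcard, hs]
    refine lt_of_le_of_lt Polynomial.degree_le_natDegree ?_
    exact_mod_cast Nat.lt_succ_self _
  · intro x hx
    obtain ⟨c, hc, rfl⟩ := Finset.mem_image.mp hx
    rw [Polynomial.eval_map, Polynomial.eval₂_at_apply, ← hv c (hsC hc)]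
    congr 1
    exact Lagrange.eval_interpolate_at_node v hinj hc

end Interp

section Pow

variable {K : Type*} [Field K]

/-- A monic polynomial all of whose irreducible factors are associated to `m` is a power of the
monic polynomial `m`. -/
theorem eq_pow_of_irreducible_factors (m : K[X]) (hmm : m.Monic) :
    ∀ (n : ℕ) (Q : K[X]), Q.natDegree = n → Q.Monic →
      (∀ g : K[X], Irreducible g → g ∣ Q → Associated g m) → ∃ k : ℕ, Q = m ^ k := by
  intro n
  induction n using Nat.strong_induction_on with
  | _ n ih =>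
    intro Q hn hQ h
    by_cases hu : IsUnit Q
    · refine ⟨0, ?_⟩
      rw [pow_zero]
      exact hQ.eq_one_of_isUnit hu
    · obtain ⟨g, hg, hgQ⟩ := WfDvdMonoid.exists_irreducible_factor hu hQ.ne_zero
      have hmQ : m ∣ Q := (h g hg hgQ).symm.dvd.trans hgQ
      obtain ⟨Q', rfl⟩ := hmQ
      have hQ' : Q'.Monic := hmm.of_mul_monic_left hQ
      have hmirr : Irreducible m := (h g hg hgQ).irreducible hg
      have hmdeg : 0 < m.natDegree := Polynomial.natDegree_pos_iff_degree_pos.mpr
        (Polynomial.degree_pos_of_irreducible hmirr)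
      have hdeg : Q'.natDegree < n := by
        rw [← hn, hmm.natDegree_mul hQ']
        omega
      obtain ⟨k, hk⟩ := ih Q'.natDegree hdeg Q' rfl hQ'
        fun g' hg' hg'Q => h g' hg' (hg'Q.trans (dvd_mul_left _ _))
      exact ⟨k + 1, by rw [hk, pow_succ']⟩

end Pow

section Main

variable {K L E : Type*} [Field K] [Field L] [Field E] [Algebra K L] [FiniteDimensional K L]
variable {ι : Type*} [Fintype ι]

/-- **Norm as a product over extensions of `θ`** (polynomial form). -/
theorem map_norm_eq_prod_of_poly (θ : K →+* E) (ψ : ι → L →+* E)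
    (hψ : ∀ i, (ψ i).comp (algebraMap K L) = θ)
    (hcard : Fintype.card ι = Module.finrank K L) (w : L)
    (hP : ∃ Q : K[X], Q.map θ = ∏ i, (X - C (ψ i w))) :
    θ (Algebra.norm K w) = ∏ i, ψ i w := by
  classical
  let algE : Algebra K E := θ.toAlgebra
  have halg : algebraMap K E = θ := rfl
  obtain ⟨Q, hQ⟩ := hP
  set P : E[X] := ∏ i, (X - C (ψ i w)) with hPdef
  have hPmonic : P.Monic := Polynomial.monic_prod_of_monic _ _ fun i _ => Polynomial.monic_X_sub_C _
  have hPsplits : P.Splits := Polynomial.Splits.prod fun i _ => Polynomial.Splits.X_sub_C _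
  have hPdeg : P.natDegree = Fintype.card ι := by
    rw [hPdef, Polynomial.natDegree_prod_of_monic _ _ fun i _ => Polynomial.monic_X_sub_C _]
    simp
  have hQmonic : Q.Monic := Polynomial.monic_of_injective θ.injective (by rw [hQ]; exact hPmonic)
  have hQdeg : Q.natDegree = Fintype.card ι := by
    rw [← hPdeg, ← hQ, Polynomial.natDegree_map]
  -- the `ψ i` as `K`-algebra homomorphisms
  have hcomm : ∀ (i : ι) (c : K), ψ i (algebraMap K L c) = algebraMap K E c := fun i c =>
    congrArg (fun f : K →+* E => f c) (hψ i)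
  let ψa : ι → L →ₐ[K] E := fun i => AlgHom.mk (ψ i) (hcomm i)
  have hψa : ∀ i (x : L), ψa i x = ψ i x := fun _ _ => rfl
  have hwint : IsIntegral K w := Algebra.IsIntegral.isIntegral w
  set m := minpoly K w with hm
  have hmirr : Irreducible m := minpoly.irreducible hwint
  have hmmonic : m.Monic := minpoly.monic hwint
  have hroot_m : ∀ i, Polynomial.aeval (ψ i w) m = 0 := fun i => by
    rw [← hψa, Polynomial.aeval_algHom_apply, minpoly.aeval, map_zero]
  -- every irreducible factor of `Q` is associated to `m`
  have hfac : ∀ g : K[X], Irreducible g → g ∣ Q → Associated g m := by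
    intro g hg hgQ
    have hgP : g.map θ ∣ P := hQ ▸ Polynomial.map_dvd θ hgQ
    have hgs : (g.map θ).Splits := hPsplits.of_dvd hPmonic.ne_zero hgP
    have hgdeg : (g.map θ).degree ≠ 0 := by
      rw [Polynomial.degree_map]
      exact (Polynomial.degree_pos_of_irreducible hg).ne'
    obtain ⟨r, hr⟩ := hgs.exists_eval_eq_zero hgdeg
    have hrP : P.eval r = 0 := by
      obtain ⟨q, hq⟩ := hgP
      rw [hq, Polynomial.eval_mul, hr, zero_mul]
    rw [hPdef, Polynomial.eval_prod, Finset.prod_eq_zero_iff] at hrP
    obtain ⟨i, -, hi⟩ := hrP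
    rw [Polynomial.eval_sub, Polynomial.eval_X, Polynomial.eval_C, sub_eq_zero] at hi
    have hrg : Polynomial.aeval r g = 0 := by
      rw [Polynomial.aeval_def, halg, ← Polynomial.eval_map]
      exact hr
    have hrm : Polynomial.aeval r m = 0 := hi ▸ hroot_m i
    have hrint : IsIntegral K r := ⟨m, hmmonic, by rw [← Polynomial.aeval_def]; exact hrm⟩
    have h1 : Associated (minpoly K r) g :=
      (minpoly.irreducible hrint).associated_of_dvd hg (minpoly.dvd K r hrg)
    have h2 : Associated (minpoly K r) m :=
      (minpoly.irreducible hrint).associated_of_dvd hmirr (minpoly.dvd K r hrm)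
    exact h1.symm.trans h2
  obtain ⟨k, hk⟩ := eq_pow_of_irreducible_factors m hmmonic Q.natDegree Q rfl hQmonic hfac
  -- degrees
  have hmdeg : m.natDegree = Module.finrank K K⟮w⟯ :=
    (IntermediateField.adjoin.finrank hwint).symm
  have hkdeg : k * m.natDegree = Module.finrank K L := by
    rw [← hcard, ← hQdeg, hk, hmmonic.natDegree_pow]
  have hmpos : 0 < m.natDegree := minpoly.natDegree_pos hwint
  have hk' : k = Module.finrank K⟮w⟯ L := by
    have h3 := Module.finrank_mul_finrank K K⟮w⟯ L
    rw [← hmdeg] at h3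
    have : k * m.natDegree = Module.finrank (↥K⟮w⟯) L * m.natDegree := by
      rw [hkdeg, ← h3, mul_comm]
    exact Nat.eq_of_mul_eq_mul_right hmpos this
  have hkpos : 0 < k := by
    rcases Nat.eq_zero_or_pos k with h0 | h0
    · rw [h0, zero_mul] at hkdeg
      exact absurd hkdeg.symm (Module.finrank_pos (R := K) (M := L)).ne'
    · exact h0
  -- splitting of `m`
  have hPk : P = (m.map θ) ^ k := by rw [← hQ, hk, Polynomial.map_pow]
  have hmP : m.map θ ∣ P := by
    rw [hPk]
    exact dvd_pow_self _ hkpos.ne'
  have hms : (m.map (algebraMap K E)).Splits := hPsplits.of_dvd hPmonic.ne_zero hmP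
  have hnorm := Algebra.norm_eq_prod_roots (K := K) (L := L) E (x := w) hms
  rw [halg] at hnorm
  rw [hnorm, ← hk']
  -- roots of `P`
  have hroots : P.roots = Multiset.map (fun i => ψ i w) Finset.univ.val := by
    rw [hPdef, Polynomial.roots_prod _ _ (by
      rw [Finset.prod_ne_zero_iff]
      exact fun i _ => Polynomial.X_sub_C_ne_zero _)]
    simp [Multiset.bind_singleton]
  have hroots' : P.roots = k • (m.map θ).roots := by rw [hPk, Polynomial.roots_pow]
  have : (P.roots).prod = ∏ i, ψ i w := by
    rw [hroots]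
    rfl
  rw [← this, hroots', Multiset.prod_nsmul]
  rfl

/-- **Norm as a product over coset embeddings**.  `β : K →+* L` a second embedding; `ψ i`
extensions of `θ` along `K → L`; `S` an infinite set of "constants" on which all `ψ i ∘ β` agree
with `θ`; and `∏ i, ψ i (β y) ∈ θ K` for every `y`.  Then
`θ (N_{L/K} (β y)) = ∏ i, ψ i (β y)`. -/
theorem map_norm_eq_prod_of_cosets (θ : K →+* E) (β : K →+* L) (ψ : ι → L →+* E)
    (hψ : ∀ i, (ψ i).comp (algebraMap K L) = θ)
    (hcard : Fintype.card ι = Module.finrank K L)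
    (S : Set K) (hS : S.Infinite) (hconst : ∀ c ∈ S, ∀ i, ψ i (β c) = θ c)
    (hR : ∀ y : K, ∏ i, ψ i (β y) ∈ θ.range) (y : K) :
    θ (Algebra.norm K (β y)) = ∏ i, ψ i (β y) := by
  refine map_norm_eq_prod_of_poly θ ψ hψ hcard (β y) ?_
  refine exists_map_eq_of_eval_mem θ _ S hS fun c hc => ?_
  have : (∏ i, (X - C (ψ i (β y)))).eval (θ c) = ∏ i, ψ i (β (c - y)) := by
    rw [Polynomial.eval_prod]
    refine Finset.prod_congr rfl fun i _ => ?_
    rw [Polynomial.eval_sub, Polynomial.eval_X, Polynomial.eval_C, map_sub, map_sub,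
      hconst c hc i]
  rw [this]
  exact hR (c - y)

end Main

end Fermat.Agent.Jac.NormCosets
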