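import Mathlib
import Fermat.Agent.Jac.NormCosets
import Fermat.Agent.Jac.KappaHecke
import Fermat.Agent.ES.Generators
import Fermat.Agent.ES.ProductFormulaC

/-!
# Program J, node (J4-alg): `H_θ`, the Hecke product of `θ y` is `θ` of the norm `Nm_α (β y)`

For a coset system `D : CosetReps (embG N) ι` all of whose representatives lie in the double coset
`Γ₀(N) diag(ℓ,1) Γ₀(N)` and with `card ι = [F_{Nℓ} : α F_N]`:

`heckeProdMer D (thetaMer N y) = thetaMer N (Nm_α (β y))`   (`KH.HTheta N ℓ D`).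

Route (uniform in `ℓ`, no `q`-expansion product formula): `Jac/NormCosets.lean` with
`K = Fc N`, `L = Fc (N ℓ)` (via `α`), `E = MerH`, `θ = thetaMer N`,
`ψ i = merComp (embG N γ_i) ∘ thetaMer (N ℓ)` where `D.rep i = g_i · diag(ℓ,1) · γ_i`.
-/

set_option autoImplicit false
set_option linter.unusedSectionVars false
set_option linter.style.haveILetI false

open UpperHalfPlane ModularForm CongruenceSubgroup Matrix.SpecialLinearGroup
open AlgebraicCurve ModularCurve IntermediateField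
open scoped MatrixGroups ModularForm Manifold

noncomputable section

namespace Fermat.Agent.Jac.HTheta

open Fermat.Agent.X0 (HolH MerH)
open Fermat.Agent.Jac Fermat.Agent.Hecke.Gen
open Fermat.Agent.S23.PrimEltQExp (scaleH coe_scaleH)

/-! ### Generators -/

theorem jGen_eq_jBarD (N d : ℕ) [NeZero d] (hd : d ∣ N) :
    (Fermat.Agent.ES.jGen (L := ℂ) N d hd : DictC.Fc N) = DictC.jBarD N d hd :=
  Subtype.ext (Fermat.Agent.ES.coeffEmb_qExpand_jq (L := ℂ) d).symm

/-- Two ring homomorphisms `Fc N → E` agreeing on constants and on the `j(q^d)` are equal. -/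
theorem ringHom_ext_Fc (N : ℕ) {E : Type*} [Field E] (f g : DictC.Fc N →+* E)
    (hK : ∀ a : ℂ, f (algebraMap ℂ (DictC.Fc N) a) = g (algebraMap ℂ (DictC.Fc N) a))
    (hj : ∀ (d : ℕ) [NeZero d] (hd : d ∣ N), f (DictC.jBarD N d hd) = g (DictC.jBarD N d hd)) :
    f = g :=
  Fermat.Agent.ES.ringHom_ext_jGen (L := ℂ) N f g hK fun d _ hd => by
    rw [jGen_eq_jBarD]
    exact hj d hd

variable (N ℓ : ℕ) [NeZero N] [NeZero ℓ]

theorem heckeAlphaC_jBarD (d : ℕ) [NeZero d] (hd : d ∣ N) :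
    heckeAlphaBar ℂ N ℓ (DictC.jBarD N d hd) = DictC.jBarD (N * ℓ) d (Dvd.dvd.mul_right hd ℓ) :=
  Subtype.ext (by rw [coe_heckeAlphaBar]; rfl)

theorem heckeBetaC_jBarD (d : ℕ) [NeZero d] (hd : d ∣ N) :
    heckeBetaBar ℂ N ℓ (DictC.jBarD N d hd) =
      DictC.jBarD (N * ℓ) (d * ℓ) (Nat.mul_dvd_mul_right hd ℓ) := by
  apply Subtype.ext
  rw [coe_heckeBetaBar]
  show qExpand ℂ ℓ (coeffEmb ℂ (qExpand ℚ d jq)) = coeffEmb ℂ (qExpand ℚ (d * ℓ) jq)
  unfold coeffEmb
  rw [← ModularCurve.coeffMap_qExpand, qExpand_qExpand]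
  congr 1
  exact qExpand_congr (mul_comm ℓ d) _

/-! ### `θ` and the two degeneracy maps -/

/-- `θ_{Nℓ} ∘ α = θ_N`. -/
theorem thetaMer_alpha (x : DictC.Fc N) :
    thetaMer (N * ℓ) (heckeAlphaBar ℂ N ℓ x) = thetaMer N x := by
  have h := ringHom_ext_Fc N ((thetaMer (N * ℓ)).comp (heckeAlphaBar ℂ N ℓ).toRingHom)
    (thetaMer N) (fun a => by
      rw [RingHom.comp_apply]
      show thetaMer (N * ℓ) (heckeAlphaBar ℂ N ℓ (algebraMap ℂ (DictC.Fc N) a)) = _
      rw [AlgHom.commutes, thetaMer_algebraMap, thetaMer_algebraMap])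
    (fun d _ hd => by
      rw [RingHom.comp_apply]
      show thetaMer (N * ℓ) (heckeAlphaBar ℂ N ℓ (DictC.jBarD N d hd)) = _
      rw [heckeAlphaC_jBarD, thetaMer_jBarD, thetaMer_jBarD])
  exact congrArg (fun φ : DictC.Fc N →+* MerH => φ x) h

theorem det_heckeDiagMatrix_pos : 0 < (heckeDiagMatrix ℓ).det.val := by
  rw [Matrix.GeneralLinearGroup.val_det_apply, val_heckeDiagMatrix (NeZero.ne ℓ),
    Matrix.det_fin_two_of]
  have : (0 : ℝ) < ℓ := Nat.cast_pos.mpr (NeZero.pos ℓ)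
  simpa using this

theorem coe_heckeDiagMatrix_smul (z : ℍ) : ((heckeDiagMatrix ℓ • z : ℍ) : ℂ) = (ℓ : ℂ) * z := by
  rw [coe_smul_of_det_pos (det_heckeDiagMatrix_pos ℓ), num, denom,
    val_heckeDiagMatrix (NeZero.ne ℓ)]
  simp

theorem scaleH_heckeDiagMatrix_smul (d : ℕ) [NeZero d] (z : ℍ) :
    scaleH d (heckeDiagMatrix ℓ • z) = scaleH (d * ℓ) z := by
  apply UpperHalfPlane.ext
  rw [coe_scaleH, coe_scaleH, coe_heckeDiagMatrix_smul]
  push_cast
  ring

theorem merComp_jScaleMer (d : ℕ) [NeZero d] :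
    merComp (heckeDiagMatrix ℓ) (jScaleMer d) = jScaleMer (d * ℓ) := by
  rw [jScaleMer, merComp_algebraMap, jScaleMer]
  congr 1
  apply Subtype.ext
  funext z
  rw [coe_holComp (det_heckeDiagMatrix_pos ℓ), coe_jScaleHol, coe_jScaleHol,
    scaleH_heckeDiagMatrix_smul]

/-- `θ_{Nℓ} ∘ β = (· ∘ diag(ℓ,1)) ∘ θ_N`. -/
theorem thetaMer_beta (x : DictC.Fc N) :
    thetaMer (N * ℓ) (heckeBetaBar ℂ N ℓ x) = merComp (heckeDiagMatrix ℓ) (thetaMer N x) := by
  have h := ringHom_ext_Fc N ((thetaMer (N * ℓ)).comp (heckeBetaBar ℂ N ℓ).toRingHom)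
    ((merComp (heckeDiagMatrix ℓ)).comp (thetaMer N)) (fun a => by
      rw [RingHom.comp_apply, RingHom.comp_apply]
      show thetaMer (N * ℓ) (heckeBetaBar ℂ N ℓ (algebraMap ℂ (DictC.Fc N) a)) = _
      rw [AlgHom.commutes, thetaMer_algebraMap, thetaMer_algebraMap, merComp_constMer])
    (fun d _ hd => by
      rw [RingHom.comp_apply, RingHom.comp_apply]
      show thetaMer (N * ℓ) (heckeBetaBar ℂ N ℓ (DictC.jBarD N d hd)) = _
      rw [heckeBetaC_jBarD, thetaMer_jBarD, thetaMer_jBarD, merComp_jScaleMer])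
  exact congrArg (fun φ : DictC.Fc N →+* MerH => φ x) h

/-- `θ_N y` is invariant under composition with `γ ∈ Γ₀(N)`. -/
theorem merComp_embG_thetaMer (γ : ↥(Gamma0 N)) (y : DictC.Fc N) :
    merComp (embG N γ) (thetaMer N y) = thetaMer N y := by
  have h := subgroup_smul_thetaMer γ⁻¹ y
  rw [KH.subgroup_smul_eq_merComp, inv_inv] at h
  exact h

/-! ### The generic theorem -/

variable {N ℓ}
variable {ι : Type*} [Fintype ι]

/-- **(J4-alg), generic form.**  If every representative of the coset system `D` lies in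
`Γ₀(N) diag(ℓ,1) Γ₀(N)` and `D` has `[F_{Nℓ} : α F_N]` elements, then
`∏ i, (θ y) ∘ δ_i = θ (Nm_α (β y))`. -/
theorem heckeProdMer_thetaMer_of_decomp (D : CosetReps (embG N) ι) (hD : D.IsRatPos)
    (hdec : ∀ i, ∃ g γ : ↥(Gamma0 N), D.rep i = embG N g * heckeDiagMatrix ℓ * embG N γ)
    (hcard : Fintype.card ι = finrankAlong ℂ (heckeAlphaBar ℂ N ℓ)) (y : DictC.Fc N) :
    heckeProdMer D (thetaMer N y) = thetaMer N (normAlphaL N ℓ (heckeBetaBar ℂ N ℓ y)) := by
  classical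
  letI algF : Algebra (DictC.Fc N) (DictC.Fc (N * ℓ)) := algebraAlong (heckeAlphaBar ℂ N ℓ)
  haveI hfin : FiniteDimensional (DictC.Fc N) (DictC.Fc (N * ℓ)) :=
    Fermat.Agent.ES.Gen.finiteAlong_heckeAlphaC
  have halg : ∀ x : DictC.Fc N,
      algebraMap (DictC.Fc N) (DictC.Fc (N * ℓ)) x = heckeAlphaBar ℂ N ℓ x := fun _ => rfl
  choose g γ hgγ using hdec
  have hpos : ∀ γ' : ↥(Gamma0 N), 0 < (embG N γ').det.val := fun γ' => det_mapGL_pos _
  have hdiag := det_heckeDiagMatrix_pos ℓ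
  let ψ : ι → DictC.Fc (N * ℓ) →+* MerH := fun i =>
    (merComp (embG N (γ i))).comp (thetaMer (N * ℓ))
  have hψ : ∀ i, (ψ i).comp (algebraMap (DictC.Fc N) (DictC.Fc (N * ℓ))) = thetaMer N := by
    intro i
    ext x
    show merComp (embG N (γ i)) (thetaMer (N * ℓ) (algebraMap _ _ x)) = _
    rw [halg, thetaMer_alpha, merComp_embG_thetaMer]
  have hψβ : ∀ i (x : DictC.Fc N),
      ψ i (heckeBetaBar ℂ N ℓ x) = merComp (D.rep i) (thetaMer N x) := by
    intro i x
    show merComp (embG N (γ i)) (thetaMer (N * ℓ) (heckeBetaBar ℂ N ℓ x)) = _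
    rw [thetaMer_beta, ← merComp_mul_apply hdiag (hpos _), hgγ i, mul_assoc,
      merComp_mul_apply (hpos _) (det_mul_pos hdiag (hpos _)), merComp_embG_thetaMer]
  have hcard' : Fintype.card ι = Module.finrank (DictC.Fc N) (DictC.Fc (N * ℓ)) := hcard
  have hne : Nonempty ι := by
    rw [← Fintype.card_pos_iff, hcard']
    exact Module.finrank_pos
  have hprod : ∀ x : DictC.Fc N,
      ∏ i, ψ i ((heckeBetaBar ℂ N ℓ).toRingHom x) = heckeProdMer D (thetaMer N x) := by
    intro x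
    rw [heckeProdMer_apply]
    exact Finset.prod_congr rfl fun i _ => hψβ i x
  have hR : ∀ x : DictC.Fc N,
      ∏ i, ψ i ((heckeBetaBar ℂ N ℓ).toRingHom x) ∈ (thetaMer N).range := by
    intro x
    rw [hprod]
    by_cases hx : x = 0
    · rw [hx, map_zero, heckeProdMer_zero]
      exact ⟨0, map_zero _⟩
    · have hG0 : thetaMer N x ≠ 0 := (map_ne_zero (thetaMer N)).mpr hx
      have hinvG : ∀ γ' : ↥(Gamma0 N), merComp (embG N γ'⁻¹) (thetaMer N x) =
          constMer (((1 : ↥(Gamma0 N) →* ℂˣ) γ' : ℂˣ) : ℂ) * thetaMer N x := by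
        intro γ'
        rw [merComp_embG_thetaMer, MonoidHom.one_apply, Units.val_one, map_one, one_mul]
      obtain ⟨y', hy'⟩ := exists_thetaMer_eq_of_smul_eq (heckeProdMer_ne_zero D hG0)
        (IsCharRatio.heckeProdMer hD (isCharRatio_of_mem_autoField (thetaMer_mem_autoField x)))
        (fun γ' => by
          rw [KH.subgroup_smul_eq_merComp, merComp_inv_heckeProdMer hD 1 hinvG γ',
            transferMul_one_apply, Units.val_one, map_one, one_mul])
      exact ⟨y', hy'⟩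
  have hS : (Set.range (algebraMap ℂ (DictC.Fc N))).Infinite :=
    Set.infinite_range_of_injective (algebraMap ℂ (DictC.Fc N)).injective
  have hconst : ∀ c ∈ Set.range (algebraMap ℂ (DictC.Fc N)), ∀ i,
      ψ i ((heckeBetaBar ℂ N ℓ).toRingHom c) = thetaMer N c := by
    rintro _ ⟨a, rfl⟩ i
    show ψ i (heckeBetaBar ℂ N ℓ (algebraMap ℂ (DictC.Fc N) a)) = _
    rw [hψβ, thetaMer_algebraMap, merComp_constMer]
  have key := NormCosets.map_norm_eq_prod_of_cosets (thetaMer N)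
    (heckeBetaBar ℂ N ℓ).toRingHom ψ hψ hcard' _ hS hconst hR y
  rw [hprod] at key
  exact key.symm

end Fermat.Agent.Jac.HTheta
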