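/-
Program E, node N7-A6a (helper15): the comparison homomorphism
`lamPsi N S : TLamAlg N S →+* CuspForm.heckeAlgebra N 2 S` of `Jac/LamPsi.lean` is injective, hence
an isomorphism `lamPsiEquiv N S`.

Method.  By S21 (Eichler–Shimura) every parabolic homomorphism `Γ₀(N) → ℂ` is of the form
`(1 + ι) per(f) + (1 - ι) per(g)`, `ι` the involution induced by conjugation with `diag(1, -1)`.
`ι` commutes with the Fricke twist and with all transfer operators `heckeTransfer N l` (the
conjugated coset systems have the same cosets).  Hence the intertwiner `c` of `x ∈ TLamAlg N S` may be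
chosen commuting with `ι`; if `lamPsi x = 0` then `c` kills all `eigenHom f` and all `ι (eigenHom f)`,
hence all complexified lattice vectors, so `x = 0`.
-/
import Fermat.Agent.Jac.LamPsi
import Fermat.Agent.S21

set_option autoImplicit false
set_option linter.style.haveILetI false
set_option linter.unusedSimpArgs false
set_option linter.unnecessarySeqFocus false
set_option linter.unreachableTactic false
set_option linter.unusedTactic false
set_option linter.unusedSectionVars false

namespace Fermat.Agent.Jac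

open Matrix.SpecialLinearGroup CongruenceSubgroup ModularForm
open ModularCurve ModularCurve.Period CuspForm Fermat.Agent.S49
open Fermat.Agent.X0.S21
open scoped MatrixGroups
open P2MW.S_ModularForm_heckeT_slash_eq_self_of_mem_Gamma0.ModularForm.HeckeSlashInvariance

section JConj

/-- the matrix `diag(1, -1)` -/
noncomputable def jGL : GL (Fin 2) ℝ :=
  Matrix.GeneralLinearGroup.mkOfDetNeZero !![(1 : ℝ), 0; 0, -1] (by
    rw [Matrix.det_fin_two_of]
    norm_num)

@[simp] theorem val_jGL :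
    ((jGL : GL (Fin 2) ℝ) : Matrix (Fin 2) (Fin 2) ℝ) = !![(1 : ℝ), 0; 0, -1] := rfl

variable (N : ℕ)

/-- conjugation by `diag(1, -1)` as an automorphism of `Γ₀(N)` -/
def jEquiv : Gamma0 N ≃* Gamma0 N where
  toFun := jConjGamma0 N
  invFun := jConjGamma0 N
  left_inv := jConjGamma0_jConjGamma0 N
  right_inv := jConjGamma0_jConjGamma0 N
  map_mul' := map_mul (jConjGamma0 N)

@[simp] theorem jEquiv_apply (γ : Gamma0 N) : jEquiv N γ = jConjGamma0 N γ := rfl

@[simp] theorem jEquiv_jEquiv (γ : Gamma0 N) : jEquiv N (jEquiv N γ) = γ :=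
  jConjGamma0_jConjGamma0 N γ

theorem jEquiv_toMonoidHom : (jEquiv N).toMonoidHom = jConjGamma0 N := rfl

theorem embG_jEquiv (γ : Gamma0 N) : embG N (jEquiv N γ) = jGL * embG N γ * jGL⁻¹ := by
  rw [eq_mul_inv_iff_mul_eq, embG_apply, embG_apply]
  refine gl_ext_of_val (val_mul_fin_two (val_mapGL _) val_jGL)
    (val_mul_fin_two val_jGL (val_mapGL _)) ?_ ?_ ?_ ?_ <;>
  simp [jEquiv_apply, jConjGamma0_coe, jConjSL_coe]

end JConj

section JCosets

variable (N : ℕ) [NeZero N]

/-- for `j : ZMod q`, `j.val + (-j).val` is a multiple of `q` -/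
theorem exists_val_add_val_neg {q : ℕ} [NeZero q] (j : ZMod q) :
    ∃ t : ℤ, (j.val : ℤ) + ((-j).val : ℤ) = (q : ℤ) * t := by
  have h : (q : ℤ) ∣ (j.val : ℤ) + ((-j).val : ℤ) := by
    rw [← ZMod.intCast_zmod_eq_zero_iff_dvd]
    push_cast
    rw [ZMod.natCast_zmod_val, ZMod.natCast_zmod_val, add_neg_cancel]
  exact h

/-- the `diag(1,-1)`-conjugate of the coset system of `T_p` -/
noncomputable def TJReps {p : ℕ} (hp : p.Prime) (hpN : ¬ p ∣ N) :
    CosetReps (embG N) (OnePoint (ZMod p)) :=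
  (TReps N hp hpN).conj (jEquiv N) jGL (embG_jEquiv N)

theorem TJReps_rep {p : ℕ} (hp : p.Prime) (hpN : ¬ p ∣ N) (x : OnePoint (ZMod p)) :
    (TJReps N hp hpN).rep x = jGL * heckeRep p x * jGL⁻¹ := rfl

theorem exists_TJReps_rep_eq {p : ℕ} (hp : p.Prime) (hpN : ¬ p ∣ N) (x : OnePoint (ZMod p)) :
    ∃ (γ : Gamma0 N) (y : OnePoint (ZMod p)),
      (TJReps N hp hpN).rep x = embG N γ * (TReps N hp hpN).rep y := by
  haveI : Fact p.Prime := ⟨hp⟩
  haveI : NeZero p := ⟨hp.ne_zero⟩
  have hp0 : p ≠ 0 := hp.ne_zero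
  induction x using OnePoint.rec with
  | infty =>
    refine ⟨1, OnePoint.infty, ?_⟩
    rw [TJReps_rep, map_one, one_mul, TReps_rep, mul_inv_eq_iff_eq_mul, heckeRep_infty]
    refine gl_ext_of_val (val_mul_fin_two val_jGL (val_heckeDiagMatrix hp0))
      (val_mul_fin_two (val_heckeDiagMatrix hp0) val_jGL) ?_ ?_ ?_ ?_ <;> simp
  | coe j =>
    obtain ⟨t, ht⟩ := exists_val_add_val_neg j
    have hdet : (1 : ℤ) * 1 - (-t) * 0 = 1 := by ring
    refine ⟨⟨mkSL 1 (-t) 0 1 hdet, mkSL_mem_Gamma0 N _ _ _ _ hdet (dvd_zero _)⟩,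
      ((-j : ZMod p) : OnePoint (ZMod p)), ?_⟩
    rw [TJReps_rep, TReps_rep, mul_inv_eq_iff_eq_mul, embG_apply, heckeRep_coe, heckeRep_coe]
    have ht' : ((j.val : ℝ) + ((-j).val : ℝ)) = (p : ℝ) * (t : ℝ) := by exact_mod_cast ht
    refine gl_ext_of_val (val_mul_fin_two val_jGL (val_heckeMatrix hp0 _))
      (val_mul_fin_two (val_mul_fin_two (val_mapGL _) (val_heckeMatrix hp0 _)) val_jGL)
      ?_ ?_ ?_ ?_
    · simp only [mkSL_zero_zero, mkSL_zero_one, mkSL_one_zero, mkSL_one_one]
      push_cast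
      ring
    · simp only [mkSL_zero_zero, mkSL_zero_one, mkSL_one_zero, mkSL_one_one]
      push_cast
      linear_combination ht'
    · simp only [mkSL_zero_zero, mkSL_zero_one, mkSL_one_zero, mkSL_one_one]
      push_cast
      ring
    · simp only [mkSL_zero_zero, mkSL_zero_one, mkSL_one_zero, mkSL_one_one]
      push_cast
      ring

/-- the `diag(1,-1)`-conjugate of the coset system of `U_q^*` -/
noncomputable def UStarJReps {q : ℕ} [NeZero q] (hqN : q ∣ N) : CosetReps (embG N) (ZMod q) :=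
  (UStarReps N hqN).conj (jEquiv N) jGL (embG_jEquiv N)

theorem UStarJReps_rep {q : ℕ} [NeZero q] (hqN : q ∣ N) (j : ZMod q) :
    (UStarJReps N hqN).rep j = jGL * starMatrix N q j.val * jGL⁻¹ := by
  show jGL * (UStarReps N hqN).rep j * jGL⁻¹ = _
  rw [UStarReps_rep_eq]

theorem exists_UStarJReps_rep_eq {q : ℕ} [NeZero q] (hqN : q ∣ N) (j : ZMod q) :
    ∃ (γ : Gamma0 N) (y : ZMod q),
      (UStarJReps N hqN).rep j = embG N γ * (UStarReps N hqN).rep y := by
  obtain ⟨t, ht⟩ := exists_val_add_val_neg j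
  have hdet : (1 : ℤ) * 1 - 0 * ((N : ℤ) * t) = 1 := by ring
  refine ⟨⟨mkSL 1 0 ((N : ℤ) * t) 1 hdet, mkSL_mem_Gamma0 N _ _ _ _ hdet (dvd_mul_right _ _)⟩,
    -j, ?_⟩
  rw [UStarJReps_rep, UStarReps_rep_eq, mul_inv_eq_iff_eq_mul, embG_apply]
  have ht' : ((j.val : ℝ) + ((-j).val : ℝ)) = (q : ℝ) * (t : ℝ) := by exact_mod_cast ht
  refine gl_ext_of_val (val_mul_fin_two val_jGL (val_starMatrix N q _))
    (val_mul_fin_two (val_mul_fin_two (val_mapGL _) (val_starMatrix N q _)) val_jGL)
    ?_ ?_ ?_ ?_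
  · simp only [mkSL_zero_zero, mkSL_zero_one, mkSL_one_zero, mkSL_one_one]
    push_cast
    ring
  · simp only [mkSL_zero_zero, mkSL_zero_one, mkSL_one_zero, mkSL_one_one]
    push_cast
    ring
  · simp only [mkSL_zero_zero, mkSL_zero_one, mkSL_one_zero, mkSL_one_one]
    push_cast
    linear_combination (N : ℝ) * ht'
  · simp only [mkSL_zero_zero, mkSL_zero_one, mkSL_one_zero, mkSL_one_one]
    push_cast
    ring

variable {M : Type*} [AddCommGroup M]

theorem transfer_TJReps {p : ℕ} (hp : p.Prime) (hpN : ¬ p ∣ N) :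
    haveI : NeZero p := ⟨hp.ne_zero⟩
    ((TJReps N hp hpN).transfer : (Additive (Gamma0 N) →+ M) →+ _) =
      (TReps N hp hpN).transfer := by
  haveI : NeZero p := ⟨hp.ne_zero⟩
  choose g e h using exists_TJReps_rep_eq N hp hpN
  exact (TReps N hp hpN).transfer_eq_of_reps' (TJReps N hp hpN) e rfl g h

theorem transfer_UStarJReps {q : ℕ} [NeZero q] (hqN : q ∣ N) :
    ((UStarJReps N hqN).transfer : (Additive (Gamma0 N) →+ M) →+ _) =
      (UStarReps N hqN).transfer := by
  choose g e h using exists_UStarJReps_rep_eq N hqN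
  exact (UStarReps N hqN).transfer_eq_of_reps' (UStarJReps N hqN) e rfl g h

/-- **the transfer operators commute with the involution induced by `diag(1,-1)`** -/
theorem heckeTransfer_comp_jEquiv (l : Nat.Primes) (φ : Additive (Gamma0 N) →+ M) :
    heckeTransfer N l M (φ.comp (MonoidHom.toAdditive (jEquiv N).toMonoidHom)) =
      (heckeTransfer N l M φ).comp (MonoidHom.toAdditive (jEquiv N).toMonoidHom) := by
  haveI : NeZero (l : ℕ) := ⟨l.2.ne_zero⟩
  have key : ∀ {ι : Type} [Fintype ι] (D : CosetReps (embG N) ι),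
      (D.conj (jEquiv N) jGL (embG_jEquiv N)).transfer
          (φ.comp (MonoidHom.toAdditive (jEquiv N).toMonoidHom)) =
        (D.transfer φ).comp (MonoidHom.toAdditive (jEquiv N).toMonoidHom) := by
    intro ι _ D
    refine AddMonoidHom.ext fun γ' => ?_
    obtain ⟨γ, rfl⟩ := Additive.ofMul.surjective γ'
    have h1 := D.transfer_conj (jEquiv N) jGL (embG_jEquiv N)
      (φ.comp (MonoidHom.toAdditive (jEquiv N).toMonoidHom)) (jEquiv N γ)
    rw [jEquiv_jEquiv] at h1
    rw [h1]
    have h2 : (φ.comp (MonoidHom.toAdditive (jEquiv N).toMonoidHom)).comp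
        (MonoidHom.toAdditive (jEquiv N).toMonoidHom) = φ := by
      refine AddMonoidHom.ext fun δ' => ?_
      obtain ⟨δ, rfl⟩ := Additive.ofMul.surjective δ'
      show φ (Additive.ofMul (jEquiv N (jEquiv N δ))) = φ (Additive.ofMul δ)
      rw [jEquiv_jEquiv]
    rw [h2]
    rfl
  by_cases h : (l : ℕ) ∣ N
  · rw [heckeTransfer_of_dvd M h]
    have e : ((UStarReps N h).transfer : (Additive (Gamma0 N) →+ M) →+ _) =
        (UStarJReps N h).transfer := (transfer_UStarJReps N h).symm
    conv_lhs => rw [e]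
    exact key (UStarReps N h)
  · rw [heckeTransfer_of_not_dvd M h]
    have e : ((TReps N l.2 h).transfer : (Additive (Gamma0 N) →+ M) →+ _) =
        (TJReps N l.2 h).transfer := (transfer_TJReps N l.2 h).symm
    conv_lhs => rw [e]
    exact key (TReps N l.2 h)

/-- the same, in terms of the Prelude's `charInvolution` -/
theorem heckeTransfer_charInvolution (l : Nat.Primes) (R : Type*) [Semiring R] [Module R M]
    (φ : Additive (Gamma0 N) →+ M) :
    heckeTransfer N l M (charInvolution N R M φ) =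
      charInvolution N R M (heckeTransfer N l M φ) :=
  heckeTransfer_comp_jEquiv N l φ

end JCosets

section Main

variable (N : ℕ) [NeZero N]

/-- conjugation by `diag(1,-1)` commutes with the Fricke involution of `Γ₀(N)` -/
theorem jEquiv_frickeEquiv (γ : Gamma0 N) :
    jEquiv N (frickeEquiv N γ) = frickeEquiv N (jEquiv N γ) := by
  obtain ⟨c, hc⟩ := gamma0_dvd N γ
  have hN : (N : ℤ) ≠ 0 := by exact_mod_cast NeZero.ne N
  apply Subtype.ext
  rw [jEquiv_apply, jConjGamma0_coe, coe_frickeEquiv_apply, coe_frickeEquiv_apply]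
  apply Subtype.ext
  rw [jConjSL_coe]
  ext i j
  fin_cases i <;> fin_cases j <;>
    simp [frickeSL, jConjMat, jConjGamma0_coe, jConjSL_coe, hc,
      Int.mul_ediv_cancel_left _ hN]
  · rw [← mul_neg, Int.mul_ediv_cancel_left _ hN, neg_neg]

theorem charInvolution_comp_frickeEquiv (φ : Additive (Gamma0 N) →+ ℂ) :
    (charInvolution N ℂ ℂ φ).comp (MonoidHom.toAdditive (frickeEquiv N).toMonoidHom) =
      charInvolution N ℂ ℂ (φ.comp (MonoidHom.toAdditive (frickeEquiv N).toMonoidHom)) := by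
  refine AddMonoidHom.ext fun γ' => ?_
  obtain ⟨γ, rfl⟩ := Additive.ofMul.surjective γ'
  show φ (Additive.ofMul (jEquiv N (frickeEquiv N γ))) =
    φ (Additive.ofMul (frickeEquiv N (jEquiv N γ)))
  rw [jEquiv_frickeEquiv]

/-- **S21 in Fricke-twisted form**: every complex parabolic homomorphism is
`(1 + ι) eigenHom f + (1 - ι) eigenHom g`. -/
theorem exists_eigenHom_pair {φ : Additive (Gamma0 N) →+ ℂ}
    (hφ : φ ∈ parabolicHoms ℂ (Gamma0 N) ℂ) :
    ∃ f g : CuspForm (Gamma0 N) 2,
      φ = eigenHom N f + charInvolution N ℂ ℂ (eigenHom N f) +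
        (eigenHom N g - charInvolution N ℂ ℂ (eigenHom N g)) := by
  -- the Fricke twist of `φ` is parabolic
  set φw : Additive (Gamma0 N) →+ ℂ :=
    φ.comp (MonoidHom.toAdditive (frickeEquiv N).toMonoidHom) with hφw
  have hφw_par : φw ∈ parabolicHoms ℂ (Gamma0 N) ℂ := by
    rw [mem_parabolicHoms_iff] at hφ ⊢
    intro γ hγ
    show φ (Additive.ofMul (frickeEquiv N γ)) = 0
    refine hφ (frickeEquiv N γ) ?_
    rw [trace_frickeEquiv]
    exact hγ
  rw [← (Fermat.Agent.S21.result N).2] at hφw_par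
  obtain ⟨⟨f, g⟩, hfg⟩ := hφw_par
  refine ⟨f, g, ?_⟩
  refine AddMonoidHom.ext fun γ' => ?_
  obtain ⟨γ, rfl⟩ := Additive.ofMul.surjective γ'
  have h1 : φ (Additive.ofMul γ) = φw (Additive.ofMul (frickeEquiv N γ)) := by
    show _ = φ (Additive.ofMul (frickeEquiv N (frickeEquiv N γ)))
    rw [frickeEquiv_frickeEquiv]
  rw [h1, ← hfg, periodHomPair_apply]
  simp only [AddMonoidHom.add_apply, AddMonoidHom.sub_apply, charInvolution_apply, toMul_ofMul,
    eigenHom_apply]
  have h2 : jConjGamma0 N (frickeEquiv N γ) = frickeEquiv N (jConjGamma0 N γ) :=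
    jEquiv_frickeEquiv N γ
  rw [h2]

/-- the `ι`-commutant in the middle component -/
noncomputable def commJ : Subalgebra ℤ (TripleEnd N) where
  carrier := {x | ∀ φ : Additive (Gamma0 N) →+ ℂ,
    x.2.1 (charInvolution N ℂ ℂ φ) = charInvolution N ℂ ℂ (x.2.1 φ)}
  mul_mem' := by
    intro x y hx hy φ
    show x.2.1 (y.2.1 (charInvolution N ℂ ℂ φ)) = charInvolution N ℂ ℂ (x.2.1 (y.2.1 φ))
    rw [hy, hx]
  add_mem' := by
    intro x y hx hy φ
    show x.2.1 (charInvolution N ℂ ℂ φ) + y.2.1 (charInvolution N ℂ ℂ φ) =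
      charInvolution N ℂ ℂ (x.2.1 φ + y.2.1 φ)
    rw [hx, hy, map_add]
  algebraMap_mem' := by
    intro n φ
    rw [eq_intCast]
    show ((n : Module.End ℂ (Additive (Gamma0 N) →+ ℂ))) (charInvolution N ℂ ℂ φ) =
      charInvolution N ℂ ℂ (((n : Module.End ℂ (Additive (Gamma0 N) →+ ℂ))) φ)
    rw [Module.End.intCast_apply, Module.End.intCast_apply, map_zsmul]

theorem tripleGen_mem_commJ (l : Nat.Primes) : tripleGen N l ∈ commJ N := by
  intro φ
  show heckeTransfer N l ℂ (charInvolution N ℂ ℂ φ) = charInvolution N ℂ ℂ (heckeTransfer N l ℂ φ)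
  exact heckeTransfer_charInvolution N l ℂ φ

variable (S : Set ℕ)

/-- the generating triples away from `S` -/
noncomputable def tripleFam (i : PrimesAway S) : TripleEnd N := tripleGen N i.1

/-- every element of `TLamAlg N S` is the first component of an intertwining triple whose middle
component commutes with `ι` -/
theorem exists_intertwinerJ (x : TLamAlg N S) :
    ∃ t : TripleEnd N, t ∈ intertwiners N ∧ t ∈ commJ N ∧
      t.1 = (x : Module.End ℤ (Lam N)) := by
  have h1 : (Algebra.adjoin ℤ (Set.range (tripleFam N S))).map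
      (AlgHom.fst ℤ (Module.End ℤ (Lam N)) _) = TLamAlg N S := by
    rw [AlgHom.map_adjoin, ← Set.range_comp]
    rfl
  have hx : (x : Module.End ℤ (Lam N)) ∈ (Algebra.adjoin ℤ (Set.range (tripleFam N S))).map
      (AlgHom.fst ℤ (Module.End ℤ (Lam N)) _) := by
    rw [h1]
    exact x.2
  obtain ⟨t, ht, htx⟩ := hx
  have hle : Algebra.adjoin ℤ (Set.range (tripleFam N S)) ≤ intertwiners N ⊓ commJ N := by
    refine Algebra.adjoin_le ?_
    rintro _ ⟨i, rfl⟩
    exact ⟨tripleGen_mem_intertwiners N i.1, tripleGen_mem_commJ N i.1⟩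
  exact ⟨t, (hle ht).1, (hle ht).2, htx⟩

/-- **N7-A6a**, consumer form: an element of the lattice Hecke algebra whose image kills all cusp
forms is zero. -/
theorem eq_zero_of_lamPsi_eq_zero {x : TLamAlg N S} (hx : lamPsi N S x = 0) : x = 0 := by
  obtain ⟨t, ht, htJ, htx⟩ := exists_intertwinerJ N S x
  -- the third component of `t` is `lamPsi x = 0`
  have h22 : t.2.2 = 0 := by
    have hp1 : (t.1, t.2.2) ∈ intertwinedPairs N := ⟨t, ht, rfl⟩
    have hp2 := pair_lamPsiAux_mem N S x
    have h3 := snd_eq_of_mem_intertwinedPairs N _ hp1 _ hp2 htx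
    have h4 : ((lamPsi N S x : heckeAlgebra N 2 S) : Module.End ℂ (CuspForm (Gamma0 N) 2)) = 0 := by
      rw [hx]
      rfl
    rw [lamPsi_apply, coe_lamPsiAlg] at h4
    exact h3.trans h4
  -- hence the middle component kills all `eigenHom f` and their `ι`-conjugates
  have hk1 : ∀ f : CuspForm (Gamma0 N) 2, t.2.1 (eigenHom N f) = 0 := by
    intro f
    rw [ht.2 f, h22, LinearMap.zero_apply]
    exact (eigenHomLin N).map_zero
  have hk2 : ∀ f : CuspForm (Gamma0 N) 2, t.2.1 (charInvolution N ℂ ℂ (eigenHom N f)) = 0 := by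
    intro f
    rw [htJ, hk1 f, map_zero]
  have key : ∀ lam : Lam N, t.1 lam = 0 := by
    intro lam
    have hpar : lamCastHom N (lam : Additive (Gamma0 N) →+ ℤ) ∈
        parabolicHoms ℂ (Gamma0 N) ℂ := by
      have hl := lam.2
      rw [mem_parabolicHoms_iff] at hl ⊢
      intro γ hγ
      rw [lamCastHom_apply, hl γ hγ, Int.cast_zero]
    obtain ⟨f, g, hfg⟩ := exists_eigenHom_pair N hpar
    have h5 : lamCastHom N ((t.1 lam : Lam N) : Additive (Gamma0 N) →+ ℤ) = 0 := by
      rw [← ht.1 lam, hfg, map_add, map_add, map_sub, hk1, hk1, hk2, hk2]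
      simp
    apply Subtype.ext
    refine AddMonoidHom.ext fun γ => ?_
    have h6 := congrArg (fun ψ : Additive (Gamma0 N) →+ ℂ => ψ γ) h5
    simp only [lamCastHom_apply, AddMonoidHom.zero_apply] at h6
    have h7 : (((t.1 lam : Lam N) : Additive (Gamma0 N) →+ ℤ) γ : ℤ) = 0 := by
      exact_mod_cast h6
    exact h7
  apply Subtype.ext
  rw [← htx]
  exact LinearMap.ext key

/-- **N7-A6a**: the comparison homomorphism `lamPsi` is injective. -/
theorem lamPsi_injective : Function.Injective (lamPsi N S) := by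
  intro x y hxy
  have h : lamPsi N S (x - y) = 0 := by
    rw [RingHom.map_sub, hxy, sub_self]
  exact sub_eq_zero.mp (eq_zero_of_lamPsi_eq_zero N S h)

/-- **N7-A6a**: the Hecke algebra of the lattice `Λ` is isomorphic to the Hecke algebra of weight-2
cusp forms. -/
noncomputable def lamPsiEquiv : TLamAlg N S ≃+* heckeAlgebra N 2 S :=
  RingEquiv.ofBijective (lamPsi N S) ⟨lamPsi_injective N S, lamPsi_surjective N S⟩

@[simp] theorem lamPsiEquiv_apply (x : TLamAlg N S) : lamPsiEquiv N S x = lamPsi N S x := rfl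

theorem lamPsi_lamPsiEquiv_symm (y : heckeAlgebra N 2 S) :
    lamPsi N S ((lamPsiEquiv N S).symm y) = y :=
  (lamPsiEquiv N S).apply_symm_apply y

end Main

end Fermat.Agent.Jac
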