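/-
Program J, node (J7), part 2: `HeckeOperatorsCommuteBar N` from the product formulas.

* `ProductFormulaU N ℓ` : the `U_ℓ`-shaped product formula (`ℓ ∣ N`):
  `(Nm (β y))(q^ℓ) = ∏_{b<ℓ} y(ζ^b q)`  (helper13's `ES.ProductFormula N ℓ` is the `T_ℓ`-shape
  `(Nm (β y))(q^ℓ) = y(q^{ℓ²}) ∏_{b<ℓ} y(ζ^b q)` for `ℓ ∤ N`);
* `functionLevelComm_of_productFormula` : the product formulas for all primes give
  `FunctionLevelComm N`;
* `heckeOperatorsCommuteBar_of_productFormula` : hence `HeckeOperatorsCommuteBar N`.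
-/
import Mathlib
import Fermat.Agent.Jac.HeckeComm
import Fermat.Agent.Jac.MultHecke
import Fermat.Agent.ES.NormCongruence

set_option autoImplicit false

namespace Fermat.Agent.Jac

open AlgebraicCurve ModularCurve HahnSeries Fermat.Agent.X0 Fermat.Agent.Hecke Fermat.Agent.Igusa
  Fermat.Agent.ES

variable (N ℓ : ℕ) [NeZero N] [NeZero ℓ]

/-- The `U_ℓ`-shaped product formula: `(Nm (β y))(q^ℓ) = ∏_{b<ℓ} y(ζ^b q)` (expected for
`ℓ ∣ N`). -/
def ProductFormulaU : Prop :=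
  ∀ ζ : Kbˣ, IsPrimitiveRoot ζ ℓ → ∀ y : Fb N,
    qExpand Kb ℓ ((normAlpha N ℓ (heckeBetaBar Kb N ℓ y) : Fb N) : LaurentSeries Kb) =
      ∏ b ∈ Finset.range ℓ, scale (ζ ^ b) (y : LaurentSeries Kb)

theorem heckeNorm_eq_normAlpha (y : Fb N) :
    heckeNorm N ℓ y = normAlpha N ℓ (heckeBetaBar Kb N ℓ y) := rfl

/-- A primitive `ℓ`-th root of unity in `ℚ̄ˣ`. -/
theorem exists_primitiveRoot_unit : ∃ ζ : Kbˣ, IsPrimitiveRoot ζ ℓ := by
  obtain ⟨ζ, hζ⟩ := HasEnoughRootsOfUnity.exists_primitiveRoot Kb ℓ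
  exact ⟨(hζ.isUnit (NeZero.ne ℓ)).unit, IsPrimitiveRoot.coe_units_iff.mp (by simpa using hζ)⟩

variable {N ℓ}

theorem qExpand_heckeNorm_of_productFormula (h : ProductFormula N ℓ) (y : Fb N) :
    qExpand Kb ℓ ((heckeNorm N ℓ y : Fb N) : LaurentSeries Kb) =
      multHecke 1 ℓ (y : LaurentSeries Kb) := by
  obtain ⟨ζ, hζ⟩ := exists_primitiveRoot_unit ℓ
  rw [heckeNorm_eq_normAlpha, h ζ hζ y, multHecke, pow_one, prod_range_scale_eq_rootProd ℓ hζ]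

theorem qExpand_heckeNorm_of_productFormulaU (h : ProductFormulaU N ℓ) (y : Fb N) :
    qExpand Kb ℓ ((heckeNorm N ℓ y : Fb N) : LaurentSeries Kb) =
      multHecke 0 ℓ (y : LaurentSeries Kb) := by
  obtain ⟨ζ, hζ⟩ := exists_primitiveRoot_unit ℓ
  rw [heckeNorm_eq_normAlpha, h ζ hζ y, multHecke, pow_zero, one_mul,
    prod_range_scale_eq_rootProd ℓ hζ]

variable (N)

/-- The product formula in uniform shape for every prime. -/
def HasProductFormulas : Prop :=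
  ∀ (ℓ : ℕ) [NeZero ℓ], ℓ.Prime → ∃ ε : ℕ, ∀ y : Fb N,
    qExpand Kb ℓ ((heckeNorm N ℓ y : Fb N) : LaurentSeries Kb) =
      multHecke ε ℓ (y : LaurentSeries Kb)

theorem hasProductFormulas_of
    (hT : ∀ (ℓ : ℕ) [NeZero ℓ], ℓ.Prime → ¬ ℓ ∣ N → ProductFormula N ℓ)
    (hU : ∀ (ℓ : ℕ) [NeZero ℓ], ℓ.Prime → ℓ ∣ N → ProductFormulaU N ℓ) :
    HasProductFormulas N := by
  intro ℓ _ hℓ
  by_cases hN : ℓ ∣ N
  · exact ⟨0, qExpand_heckeNorm_of_productFormulaU (hU ℓ hℓ hN)⟩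
  · exact ⟨1, qExpand_heckeNorm_of_productFormula (hT ℓ hℓ hN)⟩

variable {N}

/-- The multiplicative Hecke operators on `Fb N` commute. -/
theorem heckeNorm_comm (h : HasProductFormulas N) (ℓ ℓ' : ℕ) [NeZero ℓ] [NeZero ℓ']
    (hℓ : ℓ.Prime) (hℓ' : ℓ'.Prime) (y : Fb N) :
    heckeNorm N ℓ (heckeNorm N ℓ' y) = heckeNorm N ℓ' (heckeNorm N ℓ y) := by
  rcases eq_or_ne ℓ ℓ' with rfl | hne
  · rfl
  · obtain ⟨ε, hε⟩ := h ℓ hℓ
    obtain ⟨ε', hε'⟩ := h ℓ' hℓ'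
    exact comm_of_productFormula ((Nat.coprime_primes hℓ hℓ').mpr hne)
      (fun z : Fb N => (z : LaurentSeries Kb)) Subtype.val_injective (heckeNorm N ℓ)
      (heckeNorm N ℓ') hε hε' y

theorem functionLevelComm_of_hasProductFormulas (h : HasProductFormulas N) :
    FunctionLevelComm N :=
  functionLevelComm_of_eq N fun ℓ ℓ' _ _ hℓ hℓ' y _ => heckeNorm_comm h ℓ ℓ' hℓ hℓ' y

/-- **(J7)** `HeckeOperatorsCommuteBar N` from the product formulas (all primes). -/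
theorem heckeOperatorsCommuteBar_of_productFormula
    (hT : ∀ (ℓ : ℕ) [NeZero ℓ], ℓ.Prime → ¬ ℓ ∣ N → ProductFormula N ℓ)
    (hU : ∀ (ℓ : ℕ) [NeZero ℓ], ℓ.Prime → ℓ ∣ N → ProductFormulaU N ℓ) :
    HeckeOperatorsCommuteBar N :=
  heckeOperatorsCommuteBar_of_functionLevelComm
    (functionLevelComm_of_hasProductFormulas (hasProductFormulas_of N hT hU))

end Fermat.Agent.Jac
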