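import Mathlib

/-!
# R3-QA: the quadratic-algebra lemma over a finite field

`κ` a finite field, `G` a group, `ρ : G →* Module.End κ W` a representation on a nonzero
finite-dimensional space, `d : G →* κˣ` a character, `t : G → κ` a function such that every `g`
satisfies `ρ g ^ 2 = t g • ρ g - d g • 1`.  Then there is a two-dimensional representation
`ρ₂ : G →* Matrix (Fin 2) (Fin 2) κ` with `trace (ρ₂ g) = t g`, `det (ρ₂ g) = d g` for all `g`,
trivial on every `g` acting trivially on `W` with `d g = 1`.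

No Burnside/density theorem, no Brauer–Nesbitt, no hypothesis on the characteristic.  The key
is the polarised Cayley–Hamilton identity
`ρ g * ρ h + ρ h * ρ g = t h • ρ g + t g • ρ h + (t (g * h) - t g * t h) • 1`
(from `(g h)^* = h^* g^*` for `g^* := d g • ρ g⁻¹ = t g - ρ g`), extended linearly to the span `B`
of `ρ G` (predicate `Tr`).  On a minimal nonzero stable subspace `U`: a non-scalar idempotent or a
nonzero nilpotent in `B` forces `dim U = 2`; otherwise `B` is a finite domain, hence commutative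
(little Wedderburn), and `B = κ + κ a`, so `dim U ≤ 2`.
-/

set_option autoImplicit false

namespace Fermat.Agent.Jac.QA

open Module

variable {κ : Type*} [Field κ] {G : Type*} [Group G] {U : Type*} [AddCommGroup U] [Module κ U]

/-- The quadratic hypothesis. -/
def IsQuad (ρ : G →* Module.End κ U) (t : G → κ) (d : G →* κˣ) : Prop :=
  ∀ g, ρ g * ρ g = t g • ρ g - ((d g : κˣ) : κ) • (1 : Module.End κ U)

variable {ρ : G →* Module.End κ U} {t : G → κ} {d : G →* κˣ}

theorem rho_mul_inv (g : G) : ρ g * ρ g⁻¹ = 1 := by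
  rw [← map_mul, mul_inv_cancel, map_one]

/-- `g^* := d g • ρ g⁻¹ = t g - ρ g`. -/
theorem IsQuad.star_eq (h : IsQuad ρ t d) (g : G) :
    ((d g : κˣ) : κ) • ρ g⁻¹ = t g • (1 : Module.End κ U) - ρ g := by
  have h1 := congrArg (· * ρ g⁻¹) (h g)
  simp only [mul_assoc, rho_mul_inv, mul_one, sub_mul, smul_mul_assoc, one_mul] at h1
  rw [h1]
  abel

/-- **The polarised Cayley–Hamilton identity** on group elements. -/
theorem IsQuad.pair (h : IsQuad ρ t d) (g g' : G) :
    ρ g * ρ g' + ρ g' * ρ g =
      t g' • ρ g + t g • ρ g' + (t (g * g') - t g * t g') • (1 : Module.End κ U) := by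
  have h1 := h.star_eq (g * g')
  have h2 : ((d (g * g') : κˣ) : κ) • ρ (g * g')⁻¹ =
      (((d g' : κˣ) : κ) • ρ g'⁻¹) * (((d g : κˣ) : κ) • ρ g⁻¹) := by
    rw [mul_inv_rev, map_mul, map_mul, smul_mul_smul_comm, Units.val_mul, mul_comm (d g : κ)]
  rw [h2, h.star_eq g, h.star_eq g', map_mul] at h1
  have h3 : (t g' • (1 : Module.End κ U) - ρ g') * (t g • (1 : Module.End κ U) - ρ g) =
      (t g' * t g) • (1 : Module.End κ U) - t g' • ρ g - t g • ρ g' + ρ g' * ρ g := by
    simp only [sub_mul, mul_sub, smul_mul_assoc, mul_smul_comm, one_mul, mul_one]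
    module
  rw [h3] at h1
  have h4 : ρ g * ρ g' = t (g * g') • (1 : Module.End κ U) -
      ((t g' * t g) • (1 : Module.End κ U) - t g' • ρ g - t g • ρ g' + ρ g' * ρ g) := by
    rw [h1]; abel
  rw [h4]
  module

/-! ### The span of `ρ G` with its trace form -/

/-- `Tr ρ t a y` : `a` is a `κ`-linear combination `∑ c_g ρ g` with `y = ∑ c_g t g`. -/
inductive Tr (ρ : G →* Module.End κ U) (t : G → κ) : Module.End κ U → κ → Prop
  | of (g : G) : Tr ρ t (ρ g) (t g)
  | add {a b : Module.End κ U} {y x : κ} : Tr ρ t a y → Tr ρ t b x → Tr ρ t (a + b) (y + x)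
  | smul (c : κ) {a : Module.End κ U} {y : κ} : Tr ρ t a y → Tr ρ t (c • a) (c * y)
  | zero : Tr ρ t 0 0

theorem Tr.one : Tr ρ t 1 (t 1) := by
  have := Tr.of (ρ := ρ) (t := t) 1
  rwa [map_one] at this

theorem Tr.neg {a : Module.End κ U} {y : κ} (h : Tr ρ t a y) : Tr ρ t (-a) (-y) := by
  have := Tr.smul (-1) h
  rwa [neg_one_smul, neg_one_mul] at this

theorem Tr.sub {a b : Module.End κ U} {y x : κ} (h : Tr ρ t a y) (h' : Tr ρ t b x) :
    Tr ρ t (a - b) (y - x) := by
  rw [sub_eq_add_neg, sub_eq_add_neg]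
  exact Tr.add h h'.neg

theorem Tr.scalar (c : κ) : Tr ρ t (c • (1 : Module.End κ U)) (c * t 1) :=
  Tr.smul c Tr.one

/-- left multiplication by `ρ g` preserves the span -/
theorem Tr.rho_mul (g : G) {a : Module.End κ U} {y : κ} (h : Tr ρ t a y) :
    ∃ y', Tr ρ t (ρ g * a) y' := by
  induction h with
  | of g' => exact ⟨t (g * g'), by rw [← map_mul]; exact Tr.of _⟩
  | add _ _ iha ihb =>
    obtain ⟨y₁, h₁⟩ := iha
    obtain ⟨y₂, h₂⟩ := ihb
    exact ⟨y₁ + y₂, by rw [mul_add]; exact Tr.add h₁ h₂⟩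
  | smul c _ ih =>
    obtain ⟨y₁, h₁⟩ := ih
    exact ⟨c * y₁, by rw [mul_smul_comm]; exact Tr.smul c h₁⟩
  | zero => exact ⟨0, by rw [mul_zero]; exact Tr.zero⟩

/-- **(L1)** the polarised identity on the span. -/
theorem IsQuad.tr_pair (h : IsQuad ρ t d) {a b : Module.End κ U} {y x : κ} (ha : Tr ρ t a y)
    (hb : Tr ρ t b x) :
    ∃ z : κ, a * b + b * a = x • a + y • b + z • (1 : Module.End κ U) := by
  induction ha generalizing b x with
  | of g =>
    induction hb with
    | of g' => exact ⟨_, h.pair g g'⟩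
    | add _ _ ih₁ ih₂ =>
      obtain ⟨z₁, h₁⟩ := ih₁
      obtain ⟨z₂, h₂⟩ := ih₂
      refine ⟨z₁ + z₂, ?_⟩
      rw [mul_add, add_mul, add_add_add_comm, h₁, h₂]
      module
    | smul c _ ih =>
      obtain ⟨z₁, h₁⟩ := ih
      refine ⟨c * z₁, ?_⟩
      rw [mul_smul_comm, smul_mul_assoc, ← smul_add, h₁]
      module
    | zero => exact ⟨0, by simp⟩
  | add _ _ ih₁ ih₂ =>
    obtain ⟨z₁, h₁⟩ := ih₁ hb
    obtain ⟨z₂, h₂⟩ := ih₂ hb
    refine ⟨z₁ + z₂, ?_⟩
    rw [add_mul, mul_add, add_add_add_comm, h₁, h₂]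
    module
  | smul c _ ih =>
    obtain ⟨z₁, h₁⟩ := ih hb
    refine ⟨c * z₁, ?_⟩
    rw [smul_mul_assoc, mul_smul_comm, ← smul_add, h₁]
    module
  | zero => exact ⟨0, by simp⟩

/-- **(L2)** every element of the span is quadratic over `κ`, with linear coefficient its trace. -/
theorem IsQuad.tr_sq (h : IsQuad ρ t d) {a : Module.End κ U} {y : κ} (ha : Tr ρ t a y) :
    ∃ ν : κ, a * a = y • a - ν • (1 : Module.End κ U) := by
  induction ha with
  | of g => exact ⟨_, h g⟩
  | @add a b y x ha hb ih₁ ih₂ =>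
    obtain ⟨ν₁, h₁⟩ := ih₁
    obtain ⟨ν₂, h₂⟩ := ih₂
    obtain ⟨z, hz⟩ := h.tr_pair ha hb
    refine ⟨ν₁ + ν₂ - z, ?_⟩
    have e : (a + b) * (a + b) = a * a + b * b + (a * b + b * a) := by
      rw [mul_add, add_mul, add_mul]; abel
    rw [e, h₁, h₂, hz]
    module
  | smul c _ ih =>
    obtain ⟨ν₁, h₁⟩ := ih
    refine ⟨c * c * ν₁, ?_⟩
    rw [smul_mul_assoc, mul_smul_comm, h₁]
    module
  | zero => exact ⟨0, by simp⟩

theorem Tr.mul {a b : Module.End κ U} {y x : κ} (ha : Tr ρ t a y) (hb : Tr ρ t b x) :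
    ∃ w, Tr ρ t (a * b) w := by
  induction ha with
  | of g => exact Tr.rho_mul g hb
  | add _ _ ih₁ ih₂ =>
    obtain ⟨w₁, h₁⟩ := ih₁
    obtain ⟨w₂, h₂⟩ := ih₂
    exact ⟨w₁ + w₂, by rw [add_mul]; exact Tr.add h₁ h₂⟩
  | smul c _ ih =>
    obtain ⟨w₁, h₁⟩ := ih
    exact ⟨c * w₁, by rw [smul_mul_assoc]; exact Tr.smul c h₁⟩
  | zero => exact ⟨0, by rw [zero_mul]; exact Tr.zero⟩

/-! ### Irreducible representations -/

/-- `G`-stable subspaces. -/
def IsStable (ρ : G →* Module.End κ U) (S : Submodule κ U) : Prop :=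
  ∀ g : G, ∀ u ∈ S, ρ g u ∈ S

/-- Irreducibility. -/
structure IsIrr (ρ : G →* Module.End κ U) : Prop where
  nontrivial : Nontrivial U
  eq_bot_or_eq_top : ∀ S : Submodule κ U, IsStable ρ S → S = ⊥ ∨ S = ⊤

/-- an endomorphism is a scalar -/
def IsScalar (a : Module.End κ U) : Prop := ∃ c : κ, a = c • (1 : Module.End κ U)

variable (ρ t) in
/-- the cyclic subspace `B u` -/
def cyclicSub (u : U) : Submodule κ U where
  carrier := {v | ∃ a y, Tr ρ t a y ∧ a u = v}
  add_mem' := by
    rintro _ _ ⟨a, y, ha, rfl⟩ ⟨b, x, hb, rfl⟩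
    exact ⟨a + b, y + x, Tr.add ha hb, rfl⟩
  zero_mem' := ⟨0, 0, Tr.zero, rfl⟩
  smul_mem' := by
    rintro c _ ⟨a, y, ha, rfl⟩
    exact ⟨c • a, c * y, Tr.smul c ha, rfl⟩

theorem isStable_cyclicSub (u : U) : IsStable ρ (cyclicSub ρ t u) := by
  rintro g _ ⟨a, y, ha, rfl⟩
  obtain ⟨y', h'⟩ := Tr.rho_mul g ha
  exact ⟨ρ g * a, y', h', rfl⟩

theorem self_mem_cyclicSub (u : U) : u ∈ cyclicSub ρ t u :=
  ⟨1, t 1, Tr.one, rfl⟩

/-- In an irreducible representation every nonzero vector is cyclic for the span of `ρ G`. -/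
theorem IsIrr.exists_apply_eq (hirr : IsIrr ρ) (t : G → κ) {u : U} (hu : u ≠ 0) (v : U) :
    ∃ a y, Tr ρ t a y ∧ a u = v := by
  rcases hirr.eq_bot_or_eq_top _ (isStable_cyclicSub (t := t) u) with h | h
  · exfalso
    have := self_mem_cyclicSub (ρ := ρ) (t := t) u
    rw [h, Submodule.mem_bot] at this
    exact hu this
  · have : v ∈ cyclicSub ρ t u := by rw [h]; exact Submodule.mem_top
    exact this

/-- two spanning vectors bound the dimension by `2` -/
theorem finrank_le_two_of_forall_mem_span {u₀ u₁ : U}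
    (h : ∀ w : U, w ∈ Submodule.span κ ({u₀, u₁} : Set U)) : Module.finrank κ U ≤ 2 := by
  classical
  have htop : (⊤ : Submodule κ U) = Submodule.span κ (({u₀, u₁} : Finset U) : Set U) := by
    rw [Finset.coe_pair]
    exact (Submodule.eq_top_iff'.mpr h).symm
  rw [← finrank_top κ U, htop]
  exact (finrank_span_finset_le_card _).trans Finset.card_le_two

theorem finrank_le_two_of_forall_mem_sup {u₀ u₁ : U}
    (h : ∀ w : U, ∃ w₀ ∈ Submodule.span κ ({u₀} : Set U), ∃ w₁ ∈ Submodule.span κ ({u₁} : Set U),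
      w = w₀ + w₁) : Module.finrank κ U ≤ 2 := by
  refine finrank_le_two_of_forall_mem_span (u₀ := u₀) (u₁ := u₁) fun w => ?_
  obtain ⟨w₀, h₀, w₁, h₁, rfl⟩ := h w
  refine Submodule.add_mem _ (Submodule.span_mono ?_ h₀) (Submodule.span_mono ?_ h₁)
  · intro x hx; rw [Set.mem_singleton_iff.mp hx]; exact Set.mem_insert _ _
  · intro x hx; rw [Set.mem_singleton_iff.mp hx]; exact Set.mem_insert_of_mem _ rfl

/-! ### Case 1: a non-scalar idempotent -/

theorem IsQuad.tr_idempotent (hq : IsQuad ρ t d) {e : Module.End κ U} {y : κ}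
    (he : Tr ρ t e y) (hee : e * e = e) (hns : ¬ IsScalar e) : y = 1 := by
  obtain ⟨ν, hν⟩ := hq.tr_sq he
  rw [hee] at hν
  by_contra hy
  have h1 : (1 - y) ≠ 0 := sub_ne_zero.mpr (Ne.symm hy)
  apply hns
  refine ⟨(1 - y)⁻¹ * (-ν), ?_⟩
  have h2 : (1 - y) • e = (-ν) • (1 : Module.End κ U) := by
    rw [sub_smul, one_smul]
    nth_rewrite 1 [hν]
    module
  rw [mul_smul, ← h2, smul_smul, inv_mul_cancel₀ h1, one_smul]

/-- `e B e = κ e`, in the form: the range of `e` is spanned by one vector. -/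
theorem IsQuad.exists_range_idempotent_le (hq : IsQuad ρ t d) (hirr : IsIrr ρ)
    {e : Module.End κ U} {y : κ} (he : Tr ρ t e y) (hee : e * e = e) (hns : ¬ IsScalar e) :
    ∃ u₀ : U, ∀ w : U, e w ∈ Submodule.span κ ({u₀} : Set U) := by
  have hy : y = 1 := hq.tr_idempotent he hee hns
  subst hy
  have he0 : e ≠ 0 := by
    rintro rfl
    exact hns ⟨0, by rw [zero_smul]⟩
  obtain ⟨u', hu'⟩ : ∃ u', e u' ≠ 0 := by
    by_contra hcon
    push Not at hcon
    exact he0 (LinearMap.ext hcon)
  refine ⟨e u', fun w => ?_⟩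
  obtain ⟨b, x, hb, hbu⟩ := hirr.exists_apply_eq t hu' w
  obtain ⟨z, hz⟩ := hq.tr_pair he hb
  -- `e b e = (x + z) e`
  have h1 : e * (e * b + b * e) * e = e * b * e + e * b * e := by
    have e1 : e * (e * b) * e = e * b * e := by rw [← mul_assoc, hee]
    have e2 : e * (b * e) * e = e * b * e := by rw [mul_assoc, mul_assoc, hee, ← mul_assoc]
    rw [mul_add, add_mul, e1, e2]
  have h2 : e * (x • e + (1 : κ) • b + z • (1 : Module.End κ U)) * e =
      (x + z) • e + e * b * e := by
    simp only [mul_add, add_mul, mul_smul_comm, smul_mul_assoc, mul_one, one_smul, hee]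
    module
  rw [hz, h2] at h1
  have h3 : e * b * e = (x + z) • e := by
    exact (add_right_cancel h1).symm
  have h4 : e w = (x + z) • e u' := by
    rw [← hbu]
    have := congrArg (fun f : Module.End κ U => f u') h3
    simpa [Module.End.mul_apply] using this
  rw [h4]
  exact Submodule.smul_mem _ _ (Submodule.mem_span_singleton_self _)

theorem IsQuad.finrank_le_two_of_idempotent (hq : IsQuad ρ t d) (hirr : IsIrr ρ)
    {e : Module.End κ U} {y : κ} (he : Tr ρ t e y) (hee : e * e = e) (hns : ¬ IsScalar e) :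
    Module.finrank κ U ≤ 2 := by
  obtain ⟨u₀, h₀⟩ := hq.exists_range_idempotent_le hirr he hee hns
  have hf : Tr ρ t (1 - e) (t 1 - y) := Tr.sub Tr.one he
  have hff : (1 - e) * (1 - e) = 1 - e := by
    rw [mul_sub, sub_mul, sub_mul, one_mul, mul_one, one_mul, hee]; abel
  have hfns : ¬ IsScalar (1 - e) := by
    rintro ⟨c, hc⟩
    apply hns
    refine ⟨1 - c, ?_⟩
    rw [sub_smul, one_smul, ← hc]; abel
  obtain ⟨u₁, h₁⟩ := hq.exists_range_idempotent_le hirr hf hff hfns
  refine finrank_le_two_of_forall_mem_sup (u₀ := u₀) (u₁ := u₁) fun w => ?_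
  refine ⟨e w, h₀ w, (1 - e) w, h₁ w, ?_⟩
  simp

/-! ### Case 2: a nonzero nilpotent -/

theorem IsQuad.tr_sq_zero (hq : IsQuad ρ t d) (hirr : IsIrr ρ) {ε : Module.End κ U} {y : κ}
    (hε : Tr ρ t ε y) (hεε : ε * ε = 0) (hε0 : ε ≠ 0) : y = 0 := by
  have := hirr.nontrivial
  obtain ⟨ν, hν⟩ := hq.tr_sq hε
  rw [hεε] at hν
  by_contra hy
  have h1 : y • ε = ν • (1 : Module.End κ U) := by
    have := hν
    rw [eq_comm, sub_eq_zero] at this
    exact this
  have h2 : ε = (y⁻¹ * ν) • (1 : Module.End κ U) := by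
    rw [mul_smul, ← h1, smul_smul, inv_mul_cancel₀ hy, one_smul]
  have h3 : ((y⁻¹ * ν) * (y⁻¹ * ν)) • (1 : Module.End κ U) = 0 := by
    have h6 : ε * ε = ((y⁻¹ * ν) • (1 : Module.End κ U)) * ((y⁻¹ * ν) • (1 : Module.End κ U)) :=
      congrArg₂ (· * ·) h2 h2
    rw [smul_mul_smul_comm, mul_one, hεε] at h6
    exact h6.symm
  have h4 : (y⁻¹ * ν) * (y⁻¹ * ν) = 0 := by
    rcases smul_eq_zero.mp h3 with h | h
    · exact h
    · exact absurd h one_ne_zero
  have h5 : y⁻¹ * ν = 0 := mul_self_eq_zero.mp h4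
  apply hε0
  rw [h2, h5, zero_smul]

theorem IsQuad.finrank_le_two_of_sq_zero (hq : IsQuad ρ t d) (hirr : IsIrr ρ)
    {ε : Module.End κ U} {y : κ} (hε : Tr ρ t ε y) (hεε : ε * ε = 0) (hε0 : ε ≠ 0) :
    Module.finrank κ U ≤ 2 := by
  have hy : y = 0 := hq.tr_sq_zero hirr hε hεε hε0
  subst hy
  obtain ⟨u', hu'⟩ : ∃ u', ε u' ≠ 0 := by
    by_contra hcon
    push Not at hcon
    exact hε0 (LinearMap.ext hcon)
  -- the key computation
  have key : ∀ w : U, ∃ z : κ, ε w = z • ε u' ∧
      (ε w = 0 → w ∈ Submodule.span κ ({ε u'} : Set U)) := by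
    have key1 : ∀ (b : Module.End κ U) (x : κ), Tr ρ t b x →
        ∃ z : κ, ε * b * ε = z • ε ∧ b * ε = x • ε + z • (1 : Module.End κ U) - ε * b := by
      intro b x hb
      obtain ⟨z, hz⟩ := hq.tr_pair hε hb
      refine ⟨z, ?_, ?_⟩
      · have h1 : ε * (ε * b + b * ε) = ε * b * ε := by
          rw [mul_add, ← mul_assoc, hεε, zero_mul, zero_add, ← mul_assoc]
        have h2 : ε * (x • ε + (0 : κ) • b + z • (1 : Module.End κ U)) = z • ε := by
          simp only [mul_add, mul_smul_comm, mul_one, hεε, zero_smul, smul_zero, zero_add,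
            add_zero]
        rw [hz, h2] at h1
        exact h1.symm
      · rw [zero_smul, add_zero] at hz
        rw [← hz]; abel
    have part1 : ∀ w : U, ∃ z : κ, ε w = z • ε u' := by
      intro w
      obtain ⟨b, x, hb, hbu⟩ := hirr.exists_apply_eq t hu' w
      obtain ⟨z, hz, -⟩ := key1 b x hb
      refine ⟨z, ?_⟩
      rw [← hbu]
      have := congrArg (fun f : Module.End κ U => f u') hz
      simpa [Module.End.mul_apply] using this
    intro w
    obtain ⟨b, x, hb, hbu⟩ := hirr.exists_apply_eq t hu' w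
    obtain ⟨z, hz, hz'⟩ := key1 b x hb
    have hw : ε w = z • ε u' := by
      rw [← hbu]
      have := congrArg (fun f : Module.End κ U => f u') hz
      simpa [Module.End.mul_apply] using this
    refine ⟨z, hw, fun h0 => ?_⟩
    have hz0 : z = 0 := by
      rw [hw] at h0
      rcases smul_eq_zero.mp h0 with h | h
      · exact h
      · exact absurd h hu'
    subst hz0
    obtain ⟨z', hz''⟩ := part1 (b u')
    have : w = x • ε u' - z' • ε u' := by
      rw [← hbu, ← hz'']
      have := congrArg (fun f : Module.End κ U => f u') hz'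
      simpa [Module.End.mul_apply] using this
    rw [this]
    exact Submodule.sub_mem _ (Submodule.smul_mem _ _ (Submodule.mem_span_singleton_self _))
      (Submodule.smul_mem _ _ (Submodule.mem_span_singleton_self _))
  refine finrank_le_two_of_forall_mem_sup (u₀ := u') (u₁ := ε u') fun w => ?_
  obtain ⟨z, hz, -⟩ := key w
  obtain ⟨-, -, hker⟩ := key (w - z • u')
  have h0 : ε (w - z • u') = 0 := by rw [map_sub, map_smul, hz, sub_self]
  refine ⟨z • u', Submodule.smul_mem _ _ (Submodule.mem_span_singleton_self _),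
    w - z • u', hker h0, ?_⟩
  abel

/-! ### Case 3: no non-scalar idempotents and no nilpotents: a finite domain -/

/-- the span of `ρ G` contains no non-scalar idempotent and no nonzero nilpotent -/
structure NoSplit (ρ : G →* Module.End κ U) (t : G → κ) : Prop where
  idem : ∀ (e : Module.End κ U) (y : κ), Tr ρ t e y → e * e = e → IsScalar e
  nilp : ∀ (ε : Module.End κ U) (y : κ), Tr ρ t ε y → ε * ε = 0 → ε = 0

theorem IsQuad.eq_zero_or_eq_zero_of_mul (hq : IsQuad ρ t d) (hirr : IsIrr ρ)
    (hns : NoSplit ρ t) {a b : Module.End κ U} {y x : κ} (ha : Tr ρ t a y) (_hb : Tr ρ t b x)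
    (hab : a * b = 0) : a = 0 ∨ b = 0 := by
  have := hirr.nontrivial
  obtain ⟨ν, hν⟩ := hq.tr_sq ha
  by_cases hν0 : ν = 0
  · subst hν0
    rw [zero_smul, sub_zero] at hν
    by_cases hy : y = 0
    · subst hy
      rw [zero_smul] at hν
      exact Or.inl (hns.nilp a 0 ha hν)
    · have hee : (y⁻¹ • a) * (y⁻¹ • a) = y⁻¹ • a := by
        rw [smul_mul_smul_comm, hν, smul_smul, mul_assoc, inv_mul_cancel₀ hy, mul_one]
      obtain ⟨c, hc⟩ := hns.idem _ _ (Tr.smul y⁻¹ ha) hee
      have ha' : a = (y * c) • (1 : Module.End κ U) := by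
        rw [mul_smul, ← hc, smul_smul, mul_inv_cancel₀ hy, one_smul]
      by_cases hc0 : c = 0
      · left
        rw [ha', hc0, mul_zero, zero_smul]
      · right
        rw [ha', smul_mul_assoc, one_mul] at hab
        rcases smul_eq_zero.mp hab with h | h
        · exact absurd h (mul_ne_zero hy hc0)
        · exact h
  · right
    have h1 : (y • (1 : Module.End κ U) - a) * a = ν • (1 : Module.End κ U) := by
      rw [sub_mul, smul_mul_assoc, one_mul, hν]; abel
    have h2 : ν • b = 0 := by
      have : ((y • (1 : Module.End κ U) - a) * a) * b = 0 := by rw [mul_assoc, hab, mul_zero]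
      rwa [h1, smul_mul_assoc, one_mul] at this
    rcases smul_eq_zero.mp h2 with h | h
    · exact absurd h hν0
    · exact h

variable (ρ t) in
/-- the span of `ρ G` as a subring of `End U` -/
def spanRing : Subring (Module.End κ U) where
  carrier := {a | ∃ y, Tr ρ t a y}
  mul_mem' := fun ⟨_, ha⟩ ⟨_, hb⟩ => Tr.mul ha hb
  one_mem' := ⟨t 1, Tr.one⟩
  add_mem' := fun ⟨y, ha⟩ ⟨x, hb⟩ => ⟨y + x, Tr.add ha hb⟩
  zero_mem' := ⟨0, Tr.zero⟩
  neg_mem' := fun ⟨y, ha⟩ => ⟨-y, ha.neg⟩

theorem mem_spanRing {a : Module.End κ U} : a ∈ spanRing ρ t ↔ ∃ y, Tr ρ t a y := Iff.rfl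

/-- **Little Wedderburn**: in case 3 the span of `ρ G` is commutative. -/
theorem IsQuad.comm_of_noSplit [Finite κ] [Module.Finite κ U] (hq : IsQuad ρ t d)
    (hirr : IsIrr ρ) (hns : NoSplit ρ t) {a b : Module.End κ U} {y x : κ} (ha : Tr ρ t a y)
    (hb : Tr ρ t b x) : a * b = b * a := by
  have := hirr.nontrivial
  have : Finite (Module.End κ U) := Module.finite_of_finite κ
  have : Nontrivial (spanRing ρ t) :=
    ⟨⟨0, 1, fun h => zero_ne_one (congrArg Subtype.val h)⟩⟩
  have : NoZeroDivisors (spanRing ρ t) := ⟨by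
    rintro ⟨a, y, ha⟩ ⟨b, x, hb⟩ hab
    have hab' : a * b = 0 := congrArg Subtype.val hab
    rcases hq.eq_zero_or_eq_zero_of_mul hirr hns ha hb hab' with h | h
    · exact Or.inl (Subtype.ext h)
    · exact Or.inr (Subtype.ext h)⟩
  have : IsDomain (spanRing ρ t) := NoZeroDivisors.to_isDomain _
  have hf := Finite.isDomain_to_isField (spanRing ρ t)
  exact congrArg Subtype.val (hf.mul_comm ⟨a, y, ha⟩ ⟨b, x, hb⟩)

/-- in case 3, the discriminant of a non-scalar element does not vanish -/
theorem disc_ne_zero_of_noSplit [Finite κ] (hirr : IsIrr ρ) (hns : NoSplit ρ t)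
    {a : Module.End κ U} {y ν : κ} (ha : Tr ρ t a y)
    (hν : a * a = y • a - ν • (1 : Module.End κ U)) (hna : ¬ IsScalar a) :
    y * y - 4 * ν ≠ 0 := by
  have := hirr.nontrivial
  intro hdisc
  by_cases h2 : (2 : κ) = 0
  · -- characteristic 2
    have h4 : (4 : κ) = 0 := by
      have : (4 : κ) = 2 * 2 := by norm_num
      rw [this, h2, mul_zero]
    have hy : y = 0 := by
      rw [h4, zero_mul, sub_zero] at hdisc
      exact mul_self_eq_zero.mp hdisc
    subst hy
    have hchar : ringChar κ = 2 :=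
      CharP.ringChar_of_prime_eq_zero Nat.prime_two (by exact_mod_cast h2)
    obtain ⟨μ, hμ⟩ := FiniteField.isSquare_of_char_two hchar ν
    have hsq : (a - μ • (1 : Module.End κ U)) * (a - μ • (1 : Module.End κ U)) = 0 := by
      have e : (a - μ • (1 : Module.End κ U)) * (a - μ • (1 : Module.End κ U)) =
          a * a - (2 * μ) • a + (μ * μ) • (1 : Module.End κ U) := by
        simp only [sub_mul, mul_sub, smul_mul_assoc, mul_smul_comm, one_mul, mul_one]
        module
      rw [e, hν, h2, ← hμ]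
      have h2' : ν + ν = 0 := by rw [← two_mul, h2, zero_mul]
      have : (0 : κ) • a - ν • (1 : Module.End κ U) - (0 * μ) • a + ν • (1 : Module.End κ U) = 0 := by
        module
      exact this
    have h0 := hns.nilp _ _ (Tr.sub ha (Tr.scalar μ)) hsq
    exact hna ⟨μ, sub_eq_zero.mp h0⟩
  · -- characteristic ≠ 2
    have h4 : (4 : κ) ≠ 0 := by
      have : (4 : κ) = 2 * 2 := by norm_num
      rw [this]
      exact mul_ne_zero h2 h2
    have hsq : (a - (y / 2) • (1 : Module.End κ U)) * (a - (y / 2) • (1 : Module.End κ U)) = 0 := by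
      have e : (a - (y / 2) • (1 : Module.End κ U)) * (a - (y / 2) • (1 : Module.End κ U)) =
          a * a - (2 * (y / 2)) • a + ((y / 2) * (y / 2)) • (1 : Module.End κ U) := by
        simp only [sub_mul, mul_sub, smul_mul_assoc, mul_smul_comm, one_mul, mul_one]
        module
      rw [e, hν, mul_div_cancel₀ y h2]
      have h5 : y / 2 * (y / 2) = ν := by
        have h6 : y * y = 4 * ν := sub_eq_zero.mp hdisc
        field_simp
        linear_combination h6
      rw [h5]
      module
    have h0 := hns.nilp _ _ (Tr.sub ha (Tr.scalar (y / 2))) hsq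
    exact hna ⟨y / 2, sub_eq_zero.mp h0⟩

theorem IsQuad.finrank_le_two_of_noSplit [Finite κ] [Module.Finite κ U] (hq : IsQuad ρ t d)
    (hirr : IsIrr ρ) (hns : NoSplit ρ t) : Module.finrank κ U ≤ 2 := by
  have := hirr.nontrivial
  obtain ⟨u, hu⟩ := exists_ne (0 : U)
  by_cases hall : ∀ (a : Module.End κ U) (y : κ), Tr ρ t a y → IsScalar a
  · refine finrank_le_two_of_forall_mem_sup (u₀ := u) (u₁ := 0) fun w => ?_
    obtain ⟨a, y, ha, hau⟩ := hirr.exists_apply_eq t hu w
    obtain ⟨c, hc⟩ := hall a y ha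
    refine ⟨c • u, Submodule.smul_mem _ _ (Submodule.mem_span_singleton_self _), 0,
      Submodule.zero_mem _, ?_⟩
    rw [add_zero, ← hau, hc]
    rfl
  · push Not at hall
    obtain ⟨a, y, ha, hna⟩ := hall
    obtain ⟨ν, hν⟩ := hq.tr_sq ha
    have hD := disc_ne_zero_of_noSplit hirr hns ha hν hna
    set D : κ := y * y - 4 * ν with hDdef
    -- `c = 2 a - y ≠ 0`
    have hc : Tr ρ t ((2 : κ) • a - y • (1 : Module.End κ U)) (2 * y - y * t 1) :=
      Tr.sub (Tr.smul 2 ha) (Tr.scalar y)
    have hc0 : (2 : κ) • a - y • (1 : Module.End κ U) ≠ 0 := by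
      intro h0
      by_cases h2 : (2 : κ) = 0
      · rw [h2, zero_smul, zero_sub, neg_eq_zero] at h0
        have hy : y = 0 := by
          rcases smul_eq_zero.mp h0 with h | h
          · exact h
          · exact absurd h one_ne_zero
        apply hD
        have h4 : (4 : κ) = 0 := by
          have : (4 : κ) = 2 * 2 := by norm_num
          rw [this, h2, mul_zero]
        rw [hDdef, hy, h4]; ring
      · apply hna
        refine ⟨y / 2, ?_⟩
        have h1 : (2 : κ) • a = y • (1 : Module.End κ U) := sub_eq_zero.mp h0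
        have h3 : a = (2 : κ)⁻¹ • ((2 : κ) • a) := by
          rw [smul_smul, inv_mul_cancel₀ h2, one_smul]
        rw [h3, h1, smul_smul, div_eq_inv_mul]
    -- every element of the span is `p + q a`
    have hspan : ∀ (b : Module.End κ U) (x : κ), Tr ρ t b x →
        ∃ p q : κ, b = p • (1 : Module.End κ U) + q • a := by
      intro b x hb
      obtain ⟨z, hz⟩ := hq.tr_pair ha hb
      rw [← hq.comm_of_noSplit hirr hns ha hb] at hz
      set p : κ := (x * (-2 * ν) - y * z) / D with hp
      set q : κ := (2 * z + x * y) / D with hq'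
      have e1 : 2 * p + q * y = x := by
        rw [hp, hq']; field_simp; rw [hDdef]; ring
      have e2 : y * p + 2 * q * ν = -z := by
        rw [hp, hq']; field_simp; rw [hDdef]; ring
      refine ⟨p, q, ?_⟩
      have hcb : ((2 : κ) • a - y • (1 : Module.End κ U)) * b =
          x • a + z • (1 : Module.End κ U) := by
        have : ((2 : κ) • a - y • (1 : Module.End κ U)) * b = (a * b + a * b) - y • b := by
          rw [sub_mul, smul_mul_assoc, smul_mul_assoc, one_mul, two_smul]
        rw [this, hz]; abel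
      have hcpq : ((2 : κ) • a - y • (1 : Module.End κ U)) * (p • (1 : Module.End κ U) + q • a) =
          x • a + z • (1 : Module.End κ U) := by
        have : ((2 : κ) • a - y • (1 : Module.End κ U)) * (p • (1 : Module.End κ U) + q • a) =
            (2 * p - y * q) • a + (2 * q) • (a * a) - (y * p) • (1 : Module.End κ U) := by
          simp only [sub_mul, mul_add, smul_mul_assoc, mul_smul_comm, one_mul, mul_one]
          module
        rw [this, hν, ← e1]
        have e3 : z = -(y * p + 2 * q * ν) := by rw [e2, neg_neg]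
        rw [e3]
        module
      have hzero : ((2 : κ) • a - y • (1 : Module.End κ U)) *
          (b - (p • (1 : Module.End κ U) + q • a)) = 0 := by
        rw [mul_sub, hcb, hcpq, sub_self]
      have hbpq : Tr ρ t (b - (p • (1 : Module.End κ U) + q • a)) (x - (p * t 1 + q * y)) :=
        Tr.sub hb (Tr.add (Tr.scalar p) (Tr.smul q ha))
      rcases hq.eq_zero_or_eq_zero_of_mul hirr hns hc hbpq hzero with h | h
      · exact absurd h hc0
      · exact sub_eq_zero.mp h
    refine finrank_le_two_of_forall_mem_sup (u₀ := u) (u₁ := a u) fun w => ?_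
    obtain ⟨b, x, hb, hbu⟩ := hirr.exists_apply_eq t hu w
    obtain ⟨p, q, hpq⟩ := hspan b x hb
    refine ⟨p • u, Submodule.smul_mem _ _ (Submodule.mem_span_singleton_self _), q • a u,
      Submodule.smul_mem _ _ (Submodule.mem_span_singleton_self _), ?_⟩
    rw [← hbu, hpq]
    rfl

/-- **The quadratic-algebra lemma, dimension bound**: an irreducible representation over a finite
field all of whose elements are quadratic (with a multiplicative constant term) has dimension
at most `2`. -/
theorem IsQuad.finrank_le_two [Finite κ] [Module.Finite κ U] (hq : IsQuad ρ t d)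
    (hirr : IsIrr ρ) : Module.finrank κ U ≤ 2 := by
  by_cases h1 : ∃ (e : Module.End κ U) (y : κ), Tr ρ t e y ∧ e * e = e ∧ ¬ IsScalar e
  · obtain ⟨e, y, he, hee, hns⟩ := h1
    exact hq.finrank_le_two_of_idempotent hirr he hee hns
  by_cases h2 : ∃ (ε : Module.End κ U) (y : κ), Tr ρ t ε y ∧ ε * ε = 0 ∧ ε ≠ 0
  · obtain ⟨ε, y, hε, hεε, hε0⟩ := h2
    exact hq.finrank_le_two_of_sq_zero hirr hε hεε hε0
  push Not at h1 h2
  exact hq.finrank_le_two_of_noSplit hirr ⟨h1, h2⟩

/-! ### Trace and determinant in dimension two -/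

/-- Cayley–Hamilton in rank two. -/
theorem sq_eq_trace_det (h2 : Module.finrank κ U = 2) (f : Module.End κ U) :
    f * f = LinearMap.trace κ U f • f - LinearMap.det f • (1 : Module.End κ U) := by
  have : Module.Finite κ U := Module.finite_of_finrank_pos (by rw [h2]; norm_num)
  have hch : f.charpoly =
      Polynomial.X ^ 2 - Polynomial.C (LinearMap.trace κ U f) * Polynomial.X +
        Polynomial.C (LinearMap.det f) := by
    let b := Module.finBasisOfFinrankEq κ U h2
    rw [← LinearMap.charpoly_toMatrix f b, Matrix.charpoly_fin_two,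
      ← LinearMap.trace_eq_matrix_trace κ b f, LinearMap.det_toMatrix b f]
  have h := LinearMap.aeval_self_charpoly f
  rw [hch] at h
  simp only [map_add, map_sub, map_mul, map_pow, Polynomial.aeval_X, Polynomial.aeval_C,
    Module.algebraMap_end_eq_smul_id] at h
  change f ^ 2 - (LinearMap.trace κ U f • (1 : Module.End κ U)) * f +
    LinearMap.det f • (1 : Module.End κ U) = 0 at h
  rw [smul_mul_assoc, one_mul, sq] at h
  exact eq_of_sub_eq_zero (by rw [← h]; abel)

theorem IsQuad.trace_det_of_finrank_two (hq : IsQuad ρ t d) (hirr : IsIrr ρ)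
    (h2 : Module.finrank κ U = 2) (g : G) :
    LinearMap.trace κ U (ρ g) = t g ∧ LinearMap.det (ρ g) = ((d g : κˣ) : κ) := by
  have := hirr.nontrivial
  have hfin : Module.Finite κ U := Module.finite_of_finrank_pos (by rw [h2]; norm_num)
  have hCH := sq_eq_trace_det h2 (ρ g)
  have hQ := hq g
  by_cases hs : IsScalar (ρ g)
  · obtain ⟨c, hc⟩ := hs
    -- there is a non-scalar element
    obtain ⟨u, hu⟩ := exists_ne (0 : U)
    have hex : ∃ (b : Module.End κ U) (x : κ), Tr ρ t b x ∧ ¬ IsScalar b := by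
      by_contra hcon
      push Not at hcon
      have hle : Module.finrank κ U ≤ 1 := by
        have htop : (⊤ : Submodule κ U) = Submodule.span κ ({u} : Set U) := by
          symm
          rw [Submodule.eq_top_iff']
          intro w
          obtain ⟨a, y, ha, hau⟩ := hirr.exists_apply_eq t hu w
          obtain ⟨c', hc'⟩ := hcon a y ha
          rw [← hau, hc']
          exact Submodule.smul_mem _ _ (Submodule.mem_span_singleton_self _)
        rw [← finrank_top κ U, htop]
        exact (finrank_span_le_card ({u} : Set U)).trans (by simp)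
      omega
    obtain ⟨b, x, hb, hbns⟩ := hex
    obtain ⟨z, hz⟩ := hq.tr_pair (Tr.of g) hb
    have h2c : 2 * c = t g := by
      by_contra hne
      apply hbns
      rw [hc, smul_mul_assoc, one_mul, mul_smul_comm, mul_one] at hz
      have h5 : (2 * c - t g) • b = (x * c + z) • (1 : Module.End κ U) := by
        have : c • b + c • b = x • c • (1 : Module.End κ U) + t g • b + z • 1 := hz
        have h6 : (2 * c - t g) • b = (c • b + c • b) - t g • b := by module
        rw [h6, this]; module
      refine ⟨(2 * c - t g)⁻¹ * (x * c + z), ?_⟩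
      rw [mul_smul, ← h5, smul_smul, inv_mul_cancel₀ (sub_ne_zero.mpr hne), one_smul]
    have hcc : c * c = ((d g : κˣ) : κ) := by
      rw [hc, smul_mul_smul_comm, mul_one, smul_smul] at hQ
      have h7 : (c * c) • (1 : Module.End κ U) = (t g * c - ((d g : κˣ) : κ)) • 1 := by
        rw [hQ]; module
      have h8 : (c * c - (t g * c - ((d g : κˣ) : κ))) • (1 : Module.End κ U) = 0 := by
        rw [sub_smul, h7, sub_self]
      rcases smul_eq_zero.mp h8 with h | h
      · rw [← h2c] at h
        linear_combination -h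
      · exact absurd h one_ne_zero
    constructor
    · rw [hc, map_smul, LinearMap.trace_one, h2, ← h2c]
      simp [mul_comm]
    · rw [hc, LinearMap.det_smul, h2, map_one, mul_one, sq, hcc]
  · -- non-scalar: compare the two quadratic relations
    rw [hQ] at hCH
    have h3 : (LinearMap.trace κ U (ρ g) - t g) • ρ g =
        (LinearMap.det (ρ g) - ((d g : κˣ) : κ)) • (1 : Module.End κ U) := by
      have : t g • ρ g - ((d g : κˣ) : κ) • (1 : Module.End κ U) =
        LinearMap.trace κ U (ρ g) • ρ g - LinearMap.det (ρ g) • (1 : Module.End κ U) := hCH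
      rw [sub_eq_sub_iff_add_eq_add] at this
      rw [sub_smul, sub_smul, sub_eq_sub_iff_add_eq_add, ← this, add_comm]
    have htr : LinearMap.trace κ U (ρ g) = t g := by
      by_contra hne
      apply hs
      refine ⟨(LinearMap.trace κ U (ρ g) - t g)⁻¹ * (LinearMap.det (ρ g) - ((d g : κˣ) : κ)), ?_⟩
      rw [mul_smul, ← h3, smul_smul, inv_mul_cancel₀ (sub_ne_zero.mpr hne), one_smul]
    refine ⟨htr, ?_⟩
    rw [htr, sub_self, zero_smul] at h3
    rcases smul_eq_zero.mp h3.symm with h | h
    · exact sub_eq_zero.mp h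
    · exact absurd h one_ne_zero

/-! ### Minimal stable subspaces and restriction -/

section Restrict

variable {W : Type*} [AddCommGroup W] [Module κ W]

/-- the restriction of a representation to a stable subspace -/
def restrictRep (ρ : G →* Module.End κ W) (S : Submodule κ W) (hS : IsStable ρ S) :
    G →* Module.End κ S where
  toFun g := (ρ g).restrict (hS g)
  map_one' := by
    ext u
    simp
  map_mul' g h := by
    ext u
    simp [LinearMap.restrict_apply]

@[simp] theorem coe_restrictRep_apply (ρ : G →* Module.End κ W) (S : Submodule κ W)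
    (hS : IsStable ρ S) (g : G) (u : S) : ((restrictRep ρ S hS g u : S) : W) = ρ g (u : W) := rfl

theorem IsQuad.restrictRep {ρ : G →* Module.End κ W} (hq : IsQuad ρ t d) (S : Submodule κ W)
    (hS : IsStable ρ S) : IsQuad (restrictRep ρ S hS) t d := by
  intro g
  ext u
  have := LinearMap.congr_fun (hq g) (u : W)
  simpa using this

theorem exists_minimal_stable [Module.Finite κ W] [Nontrivial W] (ρ : G →* Module.End κ W) :
    ∃ S : Submodule κ W, S ≠ ⊥ ∧ IsStable ρ S ∧
      ∀ S' : Submodule κ W, S' ≤ S → IsStable ρ S' → S' = ⊥ ∨ S' = S := by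
  classical
  have hex : ∃ n, ∃ S : Submodule κ W, S ≠ ⊥ ∧ IsStable ρ S ∧ Module.finrank κ S = n :=
    ⟨_, ⊤, top_ne_bot, fun _ _ _ => Submodule.mem_top, rfl⟩
  obtain ⟨S, hS0, hSst, hSn⟩ := Nat.find_spec hex
  refine ⟨S, hS0, hSst, fun S' hle hst => ?_⟩
  by_cases h0 : S' = ⊥
  · exact Or.inl h0
  · right
    have h1 : Nat.find hex ≤ Module.finrank κ S' := Nat.find_min' hex ⟨S', h0, hst, rfl⟩
    have h2 : Module.finrank κ S' ≤ Module.finrank κ S := Submodule.finrank_mono hle
    exact Submodule.eq_of_le_of_finrank_eq hle (by omega)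

theorem isIrr_restrictRep {ρ : G →* Module.End κ W} {S : Submodule κ W} (hS0 : S ≠ ⊥)
    (hS : IsStable ρ S)
    (hmin : ∀ S' : Submodule κ W, S' ≤ S → IsStable ρ S' → S' = ⊥ ∨ S' = S) :
    IsIrr (restrictRep ρ S hS) where
  nontrivial := (Submodule.nontrivial_iff_ne_bot).mpr hS0
  eq_bot_or_eq_top := by
    intro S' hS'
    have hst : IsStable ρ (S'.map S.subtype) := by
      rintro g _ ⟨u, hu, rfl⟩
      exact ⟨restrictRep ρ S hS g u, hS' g u hu, rfl⟩
    rcases hmin _ (Submodule.map_subtype_le S S') hst with h | h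
    · left
      apply Submodule.map_injective_of_injective S.subtype_injective
      rw [h, Submodule.map_bot]
    · right
      apply Submodule.map_injective_of_injective S.subtype_injective
      rw [h, Submodule.map_subtype_top]

end Restrict

/-! ### Dimension one -/

theorem eq_det_smul_one_of_finrank_one (h1 : Module.finrank κ U = 1) (f : Module.End κ U) :
    f = LinearMap.det f • (1 : Module.End κ U) := by
  have : Module.Finite κ U := Module.finite_of_finrank_pos (by rw [h1]; norm_num)
  let b := Module.finBasisOfFinrankEq κ U h1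
  have hdet : LinearMap.det f = LinearMap.toMatrix b b f 0 0 := by
    rw [← LinearMap.det_toMatrix b f, Matrix.det_unique]
    rfl
  apply b.ext
  intro i
  have hi : i = 0 := Subsingleton.elim _ _
  subst hi
  have h2 : f (b 0) = ∑ j, LinearMap.toMatrix b b f j 0 • b j := by
    simp only [LinearMap.toMatrix_apply]
    exact (b.sum_repr (f (b 0))).symm
  rw [h2, Fin.sum_univ_one, hdet]
  rfl

/-! ### The main theorem -/

/-- **Quadratic-algebra lemma over a finite field.**  A nonzero finite-dimensional representation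
of a group `G` over a finite field `κ` in which every `g` satisfies
`ρ g ^ 2 = t g • ρ g - d g • 1`, `d` a character, gives rise to a two-dimensional representation
with `trace = t`, `det = d`, trivial on every `g` which acts trivially and has `d g = 1`. -/
theorem exists_rep_two [Finite κ] {W : Type*} [AddCommGroup W] [Module κ W] [Module.Finite κ W]
    [Nontrivial W] (ρ : G →* Module.End κ W) (t : G → κ) (d : G →* κˣ) (hq : IsQuad ρ t d) :
    ∃ ρ₂ : G →* Matrix (Fin 2) (Fin 2) κ,
      (∀ g, (ρ₂ g).trace = t g ∧ (ρ₂ g).det = ((d g : κˣ) : κ)) ∧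
        ∀ g, ρ g = 1 → d g = 1 → ρ₂ g = 1 := by
  obtain ⟨S, hS0, hSst, hmin⟩ := exists_minimal_stable ρ
  have hirr := isIrr_restrictRep hS0 hSst hmin
  have hqS := hq.restrictRep S hSst
  have hle := hqS.finrank_le_two hirr
  have := hirr.nontrivial
  have hpos : 0 < Module.finrank κ S := Module.finrank_pos
  have htriv : ∀ g, ρ g = 1 → restrictRep ρ S hSst g = 1 := by
    intro g hg
    ext u
    simp [hg]
  have hcases : Module.finrank κ S = 1 ∨ Module.finrank κ S = 2 := by omega
  rcases hcases with h1 | h2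
  · -- dimension one: `ψ ⊕ d ψ⁻¹`
    let ψ : G →* κ := (LinearMap.det : Module.End κ S →* κ).comp (restrictRep ρ S hSst)
    have hψ : ∀ g, restrictRep ρ S hSst g = ψ g • (1 : Module.End κ S) := fun g =>
      eq_det_smul_one_of_finrank_one h1 _
    have hψ0 : ∀ g, ψ g ≠ 0 := by
      intro g h0
      have : ψ g * ψ g⁻¹ = 1 := by rw [← map_mul, mul_inv_cancel, map_one]
      rw [h0, zero_mul] at this
      exact zero_ne_one this
    have hψq : ∀ g, ψ g * ψ g = t g * ψ g - ((d g : κˣ) : κ) := by
      intro g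
      have h3 := hqS g
      rw [hψ g, smul_mul_smul_comm, mul_one, smul_smul] at h3
      have h4 : (ψ g * ψ g - (t g * ψ g - ((d g : κˣ) : κ))) • (1 : Module.End κ S) = 0 := by
        have h6 : (ψ g * ψ g - (t g * ψ g - ((d g : κˣ) : κ))) • (1 : Module.End κ S) =
            (ψ g * ψ g) • (1 : Module.End κ S) -
              ((t g * ψ g) • (1 : Module.End κ S) - ((d g : κˣ) : κ) • (1 : Module.End κ S)) := by
          module
        rw [h6, h3, sub_self]
      rcases smul_eq_zero.mp h4 with h | h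
      · exact sub_eq_zero.mp h
      · exact absurd h one_ne_zero
    refine ⟨{ toFun := fun g => Matrix.diagonal ![ψ g, ((d g : κˣ) : κ) * (ψ g)⁻¹]
              map_one' := ?_
              map_mul' := ?_ }, ?_, ?_⟩
    · rw [map_one, map_one]
      ext i j
      fin_cases i <;> fin_cases j <;> simp
    · intro g h
      rw [Matrix.diagonal_mul_diagonal, map_mul, map_mul]
      congr 1
      ext i
      fin_cases i
      · simp
      · simp only [Units.val_mul, mul_inv]
        show _ = _ * _
        simp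
        ring
    · intro g
      refine ⟨?_, ?_⟩
      · show Matrix.trace (Matrix.diagonal ![ψ g, ((d g : κˣ) : κ) * (ψ g)⁻¹]) = t g
        rw [Matrix.trace_diagonal, Fin.sum_univ_two]
        simp only [Matrix.cons_val_zero, Matrix.cons_val_one]
        have := hψq g
        field_simp [hψ0 g]
        linear_combination this
      · show Matrix.det (Matrix.diagonal ![ψ g, ((d g : κˣ) : κ) * (ψ g)⁻¹]) = _
        rw [Matrix.det_diagonal, Fin.prod_univ_two]
        simp only [Matrix.cons_val_zero, Matrix.cons_val_one]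
        field_simp [hψ0 g]
    · intro g hg hd
      show Matrix.diagonal ![ψ g, ((d g : κˣ) : κ) * (ψ g)⁻¹] = 1
      have h5 : ψ g = 1 := by
        show LinearMap.det (restrictRep ρ S hSst g) = 1
        rw [htriv g hg, map_one]
      rw [h5, hd]
      ext i j
      fin_cases i <;> fin_cases j <;> simp
  · -- dimension two
    have : Module.Finite κ S := Module.finite_of_finrank_pos hpos
    let b := Module.finBasisOfFinrankEq κ S h2
    refine ⟨((LinearMap.toMatrixAlgEquiv b : Module.End κ S ≃ₐ[κ] Matrix (Fin 2) (Fin 2) κ) :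
      Module.End κ S →* Matrix (Fin 2) (Fin 2) κ).comp (restrictRep ρ S hSst), ?_, ?_⟩
    · intro g
      obtain ⟨htr, hdet⟩ := hqS.trace_det_of_finrank_two hirr h2 g
      refine ⟨?_, ?_⟩
      · rw [← htr, LinearMap.trace_eq_matrix_trace κ b]
        rfl
      · rw [← hdet, ← LinearMap.det_toMatrix b]
        rfl
    · intro g hg _
      show LinearMap.toMatrixAlgEquiv b (restrictRep ρ S hSst g) = 1
      rw [htriv g hg, map_one]

/-- The characteristic polynomial form. -/
theorem exists_rep_two_charpoly [Finite κ] {W : Type*} [AddCommGroup W] [Module κ W]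
    [Module.Finite κ W] [Nontrivial W] (ρ : G →* Module.End κ W) (t : G → κ) (d : G →* κˣ)
    (hq : IsQuad ρ t d) :
    ∃ ρ₂ : G →* Matrix (Fin 2) (Fin 2) κ,
      (∀ g, (ρ₂ g).charpoly =
        Polynomial.X ^ 2 - Polynomial.C (t g) * Polynomial.X +
          Polynomial.C ((d g : κˣ) : κ)) ∧
        ∀ g, ρ g = 1 → d g = 1 → ρ₂ g = 1 := by
  obtain ⟨ρ₂, h1, h2⟩ := exists_rep_two ρ t d hq
  refine ⟨ρ₂, fun g => ?_, h2⟩
  rw [Matrix.charpoly_fin_two, (h1 g).1, (h1 g).2]

/-- The same, as a representation on `Fin 2 → κ` (the shape of the Prelude's residual Galois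
representations: a space `V` with `finrank κ V = 2` and `G →* Module.End κ V`). -/
theorem exists_rep_two_end [Finite κ] {W : Type*} [AddCommGroup W] [Module κ W]
    [Module.Finite κ W] [Nontrivial W] (ρ : G →* Module.End κ W) (t : G → κ) (d : G →* κˣ)
    (hq : IsQuad ρ t d) :
    ∃ ρ₂ : G →* Module.End κ (Fin 2 → κ),
      (∀ g, LinearMap.charpoly (ρ₂ g) =
        Polynomial.X ^ 2 - Polynomial.C (t g) * Polynomial.X +
          Polynomial.C ((d g : κˣ) : κ)) ∧
        ∀ g, ρ g = 1 → d g = 1 → ρ₂ g = 1 := by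
  obtain ⟨ρ₂, h1, h2⟩ := exists_rep_two_charpoly ρ t d hq
  refine ⟨((Matrix.toLinAlgEquiv' : Matrix (Fin 2) (Fin 2) κ ≃ₐ[κ] Module.End κ (Fin 2 → κ)) :
    Matrix (Fin 2) (Fin 2) κ →* Module.End κ (Fin 2 → κ)).comp ρ₂, fun g => ?_, fun g hg hd => ?_⟩
  · rw [← h1 g, ← Matrix.charpoly_toLin' (ρ₂ g)]
    rfl
  · show Matrix.toLinAlgEquiv' (ρ₂ g) = 1
    rw [h2 g hg hd, map_one]

end Fermat.Agent.Jac.QA
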