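import Mathlib
import Fermat.Agent.X0.ModVal
import Fermat.Agent.X0.ModComplete
import Fermat.Agent.Jac.MerAction

/-!
# Program J, node (D4), local part at interior points: the rotation lemma for meromorphic functions

* `ordMer_pow`, `ordMer_div`, `ordMer_algebraMap`, `ordMer_smul` (transport of the order along the
  action of `SL(2, ℤ)`: `ordMer z (γ • F) = ordMer (γ⁻¹ • z) F`);
* `exists_invariant_fraction` : a `γ`-invariant `F : MerH` (`γ ^ n = 1`) is a quotient of two
  `γ`-invariant holomorphic functions;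
* `dvd_ordMer_of_smul_eq` **(rotation lemma)** : if `γ • F = F`, `γ` fixes `z`, `γ ^ n = 1` and
  `(denom γ z) ^ 2` is a primitive `e`-th root of unity then `e ∣ ordMer z F`;
* `two_dvd_ordMer_of_conj_S`, `three_dvd_ordMer_of_conj_ST` : the cases of the conjugates of `S`
  (at `g • i`) and `S T` (at `g • ρ`).
-/

set_option autoImplicit false
set_option linter.unusedSectionVars false

open UpperHalfPlane ModularForm CongruenceSubgroup
open scoped MatrixGroups ModularForm Manifold

noncomputable section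

namespace Fermat.Agent.Jac

open Fermat.Agent.X0 (HolH MerH ordMer ordHol ordMer_mul ordMer_one ordHol_mul)

/-! ### Generalities on `ordMer` -/

theorem ordMer_algebraMap (z : ℍ) {a : HolH} (ha : a ≠ 0) :
    ordMer z (algebraMap HolH MerH a) = ordHol z a :=
  Fermat.Agent.X0.fracOrd_algebraMap (F := MerH) (ordHol_mul z) ha

theorem ordMer_algebraMap_div (z : ℍ) {a b : HolH} (ha : a ≠ 0) (hb : b ≠ 0) :
    ordMer z (algebraMap HolH MerH a / algebraMap HolH MerH b) = ordHol z a - ordHol z b :=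
  Fermat.Agent.X0.fracOrd_div (F := MerH) (ordHol_mul z) ha hb

theorem ordMer_inv (z : ℍ) {F : MerH} (hF : F ≠ 0) : ordMer z F⁻¹ = -ordMer z F := by
  have h := ordMer_mul z hF (inv_ne_zero hF)
  rw [mul_inv_cancel₀ hF, ordMer_one] at h
  omega

theorem ordMer_div (z : ℍ) {F G : MerH} (hF : F ≠ 0) (hG : G ≠ 0) :
    ordMer z (F / G) = ordMer z F - ordMer z G := by
  rw [div_eq_mul_inv, ordMer_mul z hF (inv_ne_zero hG), ordMer_inv z hG]
  ring

theorem ordMer_pow (z : ℍ) {F : MerH} (hF : F ≠ 0) (m : ℕ) :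
    ordMer z (F ^ m) = m * ordMer z F := by
  induction m with
  | zero => rw [pow_zero, ordMer_one, Nat.cast_zero, zero_mul]
  | succ m ih =>
    rw [pow_succ, ordMer_mul z (pow_ne_zero m hF) hF, ih]
    push_cast
    ring

/-- The order of a holomorphic function at `z` after a modular substitution. -/
theorem ordHol_smul (γ : SL(2, ℤ)) (a : HolH) (z : ℍ) :
    ordHol z (γ • a) = ordHol (γ⁻¹ • z) a := by
  unfold ordHol
  have h := Fermat.Agent.X0.ordH_comp_smul (a : ℍ → ℂ) γ⁻¹ z
  rw [← h]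
  rfl

theorem smul_hol_ne_zero (γ : SL(2, ℤ)) {a : HolH} (ha : a ≠ 0) : γ • a ≠ 0 := fun h =>
  ha (by
    have := congrArg (fun b : HolH => γ⁻¹ • b) h
    simpa using this)

/-- Transport of the order along the action of `SL(2, ℤ)` on meromorphic functions. -/
theorem ordMer_smul (γ : SL(2, ℤ)) {F : MerH} (hF : F ≠ 0) (z : ℍ) :
    ordMer z (γ • F) = ordMer (γ⁻¹ • z) F := by
  obtain ⟨a, b, ha, hb, rfl⟩ := Fermat.Agent.X0.exists_eq_div_of_ne_zero (R := HolH) hF
  rw [smul_div₀', smul_algebraMap_hol, smul_algebraMap_hol,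
    ordMer_algebraMap_div z (smul_hol_ne_zero γ ha) (smul_hol_ne_zero γ hb),
    ordMer_algebraMap_div _ ha hb, ordHol_smul, ordHol_smul]

/-! ### Invariant fractions -/

/-- A `γ`-invariant meromorphic function, `γ` of finite order, is a quotient of two `γ`-invariant
holomorphic functions. -/
theorem exists_invariant_fraction {F : MerH} (hF : F ≠ 0) (γ : SL(2, ℤ)) {n : ℕ} (hn : 0 < n)
    (hγn : γ ^ n = 1) (hinv : γ • F = F) :
    ∃ a b : HolH, a ≠ 0 ∧ b ≠ 0 ∧ γ • a = a ∧ γ • b = b ∧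
      F = algebraMap HolH MerH a / algebraMap HolH MerH b := by
  obtain ⟨a, b, ha, hb, rfl⟩ := Fermat.Agent.X0.exists_eq_div_of_ne_zero (R := HolH) hF
  obtain ⟨k, rfl⟩ : ∃ k, n = k + 1 := ⟨n - 1, by omega⟩
  have hinj : Function.Injective (algebraMap HolH MerH) := IsFractionRing.injective HolH MerH
  -- the norm of `b` and the corresponding numerator
  set c : HolH := ∏ i ∈ Finset.range k, γ ^ (i + 1) • b with hc
  have hc0 : c ≠ 0 := by
    rw [hc, Finset.prod_ne_zero_iff]
    exact fun i _ => smul_hol_ne_zero _ hb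
  have hb'inv : γ • (b * c) = b * c := by
    have e1 : b * c = ∏ i ∈ Finset.range (k + 1), γ ^ i • b := by
      rw [Finset.prod_range_succ', pow_zero, one_smul, mul_comm]
    have e2 : γ • (b * c) = ∏ i ∈ Finset.range (k + 1), γ ^ (i + 1) • b := by
      rw [e1, Finset.smul_prod']
      exact Finset.prod_congr rfl fun i _ => by rw [pow_succ', mul_smul]
    rw [e2, Finset.prod_range_succ, hγn, one_smul, mul_comm]
  have hbc0 : b * c ≠ 0 := mul_ne_zero hb hc0
  have hF' : algebraMap HolH MerH a / algebraMap HolH MerH b =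
      algebraMap HolH MerH (a * c) / algebraMap HolH MerH (b * c) := by
    rw [map_mul, map_mul, mul_div_mul_right _ _ ((map_ne_zero_iff _ hinj).mpr hc0)]
  have hac0 : a * c ≠ 0 := mul_ne_zero ha hc0
  refine ⟨a * c, b * c, hac0, hbc0, ?_, hb'inv, hF'⟩
  have h1 := hinv
  rw [hF', smul_div₀', smul_algebraMap_hol, smul_algebraMap_hol, hb'inv] at h1
  have hbc' : algebraMap HolH MerH (b * c) ≠ 0 := (map_ne_zero_iff _ hinj).mpr hbc0
  exact hinj ((div_left_inj' hbc').mp h1)

/-! ### The rotation lemma -/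

/-- **Rotation lemma.**  If the meromorphic function `F ≠ 0` is invariant under `γ ∈ SL(2, ℤ)` of
finite order fixing `z`, and `(denom γ z) ^ 2` is a primitive `e`-th root of unity, then `e` divides
the order of `F` at `z`. -/
theorem dvd_ordMer_of_smul_eq {F : MerH} (hF : F ≠ 0) (γ : SL(2, ℤ)) {n : ℕ} (hn : 0 < n)
    (hγn : γ ^ n = 1) {z : ℍ} (hz : γ • z = z) (hinv : γ • F = F) {e : ℕ}
    (he : IsPrimitiveRoot ((denom (γ : GL (Fin 2) ℝ) z) ^ 2) e) : (e : ℤ) ∣ ordMer z F := by
  obtain ⟨a, b, ha, hb, hainv, hbinv, rfl⟩ := exists_invariant_fraction hF γ hn hγn hinv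
  rw [ordMer_algebraMap_div z ha hb]
  have key : ∀ c : HolH, c ≠ 0 → γ • c = c → (e : ℤ) ∣ ordHol z c := by
    intro c hc hcinv
    have hc' : (c : ℍ → ℂ) ≠ 0 := fun h => hc (Subtype.ext h)
    have hinv' : ∀ τ : ℍ, (c : ℍ → ℂ) (γ • τ) = (c : ℍ → ℂ) τ := by
      intro τ
      have h := congrArg (fun d : HolH => (d : ℍ → ℂ) (γ • τ)) hcinv
      simp only [smul_hol_apply, inv_smul_smul] at h
      exact h.symm
    exact Int.natCast_dvd_natCast.mpr
      (Fermat.Agent.X0.dvd_ordH_of_isPrimitiveRoot c.2 hc' γ z hz hinv' he)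
  exact dvd_sub (key a ha hainv) (key b hb hbinv)

/-- Conjugation form: if `F` is invariant under `g γ g⁻¹` then the order of `F` at `g • z` is
divisible by `e`. -/
theorem dvd_ordMer_of_conj_smul_eq {F : MerH} (hF : F ≠ 0) (g γ : SL(2, ℤ)) {n : ℕ} (hn : 0 < n)
    (hγn : γ ^ n = 1) {z : ℍ} (hz : γ • z = z) (hinv : (g * γ * g⁻¹) • F = F) {e : ℕ}
    (he : IsPrimitiveRoot ((denom (γ : GL (Fin 2) ℝ) z) ^ 2) e) :
    (e : ℤ) ∣ ordMer (g • z) F := by
  have hF' : g⁻¹ • F ≠ 0 := by
    intro h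
    apply hF
    have := congrArg (fun G : MerH => g • G) h
    simpa using this
  have hinv' : γ • (g⁻¹ • F) = g⁻¹ • F := by
    have := congrArg (fun G : MerH => g⁻¹ • G) hinv
    simp only [mul_smul, inv_smul_smul] at this
    exact this
  have h := dvd_ordMer_of_smul_eq hF' γ hn hγn hz hinv' he
  rwa [ordMer_smul g⁻¹ hF, inv_inv] at h

/-- The case of the conjugates of `S` (elliptic points of order `2`). -/
theorem two_dvd_ordMer_of_conj_S {F : MerH} (hF : F ≠ 0) (g : SL(2, ℤ))
    (hinv : (g * ModularGroup.S * g⁻¹) • F = F) :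
    (2 : ℤ) ∣ ordMer (g • UpperHalfPlane.I) F := by
  have h4 : (ModularGroup.S : SL(2, ℤ)) ^ 4 = 1 := by decide
  exact dvd_ordMer_of_conj_smul_eq hF g ModularGroup.S (by norm_num : 0 < 4) h4
    Fermat.Agent.X0.S_smul_I hinv Fermat.Agent.X0.isPrimitiveRoot_denom_S_I

/-- The case of the conjugates of `S T` (elliptic points of order `3`). -/
theorem three_dvd_ordMer_of_conj_ST {F : MerH} (hF : F ≠ 0) (g : SL(2, ℤ))
    (hinv : (g * (ModularGroup.S * ModularGroup.T) * g⁻¹) • F = F) :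
    (3 : ℤ) ∣ ordMer (g • UpperHalfPlane.ρ) F := by
  have h6 : (ModularGroup.S * ModularGroup.T : SL(2, ℤ)) ^ 6 = 1 := by decide
  exact dvd_ordMer_of_conj_smul_eq hF g (ModularGroup.S * ModularGroup.T) (by norm_num : 0 < 6) h6
    Fermat.Agent.X0.ST_smul_ρ hinv Fermat.Agent.X0.isPrimitiveRoot_denom_ST_ρ

end Fermat.Agent.Jac
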