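import Mathlib
import Fermat.Agent.Jac.DictC.ValPt
import Fermat.Agent.Jac.DictC.ValInfPsi
import Fermat.Agent.Jac.OrdInvariant
import Fermat.Agent.Jac.KummerC

/-!
# Program J, node (D4), local computations in terms of the valuations `wPt`, `wInf`

Let `F : MerH` be a multiplicative function for `Γ₀(N)` with a good character and `y : Fc N` with
`thetaMer N y = F ^ m`.

* `wPt_mk_eq_ordMer` : `wPt N z0 (g Γ₀(N)) y = ordMer (g⁻¹ • z0) (thetaMer N y)`;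
* `wPt_mk_eq_mul_of_pow` : `wPt N z0 (g Γ₀(N)) y = m * ordMer (g⁻¹ • z0) F`;
* `two_dvd_ordMer_of_S_smul_eq`, `three_dvd_ordMer_of_ST_smul_eq` : if `S` (resp. `S T`) fixes the
  coset `g Γ₀(N)` then `2` (resp. `3`) divides `ordMer (g⁻¹ • i) F` (resp. at `ρ`).
-/

set_option autoImplicit false
set_option linter.unusedSectionVars false

open UpperHalfPlane ModularForm CongruenceSubgroup
open scoped MatrixGroups ModularForm Manifold

noncomputable section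

namespace Fermat.Agent.Jac

open Fermat.Agent.X0 (HolH MerH ordMer ordHol)

variable {N : ℕ}

/-! ### Interior points -/

/-- The valuation `wPt N z0 (g Γ₀(N))` is the order at `g⁻¹ • z0` of the realisation `thetaMer`. -/
theorem wPt_mk_eq_ordMer (g : SL(2, ℤ)) (z0 : ℍ) {y : DictC.Fc N} (hy : y ≠ 0) :
    DictC.wPt N z0 (g : SL(2, ℤ) ⧸ Gamma0 N) y = ordMer (g⁻¹ • z0) (thetaMer N y) := by
  unfold DictC.wPt
  rw [DictC.thetaC_mk, Fermat.Agent.X0.ordAtPt_conjHom, thetaMer,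
    Fermat.Agent.X0.ordMer_merHom _ _ _ _ hy]

/-- If `thetaMer N y = F ^ m` then `wPt N z0 (g Γ₀(N)) y = m * ordMer (g⁻¹ • z0) F`. -/
theorem wPt_mk_eq_mul_of_pow (g : SL(2, ℤ)) (z0 : ℍ) {y : DictC.Fc N} {F : MerH} (hF : F ≠ 0)
    {m : ℕ} (h : thetaMer N y = F ^ m) :
    DictC.wPt N z0 (g : SL(2, ℤ) ⧸ Gamma0 N) y = m * ordMer (g⁻¹ • z0) F := by
  have hy : y ≠ 0 := by
    rintro rfl
    rw [map_zero] at h
    exact pow_ne_zero m hF h.symm
  rw [wPt_mk_eq_ordMer g z0 hy, h, ordMer_pow _ hF]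

/-- If `g' • (g Γ) = g Γ` then `g⁻¹ g' g ∈ Γ`. -/
theorem conj_mem_of_smul_mk_eq {Γ : Subgroup SL(2, ℤ)} {g' g : SL(2, ℤ)}
    (h : g' • (g : SL(2, ℤ) ⧸ Γ) = (g : SL(2, ℤ) ⧸ Γ)) : g⁻¹ * g' * g ∈ Γ := by
  rw [MulAction.Quotient.smul_mk, smul_eq_mul, eq_comm, QuotientGroup.eq] at h
  have : g⁻¹ * g' * g = g⁻¹ * (g' * g) := by group
  rw [this]
  exact h

variable [NeZero N]

/-- A multiplicative function with a good character is invariant under the elements of `Γ₀(N)` of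
trace of absolute value `≤ 2`. -/
theorem smul_eq_self_of_trace_le {χ : ↥(Gamma0 N) →* ℂˣ} (hχ : χ ∈ goodCharC N) {F : MerH}
    (hF : ∀ γ : ↥(Gamma0 N), γ • F = constMer ((χ γ : ℂˣ) : ℂ) * F) {δ : SL(2, ℤ)}
    (hδ : δ ∈ Gamma0 N) (htr : |(δ : Matrix (Fin 2) (Fin 2) ℤ).trace| ≤ 2) : δ • F = F := by
  have h := hF ⟨δ, hδ⟩
  rw [hχ.2 ⟨δ, hδ⟩ htr, Units.val_one, map_one, one_mul] at h
  exact h

/-- If `S` fixes the coset `g Γ₀(N)`, the order at `g⁻¹ • i` of a multiplicative function with good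
character is even. -/
theorem two_dvd_ordMer_of_S_smul_eq {χ : ↥(Gamma0 N) →* ℂˣ} (hχ : χ ∈ goodCharC N) {F : MerH}
    (hF0 : F ≠ 0) (hF : ∀ γ : ↥(Gamma0 N), γ • F = constMer ((χ γ : ℂˣ) : ℂ) * F)
    (g : SL(2, ℤ))
    (hfix : (ModularGroup.S : SL(2, ℤ)) • (g : SL(2, ℤ) ⧸ Gamma0 N) = (g : SL(2, ℤ) ⧸ Gamma0 N)) :
    (2 : ℤ) ∣ ordMer (g⁻¹ • UpperHalfPlane.I) F := by
  have hmem := conj_mem_of_smul_mk_eq hfix
  have htr : |((g⁻¹ * ModularGroup.S * g : SL(2, ℤ)) : Matrix (Fin 2) (Fin 2) ℤ).trace| ≤ 2 := by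
    have e : ((g⁻¹ * ModularGroup.S * g : SL(2, ℤ)) : Matrix (Fin 2) (Fin 2) ℤ).trace =
        ((ModularGroup.S : SL(2, ℤ)) : Matrix (Fin 2) (Fin 2) ℤ).trace := by
      rw [Matrix.SpecialLinearGroup.coe_mul, Matrix.SpecialLinearGroup.coe_mul, Matrix.trace_mul_cycle,
        ← Matrix.SpecialLinearGroup.coe_mul, mul_inv_cancel, Matrix.SpecialLinearGroup.coe_one,
        one_mul]
    rw [e]
    decide
  have hinv := smul_eq_self_of_trace_le hχ hF hmem htr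
  have := two_dvd_ordMer_of_conj_S hF0 g⁻¹ (by rwa [inv_inv])
  exact this

/-- If `S T` fixes the coset `g Γ₀(N)`, the order at `g⁻¹ • ρ` of a multiplicative function with
good character is divisible by `3`. -/
theorem three_dvd_ordMer_of_ST_smul_eq {χ : ↥(Gamma0 N) →* ℂˣ} (hχ : χ ∈ goodCharC N) {F : MerH}
    (hF0 : F ≠ 0) (hF : ∀ γ : ↥(Gamma0 N), γ • F = constMer ((χ γ : ℂˣ) : ℂ) * F)
    (g : SL(2, ℤ))
    (hfix : (ModularGroup.S * ModularGroup.T : SL(2, ℤ)) • (g : SL(2, ℤ) ⧸ Gamma0 N) =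
      (g : SL(2, ℤ) ⧸ Gamma0 N)) :
    (3 : ℤ) ∣ ordMer (g⁻¹ • UpperHalfPlane.ρ) F := by
  have hmem := conj_mem_of_smul_mk_eq hfix
  have htr : |((g⁻¹ * (ModularGroup.S * ModularGroup.T) * g : SL(2, ℤ)) :
      Matrix (Fin 2) (Fin 2) ℤ).trace| ≤ 2 := by
    have e : ((g⁻¹ * (ModularGroup.S * ModularGroup.T) * g : SL(2, ℤ)) :
        Matrix (Fin 2) (Fin 2) ℤ).trace =
        ((ModularGroup.S * ModularGroup.T : SL(2, ℤ)) : Matrix (Fin 2) (Fin 2) ℤ).trace := by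
      rw [Matrix.SpecialLinearGroup.coe_mul, Matrix.SpecialLinearGroup.coe_mul, Matrix.trace_mul_cycle,
        ← Matrix.SpecialLinearGroup.coe_mul, mul_inv_cancel, Matrix.SpecialLinearGroup.coe_one,
        one_mul]
    rw [e]
    decide
  have hinv := smul_eq_self_of_trace_le hχ hF hmem htr
  have := three_dvd_ordMer_of_conj_ST hF0 g⁻¹ (by rwa [inv_inv])
  exact this

end Fermat.Agent.Jac
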