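import Mathlib
import Fermat.Agent.Jac.DivOrdC

/-!
# Program J, node (D4), local computation at the cusps

`A : CharForm N k χa`, `B : CharForm N k χb` nonzero, `χa ^ M = χb ^ M = 1`, quotient character
`χb / χa` good, `y : Fc N` with `thetaMer N y = (A.mer / B.mer) ^ m`.  If `T ^ kc` fixes the coset
`g Γ₀(N)` (`kc ∣ N`) then `m * (N / kc)` divides `wInf N (g Γ₀(N)) y`
(`dvd_wInf_of_pow`).

Ingredients: `hasOrdInf_scale` (change of the parameter `q_N ↦ q_{N M}`), periodicity of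
`A ∣[k] σ` under `z ↦ z + N M`, its order at `i∞` (holomorphic, bounded), periodicity of the
quotient `(A ∣[k] σ) / (B ∣[k] σ)` under `z ↦ z + kc`, and `HasOrdInf.dvd_of_periodic`.
-/

set_option autoImplicit false
set_option linter.unusedSectionVars false

open UpperHalfPlane ModularForm CongruenceSubgroup Filter Topology
open scoped MatrixGroups ModularForm Manifold

noncomputable section

namespace Fermat.Agent.Jac

open Fermat.Agent.X0 (HolH MerH ordMer ordHol HasOrdInf qN)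

/-! ### Change of parameter -/

theorem qN_mul_pow (N M : ℕ) [NeZero N] [NeZero M] (z : ℍ) : qN (N * M) z ^ M = qN N z := by
  unfold Fermat.Agent.X0.qN Function.Periodic.qParam
  rw [← Complex.exp_nat_mul]
  congr 1
  have hN : (N : ℂ) ≠ 0 := by exact_mod_cast NeZero.ne N
  have hM : (M : ℂ) ≠ 0 := by exact_mod_cast NeZero.ne M
  push_cast
  field_simp

/-- A function of order `k` in `q_N` has order `k M` in `q_{N M}`. -/
theorem hasOrdInf_scale {N : ℕ} [NeZero N] (M : ℕ) [NeZero M] {F : ℍ → ℂ} {k : ℤ}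
    (h : HasOrdInf N F k) : HasOrdInf (N * M) F (k * M) := by
  obtain ⟨L, hL0, hL⟩ := h
  refine ⟨L, hL0, ?_⟩
  refine hL.congr fun z => ?_
  rw [← qN_mul_pow N M z, ← zpow_natCast, ← zpow_mul, mul_neg, mul_comm (M : ℤ) k]

/-! ### Translations and the slash action -/

theorem slash_T_pow_apply (f : ℍ → ℂ) (k : ℤ) (n : ℕ) (z : ℍ) :
    (f ∣[k] (ModularGroup.T ^ n : SL(2, ℤ))) z = f ((n : ℝ) +ᵥ z) := by
  rw [SL_slash_apply, Fermat.Agent.X0.T_pow_smul_eq_vadd, ModularGroup.denom_apply]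
  have h10 : ((ModularGroup.T ^ n : SL(2, ℤ)) 1 0 : ℤ) = 0 := by
    rw [← zpow_natCast, ModularGroup.coe_T_zpow]
    simp
  have h11 : ((ModularGroup.T ^ n : SL(2, ℤ)) 1 1 : ℤ) = 1 := by
    rw [← zpow_natCast, ModularGroup.coe_T_zpow]
    simp
  rw [h10, h11]
  simp

theorem T_pow_mem_Gamma (N : ℕ) : (ModularGroup.T ^ N : SL(2, ℤ)) ∈ Gamma N := by
  rw [CongruenceSubgroup.Gamma_mem, ← zpow_natCast, ModularGroup.coe_T_zpow]
  simp

theorem conj_T_pow_mem_Gamma0 (N : ℕ) (σ : SL(2, ℤ)) :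
    σ * ModularGroup.T ^ N * σ⁻¹ ∈ Gamma0 N :=
  Fermat.Agent.X0.Gamma_le_Gamma0 N ((CongruenceSubgroup.Gamma_normal N).conj_mem _ (T_pow_mem_Gamma N) σ)

variable {N : ℕ} {k : ℤ}

namespace CharForm

variable {χ : ↥(Gamma0 N) →* ℂˣ}

/-- The slash of a form with character by `σ`, translated by `n`, when
`σ T ^ n = δ σ` with `δ ∈ Γ₀(N)`. -/
theorem slash_vadd (A : CharForm N k χ) (σ : SL(2, ℤ)) (n : ℕ) (δ : ↥(Gamma0 N))
    (hδ : σ * ModularGroup.T ^ n = (δ : SL(2, ℤ)) * σ) (z : ℍ) :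
    ((A : ℍ → ℂ) ∣[k] σ) ((n : ℝ) +ᵥ z) = ((χ δ : ℂˣ) : ℂ) * ((A : ℍ → ℂ) ∣[k] σ) z := by
  rw [← slash_T_pow_apply ((A : ℍ → ℂ) ∣[k] σ) k n z, ← SlashAction.slash_mul, hδ,
    SlashAction.slash_mul, A.slash δ, ModularForm.SL_smul_slash, Pi.smul_apply, smul_eq_mul]

/-- `A ∣[k] σ` is periodic of period `N M` when `χ ^ M = 1`. -/
theorem slash_vadd_of_pow_eq_one (A : CharForm N k χ) (σ : SL(2, ℤ)) {M : ℕ} (hχ : χ ^ M = 1)
    (z : ℍ) : ((A : ℍ → ℂ) ∣[k] σ) (((N * M : ℕ) : ℝ) +ᵥ z) = ((A : ℍ → ℂ) ∣[k] σ) z := by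
  set δ₀ : ↥(Gamma0 N) := ⟨σ * ModularGroup.T ^ N * σ⁻¹, conj_T_pow_mem_Gamma0 N σ⟩ with hδ₀
  have hδ : σ * ModularGroup.T ^ (N * M) = ((δ₀ ^ M : ↥(Gamma0 N)) : SL(2, ℤ)) * σ := by
    rw [Subgroup.coe_pow, hδ₀]
    show σ * ModularGroup.T ^ (N * M) = (σ * ModularGroup.T ^ N * σ⁻¹) ^ M * σ
    rw [show σ * ModularGroup.T ^ N * σ⁻¹ = σ * (ModularGroup.T ^ N) * σ⁻¹ from rfl,
      conj_pow, ← pow_mul]
    group
  rw [A.slash_vadd σ (N * M) (δ₀ ^ M) hδ z, map_pow, ← MonoidHom.pow_apply, hχ,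
    MonoidHom.one_apply, Units.val_one, one_mul]

theorem slash_ne_zero (A : CharForm N k χ) (hA : A.mer ≠ 0) (σ : SL(2, ℤ)) :
    ((A : ℍ → ℂ) ∣[k] σ) ≠ 0 := by
  intro h
  apply hA
  rw [mer_eq_zero_iff]
  intro z
  have h1 : ((A : ℍ → ℂ) ∣[k] σ) ∣[k] σ⁻¹ = (A : ℍ → ℂ) := by
    rw [← SlashAction.slash_mul, mul_inv_cancel, SlashAction.slash_one]
  rw [h, SlashAction.zero_slash] at h1
  exact (congrFun h1 z).symm

/-- `A ∣[k] σ` has an order `≥ 0` at `i∞` in the parameter `q_{N M}`. -/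
theorem exists_hasOrdInf_slash [NeZero N] (A : CharForm N k χ) (hA : A.mer ≠ 0) (σ : SL(2, ℤ))
    {M : ℕ} [NeZero M] (hχ : χ ^ M = 1) :
    ∃ n : ℕ, HasOrdInf (N * M) ((A : ℍ → ℂ) ∣[k] σ) n :=
  Fermat.Agent.X0.exists_hasOrdInf_of_bounded (N := N * M)
    (fun z => A.slash_vadd_of_pow_eq_one σ hχ z) (A.holo.slash k _) (A.bdd σ)
    (A.slash_ne_zero hA σ)

end CharForm

/-! ### The main divisibility at the cusps -/

variable [NeZero N]

/-- The functional identity behind `thetaMer N (r / s) = (A / B) ^ m`. -/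
theorem psi_mul_pow_eq_of_thetaMer_eq {χa χb : ↥(Gamma0 N) →* ℂˣ} (A : CharForm N k χa)
    (B : CharForm N k χb) (hB : B.mer ≠ 0) (r s : DictC.Rb N)
    (hs : ((s : DictC.Rb N) : DictC.Fc N) ≠ 0) {m : ℕ}
    (hy : thetaMer N (((r : DictC.Rb N) : DictC.Fc N) / ((s : DictC.Rb N) : DictC.Fc N)) =
      (A.mer / B.mer) ^ m) (w : ℍ) :
    DictC.Psi N r w * B w ^ m = A w ^ m * DictC.Psi N s w := by
  have hinj : Function.Injective (algebraMap HolH MerH) := IsFractionRing.injective HolH MerH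
  have hs' : thetaMer N ((s : DictC.Rb N) : DictC.Fc N) ≠ 0 := (map_ne_zero _).mpr hs
  rw [map_div₀, div_pow, div_eq_div_iff hs' (pow_ne_zero m hB), thetaMer_coe, thetaMer_coe,
    CharForm.mer, CharForm.mer, ← map_pow, ← map_pow, ← map_mul, ← map_mul] at hy
  have h := congrArg (fun f : HolH => (f : ℍ → ℂ) w) (hinj hy)
  exact h

/-- **Divisibility at the cusps.**  If `thetaMer N y = (A / B) ^ m` with `A`, `B` forms of the
same weight with characters of finite order and good quotient character, and `T ^ kc` fixes the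
coset `g Γ₀(N)` (`kc ∣ N`), then `m * (N / kc)` divides `wInf N (g Γ₀(N)) y`. -/
theorem dvd_wInf_of_pow {χa χb : ↥(Gamma0 N) →* ℂˣ} (A : CharForm N k χa) (B : CharForm N k χb)
    (hA : A.mer ≠ 0) (hB : B.mer ≠ 0) {M : ℕ} (hM : 0 < M) (hχa : χa ^ M = 1)
    (hχb : χb ^ M = 1) (hgood : χb / χa ∈ goodCharC N) (g : SL(2, ℤ)) {kc : ℕ} (hkc : kc ∣ N)
    (hfix : (ModularGroup.T ^ kc : SL(2, ℤ)) • (g : SL(2, ℤ) ⧸ Gamma0 N) =
      (g : SL(2, ℤ) ⧸ Gamma0 N))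
    {y : DictC.Fc N} {m : ℕ} (hy : thetaMer N y = (A.mer / B.mer) ^ m) :
    ((m * (N / kc) : ℕ) : ℤ) ∣ DictC.wInf N (g : SL(2, ℤ) ⧸ Gamma0 N) y := by
  have : NeZero M := ⟨hM.ne'⟩
  set σ : SL(2, ℤ) := g⁻¹ with hσ
  obtain ⟨ka, hka⟩ := A.exists_hasOrdInf_slash hA σ hχa
  obtain ⟨kb, hkb⟩ := B.exists_hasOrdInf_slash hB σ hχb
  have hF0 : (A.mer / B.mer) ^ m ≠ 0 := pow_ne_zero m (div_ne_zero hA hB)
  have hy0 : y ≠ 0 := by
    rintro rfl
    rw [map_zero] at hy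
    exact hF0 hy.symm
  obtain ⟨r, s, hs0, rfl⟩ := DictC.exists_Rb_div N y
  have hr0 : ((r : DictC.Rb N) : DictC.Fc N) ≠ 0 := fun h => hy0 (by rw [h, zero_div])
  have hr : r ≠ 0 := fun h => hr0 (by rw [h]; rfl)
  have hs : s ≠ 0 := fun h => hs0 (by rw [h]; rfl)
  -- the valuation
  have hex := DictC.hasOrdsInf_cosetHom_Psi N (g : SL(2, ℤ) ⧸ Gamma0 N)
  have hθ : Fermat.Agent.X0.cosetHom (Gamma0 N) (DictC.Psi N) (g : SL(2, ℤ) ⧸ Gamma0 N) =
      Fermat.Agent.X0.conjHom g (DictC.Psi N) :=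
    Fermat.Agent.X0.cosetHom_mk (DictC.Psi_invariant N) g
  set θc := Fermat.Agent.X0.cosetHom (Gamma0 N) (DictC.Psi N) (g : SL(2, ℤ) ⧸ Gamma0 N) with hθc
  have hw : DictC.wInf N (g : SL(2, ℤ) ⧸ Gamma0 N)
      (((r : DictC.Rb N) : DictC.Fc N) / ((s : DictC.Rb N) : DictC.Fc N)) =
      Fermat.Agent.X0.ordInfR N θc r - Fermat.Agent.X0.ordInfR N θc s :=
    Fermat.Agent.X0.ordAtInf_div hex hr hs
  have hor := hasOrdInf_scale M (hex.hasOrdInf hr)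
  have hos := hasOrdInf_scale M (hex.hasOrdInf hs)
  set or' := Fermat.Agent.X0.ordInfR N θc r with hor'
  set os' := Fermat.Agent.X0.ordInfR N θc s with hos'
  -- the functional identity, after the substitution `σ`
  have hid : θc r * ((A : ℍ → ℂ) ∣[k] σ) ^ 0 * ((B : ℍ → ℂ) ∣[k] σ) ^ m =
      ((A : ℍ → ℂ) ∣[k] σ) ^ m * θc s := by
    funext z
    have h1 := psi_mul_pow_eq_of_thetaMer_eq A B hB r s hs0 hy (σ • z)
    have hd : denom σ z ^ k ≠ 0 := zpow_ne_zero _ (denom_ne_zero _ z)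
    have hAσ : A (σ • z) = ((A : ℍ → ℂ) ∣[k] σ) z * denom σ z ^ k := by
      rw [SL_slash_apply, mul_assoc, ← zpow_add₀ (denom_ne_zero _ z), neg_add_cancel, zpow_zero,
        mul_one]
    have hBσ : B (σ • z) = ((B : ℍ → ℂ) ∣[k] σ) z * denom σ z ^ k := by
      rw [SL_slash_apply, mul_assoc, ← zpow_add₀ (denom_ne_zero _ z), neg_add_cancel, zpow_zero,
        mul_one]
    rw [hAσ, hBσ, mul_pow, mul_pow] at h1
    have hθr : θc r z = DictC.Psi N r (σ • z) := by rw [hθ]; rfl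
    have hθs : θc s z = DictC.Psi N s (σ • z) := by rw [hθ]; rfl
    simp only [Pi.mul_apply, Pi.pow_apply, pow_zero, mul_one]
    rw [hθr, hθs]
    have hdm : (denom σ z ^ k) ^ m ≠ 0 := pow_ne_zero m hd
    apply mul_right_cancel₀ hdm
    linear_combination h1
  rw [pow_zero, mul_one] at hid
  have H3 := hor.mul (hkb.pow m)
  have H4 := (hka.pow m).mul hos
  rw [hid] at H3
  have heq := H3.unique H4
  -- periodicity of the quotient
  have hmem := conj_mem_of_smul_mk_eq hfix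
  set δc : ↥(Gamma0 N) := ⟨g⁻¹ * ModularGroup.T ^ kc * g, hmem⟩ with hδc
  have hδσ : σ * ModularGroup.T ^ kc = (δc : SL(2, ℤ)) * σ := by
    rw [hδc, hσ]
    show g⁻¹ * ModularGroup.T ^ kc = g⁻¹ * ModularGroup.T ^ kc * g * g⁻¹
    group
  have htr : |((δc : SL(2, ℤ)) : Matrix (Fin 2) (Fin 2) ℤ).trace| ≤ 2 := by
    have e : ((g⁻¹ * ModularGroup.T ^ kc * g : SL(2, ℤ)) : Matrix (Fin 2) (Fin 2) ℤ).trace =
        ((ModularGroup.T ^ kc : SL(2, ℤ)) : Matrix (Fin 2) (Fin 2) ℤ).trace := by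
      rw [Matrix.SpecialLinearGroup.coe_mul, Matrix.SpecialLinearGroup.coe_mul,
        Matrix.trace_mul_cycle, ← Matrix.SpecialLinearGroup.coe_mul, mul_inv_cancel,
        Matrix.SpecialLinearGroup.coe_one, one_mul]
    show |((g⁻¹ * ModularGroup.T ^ kc * g : SL(2, ℤ)) : Matrix (Fin 2) (Fin 2) ℤ).trace| ≤ 2
    rw [e, ← zpow_natCast, ModularGroup.coe_T_zpow, Matrix.trace_fin_two]
    simp
  have hχδ : ((χa δc : ℂˣ) : ℂ) = ((χb δc : ℂˣ) : ℂ) := by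
    have h1 := hgood.2 δc htr
    rw [MonoidHom.div_apply, div_eq_one] at h1
    rw [h1]
  have hper : ∀ z : ℍ, (((A : ℍ → ℂ) ∣[k] σ) / ((B : ℍ → ℂ) ∣[k] σ)) ((kc : ℝ) +ᵥ z) =
      (((A : ℍ → ℂ) ∣[k] σ) / ((B : ℍ → ℂ) ∣[k] σ)) z := by
    intro z
    rw [Pi.div_apply, Pi.div_apply, A.slash_vadd σ kc δc hδσ z, B.slash_vadd σ kc δc hδσ z, hχδ,
      mul_div_mul_left _ _ (Units.ne_zero _)]
  have hdvd := (hka.div hkb).dvd_of_periodic (Dvd.dvd.mul_right hkc M) hper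
  -- conclusion
  obtain ⟨e, he⟩ := hkc
  have hkc0 : kc ≠ 0 := by
    rintro rfl
    rw [zero_mul] at he
    exact NeZero.ne N he
  have hNk : N / kc = e := by rw [he, Nat.mul_div_cancel_left _ (Nat.pos_of_ne_zero hkc0)]
  have hNMk : N * M / kc = e * M := by
    rw [he, mul_assoc, Nat.mul_div_cancel_left _ (Nat.pos_of_ne_zero hkc0)]
  rw [hNMk] at hdvd
  obtain ⟨t, ht⟩ := hdvd
  rw [hw, hNk]
  refine ⟨t, ?_⟩
  have hM0 : (M : ℤ) ≠ 0 := by exact_mod_cast hM.ne'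
  apply mul_right_cancel₀ hM0
  push_cast at ht heq ⊢
  linear_combination heq + (m : ℤ) * ht

end Fermat.Agent.Jac
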