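import Mathlib
import Fermat.Agent.Jac.DictC.PlaceDict
import Fermat.Agent.Jac.DivOrdC
import Fermat.Agent.Jac.DivOrdCusp
import Fermat.Agent.Jac.KappaHecke

/-!
# Program J, node (D4): the divisibility statement, unconditionally

If `y : Fc N` satisfies `thetaMer N y = (A / B) ^ m` where `A`, `B` are forms of the same weight
with characters of finite order and good quotient character, then `m` divides `ord_P y` at every
place `P` of `Fc N`.

Inputs: helper26's exact dictionary `DictC.place_point_or_cusp` (every place is a point place with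
exact stabiliser order, or a cusp place with exact width) and the local computations of
`Jac/OrdInvariant.lean`, `Jac/DivOrdC.lean`, `Jac/DivOrdCusp.lean`.

* `abs_trace_le_two_of_smul_eq` : an element of `SL(2, ℤ)` fixing a point of `ℍ` has trace of
  absolute value `≤ 2`;
* `hD4_holds N : KH.HD4 N` : the hypothesis (D4) of `kummerDataC`;
* `kummerDataC₀ N`, `kappaLamC₀`, `exists_kummerHom_of_HTheta` : the unconditional Kummer data and
  the packaged statement for (J8), with the only remaining hypothesis `HThetaAt` (J4-alg).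
-/

set_option autoImplicit false
set_option linter.unusedSectionVars false

open UpperHalfPlane ModularForm CongruenceSubgroup AlgebraicCurve ModularCurve
open scoped MatrixGroups ModularForm Manifold

noncomputable section

namespace Fermat.Agent.Jac

open Fermat.Agent.X0 (HolH MerH ordMer ordHol)

/-! ### Elements with a fixed point -/

/-- An element of `SL(2, ℤ)` with a fixed point in the upper half plane has trace of absolute value
at most `2`. -/
theorem abs_trace_le_two_of_smul_eq (γ : SL(2, ℤ)) (z : ℍ) (hz : γ • z = z) :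
    |(γ : Matrix (Fin 2) (Fin 2) ℤ).trace| ≤ 2 := by
  have hdet := Matrix.SpecialLinearGroup.det_coe γ
  rw [Matrix.det_fin_two] at hdet
  rw [Matrix.trace_fin_two]
  set a : ℤ := (γ : Matrix (Fin 2) (Fin 2) ℤ) 0 0 with ha
  set b : ℤ := (γ : Matrix (Fin 2) (Fin 2) ℤ) 0 1 with hb
  set c : ℤ := (γ : Matrix (Fin 2) (Fin 2) ℤ) 1 0 with hc
  set d : ℤ := (γ : Matrix (Fin 2) (Fin 2) ℤ) 1 1 with hd
  -- the fixed point equation
  have hden : ((c : ℂ) * z + d) ≠ 0 := by
    have := UpperHalfPlane.denom_ne_zero (γ : GL (Fin 2) ℝ) z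
    simpa [UpperHalfPlane.denom, ha, hb, hc, hd] using this
  have hfix : (a : ℂ) * z + b = z * ((c : ℂ) * z + d) := by
    have h := congrArg (fun w : ℍ => (w : ℂ)) hz
    simp only [UpperHalfPlane.specialLinearGroup_apply] at h
    rw [div_eq_iff] at h
    · simpa [ha, hb, hc, hd] using h
    · simpa [ha, hb, hc, hd] using hden
  have hy : 0 < (z : ℂ).im := z.im_pos
  set x : ℝ := (z : ℂ).re with hx
  set y : ℝ := (z : ℂ).im with hy'
  have him := congrArg Complex.im hfix
  have hre := congrArg Complex.re hfix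
  simp only [Complex.add_im, Complex.mul_im, Complex.intCast_re, Complex.intCast_im, zero_mul,
    add_zero, Complex.add_re, Complex.mul_re, sub_zero, ← hx, ← hy'] at him hre
  -- `a - d = 2 c x`
  have h1 : (a : ℝ) - d = 2 * c * x := by
    have : y * ((a : ℝ) - d - 2 * c * x) = 0 := by linarith
    rcases mul_eq_zero.mp this with h | h
    · exact absurd h hy.ne'
    · linarith
  have hdetR : (a : ℝ) * d - b * c = 1 := by exact_mod_cast hdet
  have hsq : ((a : ℝ) + d) ^ 2 = 4 - 4 * (c * y) ^ 2 := by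
    have hb' : (b : ℝ) = c * (x ^ 2 - y ^ 2) - ((a : ℝ) - d) * x := by nlinarith
    have : ((a : ℝ) + d) ^ 2 = ((a : ℝ) - d) ^ 2 + 4 * (1 + b * c) := by
      rw [← hdetR]; ring
    rw [this, hb', h1]
    ring
  have hle : ((a : ℝ) + d) ^ 2 ≤ 2 ^ 2 := by
    rw [hsq]
    nlinarith [sq_nonneg ((c : ℝ) * y)]
  have habs : |(a : ℝ) + d| ≤ 2 := by
    have := abs_le_of_sq_le_sq' hle (by norm_num)
    exact abs_le.mpr this
  have : ((|a + d| : ℤ) : ℝ) ≤ 2 := by
    push_cast
    exact habs
  exact_mod_cast this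

/-! ### The divisibility statement (D4) -/

variable (N : ℕ) [NeZero N]

/-- **(D4)**: if `thetaMer N y = (A / B) ^ m` with `A`, `B` of the same weight, characters of
finite order and good quotient character, then `m ∣ ord_P y` at every place `P` of `Fc N`. -/
theorem hD4_holds : KH.HD4 N := by
  intro m k χa χb A B ha hb hA hB hgood y hy P
  have hF0 : A.mer / B.mer ≠ 0 := div_ne_zero hA hB
  have hy0 : y ≠ 0 := by
    rintro rfl
    rw [map_zero] at hy
    exact pow_ne_zero m hF0 hy.symm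
  rcases DictC.place_point_or_cusp N P with
    ⟨z, γ, e, he, hγ, hfin, hγz, hprim, hord⟩ | ⟨c, kc, hkc, hkcN, hfix, hord⟩
  · -- a point of the upper half plane
    have h1 : Fermat.Agent.X0.ordAtPt (R := DictC.Rb N) (DictC.Psi N) z y =
        m * ordMer z (A.mer / B.mer) := by
      have h0 : Fermat.Agent.X0.ordAtPt (R := DictC.Rb N) (DictC.Psi N) z y =
          ordMer z (thetaMer N y) := by
        rw [thetaMer, Fermat.Agent.X0.ordMer_merHom _ _ _ _ hy0]
      rw [h0, hy, ordMer_pow _ hF0]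
    -- invariance of `A / B` under the rotation `γ`
    have hinv : γ • (A.mer / B.mer) = A.mer / B.mer := by
      have hzinv : γ⁻¹ • z = z := by rw [inv_smul_eq_iff, hγz]
      have htr := abs_trace_le_two_of_smul_eq γ⁻¹ z hzinv
      have hχ : (χb / χa) (⟨γ, hγ⟩⁻¹ : ↥(Gamma0 N)) = 1 := hgood.2 _ htr
      rw [MonoidHom.div_apply, div_eq_one] at hχ
      have h := CharForm.smul_mer_div A B ⟨γ, hγ⟩
      rw [hχ, div_self (Units.ne_zero _), map_one, one_mul] at h
      exact h
    obtain ⟨n, hn, hγn⟩ := isOfFinOrder_iff_pow_eq_one.mp hfin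
    obtain ⟨t, ht⟩ := dvd_ordMer_of_smul_eq hF0 γ hn hγn hγz hinv hprim
    refine ⟨t, ?_⟩
    have h2 := hord y hy0
    have h3 : (e : ℤ) * P.ord y = e * (m * t) := by
      rw [← h2, h1, ht]; ring
    exact mul_left_cancel₀ (by exact_mod_cast he.ne') h3
  · -- a cusp
    obtain ⟨g, rfl⟩ := QuotientGroup.mk_surjective c
    obtain ⟨na, hna, hχa⟩ := isOfFinOrder_iff_pow_eq_one.mp ha
    obtain ⟨nb, hnb, hχb⟩ := isOfFinOrder_iff_pow_eq_one.mp hb
    have hMa : χa ^ (na * nb) = 1 := by
      have h := pow_mul χa na nb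
      rw [hχa, one_pow] at h
      exact h
    have hMb : χb ^ (na * nb) = 1 := by
      have h := pow_mul χb nb na
      rw [hχb, one_pow, mul_comm] at h
      exact h
    obtain ⟨t, ht⟩ :=
      dvd_wInf_of_pow A B hA hB (Nat.mul_pos hna hnb) hMa hMb hgood g hkcN hfix hy
    have h2 := hord y hy0
    refine ⟨t, ?_⟩
    have hpos : 0 < N / kc := Nat.div_pos (Nat.le_of_dvd (NeZero.pos N) hkcN) hkc
    have h3 : ((N / kc : ℕ) : ℤ) * P.ord y = ((N / kc : ℕ) : ℤ) * (m * t) := by
      rw [← h2, ht]; push_cast; ring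
    exact mul_left_cancel₀ (by exact_mod_cast hpos.ne') h3

/-! ### Unconditional Kummer data and the packaged statement for (J8) -/

/-- The Kummer data of `X₀(N)` over `ℂ`, unconditionally. -/
def kummerDataC0 : KummerData ℂ (DictC.Fc N) MerH ↥(Gamma0 N) :=
  kummerDataC N (hD4_holds N)

theorem kummerDataC0_θ : (kummerDataC0 N).θ = thetaMer N := rfl

theorem kummerDataC0_Good : (kummerDataC0 N).Good = goodCharC N := rfl

attribute [local instance] KH.hasPrincipalDivisorsFL KH.hasPrincipalDivisorsFc'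
  KH.finiteDimensionalFL

/-- The Kummer homomorphism `Lam N →+ Pic⁰(X₀(N)_ℂ)` attached to a primitive `m`-th root of
unity, unconditionally. -/
def kappaLamC0 {m : ℕ} (hm : 0 < m) {ζ : ℂˣ} (hζ : IsPrimitiveRoot ζ m) :
    ↥(KC.Lam N) →+ Pic0 ℂ (DictC.Fc N) :=
  KC.kappaLamC N (hD4_holds N) hm hζ

theorem kappaLamC0_eq_zero_iff {m : ℕ} (hm : 0 < m) {ζ : ℂˣ} (hζ : IsPrimitiveRoot ζ m)
    (lam : ↥(KC.Lam N)) :
    kappaLamC0 N hm hζ lam = 0 ↔ ∃ lam' : ↥(KC.Lam N), lam = m • lam' :=
  KC.kappaLamC_eq_zero_iff (hD4_holds N) hm hζ lam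

theorem nsmul_kappaLamC0 {m : ℕ} (hm : 0 < m) {ζ : ℂˣ} (hζ : IsPrimitiveRoot ζ m)
    (lam : ↥(KC.Lam N)) : m • kappaLamC0 N hm hζ lam = 0 :=
  KC.nsmul_kappaLamC (hD4_holds N) hm hζ lam

/-- **(J3)+(J4) packaged for (J8), with (D4) discharged**: for every `m ≥ 1` there is a
homomorphism `κ : Lam N →+ Pic⁰(X₀(N)_ℂ)` with kernel `m • Lam N`, killed by `m`, and Hecke
equivariant; the only remaining hypothesis is `HThetaAt` (node (J4-alg)). -/
theorem exists_kummerHom_of_HTheta (hH : ∀ l : Nat.Primes, KH.HThetaAt N l) {m : ℕ}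
    (hm : 0 < m) :
    ∃ κ : ↥(Lam N) →+ Pic0 ℂ (DictC.Fc N),
      (∀ lam, κ lam = 0 ↔ ∃ lam' : ↥(Lam N), lam = m • lam') ∧ (∀ lam, m • κ lam = 0) ∧
      ∀ (l : Nat.Primes) (lam : ↥(Lam N)), κ (TLam N l lam) =
        (haveI : NeZero (l : ℕ) := ⟨l.2.ne_zero⟩; heckeOperatorAlong ℂ N l (κ lam)) :=
  KH.exists_kummerHom (hD4_holds N) hH hm

end Fermat.Agent.Jac
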