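import Fermat.Agent.Jac.EisTwist

/-!
# Program J, node (J1), part 2: Eisenstein series with a character of `Γ₀(N)`

`χ : Γ₀(N) →* ℂˣ` a character (not assumed to be of congruence type) with unitary values which is
trivial on the upper triangular elements `± T ^ n` of `Γ₀(N)`.

* `charWeight χ` : the weight function `v ↦ (χ γ_v)⁻¹` on the bottom rows `v` of elements `γ_v` of
  `Γ₀(N)` (and `0` elsewhere);
* `eisChar χ k = eisTwist (charWeight χ) k`, i.e. `∑_{Γ_∞ \ Γ₀(N)} χ(γ)⁻¹ j(γ, z) ^ (-k)` (each coset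
  counted twice);
* `eisChar_slash` : `eisChar χ k ∣[k] γ = χ γ • eisChar χ k` for `γ ∈ Γ₀(N)`;
* `eisChar_smul_apply` : `eisChar χ k (γ • z) = χ γ * denom γ z ^ k * eisChar χ k z`;
* `tendsto_eisChar_atImInfty` : `eisChar χ k → 2` at `i∞` for even `k ≥ 4`; `eisChar_ne_zero`;
* `isBoundedAtImInfty_eisChar_slash` : boundedness at all cusps;
* `eisCharPow` : if `χ ^ m = 1` then `eisChar χ k ^ m` is a `ModularForm (Gamma0 N) (m * k)`;
* `autFun χ k = eisChar χ k / eisChar 1 k`, `autFun_smul_apply` : `F_χ (γ z) = χ γ * F_χ z`;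
  `autFun_pow` : `F_χ ^ m` is the quotient of the modular forms `eisCharPow χ` and `eisCharPow 1`;
* `eisChar_slash_conj` : the transformation law of `eisChar χ k ∣[k] A` (other cusps).
-/

set_option autoImplicit false

open UpperHalfPlane EisensteinSeries Matrix ModularForm CongruenceSubgroup Filter Topology Complex
  Set

open scoped MatrixGroups Manifold

noncomputable section

namespace Fermat.Agent.Jac

/-- The bottom row of an element of `SL(2, ℤ)`. -/
def botRow (γ : SL(2, ℤ)) : Fin 2 → ℤ := (γ : Matrix (Fin 2) (Fin 2) ℤ) 1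

theorem botRow_mul (γ δ : SL(2, ℤ)) :
    botRow (γ * δ) = botRow γ ᵥ* (δ : Matrix (Fin 2) (Fin 2) ℤ) := by
  unfold botRow
  rw [Matrix.SpecialLinearGroup.coe_mul, Matrix.mul_apply_eq_vecMul]

theorem botRow_one : botRow 1 = ![0, 1] := by
  unfold botRow
  ext i
  fin_cases i <;> simp

theorem botRow_neg_one : botRow (-1) = ![0, -1] := by
  unfold botRow
  ext i
  fin_cases i <;> simp

variable {N : ℕ}

section Weight

variable (χ : ↥(Gamma0 N) →* ℂˣ)

/-- The weight function of a character: `(χ γ)⁻¹` on the bottom row of `γ ∈ Γ₀(N)`, zero on the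
vectors which are not such a bottom row. -/
def charWeight (v : Fin 2 → ℤ) : ℂ := by
  classical
  exact if h : ∃ γ : ↥(Gamma0 N), botRow γ = v then ((χ h.choose)⁻¹ : ℂˣ) else 0

variable {χ}

/-- Two elements of `Γ₀(N)` with the same bottom row have the same character value. -/
theorem char_eq_of_botRow_eq
    (hpar : ∀ γ : ↥(Gamma0 N), (γ : SL(2, ℤ)) 1 0 = 0 → χ γ = 1)
    {γ δ : ↥(Gamma0 N)} (h : botRow (γ : SL(2, ℤ)) = botRow (δ : SL(2, ℤ))) : χ γ = χ δ := by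
  have h1 : botRow ((γ * δ⁻¹ : ↥(Gamma0 N)) : SL(2, ℤ)) = ![0, 1] := by
    rw [Subgroup.coe_mul, botRow_mul, h, ← botRow_mul, Subgroup.coe_inv, mul_inv_cancel, botRow_one]
  have h2 : ((γ * δ⁻¹ : ↥(Gamma0 N)) : SL(2, ℤ)) 1 0 = 0 := by
    have := congrFun h1 0
    simpa [botRow] using this
  have h3 := hpar _ h2
  rw [map_mul, map_inv, mul_inv_eq_one] at h3
  exact h3

theorem charWeight_botRow
    (hpar : ∀ γ : ↥(Gamma0 N), (γ : SL(2, ℤ)) 1 0 = 0 → χ γ = 1) (γ : ↥(Gamma0 N)) :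
    charWeight χ (botRow (γ : SL(2, ℤ))) = ((χ γ)⁻¹ : ℂˣ) := by
  classical
  unfold charWeight
  have h : ∃ δ : ↥(Gamma0 N), botRow (δ : SL(2, ℤ)) = botRow (γ : SL(2, ℤ)) := ⟨γ, rfl⟩
  rw [dif_pos h, char_eq_of_botRow_eq hpar h.choose_spec]

theorem charWeight_of_not_exists {v : Fin 2 → ℤ}
    (h : ¬ ∃ γ : ↥(Gamma0 N), botRow (γ : SL(2, ℤ)) = v) : charWeight χ v = 0 := by
  classical
  unfold charWeight
  rw [dif_neg h]

/-- The weight function is bounded by `1` if `χ` is unitary. -/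
theorem isBddWeight_charWeight (hunit : ∀ γ, ‖((χ γ : ℂˣ) : ℂ)‖ = 1) :
    IsBddWeight (charWeight χ) 1 := by
  classical
  intro v
  unfold charWeight
  split_ifs with h
  · rw [Units.val_inv_eq_inv_val, norm_inv, hunit, inv_one]
  · simp

/-- The equivariance of the weight function under right multiplication by `Γ₀(N)`. -/
theorem charWeight_vecMul
    (hpar : ∀ γ : ↥(Gamma0 N), (γ : SL(2, ℤ)) 1 0 = 0 → χ γ = 1) (γ : ↥(Gamma0 N))
    (v : Fin 2 → ℤ) :
    charWeight χ (v ᵥ* ((γ : SL(2, ℤ)) : Matrix (Fin 2) (Fin 2) ℤ)) =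
      ((χ γ)⁻¹ : ℂˣ) * charWeight χ v := by
  by_cases h : ∃ δ : ↥(Gamma0 N), botRow (δ : SL(2, ℤ)) = v
  · obtain ⟨δ, rfl⟩ := h
    rw [← botRow_mul, ← Subgroup.coe_mul, charWeight_botRow hpar, charWeight_botRow hpar, map_mul,
      mul_inv, Units.val_mul, mul_comm]
  · rw [charWeight_of_not_exists h, mul_zero]
    apply charWeight_of_not_exists
    rintro ⟨δ, hδ⟩
    apply h
    refine ⟨δ * γ⁻¹, ?_⟩
    rw [Subgroup.coe_mul, botRow_mul, hδ, Subgroup.coe_inv, vecMul_vecMul,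
      ← Matrix.SpecialLinearGroup.coe_mul, mul_inv_cancel, Matrix.SpecialLinearGroup.coe_one,
      vecMul_one]

end Weight

section Series

variable (χ : ↥(Gamma0 N) →* ℂˣ)

/-- The Eisenstein series of weight `k` with character `χ` of `Γ₀(N)`. -/
def eisChar (k : ℤ) : ℍ → ℂ := eisTwist (charWeight χ) k

variable {χ}
variable (hunit : ∀ γ, ‖((χ γ : ℂˣ) : ℂ)‖ = 1)
  (hpar : ∀ γ : ↥(Gamma0 N), (γ : SL(2, ℤ)) 1 0 = 0 → χ γ = 1)

include hpar in
/-- **The transformation law** (slash form). -/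
theorem eisChar_slash (k : ℤ) (γ : ↥(Gamma0 N)) :
    eisChar χ k ∣[k] (γ : SL(2, ℤ)) = ((χ γ : ℂˣ) : ℂ) • eisChar χ k := by
  unfold eisChar
  rw [eisTwist_slash]
  have h : (fun v => charWeight χ (v ᵥ* (((γ : SL(2, ℤ))⁻¹ : SL(2, ℤ)) : Matrix (Fin 2) (Fin 2) ℤ)))
      = fun v => ((χ γ : ℂˣ) : ℂ) * charWeight χ v := by
    funext v
    have := charWeight_vecMul hpar γ⁻¹ v
    rw [Subgroup.coe_inv, map_inv, inv_inv] at this
    exact this
  rw [h]
  ext z
  simp only [eisTwist, Pi.smul_apply, smul_eq_mul, ← tsum_mul_left, mul_assoc]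

include hpar in
/-- **The transformation law** (pointwise form). -/
theorem eisChar_smul_apply (k : ℤ) (γ : ↥(Gamma0 N)) (z : ℍ) :
    eisChar χ k ((γ : SL(2, ℤ)) • z) =
      ((χ γ : ℂˣ) : ℂ) * denom (γ : SL(2, ℤ)) z ^ k * eisChar χ k z := by
  have h := congrFun (eisChar_slash hpar k γ) z
  rw [SL_slash_apply, Pi.smul_apply, smul_eq_mul, _root_.zpow_neg,
    mul_inv_eq_iff_eq_mul₀ (zpow_ne_zero _ (denom_ne_zero _ z))] at h
  rw [h]
  ring

include hunit in
theorem mdifferentiable_eisChar {k : ℤ} (hk : 3 ≤ k) : MDiff (eisChar χ k) :=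
  mdifferentiable_eisTwist (isBddWeight_charWeight hunit) hk

include hunit in
/-- Boundedness at all cusps. -/
theorem isBoundedAtImInfty_eisChar_slash {k : ℤ} (hk : 3 ≤ k) (A : SL(2, ℤ)) :
    IsBoundedAtImInfty (eisChar χ k ∣[k] A) := by
  unfold eisChar
  rw [eisTwist_slash]
  exact isBoundedAtImInfty_eisTwist ((isBddWeight_charWeight hunit).comp_vecMul _) hk

end Series

section ConstTerm

variable {χ : ↥(Gamma0 N) →* ℂˣ}
  (hunit : ∀ γ, ‖((χ γ : ℂˣ) : ℂ)‖ = 1)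
  (hpar : ∀ γ : ↥(Gamma0 N), (γ : SL(2, ℤ)) 1 0 = 0 → χ γ = 1)

/-- A bottom row with first entry `0` is `(0, ±1)`. -/
theorem botRow_eq_of_zero {γ : SL(2, ℤ)} (h : botRow γ 0 = 0) :
    botRow γ = ![0, 1] ∨ botRow γ = ![0, -1] := by
  have hdet := Matrix.det_fin_two (γ : Matrix (Fin 2) (Fin 2) ℤ)
  rw [γ.det_coe] at hdet
  have h10 : (γ : Matrix (Fin 2) (Fin 2) ℤ) 1 0 = 0 := h
  rw [h10, mul_zero, sub_zero] at hdet
  have h11 : (γ : Matrix (Fin 2) (Fin 2) ℤ) 1 1 = 1 ∨ (γ : Matrix (Fin 2) (Fin 2) ℤ) 1 1 = -1 := by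
    rcases Int.eq_one_or_neg_one_of_mul_eq_one' hdet.symm with ⟨-, h2⟩ | ⟨-, h2⟩
    · exact Or.inl h2
    · exact Or.inr h2
  rcases h11 with h2 | h2
  · left
    ext i
    fin_cases i
    · exact h
    · exact h2
  · right
    ext i
    fin_cases i
    · exact h
    · exact h2

theorem one_mem_Gamma0' : (1 : SL(2, ℤ)) ∈ Gamma0 N := (Gamma0 N).one_mem

theorem neg_one_mem_Gamma0 : (-1 : SL(2, ℤ)) ∈ Gamma0 N := by
  rw [Gamma0_mem]
  simp

include hpar in
/-- The constant term of `eisChar χ k` for even `k` is `2`. -/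
theorem eisTwistConst_charWeight {k : ℤ} (hk : Even k) :
    eisTwistConst (charWeight χ) k = 2 := by
  classical
  unfold eisTwistConst
  have hne : (![0, 1] : Fin 2 → ℤ) ≠ ![0, -1] := by
    intro h
    have := congrFun h 1
    simp at this
  rw [tsum_eq_sum (s := {![0, 1], ![0, -1]})]
  · rw [Finset.sum_pair hne]
    have e1 : charWeight χ ![0, 1] = 1 := by
      have := charWeight_botRow hpar (1 : ↥(Gamma0 N))
      rw [Subgroup.coe_one, botRow_one, map_one, inv_one, Units.val_one] at this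
      exact this
    have e2 : charWeight χ ![0, -1] = 1 := by
      have h1 := charWeight_botRow hpar (⟨-1, neg_one_mem_Gamma0⟩ : ↥(Gamma0 N))
      have h2 : χ ⟨-1, neg_one_mem_Gamma0⟩ = 1 := by
        apply hpar
        change ((-1 : SL(2, ℤ)) : Matrix (Fin 2) (Fin 2) ℤ) 1 0 = 0
        rw [Matrix.SpecialLinearGroup.coe_neg, Matrix.SpecialLinearGroup.coe_one]
        simp
      rw [h2, inv_one, Units.val_one] at h1
      simpa [botRow_neg_one] using h1
    simp only [Matrix.cons_val_zero, if_true, Matrix.cons_val_one, e1, e2, one_mul]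
    have h3 : ((-1 : ℤ) : ℂ) ^ (-k) = 1 := by
      rw [Int.cast_neg, Int.cast_one]
      exact hk.neg.neg_one_zpow
    rw [h3]
    simp
    norm_num
  · intro v hv
    split_ifs with h0
    · by_cases h : ∃ δ : ↥(Gamma0 N), botRow (δ : SL(2, ℤ)) = v
      · exfalso
        obtain ⟨δ, rfl⟩ := h
        apply hv
        rcases botRow_eq_of_zero h0 with h1 | h1 <;> simp [h1]
      · rw [charWeight_of_not_exists h, zero_mul]
    · rfl

include hunit hpar in
/-- **`eisChar χ k` tends to `2` at `i∞`** for even `k ≥ 4`. -/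
theorem tendsto_eisChar_atImInfty {k : ℤ} (hk : 3 ≤ k) (hk2 : Even k) :
    Tendsto (eisChar χ k) atImInfty (𝓝 2) := by
  have h := tendsto_eisTwist_atImInfty (isBddWeight_charWeight hunit) hk (w := charWeight χ)
  rwa [eisTwistConst_charWeight hpar hk2] at h

include hunit hpar in
/-- The Eisenstein series with character is not identically zero. -/
theorem exists_eisChar_ne_zero {k : ℤ} (hk : 3 ≤ k) (hk2 : Even k) :
    ∃ z : ℍ, eisChar χ k z ≠ 0 := by
  have h := (tendsto_eisChar_atImInfty hunit hpar hk hk2).eventually_ne (two_ne_zero)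
  exact h.exists

end ConstTerm

section Power

/-- Slash action of `SL(2, ℤ)` on powers. -/
theorem pow_slash_SL2 (f : ℍ → ℂ) (k : ℤ) (m : ℕ) (A : SL(2, ℤ)) :
    (f ^ m) ∣[(m : ℤ) * k] A = (f ∣[k] A) ^ m := by
  induction m with
  | zero =>
    rw [pow_zero, pow_zero, Nat.cast_zero, zero_mul]
    exact is_invariant_one A
  | succ m ih =>
    rw [pow_succ, pow_succ, ← ih]
    have : ((m + 1 : ℕ) : ℤ) * k = (m : ℤ) * k + k := by push_cast; ring
    rw [this, mul_slash_SL2]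

theorem isBoundedAtImInfty_pow {f : ℍ → ℂ} (hf : IsBoundedAtImInfty f) (m : ℕ) :
    IsBoundedAtImInfty (f ^ m) := by
  induction m with
  | zero =>
    rw [pow_zero]
    exact Filter.const_boundedAtFilter _ (1 : ℂ)
  | succ m ih =>
    rw [pow_succ]
    exact ih.mul hf

theorem mdifferentiable_pow {f : ℍ → ℂ} (hf : MDiff f) (m : ℕ) : MDiff (f ^ m) := by
  induction m with
  | zero =>
    rw [pow_zero]
    exact mdifferentiable_const
  | succ m ih =>
    rw [pow_succ]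
    exact ih.mul hf

end Power

section ModForm

variable {χ : ↥(Gamma0 N) →* ℂˣ}
  (hunit : ∀ γ, ‖((χ γ : ℂˣ) : ℂ)‖ = 1)
  (hpar : ∀ γ : ↥(Gamma0 N), (γ : SL(2, ℤ)) 1 0 = 0 → χ γ = 1)

/-- **The `m`-th power of the Eisenstein series with character is a modular form** of weight
`m * k` for `Γ₀(N)` if `χ ^ m = 1`. -/
def eisCharPow [NeZero N] {k : ℤ} (hk : 3 ≤ k) {m : ℕ} (hm : ∀ γ, χ γ ^ m = 1) :
    ModularForm (Gamma0 N) ((m : ℤ) * k) where
  toFun := eisChar χ k ^ m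
  slash_action_eq' A hA := by
    obtain ⟨A, (hA : A ∈ Gamma0 N), rfl⟩ := hA
    change (eisChar χ k ^ m) ∣[(m : ℤ) * k] A = _
    rw [pow_slash_SL2, eisChar_slash hpar k ⟨A, hA⟩, smul_pow,
      ← Units.val_pow_eq_pow_val, hm, Units.val_one, one_smul]
  holo' := mdifferentiable_pow (mdifferentiable_eisChar hunit hk) m
  bdd_at_cusps' {c} hc := by
    rw [Subgroup.IsArithmetic.isCusp_iff_isCusp_SL2Z] at hc
    rw [OnePoint.isBoundedAt_iff_forall_SL2Z hc]
    intro γ _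
    rw [pow_slash_SL2]
    exact isBoundedAtImInfty_pow (isBoundedAtImInfty_eisChar_slash hunit hk γ) m

@[simp] theorem coe_eisCharPow [NeZero N] {k : ℤ} (hk : 3 ≤ k) {m : ℕ} (hm : ∀ γ, χ γ ^ m = 1) :
    ⇑(eisCharPow hunit hpar hk hm) = eisChar χ k ^ m := rfl

end ModForm

section Quotient

variable {χ : ↥(Gamma0 N) →* ℂˣ}
  (hpar : ∀ γ : ↥(Gamma0 N), (γ : SL(2, ℤ)) 1 0 = 0 → χ γ = 1)

/-- The multiplicative automorphic function `F_χ = E_{k,χ} / E_{k,1}`. -/
def autFun (χ : ↥(Gamma0 N) →* ℂˣ) (k : ℤ) : ℍ → ℂ :=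
  eisChar χ k / eisChar (1 : ↥(Gamma0 N) →* ℂˣ) k

theorem autFun_apply (χ : ↥(Gamma0 N) →* ℂˣ) (k : ℤ) (z : ℍ) :
    autFun χ k z = eisChar χ k z / eisChar (1 : ↥(Gamma0 N) →* ℂˣ) k z := rfl

include hpar in
/-- **`F_χ (γ z) = χ(γ) F_χ(z)`** for `γ ∈ Γ₀(N)`. -/
theorem autFun_smul_apply (k : ℤ) (γ : ↥(Gamma0 N)) (z : ℍ) :
    autFun χ k ((γ : SL(2, ℤ)) • z) = ((χ γ : ℂˣ) : ℂ) * autFun χ k z := by
  have hd : denom (γ : SL(2, ℤ)) z ^ k ≠ 0 := zpow_ne_zero _ (denom_ne_zero _ z)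
  rw [autFun_apply, autFun_apply, eisChar_smul_apply hpar,
    eisChar_smul_apply (χ := (1 : ↥(Gamma0 N) →* ℂˣ)) (fun _ _ => rfl), MonoidHom.one_apply,
    Units.val_one, one_mul, mul_assoc, mul_div_assoc, mul_div_mul_left _ _ hd]

/-- `F_χ ^ m` is the quotient of the two modular forms `E_{k,χ} ^ m` and `E_{k,1} ^ m`. -/
theorem autFun_pow (χ : ↥(Gamma0 N) →* ℂˣ) (k : ℤ) (m : ℕ) :
    autFun χ k ^ m = eisChar χ k ^ m / eisChar (1 : ↥(Gamma0 N) →* ℂˣ) k ^ m := by
  unfold autFun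
  rw [div_pow]

include hpar in
/-- The behaviour at the other cusps: `E ∣ A` transforms under `A⁻¹ Γ₀(N) A` by `χ`. -/
theorem eisChar_slash_conj (k : ℤ) (A : SL(2, ℤ)) (γ : ↥(Gamma0 N)) :
    (eisChar χ k ∣[k] A) ∣[k] (A⁻¹ * (γ : SL(2, ℤ)) * A) =
      ((χ γ : ℂˣ) : ℂ) • (eisChar χ k ∣[k] A) := by
  rw [← SlashAction.slash_mul, mul_assoc, mul_inv_cancel_left, SlashAction.slash_mul,
    eisChar_slash hpar, SL_smul_slash]

end Quotient

end Fermat.Agent.Jac
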