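import Mathlib

/-!
# Program J, node (J1), part 1: Eisenstein series with bounded weights

For a bounded weight function `w : (Fin 2 → ℤ) → ℂ` the *twisted Eisenstein series*
`eisTwist w k z = ∑' v, w v * (v 0 * z + v 1) ^ (-k)` (sum over all of `ℤ²`; the term `v = 0`
vanishes for `k ≠ 0`).

* `summable_eisTwist` : absolute convergence for `3 ≤ k`;
* `eisTwist_slash` : `eisTwist w k ∣[k] γ = eisTwist (fun v => w (v ᵥ* γ⁻¹)) k` for `γ ∈ SL(2, ℤ)`;
* `mdifferentiable_eisTwist` : holomorphy;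
* `isBoundedAtImInfty_eisTwist` : boundedness at `i∞` (hence, by `eisTwist_slash`, at all cusps);
* `tendsto_eisTwist_atImInfty` : the limit at `i∞` is `∑' d, w ![0, d] * d ^ (-k)`.
-/

set_option autoImplicit false

open UpperHalfPlane EisensteinSeries Matrix ModularForm CongruenceSubgroup Filter Topology Complex
  Set

open scoped MatrixGroups Manifold

noncomputable section

namespace Fermat.Agent.Jac

/-- The Eisenstein series with weight function `w`. -/
def eisTwist (w : (Fin 2 → ℤ) → ℂ) (k : ℤ) (z : ℍ) : ℂ :=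
  ∑' v : Fin 2 → ℤ, w v * eisSummand k v z

/-- `w` is bounded by `C`. -/
def IsBddWeight (w : (Fin 2 → ℤ) → ℂ) (C : ℝ) : Prop := ∀ v, ‖w v‖ ≤ C

section Summable

variable {w : (Fin 2 → ℤ) → ℂ} {C : ℝ}

theorem IsBddWeight.nonneg (hw : IsBddWeight w C) : 0 ≤ C :=
  (norm_nonneg _).trans (hw 0)

theorem summable_norm_eisTwist (hw : IsBddWeight w C) {k : ℤ} (hk : 3 ≤ k) (z : ℍ) :
    Summable fun v : Fin 2 → ℤ => ‖w v * eisSummand k v z‖ := by
  refine Summable.of_nonneg_of_le (fun _ => norm_nonneg _) (fun v => ?_)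
    ((summable_norm_eisSummand hk z).mul_left C)
  rw [norm_mul]
  exact mul_le_mul_of_nonneg_right (hw v) (norm_nonneg _)

theorem summable_eisTwist (hw : IsBddWeight w C) {k : ℤ} (hk : 3 ≤ k) (z : ℍ) :
    Summable fun v : Fin 2 → ℤ => w v * eisSummand k v z :=
  (summable_norm_eisTwist hw hk z).of_norm

theorem norm_eisTwist_le (hw : IsBddWeight w C) {k : ℤ} (hk : 3 ≤ k) (z : ℍ) :
    ‖eisTwist w k z‖ ≤ C * ∑' v : Fin 2 → ℤ, ‖eisSummand k v z‖ := by
  unfold eisTwist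
  refine (norm_tsum_le_tsum_norm (summable_norm_eisTwist hw hk z)).trans ?_
  rw [← tsum_mul_left]
  refine (summable_norm_eisTwist hw hk z).tsum_le_tsum (fun v => ?_)
    ((summable_norm_eisSummand hk z).mul_left C)
  rw [norm_mul]
  exact mul_le_mul_of_nonneg_right (hw v) (norm_nonneg _)

end Summable

section Slash

/-- Right multiplication by `γ ∈ SL(2, ℤ)` as a permutation of `ℤ²`. -/
def vecMulEquiv (γ : SL(2, ℤ)) : (Fin 2 → ℤ) ≃ (Fin 2 → ℤ) where
  toFun v := v ᵥ* γ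
  invFun v := v ᵥ* ((γ⁻¹ : SL(2, ℤ)) : Matrix (Fin 2) (Fin 2) ℤ)
  left_inv v := by
    change (v ᵥ* (γ : Matrix (Fin 2) (Fin 2) ℤ)) ᵥ* ((γ⁻¹ : SL(2, ℤ)) : Matrix (Fin 2) (Fin 2) ℤ) = v
    rw [vecMul_vecMul, ← Matrix.SpecialLinearGroup.coe_mul, mul_inv_cancel,
      Matrix.SpecialLinearGroup.coe_one, vecMul_one]
  right_inv v := by
    change (v ᵥ* ((γ⁻¹ : SL(2, ℤ)) : Matrix (Fin 2) (Fin 2) ℤ)) ᵥ* (γ : Matrix (Fin 2) (Fin 2) ℤ) = v
    rw [vecMul_vecMul, ← Matrix.SpecialLinearGroup.coe_mul, inv_mul_cancel,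
      Matrix.SpecialLinearGroup.coe_one, vecMul_one]

@[simp] theorem vecMulEquiv_apply (γ : SL(2, ℤ)) (v : Fin 2 → ℤ) : vecMulEquiv γ v = v ᵥ* γ := rfl

@[simp] theorem vecMulEquiv_symm_apply (γ : SL(2, ℤ)) (v : Fin 2 → ℤ) :
    (vecMulEquiv γ).symm v = v ᵥ* ((γ⁻¹ : SL(2, ℤ)) : Matrix (Fin 2) (Fin 2) ℤ) := rfl

/-- The slash action of `SL(2, ℤ)` on twisted Eisenstein series: the weight is reindexed. -/
theorem eisTwist_slash (w : (Fin 2 → ℤ) → ℂ) (k : ℤ) (γ : SL(2, ℤ)) :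
    eisTwist w k ∣[k] γ = eisTwist (fun v => w (v ᵥ* ((γ⁻¹ : SL(2, ℤ)) : Matrix (Fin 2) (Fin 2) ℤ))) k := by
  ext1 z
  simp_rw [SL_slash_apply, _root_.zpow_neg,
    mul_inv_eq_iff_eq_mul₀ (zpow_ne_zero _ <| denom_ne_zero _ z), eisTwist,
    eisSummand_SL2_apply, ← tsum_mul_right]
  rw [← (vecMulEquiv γ).tsum_eq (fun u => w (u ᵥ* ((γ⁻¹ : SL(2, ℤ)) : Matrix (Fin 2) (Fin 2) ℤ)) *
    eisSummand k u z * denom γ z ^ k)]
  refine tsum_congr fun v => ?_
  simp only [vecMulEquiv_apply]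
  rw [vecMul_vecMul, ← Matrix.SpecialLinearGroup.coe_mul, mul_inv_cancel,
    Matrix.SpecialLinearGroup.coe_one, vecMul_one]
  ring

theorem IsBddWeight.comp_vecMul {w : (Fin 2 → ℤ) → ℂ} {C : ℝ} (hw : IsBddWeight w C)
    (A : Matrix (Fin 2) (Fin 2) ℤ) : IsBddWeight (fun v => w (v ᵥ* A)) C :=
  fun _ => hw _

end Slash

section Holo

variable {w : (Fin 2 → ℤ) → ℂ} {C : ℝ}

/-- The sum defining a twisted Eisenstein series converges locally uniformly on `ℍ`. -/
theorem eisTwist_tendstoLocallyUniformly (hw : IsBddWeight w C) {k : ℤ} (hk : 3 ≤ k) :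
    TendstoLocallyUniformly (fun (s : Finset (Fin 2 → ℤ)) ↦ (∑ x ∈ s, w x * eisSummand k x ·))
      (eisTwist w k ·) Filter.atTop := by
  have hk' : (2 : ℝ) < k := by norm_cast
  have p_sum : Summable fun x : Fin 2 → ℤ ↦ ‖x‖ ^ (-k) :=
    mod_cast (summable_one_div_norm_rpow hk')
  simp only [tendstoLocallyUniformly_iff_forall_isCompact, eisTwist]
  intro K hK
  obtain ⟨A, B, hB, HABK⟩ := subset_verticalStrip_of_isCompact hK
  refine (tendstoUniformlyOn_tsum
    (hu := (p_sum.mul_left <| r ⟨⟨A, B⟩, hB⟩ ^ (-k : ℝ)).mul_left C)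
    (fun p z hz ↦ ?_)).mono HABK
  rw [norm_mul]
  refine mul_le_mul (hw p) ?_ (norm_nonneg _) hw.nonneg
  simpa only [eisSummand, one_div, ← _root_.zpow_neg, norm_zpow, ← Real.rpow_intCast,
    Int.cast_neg] using summand_bound_of_mem_verticalStrip (by positivity) p hB hz

lemma eisTwist_tendstoLocallyUniformlyOn (hw : IsBddWeight w C) {k : ℤ} (hk : 3 ≤ k) :
    TendstoLocallyUniformlyOn (fun (s : Finset (Fin 2 → ℤ)) ↦
      ↑ₕ(fun (z : ℍ) ↦ ∑ x ∈ s, w x * eisSummand k x z)) (↑ₕ(eisTwist w k))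
          Filter.atTop {z : ℂ | 0 < z.im} := by
  rw [← upperHalfPlaneSet, ← range_coe, ← image_univ]
  apply TendstoLocallyUniformlyOn.comp (s := ⊤) _ _ _ (OpenPartialHomeomorph.continuousOn_symm _)
  · simp only [Set.top_eq_univ, tendstoLocallyUniformlyOn_univ]
    apply eisTwist_tendstoLocallyUniformly hw hk
  · simp only [IsOpenEmbedding.toOpenPartialHomeomorph_target, Set.top_eq_univ, mapsTo_range_iff,
    Set.mem_univ, forall_const]

/-- Twisted Eisenstein series are holomorphic. -/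
theorem mdifferentiable_eisTwist (hw : IsBddWeight w C) {k : ℤ} (hk : 3 ≤ k) :
    MDiff (eisTwist w k) := by
  intro τ
  suffices DifferentiableAt ℂ (↑ₕ(eisTwist w k)) τ.1 by
    convert!
      MDifferentiableAt.comp τ (DifferentiableAt.mdifferentiableAt this) τ.mdifferentiable_coe
    exact funext fun z ↦ (comp_ofComplex (eisTwist w k) z).symm
  refine DifferentiableOn.differentiableAt ?_ (isOpen_upperHalfPlaneSet.mem_nhds τ.2)
  refine (eisTwist_tendstoLocallyUniformlyOn hw hk).differentiableOn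
    (Eventually.of_forall fun s ↦ ?_) isOpen_upperHalfPlaneSet
  have : (↑ₕ(fun (z : ℍ) ↦ ∑ x ∈ s, w x * eisSummand k x z)) =
      fun z : ℂ => ∑ x ∈ s, w x * (↑ₕ(eisSummand k x)) z := by
    ext z
    simp
  rw [this]
  exact DifferentiableOn.fun_sum fun x _ ↦
    (eisSummand_extension_differentiableOn k x).const_mul (w x)

end Holo

section Translate

/-- `eisSummand` under the translation `T ^ n`. -/
theorem eisSummand_T_zpow_smul (k : ℤ) (n : ℤ) (v : Fin 2 → ℤ) (z : ℍ) :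
    eisSummand k v (ModularGroup.T ^ n • z) = eisSummand k (v ᵥ* (ModularGroup.T ^ n : SL(2, ℤ))) z := by
  rw [eisSummand_SL2_apply]
  have h1 : denom (ModularGroup.T ^ n : SL(2, ℤ)) z = 1 := by
    rw [ModularGroup.denom_apply]
    have h10 : (ModularGroup.T ^ n : SL(2, ℤ)) 1 0 = 0 := by
      rw [ModularGroup.coe_T_zpow]
      simp
    have h11 : (ModularGroup.T ^ n : SL(2, ℤ)) 1 1 = 1 := by
      rw [ModularGroup.coe_T_zpow]
      simp
    rw [h10, h11]
    simp
  rw [h1, _root_.one_zpow, one_mul]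

theorem vecMul_T_zpow_zero (n : ℤ) (v : Fin 2 → ℤ) :
    (v ᵥ* ((ModularGroup.T ^ n : SL(2, ℤ)) : Matrix (Fin 2) (Fin 2) ℤ)) 0 = v 0 := by
  rw [ModularGroup.coe_T_zpow]
  simp [vecMul, vecHead]

/-- The sum of the norms of the summands with first coordinate satisfying `p` is invariant under
translation by integers. -/
theorem tsum_norm_eisSummand_T_zpow (k : ℤ) (n : ℤ) (z : ℍ) (p : ℤ → Prop) [DecidablePred p] :
    ∑' v : Fin 2 → ℤ, (if p (v 0) then ‖eisSummand k v (ModularGroup.T ^ n • z)‖ else 0) =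
      ∑' v : Fin 2 → ℤ, (if p (v 0) then ‖eisSummand k v z‖ else 0) := by
  rw [← (vecMulEquiv (ModularGroup.T ^ n)).tsum_eq
    (fun v : Fin 2 → ℤ => if p (v 0) then ‖eisSummand k v z‖ else 0)]
  refine tsum_congr fun v => ?_
  rw [vecMulEquiv_apply, vecMul_T_zpow_zero, eisSummand_T_zpow_smul]

end Translate

section Bounded

variable {w : (Fin 2 → ℤ) → ℂ} {C : ℝ}

/-- The point `1 + 2 i`, for the constant `r ⟨1 + 2i⟩` of the strip `|re| ≤ 1`, `2 ≤ im`. -/
def stripPt : ℍ := ⟨⟨1, 2⟩, by simp⟩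

/-- The uniform majorant on the strip `|re z| ≤ 1`, `2 ≤ im z`. -/
theorem norm_eisSummand_le_of_mem_strip {k : ℤ} (hk : 0 ≤ k) (v : Fin 2 → ℤ) {z : ℍ}
    (hz : z ∈ verticalStrip 1 2) :
    ‖eisSummand k v z‖ ≤ r stripPt ^ (-k) * ‖v‖ ^ (-k) := by
  simp_rw [eisSummand, norm_zpow]
  have h := summand_bound_of_mem_verticalStrip (k := (k : ℝ)) (by exact_mod_cast hk) v two_pos hz
  exact_mod_cast h

/-- Every point can be translated into the strip `|re| ≤ 1` without changing the imaginary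
part. -/
theorem exists_T_zpow_smul_mem_strip (z : ℍ) (hz : 2 ≤ z.im) :
    ∃ n : ℤ, ModularGroup.T ^ n • z ∈ verticalStrip 1 2 ∧ (ModularGroup.T ^ n • z).im = z.im := by
  obtain ⟨n, hn⟩ := ModularGroup_T_zpow_mem_verticalStrip z (N := 1) one_pos
  refine ⟨(1 : ℕ) * n, verticalStrip_anti_right _ hz (by simpa using hn), ?_⟩
  rw [modular_T_zpow_smul]
  simp

/-- **Twisted Eisenstein series are bounded at `i∞`.** -/
theorem isBoundedAtImInfty_eisTwist (hw : IsBddWeight w C) {k : ℤ} (hk : 3 ≤ k) :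
    IsBoundedAtImInfty (eisTwist w k) := by
  have hk' : (2 : ℝ) < k := by norm_cast
  have hk0 : 0 ≤ k := by omega
  have hsum : Summable fun v : Fin 2 → ℤ => r stripPt ^ (-k) * ‖v‖ ^ (-k) :=
    mod_cast (summable_one_div_norm_rpow hk').mul_left (r stripPt ^ (-k))
  rw [UpperHalfPlane.isBoundedAtImInfty_iff]
  refine ⟨C * ∑' v : Fin 2 → ℤ, r stripPt ^ (-k) * ‖v‖ ^ (-k), 2, fun z hz => ?_⟩
  refine (norm_eisTwist_le hw hk z).trans (mul_le_mul_of_nonneg_left ?_ hw.nonneg)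
  obtain ⟨n, hn, -⟩ := exists_T_zpow_smul_mem_strip z hz
  have h1 := tsum_norm_eisSummand_T_zpow k n z (fun _ => True)
  simp only [if_true] at h1
  rw [← h1]
  exact (summable_norm_eisSummand hk _).tsum_le_tsum
    (fun v => norm_eisSummand_le_of_mem_strip hk0 v hn) hsum

end Bounded

section Limit

variable {w : (Fin 2 → ℤ) → ℂ} {C : ℝ}

/-- The sum of the norms of the summands with `v 0 ≠ 0`. -/
def tailSum (k : ℤ) (z : ℍ) : ℝ :=
  ∑' v : Fin 2 → ℤ, (if v 0 ≠ 0 then ‖eisSummand k v z‖ else 0)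

theorem tailSum_nonneg (k : ℤ) (z : ℍ) : 0 ≤ tailSum k z :=
  tsum_nonneg fun v => by split_ifs <;> simp

theorem tailSum_T_zpow_smul (k n : ℤ) (z : ℍ) :
    tailSum k (ModularGroup.T ^ n • z) = tailSum k z :=
  tsum_norm_eisSummand_T_zpow k n z (fun c => c ≠ 0)

/-- A summand with `v 0 ≠ 0` is bounded by `(im z) ^ (-k)`. -/
theorem norm_eisSummand_le_im_zpow {k : ℤ} (hk : 0 ≤ k) {v : Fin 2 → ℤ} (hv : v 0 ≠ 0) (z : ℍ) :
    ‖eisSummand k v z‖ ≤ z.im ^ (-k) := by
  rw [eisSummand, norm_zpow, _root_.zpow_neg, _root_.zpow_neg]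
  have him : z.im ≤ ‖(v 0 : ℂ) * (z : ℂ) + v 1‖ := by
    have h1 : |((v 0 : ℂ) * (z : ℂ) + v 1).im| ≤ ‖(v 0 : ℂ) * (z : ℂ) + v 1‖ :=
      Complex.abs_im_le_norm _
    have h2 : ((v 0 : ℂ) * (z : ℂ) + v 1).im = (v 0 : ℝ) * z.im := by simp
    rw [h2, abs_mul, abs_of_pos z.im_pos] at h1
    have h3 : (1 : ℝ) ≤ |(v 0 : ℝ)| := by
      have : (1 : ℤ) ≤ |v 0| := Int.one_le_abs hv
      exact_mod_cast this
    calc z.im = 1 * z.im := (one_mul _).symm
      _ ≤ |(v 0 : ℝ)| * z.im := mul_le_mul_of_nonneg_right h3 z.im_pos.le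
      _ ≤ _ := h1
  lift k to ℕ using hk
  simp only [zpow_natCast]
  exact inv_anti₀ (pow_pos z.im_pos _) (pow_le_pow_left₀ z.im_pos.le him _)

theorem tendsto_tailSum_strip {k : ℤ} (hk : 3 ≤ k) :
    Tendsto (tailSum k) (atImInfty ⊓ 𝓟 (verticalStrip 1 2)) (𝓝 0) := by
  have hk' : (2 : ℝ) < k := by norm_cast
  have hk0 : 0 ≤ k := by omega
  have hsum : Summable fun v : Fin 2 → ℤ => r stripPt ^ (-k) * ‖v‖ ^ (-k) :=
    mod_cast (summable_one_div_norm_rpow hk').mul_left (r stripPt ^ (-k))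
  have h0 : (0 : ℝ) = ∑' _ : Fin 2 → ℤ, (0 : ℝ) := by simp
  rw [h0]
  refine tendsto_tsum_of_dominated_convergence hsum (fun v => ?_) ?_
  · by_cases hv : v 0 ≠ 0
    · have e : (fun z : ℍ => if v 0 ≠ 0 then ‖eisSummand k v z‖ else 0) =
          fun z => ‖eisSummand k v z‖ := by
        funext z
        rw [if_pos hv]
      change Tendsto (fun z : ℍ => if v 0 ≠ 0 then ‖eisSummand k v z‖ else 0) _ _
      rw [e]
      have h1 : Tendsto (fun z : ℍ => z.im ^ (-k)) atImInfty (𝓝 0) :=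
        (tendsto_zpow_atTop_zero (by omega : -k < 0)).comp tendsto_comap
      refine squeeze_zero (fun z => norm_nonneg _) (fun z => norm_eisSummand_le_im_zpow hk0 hv z)
        (h1.mono_left inf_le_left)
    · have e : (fun z : ℍ => if v 0 ≠ 0 then ‖eisSummand k v z‖ else 0) = fun _ => (0 : ℝ) := by
        funext z
        rw [if_neg hv]
      change Tendsto (fun z : ℍ => if v 0 ≠ 0 then ‖eisSummand k v z‖ else 0) _ _
      rw [e]
      exact tendsto_const_nhds
  · rw [eventually_inf_principal]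
    refine Eventually.of_forall fun z hz v => ?_
    split_ifs
    · rw [norm_norm]
      exact norm_eisSummand_le_of_mem_strip hk0 v hz
    · rw [norm_zero]
      have : 0 ≤ r stripPt ^ (-k) := zpow_nonneg (r_pos _).le _
      exact mul_nonneg this (zpow_nonneg (norm_nonneg _) _)

theorem tendsto_tailSum_atImInfty {k : ℤ} (hk : 3 ≤ k) :
    Tendsto (tailSum k) atImInfty (𝓝 0) := by
  rw [tendsto_order]
  refine ⟨fun a ha => Eventually.of_forall fun z => ha.trans_le (tailSum_nonneg k z),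
    fun a ha => ?_⟩
  have h1 := (tendsto_order.mp (tendsto_tailSum_strip hk)).2 a ha
  rw [eventually_inf_principal, Filter.Eventually, atImInfty_mem] at h1
  obtain ⟨A, hA⟩ := h1
  rw [Filter.Eventually, atImInfty_mem]
  refine ⟨max A 2, fun z hz => ?_⟩
  obtain ⟨n, hn, him⟩ := exists_T_zpow_smul_mem_strip z ((le_max_right _ _).trans hz)
  have h2 := hA (ModularGroup.T ^ n • z) (by rw [him]; exact (le_max_left _ _).trans hz) hn
  simp only [Set.mem_ofPred_eq] at h2 ⊢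
  rwa [tailSum_T_zpow_smul] at h2

/-- The constant term of a twisted Eisenstein series. -/
def eisTwistConst (w : (Fin 2 → ℤ) → ℂ) (k : ℤ) : ℂ :=
  ∑' v : Fin 2 → ℤ, if v 0 = 0 then w v * ((v 1 : ℤ) : ℂ) ^ (-k) else 0

theorem norm_eisTwist_sub_const_le (hw : IsBddWeight w C) {k : ℤ} (hk : 3 ≤ k) (z : ℍ) :
    ‖eisTwist w k z - eisTwistConst w k‖ ≤ C * tailSum k z := by
  set f : (Fin 2 → ℤ) → ℂ := fun v => w v * eisSummand k v z with hf
  set f₀ : (Fin 2 → ℤ) → ℂ := fun v => if v 0 = 0 then w v * ((v 1 : ℤ) : ℂ) ^ (-k) else 0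
    with hf₀def
  set f₁ : (Fin 2 → ℤ) → ℂ := fun v => if v 0 ≠ 0 then f v else 0 with hf₁def
  have hsplit : ∀ v, f v = f₀ v + f₁ v := fun v => by
    by_cases hv : v 0 = 0
    · simp [f₀, f₁, hv, f, eisSummand]
    · simp [f₀, f₁, hv]
  have hfs : Summable f := summable_eisTwist hw hk z
  have hf₁n : Summable fun v => ‖f₁ v‖ := by
    refine Summable.of_nonneg_of_le (fun v => norm_nonneg _) (fun v => ?_)
      (summable_norm_eisTwist hw hk z)
    simp only [f₁]
    split_ifs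
    · exact le_rfl
    · rw [norm_zero]
      exact norm_nonneg _
  have hf₁ : Summable f₁ := hf₁n.of_norm
  have hf₀ : Summable f₀ := by
    have : f₀ = fun v => f v - f₁ v := by
      funext v
      rw [hsplit v]
      ring
    rw [this]
    exact hfs.sub hf₁
  have h1 : eisTwist w k z = eisTwistConst w k + ∑' v, f₁ v := by
    unfold eisTwist eisTwistConst
    rw [← hf₀.tsum_add hf₁]
    exact tsum_congr hsplit
  rw [h1, add_sub_cancel_left]
  refine (norm_tsum_le_tsum_norm hf₁n).trans ?_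
  unfold tailSum
  rw [← tsum_mul_left]
  refine hf₁n.tsum_le_tsum (fun v => ?_) ?_
  · simp only [f₁]
    split_ifs with h
    · rw [norm_mul]
      exact mul_le_mul_of_nonneg_right (hw v) (norm_nonneg _)
    · simp
  · refine Summable.mul_left C ?_
    refine Summable.of_nonneg_of_le (fun v => by split_ifs <;> simp) (fun v => ?_)
      (summable_norm_eisSummand hk z)
    split_ifs <;> simp

/-- **The limit of a twisted Eisenstein series at `i∞`** is its constant term. -/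
theorem tendsto_eisTwist_atImInfty (hw : IsBddWeight w C) {k : ℤ} (hk : 3 ≤ k) :
    Tendsto (eisTwist w k) atImInfty (𝓝 (eisTwistConst w k)) := by
  rw [tendsto_iff_norm_sub_tendsto_zero]
  refine squeeze_zero (fun _ => norm_nonneg _) (fun z => norm_eisTwist_sub_const_le hw hk z) ?_
  simpa using (tendsto_tailSum_atImInfty hk).const_mul C

end Limit

end Fermat.Agent.Jac
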