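import Mathlib
import Fermat.Agent.Jac.HTheta
import Fermat.Agent.Jac.TransposeNorm
import Fermat.Agent.Jac.HeckeRepsDecomp

/-!
# Program J, node (J4-alg): `KH.HThetaAt N l` for every prime `l` (unconditional)

Instances of `HTheta.heckeProdMer_thetaMer_of_decomp` for the two Hecke coset systems
`TReps` (`ℓ ∤ N`, `ℓ + 1` representatives) and `UStarReps` (`ℓ ∣ N`, `ℓ` representatives), in the
exact shape consumed by `Jac/KappaHecke.lean` (`KH.HTheta`, `KH.HThetaAt`).
-/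

set_option autoImplicit false
set_option linter.unusedSectionVars false
set_option linter.style.haveILetI false

open UpperHalfPlane ModularForm CongruenceSubgroup Matrix.SpecialLinearGroup
open AlgebraicCurve ModularCurve IntermediateField
open scoped MatrixGroups ModularForm Manifold

noncomputable section

namespace Fermat.Agent.Jac.HTheta

open Fermat.Agent.X0 (HolH MerH)
open Fermat.Agent.Jac Fermat.Agent.Hecke.Gen

/-- The degree of `α : F_N → F_{Nℓ}` over `ℂ` is `ℓ` for a prime `ℓ ∣ N`. -/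
theorem finrankAlong_heckeAlphaC_of_dvd (N ℓ : ℕ) [NeZero N] [NeZero ℓ] (hℓ : ℓ.Prime)
    (hℓN : ℓ ∣ N) : finrankAlong ℂ (heckeAlphaBar ℂ N ℓ) = ℓ := by
  have h1 := Fermat.Agent.Hecke.Deg.finrank_mul_finrankAlong (heckeAlphaBar ℂ N ℓ) (DictC.jBar N)
  rw [Fermat.Agent.ES.Gen.heckeAlphaC_jBar, (DictC.jBar_isSepVar N).finrank_eq,
    (DictC.jBar_isSepVar (N * ℓ)).finrank_eq,
    dedekindPsi_mul_prime_of_dvd N ℓ (NeZero.ne N) hℓ hℓN] at h1
  exact Nat.eq_of_mul_eq_mul_left (Fermat.Agent.Hecke.Deg.dedekindPsi_pos N) h1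

/-- **`H_θ` for `T_p`, `p ∤ N`.** -/
theorem hTheta_TReps (N : ℕ) [NeZero N] {p : ℕ} [NeZero p] (hp : p.Prime) (hpN : ¬ p ∣ N) :
    KH.HTheta N p (TReps N hp hpN) := fun y _ =>
  heckeProdMer_thetaMer_of_decomp (TReps N hp hpN) (TReps_isRatPos N hp hpN)
    (RepsDecomp.TReps_decomp N hp hpN)
    (by rw [RepsDecomp.card_onePoint_zmod, Fermat.Agent.ES.Gen.finrankAlong_heckeAlphaC hp hpN]) y

/-- **`H_θ` for `U_q^*`, `q ∣ N` prime.** -/
theorem hTheta_UStarReps (N : ℕ) [NeZero N] {q : ℕ} [NeZero q] (hq : q.Prime) (hqN : q ∣ N) :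
    KH.HTheta N q (UStarReps N hqN) := fun y _ =>
  heckeProdMer_thetaMer_of_decomp (UStarReps N hqN) (UStarReps_isRatPos N hqN)
    (RepsDecomp.UStarReps_decomp N hqN)
    (by rw [RepsDecomp.card_zmod', finrankAlong_heckeAlphaC_of_dvd N q hq hqN]) y

/-- **(J4-alg), final form**: the hypothesis `KH.HThetaAt N l` of `KH.kappaLamC_TLam` holds for
every prime `l`. -/
theorem hThetaAt (N : ℕ) [NeZero N] (l : Nat.Primes) : KH.HThetaAt N l := by
  haveI : NeZero (l : ℕ) := ⟨l.2.ne_zero⟩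
  exact ⟨fun h => hTheta_UStarReps N l.2 h, fun h => hTheta_TReps N l.2 h⟩

end Fermat.Agent.Jac.HTheta
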