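/-
Program J, node (J7), final form: `HeckeOperatorsCommuteBar N` and
`SMulCommClass G_ℚ HeckeAlg (JZero N)` from helper13's `ES.ProductFormula N ℓ` for the primes
`ℓ ∤ N` ALONE (the case `ℓ ∣ N` is proved here through the transposed operators and the full
Atkin–Lehner involution `W_N`).

* `heckeNormT_eq_heckeNorm` : for `ℓ ∤ N` the transposed operator equals `heckeNorm`
  (helper28's partial involution `w_ℓ`);
* `hasProductFormulasT_of` : product formulas for all transposed operators;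
* `heckeNormT_comm`, `heckeNorm_comm_of_T` : commutation;
* `heckeOperatorsCommuteBar_of_productFormula'`, `s37Hypotheses_of_productFormula'`.
-/
import Mathlib
import Fermat.Agent.Jac.TransposeNorm
import Fermat.Agent.Jac.HeckeCommPF
import Fermat.Agent.Jac.HeckeGalois

set_option autoImplicit false
set_option linter.style.haveILetI false
set_option linter.unusedSectionVars false

namespace Fermat.Agent.Jac

open AlgebraicCurve ModularCurve HahnSeries Fermat.Agent.X0 Fermat.Agent.Hecke Fermat.Agent.Igusa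
  Fermat.Agent.Jac.ALF Fermat.Agent.ES

variable (N ℓ : ℕ) [NeZero N] [NeZero ℓ]

/-- For a prime `ℓ ∤ N` the transposed operator is the operator itself
(`Nm_α x = Nm_β (w_ℓ x)`). -/
theorem heckeNormT_eq_heckeNorm (hℓ : ℓ.Prime) (hℓN : ¬ ℓ ∣ N) (y : Fb N) :
    heckeNormT N ℓ y = heckeNorm N ℓ y := by
  have hcop : Nat.Coprime ℓ N := (Nat.Prime.coprime_iff_not_dvd hℓ).mpr hℓN
  have he : RingHom.comp (algebraAlong (heckeBetaBar Kb N ℓ)).algebraMap
        ((RingEquiv.refl (Fb N)) : Fb N →+* Fb N) =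
      RingHom.comp ((AL.atkinLehner hℓ hcop).toRingEquiv : Fb (N * ℓ) →+* Fb (N * ℓ))
        (algebraAlong (heckeAlphaBar Kb N ℓ)).algebraMap :=
    RingHom.ext fun x => (AL.atkinLehner_alpha hℓ hcop x).symm
  have h := @Algebra.norm_eq_of_equiv_equiv (Fb N) (Fb (N * ℓ)) (Fb N) (Fb (N * ℓ)) _ _ _ _
    (algebraAlong (heckeAlphaBar Kb N ℓ)) (algebraAlong (heckeBetaBar Kb N ℓ))
    (RingEquiv.refl (Fb N)) (AL.atkinLehner hℓ hcop).toRingEquiv he (heckeBetaBar Kb N ℓ y)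
  have h2 : (AL.atkinLehner hℓ hcop).toRingEquiv (heckeBetaBar Kb N ℓ y) =
      heckeAlphaBar Kb N ℓ y := AL.atkinLehner_beta hℓ hcop y
  rw [h2] at h
  exact h.symm

/-- Uniform product formulas for the transposed operators. -/
def HasProductFormulasT : Prop :=
  ∀ (ℓ : ℕ) [NeZero ℓ], ℓ.Prime → ∃ ε : ℕ, ∀ y : Fb N,
    qExpand Kb ℓ ((heckeNormT N ℓ y : Fb N) : LaurentSeries Kb) =
      multHecke ε ℓ (y : LaurentSeries Kb)

theorem hasProductFormulasT_of
    (hT : ∀ (ℓ : ℕ) [NeZero ℓ], ℓ.Prime → ¬ ℓ ∣ N → ProductFormula N ℓ) :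
    HasProductFormulasT N := by
  intro ℓ _ hℓ
  by_cases hN : ℓ ∣ N
  · exact ⟨0, qExpand_heckeNormT_of_dvd N ℓ hℓ hN⟩
  · refine ⟨1, fun y => ?_⟩
    rw [heckeNormT_eq_heckeNorm N ℓ hℓ hN]
    exact qExpand_heckeNorm_of_productFormula (hT ℓ hℓ hN) y

variable {N}

/-- The transposed operators commute. -/
theorem heckeNormT_comm (h : HasProductFormulasT N) (ℓ ℓ' : ℕ) [NeZero ℓ] [NeZero ℓ']
    (hℓ : ℓ.Prime) (hℓ' : ℓ'.Prime) (y : Fb N) :
    heckeNormT N ℓ (heckeNormT N ℓ' y) = heckeNormT N ℓ' (heckeNormT N ℓ y) := by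
  rcases eq_or_ne ℓ ℓ' with rfl | hne
  · rfl
  · obtain ⟨ε, hε⟩ := h ℓ hℓ
    obtain ⟨ε', hε'⟩ := h ℓ' hℓ'
    exact comm_of_productFormula ((Nat.coprime_primes hℓ hℓ').mpr hne)
      (fun z : Fb N => (z : LaurentSeries Kb)) Subtype.val_injective (heckeNormT N ℓ)
      (heckeNormT N ℓ') hε hε' y

/-- `M_ℓ = W ∘ Mᵗ_ℓ ∘ W`. -/
theorem heckeNorm_eq_conj (ℓ : ℕ) [NeZero ℓ] (y : Fb N) :
    heckeNorm N ℓ y = atkinLehnerFull N (heckeNormT N ℓ (atkinLehnerFull N y)) := by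
  rw [← atkinLehnerFull_heckeNorm, atkinLehnerFull_atkinLehnerFull]

/-- The multiplicative Hecke operators commute. -/
theorem heckeNorm_comm_of_T (h : HasProductFormulasT N) (ℓ ℓ' : ℕ) [NeZero ℓ] [NeZero ℓ']
    (hℓ : ℓ.Prime) (hℓ' : ℓ'.Prime) (y : Fb N) :
    heckeNorm N ℓ (heckeNorm N ℓ' y) = heckeNorm N ℓ' (heckeNorm N ℓ y) := by
  rw [heckeNorm_eq_conj ℓ, heckeNorm_eq_conj ℓ' y, atkinLehnerFull_atkinLehnerFull,
    heckeNorm_eq_conj ℓ', heckeNorm_eq_conj ℓ y, atkinLehnerFull_atkinLehnerFull,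
    heckeNormT_comm h ℓ ℓ' hℓ hℓ']

/-- **(J7), final form.** `HeckeOperatorsCommuteBar N` from the product formulas for the
primes `ℓ ∤ N` alone. -/
theorem heckeOperatorsCommuteBar_of_productFormula'
    (hT : ∀ (ℓ : ℕ) [NeZero ℓ], ℓ.Prime → ¬ ℓ ∣ N → ProductFormula N ℓ) :
    HeckeOperatorsCommuteBar N :=
  heckeOperatorsCommuteBar_of_functionLevelComm
    (functionLevelComm_of_eq N fun ℓ ℓ' _ _ hℓ hℓ' y _ =>
      heckeNorm_comm_of_T (hasProductFormulasT_of N hT) ℓ ℓ' hℓ hℓ' y)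

/-- Both hypotheses of S37 from the product formulas for `ℓ ∤ N`. -/
theorem s37Hypotheses_of_productFormula'
    (hT : ∀ (ℓ : ℕ) [NeZero ℓ], ℓ.Prime → ¬ ℓ ∣ N → ProductFormula N ℓ) :
    HeckeOperatorsCommuteBar N ∧
      (letI := heckeModuleBar N; SMulCommClass GQ HeckeAlg (JZero N)) :=
  ⟨heckeOperatorsCommuteBar_of_productFormula' hT,
    smulCommClass_galois_hecke (heckeOperatorsCommuteBar_of_productFormula' hT)⟩

end Fermat.Agent.Jac
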