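import Fermat.Agent.Jac.Kappa
import Fermat.Agent.Jac.CharForm
import Fermat.Agent.X0.ModComplete

/-!
# Program J, node (J3c): the concrete Kummer data for `Γ₀(N)`

`𝕄 = MerH` (fractions of holomorphic functions on `ℍ`), `Γ = Γ₀(N)` acting by
`(γ • φ) z = φ (γ⁻¹ • z)`, admissible functions `θ y * (A / B)` with `A`, `B` forms with character
(`CharForm`, node (J1)) of the same weight, good characters = unitary characters which are trivial
on the elements of trace of absolute value `≤ 2` (parabolic, elliptic, `± 1`).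

In hypothesis form on
* `θ : F →+* MerH` with `Γ₀(N)`-invariant values, compatible with constants  (J-DICT (D1)),
* `hJ2` : a quotient of two forms with the same character and weight lies in the range of `θ` (J2),
* `hD4` : `θ y = (A / B) ^ m` with good quotient character implies `m ∣ ord_P y` for all `P` (D4).
-/

set_option autoImplicit false

open UpperHalfPlane CongruenceSubgroup Fermat.Agent.X0 AlgebraicCurve
open scoped MatrixGroups Manifold

noncomputable section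

namespace Fermat.Agent.Jac

/-! ### Structures on `HolH` and `MerH` -/

/-- Constants as holomorphic functions. -/
def constHol : ℂ →+* HolH :=
  (Pi.constRingHom ℍ ℂ).codRestrict HolH fun _ => mdifferentiable_const

/-- The `ℂ`-algebra structure of `HolH`. -/
@[reducible] def algebraHolH : Algebra ℂ HolH := constHol.toAlgebra

/-- `SL(2,ℤ)` acts on holomorphic functions by `(g • φ) z = φ (g⁻¹ • z)`. -/
@[reducible] def actionHolH : MulSemiringAction SL(2, ℤ) HolH where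
  smul g φ := ⟨fun z => (φ : ℍ → ℂ) (g⁻¹ • z), mdiff_comp_smul φ.2 g⁻¹⟩
  one_smul φ := by
    apply Subtype.ext
    funext z
    show (φ : ℍ → ℂ) ((1 : SL(2, ℤ))⁻¹ • z) = (φ : ℍ → ℂ) z
    rw [inv_one, one_smul]
  mul_smul g h φ := by
    apply Subtype.ext
    funext z
    show (φ : ℍ → ℂ) ((g * h)⁻¹ • z) = (φ : ℍ → ℂ) (h⁻¹ • g⁻¹ • z)
    rw [mul_inv_rev, mul_smul]
  smul_zero g := rfl
  smul_add g φ ψ := rfl
  smul_one g := rfl
  smul_mul g φ ψ := rfl

attribute [local instance] algebraHolH actionHolH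

/-- The induced action of `SL(2,ℤ)` on meromorphic functions. -/
@[reducible] def actionMerH : MulSemiringAction SL(2, ℤ) MerH :=
  IsFractionRing.mulSemiringAction SL(2, ℤ) HolH MerH

attribute [local instance] actionMerH

theorem smul_holH_apply (g : SL(2, ℤ)) (φ : HolH) (z : ℍ) :
    ((g • φ : HolH) : ℍ → ℂ) z = (φ : ℍ → ℂ) (g⁻¹ • z) := rfl

theorem smul_algebraMap_holH (g : SL(2, ℤ)) (φ : HolH) :
    g • algebraMap HolH MerH φ = algebraMap HolH MerH (g • φ) :=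
  (algebraMap.coe_smul' g φ MerH).symm

theorem algebraMap_complex_merH (a : ℂ) :
    algebraMap ℂ MerH a = algebraMap HolH MerH (constHol a) := rfl

theorem smul_constHol (g : SL(2, ℤ)) (a : ℂ) : g • constHol a = constHol a := rfl

theorem smul_algebraMap_complex (g : SL(2, ℤ)) (a : ℂ) :
    g • algebraMap ℂ MerH a = algebraMap ℂ MerH a := by
  rw [algebraMap_complex_merH, smul_algebraMap_holH, smul_constHol]

/-- The action of `Γ₀(N)` on meromorphic functions (restriction of the action of `SL(2,ℤ)`). -/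
@[reducible] def actionMerHGamma0 (N : ℕ) : MulSemiringAction ↥(Gamma0 N) MerH :=
  MulSemiringAction.compHom MerH (Gamma0 N).subtype

attribute [local instance] actionMerHGamma0

/-- The scalar action of `Γ₀(N)` on `MerH` (a shortcut instance for `actionMerHGamma0`). -/
@[reducible] def smulMerHGamma0 (N : ℕ) : SMul ↥(Gamma0 N) MerH :=
  (actionMerHGamma0 N).toSMul

attribute [local instance 100000] smulMerHGamma0

theorem gamma0_smul_merH {N : ℕ} (γ : ↥(Gamma0 N)) (G : MerH) :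
    γ • G = (γ : SL(2, ℤ)) • G := rfl

/-! ### Forms with character as meromorphic functions -/

variable {N : ℕ}

/-- A form with character as an element of `HolH`. -/
def CharForm.hol {k : ℤ} {χ : ↥(Gamma0 N) →* ℂˣ} (A : CharForm N k χ) : HolH := ⟨A, A.holo⟩

/-- A form with character as an element of `MerH`. -/
def CharForm.mer {k : ℤ} {χ : ↥(Gamma0 N) →* ℂˣ} (A : CharForm N k χ) : MerH :=
  algebraMap HolH MerH A.hol

theorem CharForm.mer_eq_zero_iff {k : ℤ} {χ : ↥(Gamma0 N) →* ℂˣ} (A : CharForm N k χ) :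
    A.mer = 0 ↔ A.hol = 0 := by
  rw [CharForm.mer, map_eq_zero_iff _ (IsFractionRing.injective HolH MerH)]

/-- The quotient of two forms with character. -/
def ratio {k : ℤ} {χa χb : ↥(Gamma0 N) →* ℂˣ} (A : CharForm N k χa) (B : CharForm N k χb) : MerH :=
  A.mer / B.mer

/-- The transformation law of a quotient of two forms of the same weight. -/
theorem smul_ratio {k : ℤ} {χa χb : ↥(Gamma0 N) →* ℂˣ} (A : CharForm N k χa)
    (B : CharForm N k χb) (γ : ↥(Gamma0 N)) :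
    γ • ratio A B = algebraMap ℂ MerH (((χb / χa) γ : ℂˣ) : ℂ) * ratio A B := by
  by_cases hB : B.mer = 0
  · rw [gamma0_smul_merH, ratio, hB, div_zero, smul_zero, mul_zero]
  have hB2 : algebraMap HolH MerH B.hol ≠ 0 := hB
  have hB' : B.hol ≠ 0 := fun h => hB ((B.mer_eq_zero_iff).mpr h)
  have hγB : ((γ : SL(2, ℤ)) • B.hol : HolH) ≠ 0 := by
    intro h
    apply hB'
    have := congrArg (fun φ : HolH => (γ : SL(2, ℤ))⁻¹ • φ) h
    simpa using this
  have hγB' : algebraMap HolH MerH ((γ : SL(2, ℤ)) • B.hol) ≠ 0 := fun h =>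
    hγB ((map_eq_zero_iff _ (IsFractionRing.injective HolH MerH)).mp h)
  rw [gamma0_smul_merH, ratio, smul_div₀', CharForm.mer, CharForm.mer, smul_algebraMap_holH, smul_algebraMap_holH,
    algebraMap_complex_merH, mul_div_assoc', div_eq_div_iff hγB' hB2, ← map_mul, ← map_mul,
    ← map_mul]
  congr 1
  apply Subtype.ext
  funext z
  show A ((γ : SL(2, ℤ))⁻¹ • z) * B z = ((((χb / χa) γ : ℂˣ) : ℂ) * A z) * B ((γ : SL(2, ℤ))⁻¹ • z)
  have hA := A.smul_apply γ⁻¹ z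
  have hB := B.smul_apply γ⁻¹ z
  rw [Subgroup.coe_inv] at hA hB
  have hχa : ((χa γ⁻¹ : ℂˣ) : ℂ) = ((χa γ : ℂˣ) : ℂ)⁻¹ := by
    rw [map_inv, Units.val_inv_eq_inv_val]
  have hχb : ((χb γ⁻¹ : ℂˣ) : ℂ) = ((χb γ : ℂˣ) : ℂ)⁻¹ := by
    rw [map_inv, Units.val_inv_eq_inv_val]
  have hdiv : (((χb / χa) γ : ℂˣ) : ℂ) = ((χb γ : ℂˣ) : ℂ) / ((χa γ : ℂˣ) : ℂ) := by
    rw [MonoidHom.div_apply, Units.val_div_eq_div_val]
  have h1 : ((χa γ : ℂˣ) : ℂ) ≠ 0 := Units.ne_zero _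
  have h2 : ((χb γ : ℂˣ) : ℂ) ≠ 0 := Units.ne_zero _
  rw [hA, hB, hχa, hχb, hdiv]
  field_simp

theorem CharForm.hol_mul {k k' : ℤ} {χ χ' : ↥(Gamma0 N) →* ℂˣ} (A : CharForm N k χ)
    (B : CharForm N k' χ') : (A.mul B).hol = A.hol * B.hol := rfl

theorem CharForm.mer_mul {k k' : ℤ} {χ χ' : ↥(Gamma0 N) →* ℂˣ} (A : CharForm N k χ)
    (B : CharForm N k' χ') : (A.mul B).mer = A.mer * B.mer := by
  rw [CharForm.mer, CharForm.hol_mul, map_mul]
  rfl

theorem CharForm.mer_one : (CharForm.one : CharForm N 0 (1 : ↥(Gamma0 N) →* ℂˣ)).mer = 1 := by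
  have : (CharForm.one : CharForm N 0 (1 : ↥(Gamma0 N) →* ℂˣ)).hol = 1 := rfl
  rw [CharForm.mer, this, map_one]

theorem CharForm.mer_cast {k k' : ℤ} {χ χ' : ↥(Gamma0 N) →* ℂˣ} (hk : k = k') (hχ : χ = χ')
    (A : CharForm N k χ) : (A.cast hk hχ).mer = A.mer := rfl

theorem CharForm.mer_ne_zero_of_apply_ne_zero {k : ℤ} {χ : ↥(Gamma0 N) →* ℂˣ} (A : CharForm N k χ)
    {z : ℍ} (hz : A z ≠ 0) : A.mer ≠ 0 := by
  intro h
  have h0 : A.hol = 0 := (A.mer_eq_zero_iff).mp h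
  exact hz (congrFun (congrArg Subtype.val h0) z)

theorem ratio_mul {k k' : ℤ} {χa χb χa' χb' : ↥(Gamma0 N) →* ℂˣ} (A : CharForm N k χa)
    (B : CharForm N k χb) (A' : CharForm N k' χa') (B' : CharForm N k' χb') :
    ratio (A.mul A') (B.mul B') = ratio A B * ratio A' B' := by
  rw [ratio, ratio, ratio, CharForm.mer_mul, CharForm.mer_mul, mul_div_mul_comm]

theorem ratio_inv {k : ℤ} {χa χb : ↥(Gamma0 N) →* ℂˣ} (A : CharForm N k χa)
    (B : CharForm N k χb) : (ratio A B)⁻¹ = ratio B A := by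
  rw [ratio, ratio, inv_div]

theorem ratio_one_one :
    ratio (CharForm.one : CharForm N 0 (1 : ↥(Gamma0 N) →* ℂˣ)) CharForm.one = 1 := by
  rw [ratio, CharForm.mer_one, div_one]

/-! ### Good characters -/

/-- Good characters of `Γ₀(N)`: unitary, and trivial on the elements whose trace has absolute value
`≤ 2` (parabolic and elliptic elements and `± 1`). -/
def goodChar (N : ℕ) : Subgroup (↥(Gamma0 N) →* ℂˣ) where
  carrier := {χ | (∀ γ, ‖((χ γ : ℂˣ) : ℂ)‖ = 1) ∧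
    ∀ γ : ↥(Gamma0 N), |((γ : SL(2, ℤ)) : Matrix (Fin 2) (Fin 2) ℤ).trace| ≤ 2 → χ γ = 1}
  one_mem' := ⟨fun γ => by simp, fun _ _ => rfl⟩
  mul_mem' := by
    rintro χ χ' ⟨h1, h2⟩ ⟨h1', h2'⟩
    refine ⟨fun γ => ?_, fun γ hγ => ?_⟩
    · rw [MonoidHom.mul_apply, Units.val_mul, norm_mul, h1, h1', one_mul]
    · rw [MonoidHom.mul_apply, h2 γ hγ, h2' γ hγ, one_mul]
  inv_mem' := by
    rintro χ ⟨h1, h2⟩
    refine ⟨fun γ => ?_, fun γ hγ => ?_⟩
    · rw [MonoidHom.inv_apply, Units.val_inv_eq_inv_val, norm_inv, h1, inv_one]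
    · rw [MonoidHom.inv_apply, h2 γ hγ, inv_one]

theorem mem_goodChar {χ : ↥(Gamma0 N) →* ℂˣ} : χ ∈ goodChar N ↔
    (∀ γ, ‖((χ γ : ℂˣ) : ℂ)‖ = 1) ∧
      ∀ γ : ↥(Gamma0 N), |((γ : SL(2, ℤ)) : Matrix (Fin 2) (Fin 2) ℤ).trace| ≤ 2 → χ γ = 1 :=
  Iff.rfl

/-- A good character is trivial on the upper triangular elements. -/
theorem goodChar_apply_of_lower_left_eq_zero {χ : ↥(Gamma0 N) →* ℂˣ} (hχ : χ ∈ goodChar N)
    (γ : ↥(Gamma0 N)) (hγ : (γ : SL(2, ℤ)) 1 0 = 0) : χ γ = 1 := by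
  apply hχ.2 γ
  have hdet := Matrix.SpecialLinearGroup.det_coe (γ : SL(2, ℤ))
  rw [Matrix.det_fin_two] at hdet
  have h10 : ((γ : SL(2, ℤ)) : Matrix (Fin 2) (Fin 2) ℤ) 1 0 = 0 := hγ
  rw [h10, mul_zero, sub_zero] at hdet
  rw [Matrix.trace_fin_two]
  rcases Int.mul_eq_one_iff_eq_one_or_neg_one.mp hdet with ⟨h0, h1⟩ | ⟨h0, h1⟩
  · rw [h0, h1]; norm_num
  · rw [h0, h1]; norm_num

/-! ### The Kummer data -/

section Data

variable {F : Type*} [Field F] [Algebra ℂ F]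

/-- Admissible functions: `θ y * (A / B)` with `A`, `B` forms with character of the same weight. -/
def AdmMer (N : ℕ) (θ : F →+* MerH) (G : MerH) : Prop :=
  ∃ (y : F) (k : ℤ) (χa χb : ↥(Gamma0 N) →* ℂˣ) (A : CharForm N k χa) (B : CharForm N k χb),
    G = θ y * ratio A B

/-- If a nonzero quotient `A / B` transforms under `Γ₀(N)` with the character `χ`, then
`χ = χb / χa`. -/
theorem char_eq_of_smul_ratio {k : ℤ} {χa χb χ : ↥(Gamma0 N) →* ℂˣ} (A : CharForm N k χa)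
    (B : CharForm N k χb) (h0 : ratio A B ≠ 0)
    (h : ∀ γ : ↥(Gamma0 N), γ • ratio A B = algebraMap ℂ MerH ((χ γ : ℂˣ) : ℂ) * ratio A B) :
    χ = χb / χa := by
  ext γ
  have h1 := h γ
  rw [smul_ratio] at h1
  have h2 := (algebraMap ℂ MerH).injective (mul_right_cancel₀ h0 h1)
  rw [h2]

variable (N) [NeZero N] (θ : F →+* MerH)
  (hθc : ∀ a : ℂ, θ (algebraMap ℂ F a) = algebraMap ℂ MerH a)
  (hθinv : ∀ (γ : ↥(Gamma0 N)) (y : F), γ • θ y = θ y)
  (hJ2 : ∀ (k : ℤ) (χ : ↥(Gamma0 N) →* ℂˣ) (A B : CharForm N k χ), B.mer ≠ 0 →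
    ∃ y : F, θ y = ratio A B)
  (hD4 : ∀ (m : ℕ) (k : ℤ) (χa χb : ↥(Gamma0 N) →* ℂˣ) (A : CharForm N k χa)
    (B : CharForm N k χb), A.mer ≠ 0 → B.mer ≠ 0 → χb / χa ∈ goodChar N →
    ∀ y : F, θ y = ratio A B ^ m → ∀ P : Place ℂ F, (m : ℤ) ∣ P.ord y)

/-- **The Kummer data of `Γ₀(N)`** (node (J3c)), in hypothesis form on the analytic realisation
`θ` of the function field, algebraicity (J2) and the divisibility of orders (D4). -/
def kummerDataGamma0 : KummerData ℂ F MerH ↥(Gamma0 N) where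
  θ := θ
  θ_algebraMap := hθc
  smul_θ := hθinv
  smul_algebraMap γ a := smul_algebraMap_complex (γ : SL(2, ℤ)) a
  Adm := AdmMer N θ
  adm_mul := by
    rintro G H ⟨y, k, χa, χb, A, B, rfl⟩ ⟨y', k', χa', χb', A', B', rfl⟩
    refine ⟨y * y', k + k', χa * χa', χb * χb', A.mul A', B.mul B', ?_⟩
    rw [ratio_mul, map_mul]
    ring
  adm_inv := by
    rintro G ⟨y, k, χa, χb, A, B, rfl⟩
    refine ⟨y⁻¹, k, χb, χa, B, A, ?_⟩
    rw [mul_inv, ratio_inv, map_inv₀]
  adm_θ y := ⟨y, 0, 1, 1, CharForm.one, CharForm.one, by rw [ratio_one_one, mul_one]⟩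
  Good := goodChar N
  ex := by
    rintro G hG0 ⟨y, k, χa, χb, A, B, rfl⟩ hinv
    have hy0 : θ y ≠ 0 := left_ne_zero_of_mul hG0
    have hR0 : ratio A B ≠ 0 := right_ne_zero_of_mul hG0
    have hB0 : B.mer ≠ 0 := fun h => hR0 (by rw [ratio, h, div_zero])
    have hRinv : ∀ γ : ↥(Gamma0 N), γ • ratio A B =
        algebraMap ℂ MerH (((1 : ↥(Gamma0 N) →* ℂˣ) γ : ℂˣ) : ℂ) * ratio A B := by
      intro γ
      have h1 := hinv γ
      rw [gamma0_smul_merH, smul_mul', ← gamma0_smul_merH, ← gamma0_smul_merH, hθinv] at h1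
      rw [MonoidHom.one_apply, Units.val_one, map_one, one_mul]
      exact mul_left_cancel₀ hy0 h1
    have hχ : (1 : ↥(Gamma0 N) →* ℂˣ) = χb / χa := char_eq_of_smul_ratio A B hR0 hRinv
    have hχ' : χb = χa := (div_eq_one (a := χb) (b := χa)).mp hχ.symm
    obtain ⟨y', hy'⟩ := hJ2 k χa A (B.cast rfl hχ') (by rwa [CharForm.mer_cast])
    refine ⟨y * y', ?_⟩
    rw [map_mul, hy']
    rfl
  dvd := by
    rintro m χ G y hχ hG0 ⟨y₀, k, χa, χb, A, B, rfl⟩ hG hy P
    have hy0 : θ y₀ ≠ 0 := left_ne_zero_of_mul hG0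
    have hy₀ : y₀ ≠ 0 := fun h => hy0 (by rw [h, map_zero])
    have hR0 : ratio A B ≠ 0 := right_ne_zero_of_mul hG0
    have hA0 : A.mer ≠ 0 := fun h => hR0 (by rw [ratio, h, zero_div])
    have hB0 : B.mer ≠ 0 := fun h => hR0 (by rw [ratio, h, div_zero])
    have hR : ∀ γ : ↥(Gamma0 N), γ • ratio A B =
        algebraMap ℂ MerH ((χ γ : ℂˣ) : ℂ) * ratio A B := by
      intro γ
      have h1 := hG γ
      rw [gamma0_smul_merH, smul_mul', ← gamma0_smul_merH, ← gamma0_smul_merH, hθinv] at h1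
      refine mul_left_cancel₀ hy0 ?_
      rw [h1]
      ring
    have hχeq : χ = χb / χa := char_eq_of_smul_ratio A B hR0 hR
    have hyne : y ≠ 0 := by
      intro h
      rw [h, map_zero] at hy
      exact pow_ne_zero m hG0 hy.symm
    have hq : θ (y / y₀ ^ m) = ratio A B ^ m := by
      rw [map_div₀, map_pow, hy, mul_pow]
      exact mul_div_cancel_left₀ _ (pow_ne_zero m hy0)
    have hd := hD4 m k χa χb A B hA0 hB0 (hχeq ▸ hχ) (y / y₀ ^ m) hq P
    have hord : P.ord (y / y₀ ^ m) = P.ord y - m * P.ord y₀ := by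
      rw [div_eq_mul_inv, P.ord_mul hyne (inv_ne_zero (pow_ne_zero m hy₀)), P.ord_inv,
        ← zpow_natCast, P.ord_zpow]
      ring
    rw [hord] at hd
    have := dvd_add hd (Dvd.intro (P.ord y₀) rfl : (m : ℤ) ∣ m * P.ord y₀)
    simpa using this
  exists_mf := by
    intro χ hχ _
    have hχi : χ⁻¹ ∈ goodChar N := (goodChar N).inv_mem hχ
    have hk : (3 : ℤ) ≤ 4 := by norm_num
    have hk2 : Even (4 : ℤ) := ⟨2, by norm_num⟩
    set A : CharForm N 4 χ⁻¹ := eisCharForm hχi.1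
      (fun γ hγ => goodChar_apply_of_lower_left_eq_zero hχi γ hγ) hk with hA
    set B : CharForm N 4 (1 : ↥(Gamma0 N) →* ℂˣ) := eisOneForm N hk with hB
    obtain ⟨z, hz⟩ := exists_eisCharForm_ne_zero hχi.1
      (fun γ hγ => goodChar_apply_of_lower_left_eq_zero hχi γ hγ) hk hk2
    obtain ⟨z', hz'⟩ := exists_eisCharForm_ne_zero (N := N)
      (χ := (1 : ↥(Gamma0 N) →* ℂˣ)) norm_one_char_apply (fun _ _ => rfl) hk hk2
    have hA0 : A.mer ≠ 0 := A.mer_ne_zero_of_apply_ne_zero hz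
    have hB0 : B.mer ≠ 0 := B.mer_ne_zero_of_apply_ne_zero hz'
    refine ⟨ratio A B, div_ne_zero hA0 hB0, ⟨1, 4, χ⁻¹, 1, A, B, by rw [map_one, one_mul]⟩,
      fun γ => ?_⟩
    rw [smul_ratio, one_div (χ⁻¹), inv_inv χ]

end Data

end Fermat.Agent.Jac
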