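import Mathlib
import Fermat.Agent.Jac.D4Final
import Fermat.Agent.Jac.HThetaAt

/-!
# Program J, nodes (J3)+(J4) over `ℂ`, UNCONDITIONAL

Combination of `hD4_holds` (node (D4), `Jac/D4Final.lean`) and `HTheta.hThetaAt` (node (J4-alg),
`Jac/HThetaAt.lean`): for every `m ≥ 1` there is a homomorphism
`κ : Lam N →+ Pic⁰(X₀(N)_ℂ)` with kernel `m • Lam N`, killed by `m`, and equivariant for the Hecke
operators at all primes.  No hypothesis is left.
-/

set_option autoImplicit false
set_option linter.unusedSectionVars false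
set_option linter.style.haveILetI false

open UpperHalfPlane ModularForm CongruenceSubgroup AlgebraicCurve ModularCurve
open scoped MatrixGroups ModularForm Manifold

noncomputable section

namespace Fermat.Agent.Jac

open Fermat.Agent.X0 (HolH MerH)

variable (N : ℕ) [NeZero N]

attribute [local instance] KH.hasPrincipalDivisorsFL KH.hasPrincipalDivisorsFc'
  KH.finiteDimensionalFL

/-- Hecke equivariance of the unconditional Kummer homomorphism `kappaLamC0`. -/
theorem kappaLamC0_TLam (l : Nat.Primes) {m : ℕ} (hm : 0 < m) {ζ : ℂˣ}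
    (hζ : IsPrimitiveRoot ζ m) (lam : ↥(Lam N)) :
    kappaLamC0 N hm hζ (TLam N l lam) =
      (haveI : NeZero (l : ℕ) := ⟨l.2.ne_zero⟩
       heckeOperatorAlong ℂ N l (kappaLamC0 N hm hζ lam)) :=
  KH.kappaLamC_TLam (hD4_holds N) l (HTheta.hThetaAt N l) hm hζ lam

/-- **(J3)+(J4) over `ℂ`, unconditional**: for every `m ≥ 1` there is a homomorphism
`κ : Lam N →+ Pic⁰(X₀(N)_ℂ)` with kernel `m • Lam N`, killed by `m`, and Hecke equivariant at all
primes. -/
theorem exists_kummerHom_C {m : ℕ} (hm : 0 < m) :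
    ∃ κ : ↥(Lam N) →+ Pic0 ℂ (DictC.Fc N),
      (∀ lam, κ lam = 0 ↔ ∃ lam' : ↥(Lam N), lam = m • lam') ∧ (∀ lam, m • κ lam = 0) ∧
      ∀ (l : Nat.Primes) (lam : ↥(Lam N)), κ (TLam N l lam) =
        (haveI : NeZero (l : ℕ) := ⟨l.2.ne_zero⟩; heckeOperatorAlong ℂ N l (κ lam)) :=
  exists_kummerHom_of_HTheta N (fun l => HTheta.hThetaAt N l) hm

end Fermat.Agent.Jac
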