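import Fermat.Agent.Val.OrthoBar
import Fermat.Agent.Val.OrthoRedSetup
import Fermat.Agent.Val.ModularMonomials
import Fermat.Agent.Igusa.TowerBoundProof
import Fermat.Agent.ES.ModEqKb
import Fermat.Agent.Jac.DictC.ModDeg

/-!
# Program J, node (J6b): orthonormal data in equicharacteristic zero

`L` a field of characteristic zero, `A` a valuation subring of `L`, `π : A →+* ℚ̄` a ring
homomorphism killing the maximal ideal (a `ℚ̄`-place of `L`).  The function field
`F_L = laurentBaseChange L (modularFunctionFieldFull N)` of `X₀(N)` over `L` has good reduction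
`F̄_N = modularFunctionFieldBar N` with respect to the Gauss valuation:

* `OrthoC.fullC_eq_laurentBaseChange` : `modularFunctionFieldFullC K N = laurentBaseChange K F_N`
  for every field `K` of characteristic zero;
* `OrthoC.exists_monomials_Kb` : `ψ(N)` monomials in the `j(q^d)`, `d ∣ N`, linearly independent
  over `ℚ̄(j)` (tower bound with the modular equation data over `ℚ̄`);
* `OrthoC.exists_orthoData` : `Val.OrthoData A π F_L (modularFunctionFieldBar N) ψ(N)` from the
  degree bound `[F_L : L(j)] ≤ ψ(N)`;
* `OrthoC.exists_orthoDataC`, `OrthoC.exists_constRedC` : the instance `L = ℂ`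
  (`Jac.DictC.jBar_isSepVar`) and the resulting constant reduction `Val.ConstRed A π`.
-/

set_option autoImplicit false
set_option linter.unusedSectionVars false

open ModularCurve Polynomial IsLocalRing

noncomputable section

namespace Fermat.Agent.Jac.OrthoC

open Fermat.Agent.Val Fermat.Agent.X0 Fermat.Agent.Igusa

/-! ### `modularFunctionFieldFullC` in characteristic zero -/

section FullC

variable (K : Type*) [Field K] [Algebra ℚ K] (N : ℕ)

theorem coeffEmb_mem_fullC {x : LaurentSeries ℚ} (hx : x ∈ modularFunctionFieldFull N) :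
    coeffEmb K x ∈ modularFunctionFieldFullC K N := by
  induction hx using IntermediateField.adjoin_induction with
  | mem y hy =>
    obtain ⟨d, hd, hdN, rfl⟩ := hy
    rw [coeffEmb_jqN]
    exact jqModCd_mem_full K N hdN
  | algebraMap r =>
    have : coeffEmb K (algebraMap ℚ (LaurentSeries ℚ) r) =
        algebraMap K (LaurentSeries K) (algebraMap ℚ K r) := by
      rw [algebraMap_laurentSeries_eq_single, algebraMap_laurentSeries_eq_single, coeffEmb,
        coeffMap_single]
    rw [this]
    exact IntermediateField.algebraMap_mem _ _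
  | add x y _ _ hx hy => rw [map_add]; exact add_mem hx hy
  | inv x _ hx => rw [map_inv₀]; exact inv_mem hx
  | mul x y _ _ hx hy => rw [map_mul]; exact mul_mem hx hy

/-- In characteristic zero the two models of the function field of `X₀(N)` over `K` agree. -/
theorem fullC_eq_laurentBaseChange :
    modularFunctionFieldFullC K N = laurentBaseChange K (modularFunctionFieldFull N) := by
  apply le_antisymm
  · rw [modularFunctionFieldFullC, IntermediateField.adjoin_le_iff]
    rintro x ⟨d, hd, hdN, rfl⟩
    have h := coeffEmb_mem_laurentBaseChange K (jqd_mem_full N hdN)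
    rwa [coeffEmb_jqN] at h
  · rw [laurentBaseChange, IntermediateField.adjoin_le_iff]
    rintro x ⟨y, hy, rfl⟩
    exact coeffEmb_mem_fullC K N hy

end FullC

/-! ### Monomials with independent reductions over `ℚ̄` -/

section Monomials

/-- **Tower bound over `ℚ̄`**: there are `ψ(N)` monomials in the `j(q^d)`, `d ∣ N`, in `ℚ̄((q))`
which are linearly independent over `ℚ̄(j)`. -/
theorem exists_monomials_Kb (N : ℕ) [NeZero N] :
    ∃ m : Fin (dedekindPsi N) → LaurentSeries Kb,
      (∀ i, m i ∈ Submonoid.closure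
        {x : LaurentSeries Kb | ∃ d : ℕ, ∃ _ : NeZero d, d ∣ N ∧ x = jqNModC Kb d}) ∧
      LinearIndependent
        ↥(IntermediateField.adjoin Kb ({jqModC Kb} : Set (LaurentSeries Kb))) m := by
  obtain ⟨hfin, hα⟩ := towerBound_holds N Kb fun p hp hpN => by
    obtain ⟨ζ, pinv, -, hd⟩ := ES.exists_modEqData_Kb p hp
    exact ⟨ζ, pinv, hd⟩
  exact exists_monomials_of_tower_field N Kb Kb hα

variable {L : Type*} [Field L] (A : ValuationSubring L)
variable {k : Type*} [Field k] (π : A →+* k)

/-- Lifting monomials which are linearly independent over `k(j̃)` to `A((q))`, polynomial form. -/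
theorem exists_lift_monomials (N : ℕ) [NeZero N] {n : ℕ} (m' : Fin n → LaurentSeries k)
    (hm' : ∀ i, m' i ∈ Submonoid.closure
      {x : LaurentSeries k | ∃ d : ℕ, ∃ _ : NeZero d, d ∣ N ∧ x = jqNModC k d})
    (hli : LinearIndependent
      ↥(IntermediateField.adjoin k ({jqModC k} : Set (LaurentSeries k))) m') :
    ∃ m : Fin n → LaurentSeries A,
      (∀ i, m i ∈ Submonoid.closure (jGensA A N)) ∧ (∀ i, coeffMap π (m i) = m' i) ∧
      ∀ c : Fin n → k[X],
        ∑ i, aeval (jqModC k) (c i) * coeffMap π (m i) = 0 → ∀ i, c i = 0 := by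
  have hS : {x : LaurentSeries k | ∃ d : ℕ, ∃ _ : NeZero d, d ∣ N ∧ x = jqNModC k d} =
      (coeffMap π) '' jGensA A N := by
    ext x
    constructor
    · rintro ⟨d, hd, hdN, rfl⟩
      exact ⟨jqNModC A d, ⟨d, hd, hdN, rfl⟩, coeffMap_jqNModC π d⟩
    · rintro ⟨y, ⟨d, hd, hdN, rfl⟩, rfl⟩
      exact ⟨d, hd, hdN, coeffMap_jqNModC π d⟩
  have hcl : ∀ i, ∃ y ∈ Submonoid.closure (jGensA A N), coeffMap π y = m' i := by
    intro i
    have := hm' i
    rw [hS, ← MonoidHom.map_mclosure] at this
    exact this
  choose m hm hπm using hcl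
  refine ⟨m, hm, hπm, fun c hc i => ?_⟩
  rw [Fintype.linearIndependent_iff] at hli
  have hmem : ∀ i, aeval (jqModC k) (c i) ∈
      IntermediateField.adjoin k ({jqModC k} : Set (LaurentSeries k)) := fun i => by
    have hj : jqModC k ∈ IntermediateField.adjoin k ({jqModC k} : Set (LaurentSeries k)) :=
      IntermediateField.subset_adjoin k _ (Set.mem_singleton _)
    rw [aeval_def, eval₂_eq_sum_range]
    refine sum_mem fun n _ => mul_mem (IntermediateField.algebraMap_mem _ _) (pow_mem hj n)
  have h1 := hli (fun i => ⟨aeval (jqModC k) (c i), hmem i⟩) (by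
    rw [← hc]
    refine Finset.sum_congr rfl fun i _ => ?_
    rw [IntermediateField.smul_def, smul_eq_mul, hπm]) i
  have h2 : aeval (jqModC k) (c i) = 0 := congrArg Subtype.val h1
  exact (transcendental_iff_injective.mp
    (Fermat.Agent.Igusa.ChartBaseAux.transcendental_jqModC k)) (by rw [h2, map_zero])

/-- **Monomials for a `ℚ̄`-place**: `ψ(N)` monomials in the `j(q^d)`, `d ∣ N`, in `A((q))` whose
reductions are independent over `ℚ̄[j]`. -/
theorem exists_orthoMonomialsKb (π : A →+* Kb) (N : ℕ) [NeZero N] :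
    ∃ m : Fin (dedekindPsi N) → LaurentSeries A,
      (∀ i, m i ∈ Submonoid.closure (jGensA A N)) ∧
      ∀ c : Fin (dedekindPsi N) → Kb[X],
        ∑ i, aeval (jqModC Kb) (c i) * coeffMap π (m i) = 0 → ∀ i, c i = 0 := by
  obtain ⟨m', hm', hli⟩ := exists_monomials_Kb N
  obtain ⟨m, hm, -, hind⟩ := exists_lift_monomials A π N m' hm' hli
  exact ⟨m, hm, hind⟩

end Monomials

/-! ### Orthonormal data for a `ℚ̄`-place of a field of characteristic zero -/

section Ortho

variable {L : Type*} [Field L] {A : ValuationSubring L} {k : Type*} [Field k] {π : A →+* k}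

/-- Transport of orthonormal data along an equality of residue function fields. -/
def castFt {F : IntermediateField L (LaurentSeries L)}
    {Ft Ft' : IntermediateField k (LaurentSeries k)} {n : ℕ} (D : OrthoData A π F Ft n)
    (h : Ft = Ft') : OrthoData A π F Ft' n where
  x := D.x
  m := D.m
  hx := D.hx
  hm := D.hm
  finite := D.finite
  finrank_le := D.finrank_le
  transc := D.transc
  indep := D.indep
  hxt := h ▸ D.hxt
  hmt := fun i => h ▸ D.hmt i
  gen := h ▸ D.gen

@[simp] theorem castFt_x {F : IntermediateField L (LaurentSeries L)}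
    {Ft Ft' : IntermediateField k (LaurentSeries k)} {n : ℕ} (D : OrthoData A π F Ft n)
    (h : Ft = Ft') : (castFt D h).x = D.x := rfl

@[simp] theorem castFt_m {F : IntermediateField L (LaurentSeries L)}
    {Ft Ft' : IntermediateField k (LaurentSeries k)} {n : ℕ} (D : OrthoData A π F Ft n)
    (h : Ft = Ft') : (castFt D h).m = D.m := rfl

theorem castFt_valSubring {F : IntermediateField L (LaurentSeries L)}
    {Ft Ft' : IntermediateField k (LaurentSeries k)} {n : ℕ} (D : OrthoData A π F Ft n)
    (h : Ft = Ft') : (castFt D h).valSubring = D.valSubring := rfl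

end Ortho

section OrthoL

variable {L : Type*} [Field L] [Algebra ℚ L] (A : ValuationSubring L) (π : A →+* Kb)
  (N : ℕ) [NeZero N]

/-- **Orthonormal data for `L · F_N` with respect to a `ℚ̄`-place of `L`**, with residue function
field `modularFunctionFieldBar N`, `x = j` and `n = ψ(N)`, from the degree bound
`[L · F_N : L(j)] ≤ ψ(N)`. -/
theorem exists_orthoData
    (hfin : FiniteDimensional (IntermediateField.adjoin L
      {(⟨aIota A (jqModC A), aIota_jqModC_mem A N⟩ :
        laurentBaseChange L (modularFunctionFieldFull N))})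
      (laurentBaseChange L (modularFunctionFieldFull N)))
    (hrank : Module.finrank (IntermediateField.adjoin L
      {(⟨aIota A (jqModC A), aIota_jqModC_mem A N⟩ :
        laurentBaseChange L (modularFunctionFieldFull N))})
      (laurentBaseChange L (modularFunctionFieldFull N)) ≤ dedekindPsi N) :
    ∃ D : OrthoData A π (laurentBaseChange L (modularFunctionFieldFull N))
        (modularFunctionFieldBar N) (dedekindPsi N),
      D.x = jqModC A ∧ ∀ i, D.m i ∈ Submonoid.closure (jGensA A N) := by
  obtain ⟨m, hm, hind⟩ := exists_orthoMonomialsKb A π N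
  obtain ⟨D, hDx, hDm⟩ := exists_orthoDataOfMonomials A π N m hm hind hfin hrank
  have h : modularFunctionFieldFullC Kb N = modularFunctionFieldBar N :=
    fullC_eq_laurentBaseChange Kb N
  refine ⟨castFt D h, (castFt_x D h).trans hDx, fun i => ?_⟩
  rw [castFt_m, hDm]
  exact hm i

end OrthoL

/-! ### The instance `L = ℂ` -/

section Complex

variable (A : ValuationSubring ℂ) (π : A →+* Kb) (N : ℕ) [NeZero N]

theorem xF_eq_jBarC :
    (⟨aIota A (jqModC A), aIota_jqModC_mem A N⟩ :
      laurentBaseChange ℂ (modularFunctionFieldFull N)) = DictC.jBar N :=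
  Subtype.ext (coeffMap_subtype_jqModC A)

/-- **Orthonormal data for the function field of `X₀(N)` over `ℂ`** with respect to a `ℚ̄`-place
of `ℂ`. -/
theorem exists_orthoDataC :
    ∃ D : OrthoData A π (laurentBaseChange ℂ (modularFunctionFieldFull N))
        (modularFunctionFieldBar N) (dedekindPsi N),
      D.x = jqModC A ∧ ∀ i, D.m i ∈ Submonoid.closure (jGensA A N) := by
  have hfin : FiniteDimensional (IntermediateField.adjoin ℂ
      {(⟨aIota A (jqModC A), aIota_jqModC_mem A N⟩ :
        laurentBaseChange ℂ (modularFunctionFieldFull N))})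
      (laurentBaseChange ℂ (modularFunctionFieldFull N)) := by
    rw [xF_eq_jBarC]
    exact (DictC.jBar_isSepVar N).finite
  have hrank : Module.finrank (IntermediateField.adjoin ℂ
      {(⟨aIota A (jqModC A), aIota_jqModC_mem A N⟩ :
        laurentBaseChange ℂ (modularFunctionFieldFull N))})
      (laurentBaseChange ℂ (modularFunctionFieldFull N)) ≤ dedekindPsi N := by
    rw [xF_eq_jBarC]
    exact le_of_eq (DictC.jBar_isSepVar N).finrank_eq
  exact exists_orthoData A π N hfin hrank

/-- a chosen `OrthoData` for the function field of `X₀(N)` over `ℂ` -/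
def orthoDataC : OrthoData A π (laurentBaseChange ℂ (modularFunctionFieldFull N))
    (modularFunctionFieldBar N) (dedekindPsi N) :=
  (exists_orthoDataC A π N).choose

theorem orthoDataC_x : (orthoDataC A π N).x = jqModC A :=
  (exists_orthoDataC A π N).choose_spec.1

theorem orthoDataC_m_mem (i : Fin (dedekindPsi N)) :
    (orthoDataC A π N).m i ∈ Submonoid.closure (jGensA A N) :=
  (exists_orthoDataC A π N).choose_spec.2 i

variable {A π}

/-- **The constant reduction of the function field of `X₀(N)` over `ℂ`** with respect to a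
`ℚ̄`-place `(A, π)` of `ℂ`: valuation ring the Gauss valuation ring, residue field
`modularFunctionFieldBar N`. -/
def constRedC (hπ : ∀ a : A, a ∈ IsLocalRing.maximalIdeal A → π a = 0)
    (hπs : Function.Surjective π) :
    ConstRed (F := laurentBaseChange ℂ (modularFunctionFieldFull N))
      (Ft := modularFunctionFieldBar N) A π :=
  (orthoDataC A π N).constRed hπ hπs

theorem constRedC_O (hπ : ∀ a : A, a ∈ IsLocalRing.maximalIdeal A → π a = 0)
    (hπs : Function.Surjective π) :
    (constRedC N hπ hπs).O = (orthoDataC A π N).valSubring := rfl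

/-- Membership in the valuation ring of `constRedC` is membership in the Gauss ring. -/
theorem mem_constRedC_O_iff (hπ : ∀ a : A, a ∈ IsLocalRing.maximalIdeal A → π a = 0)
    (hπs : Function.Surjective π) {f : laurentBaseChange ℂ (modularFunctionFieldFull N)} :
    f ∈ (constRedC N hπ hπs).O ↔ (f : LaurentSeries ℂ) ∈ gaussRingA A π := Iff.rfl

/-- The residue map of `constRedC` is the Gauss residue map. -/
theorem coe_constRedC_res (hπ : ∀ a : A, a ∈ IsLocalRing.maximalIdeal A → π a = 0)
    (hπs : Function.Surjective π) (f : (constRedC N hπ hπs).O) :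
    (((constRedC N hπ hπs).res f : modularFunctionFieldBar N) : LaurentSeries Kb) =
      gaussResA A π ⟨((f : laurentBaseChange ℂ (modularFunctionFieldFull N)) : LaurentSeries ℂ),
        f.2⟩ := rfl

/-- **Bridge lemma**: a series `y ∈ A((q))` whose image in `ℂ((q))` lies in the function field of
`X₀(N)` over `ℂ` is integral for `constRedC`, and its residue is the coefficientwise reduction. -/
theorem constRedC_aIota (hπ : ∀ a : A, a ∈ IsLocalRing.maximalIdeal A → π a = 0)
    (hπs : Function.Surjective π) (y : LaurentSeries A)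
    (hy : aIota A y ∈ laurentBaseChange ℂ (modularFunctionFieldFull N)) :
    ∃ h : (⟨aIota A y, hy⟩ : laurentBaseChange ℂ (modularFunctionFieldFull N)) ∈
        (constRedC N hπ hπs).O,
      (((constRedC N hπ hπs).res ⟨⟨aIota A y, hy⟩, h⟩ : modularFunctionFieldBar N) :
        LaurentSeries Kb) = coeffMap π y :=
  ⟨aIota_mem_gaussRingA A π y, gaussResA_aIota A π y⟩

/-- The bridge lemma in terms of `ConstRed.resF`. -/
theorem constRedC_resF_aIota (hπ : ∀ a : A, a ∈ IsLocalRing.maximalIdeal A → π a = 0)
    (hπs : Function.Surjective π) (y : LaurentSeries A)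
    (hy : aIota A y ∈ laurentBaseChange ℂ (modularFunctionFieldFull N)) :
    (((constRedC N hπ hπs).resF
      (⟨aIota A y, hy⟩ : laurentBaseChange ℂ (modularFunctionFieldFull N)) :
        modularFunctionFieldBar N) : LaurentSeries Kb) = coeffMap π y := by
  obtain ⟨h, he⟩ := constRedC_aIota N hπ hπs y hy
  rw [(constRedC N hπ hπs).resF_of_mem h, he]

/-- `j(q^d)`, `d ∣ N`, over `ℂ` is integral for `constRedC`. -/
theorem jBarD_mem_constRedC_O (hπ : ∀ a : A, a ∈ IsLocalRing.maximalIdeal A → π a = 0)
    (hπs : Function.Surjective π) (d : ℕ) [NeZero d] (hd : d ∣ N) :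
    DictC.jBarD N d hd ∈ (constRedC N hπ hπs).O := by
  have h1 : DictC.jBarD N d hd =
      (⟨aIota A (jqNModC A d), coeffMap_subtype_jqNModC_mem A N hd⟩ :
        laurentBaseChange ℂ (modularFunctionFieldFull N)) :=
    Subtype.ext (coeffMap_subtype_jqNModC A d).symm
  rw [h1]
  exact (constRedC_aIota N hπ hπs _ _).1

/-- **The reduction of `j(q^d)` over `ℂ` is `j(q^d)` over `ℚ̄`.** -/
theorem constRedC_resF_jBarD (hπ : ∀ a : A, a ∈ IsLocalRing.maximalIdeal A → π a = 0)
    (hπs : Function.Surjective π) (d : ℕ) [NeZero d] (hd : d ∣ N) :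
    (constRedC N hπ hπs).resF (DictC.jBarD N d hd) = X0.jBarD N d hd := by
  apply Subtype.ext
  have h1 : DictC.jBarD N d hd =
      (⟨aIota A (jqNModC A d), coeffMap_subtype_jqNModC_mem A N hd⟩ :
        laurentBaseChange ℂ (modularFunctionFieldFull N)) :=
    Subtype.ext (coeffMap_subtype_jqNModC A d).symm
  rw [h1, constRedC_resF_aIota, coeffMap_jqNModC, X0.coe_jBarD, coeffEmb_jqN]

/-- `j` over `ℂ` is integral for `constRedC`. -/
theorem jBar_mem_constRedC_O (hπ : ∀ a : A, a ∈ IsLocalRing.maximalIdeal A → π a = 0)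
    (hπs : Function.Surjective π) : DictC.jBar N ∈ (constRedC N hπ hπs).O := by
  rw [← xF_eq_jBarC A N]
  exact (constRedC_aIota N hπ hπs _ _).1

/-- **The reduction of `j` over `ℂ` is `j` over `ℚ̄`.** -/
theorem constRedC_resF_jBar (hπ : ∀ a : A, a ∈ IsLocalRing.maximalIdeal A → π a = 0)
    (hπs : Function.Surjective π) :
    (constRedC N hπ hπs).resF (DictC.jBar N) = X0.jBar N := by
  apply Subtype.ext
  rw [← xF_eq_jBarC A N, constRedC_resF_aIota, coeffMap_jqModC, X0.coe_jBar, coeffEmb,
    ← jqModC_rat, coeffMap_jqModC]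

/-- **Fraction form**: every nonzero element of the function field of `X₀(N)` over `ℂ` is
`c · y₁ / y₂` with `c ∈ ℂˣ` and `y₁, y₂ ∈ A((q))` integral elements of the function field whose
reductions are nonzero elements of `modularFunctionFieldBar N`. -/
theorem exists_integral_fractionC {f : LaurentSeries ℂ}
    (hf : f ∈ laurentBaseChange ℂ (modularFunctionFieldFull N)) (hf0 : f ≠ 0) :
    ∃ (c : ℂ) (y₁ y₂ : LaurentSeries A), c ≠ 0 ∧
      aIota A y₁ ∈ laurentBaseChange ℂ (modularFunctionFieldFull N) ∧
      aIota A y₂ ∈ laurentBaseChange ℂ (modularFunctionFieldFull N) ∧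
      aRed π y₁ ∈ modularFunctionFieldBar N ∧ aRed π y₂ ∈ modularFunctionFieldBar N ∧
      aRed π y₁ ≠ 0 ∧ aRed π y₂ ≠ 0 ∧ f * aIota A y₂ = HahnSeries.C c * aIota A y₁ :=
  (orthoDataC A π N).exists_integral_fraction hf hf0

/-- **Fraction form with residue** for units of the valuation ring of `constRedC`. -/
theorem constRedC_exists_fraction (hπ : ∀ a : A, a ∈ IsLocalRing.maximalIdeal A → π a = 0)
    (hπs : Function.Surjective π) (y : (constRedC N hπ hπs).O)
    (hy : (constRedC N hπ hπs).res y ≠ 0) :
    ∃ (c : ℂ) (hc : c ∈ A) (y₁ y₂ : LaurentSeries A), c ≠ 0 ∧ π ⟨c, hc⟩ ≠ 0 ∧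
      aIota A y₁ ∈ laurentBaseChange ℂ (modularFunctionFieldFull N) ∧
      aIota A y₂ ∈ laurentBaseChange ℂ (modularFunctionFieldFull N) ∧
      aRed π y₁ ∈ modularFunctionFieldBar N ∧ aRed π y₂ ∈ modularFunctionFieldBar N ∧
      aRed π y₁ ≠ 0 ∧ aRed π y₂ ≠ 0 ∧
      ((y : laurentBaseChange ℂ (modularFunctionFieldFull N)) : LaurentSeries ℂ) * aIota A y₂ =
        HahnSeries.C c * aIota A y₁ ∧
      (((constRedC N hπ hπs).res y : modularFunctionFieldBar N) : LaurentSeries Kb) * aRed π y₂ =
        HahnSeries.C (π ⟨c, hc⟩) * aRed π y₁ :=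
  (orthoDataC A π N).exists_fraction_of_res_ne_zero hπ y hy

end Complex

end Fermat.Agent.Jac.OrthoC
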