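import Mathlib

/-!
# Program J, node (J6)(P): a rank-one `ℚ̄`-place of `ℂ`

`PlaceC.exists_place` : there is a valuation subring `A` of `ℂ` of rank one (archimedean value
group) with a surjective residue map `π : A →+* K` onto an algebraically closed subfield `K` of
`ℂ` which is algebraic over `ℚ` (e.g. `K = AlgebraicClosure ℚ`), `π` being the identity on `K`
and with kernel the non-units of `A`.

Construction: `Ω := AlgebraicClosure K((t))` has the cardinality of the continuum, so `ℂ ≃+* Ω`;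
a valuation subring of `Ω` dominating the discrete valuation ring `K[[t]]` has rank one and
residue field `K`, because `Ω` is algebraic over `K((t))` (section `DVRDomination`, for a general
discrete valuation ring).
-/

set_option autoImplicit false

namespace Fermat.Agent.Jac.PlaceC

open Polynomial IsLocalRing

/-! ### Two terms of maximal valuation in a vanishing sum -/

theorem exists_ne_map_eq_of_sum_eq_zero {Ω Γ₀ : Type*} [Field Ω]
    [LinearOrderedCommGroupWithZero Γ₀] (v : Valuation Ω Γ₀) {ι : Type*} (s : Finset ι)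
    (f : ι → Ω) (hs : ∑ i ∈ s, f i = 0) (hne : ∃ i ∈ s, f i ≠ 0) :
    ∃ i ∈ s, ∃ j ∈ s, i ≠ j ∧ v (f i) = v (f j) ∧ f i ≠ 0 := by
  classical
  obtain ⟨i₁, hi₁, hfi₁⟩ := hne
  obtain ⟨i₀, hi₀, hmax⟩ := Finset.exists_max_image s (fun i => v (f i)) ⟨i₁, hi₁⟩
  have hv0 : v (f i₀) ≠ 0 := by
    intro h
    have := hmax i₁ hi₁
    rw [h, le_zero_iff, Valuation.zero_iff] at this
    exact hfi₁ this
  have hf0 : f i₀ ≠ 0 := fun h => hv0 (by rw [h, map_zero])
  by_contra hcon
  push Not at hcon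
  have hlt : ∀ j ∈ s.erase i₀, v (f j) < v (f i₀) := by
    intro j hj
    have hj' := Finset.mem_erase.mp hj
    refine lt_of_le_of_ne (hmax j hj'.2) fun h => ?_
    exact hf0 (hcon i₀ hi₀ j hj'.2 (Ne.symm hj'.1) h.symm)
  have h1 := v.map_sum_lt hv0 hlt
  rw [← Finset.add_sum_erase s f hi₀] at hs
  have h2 : ∑ j ∈ s.erase i₀, f j = -f i₀ := by
    rw [eq_neg_iff_add_eq_zero, add_comm]; exact hs
  rw [h2, Valuation.map_neg] at h1
  exact lt_irrefl _ h1

/-! ### Valuation rings dominating a discrete valuation ring in an algebraic extension -/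

section DVRDomination

variable {R : Type*} [CommRing R] [IsDomain R] [IsDiscreteValuationRing R]
variable {Ω : Type*} [Field Ω] [Algebra R Ω]

/-- Division by the content: a nonzero polynomial over a discrete valuation ring is a power of
the uniformiser times a polynomial with a unit coefficient. -/
theorem exists_content_factor {ϖ : R} (hϖ : Irreducible ϖ) (P : R[X]) (hP : P ≠ 0) :
    ∃ (n : ℕ) (P' : R[X]), P = C (ϖ ^ n) * P' ∧ ∃ i, IsUnit (P'.coeff i) := by
  classical
  set I : Ideal R := Ideal.span {r | ∃ i, P.coeff i = r} with hI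
  have hI0 : I ≠ ⊥ := by
    intro h
    apply hP
    ext i
    have : P.coeff i ∈ I := Ideal.subset_span ⟨i, rfl⟩
    rw [h, Ideal.mem_bot] at this
    rw [this, coeff_zero]
  obtain ⟨n, hn⟩ := IsDiscreteValuationRing.ideal_eq_span_pow_irreducible hI0 hϖ
  have hdvd : ∀ i, ϖ ^ n ∣ P.coeff i := by
    intro i
    have : P.coeff i ∈ I := Ideal.subset_span ⟨i, rfl⟩
    rw [hn, Ideal.mem_span_singleton] at this
    exact this
  obtain ⟨P', hP'⟩ := (C_dvd_iff_dvd_coeff _ _).mpr hdvd
  refine ⟨n, P', hP', ?_⟩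
  by_contra hcon
  push Not at hcon
  have hϖ0 : ϖ ≠ 0 := hϖ.ne_zero
  have hdvd' : ∀ i, ϖ ∣ P'.coeff i := by
    intro i
    have h1 : P'.coeff i ∈ maximalIdeal R := (mem_maximalIdeal _).mpr (hcon i)
    rw [hϖ.maximalIdeal_eq, Ideal.mem_span_singleton] at h1
    exact h1
  have hle : I ≤ Ideal.span {ϖ ^ (n + 1)} := by
    rw [hI, Ideal.span_le]
    rintro r ⟨i, rfl⟩
    rw [SetLike.mem_coe, Ideal.mem_span_singleton, hP', coeff_C_mul, pow_succ]
    exact mul_dvd_mul_left _ (hdvd' i)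
  have hmem : ϖ ^ n ∈ Ideal.span {ϖ ^ (n + 1)} := hle (hn ▸ Ideal.mem_span_singleton_self _)
  rw [Ideal.mem_span_singleton, pow_dvd_pow_iff hϖ0 hϖ.not_isUnit] at hmem
  omega

variable [FaithfulSMul R Ω] [Algebra.IsAlgebraic R Ω]

/-- Every element of `Ω` is a root of a polynomial over `R` with a unit coefficient. -/
theorem exists_unit_coeff_aeval_eq_zero (b : Ω) :
    ∃ P : R[X], (∃ i, IsUnit (P.coeff i)) ∧ aeval b P = 0 := by
  obtain ⟨ϖ, hϖ⟩ := IsDiscreteValuationRing.exists_irreducible R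
  obtain ⟨P, hP, hPb⟩ := Algebra.IsAlgebraic.isAlgebraic (R := R) b
  obtain ⟨n, P', hPP', hu⟩ := exists_content_factor hϖ P hP
  refine ⟨P', hu, ?_⟩
  rw [hPP', map_mul, aeval_C] at hPb
  rcases mul_eq_zero.mp hPb with h | h
  · exfalso
    rw [map_eq_zero_iff _ (FaithfulSMul.algebraMap_injective R Ω)] at h
    exact pow_ne_zero n hϖ.ne_zero h
  · exact h

omit [IsDomain R] [IsDiscreteValuationRing R] [FaithfulSMul R Ω] in
/-- Every nonzero element of `Ω` is a root of a polynomial over `R` with nonzero constant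
coefficient. -/
theorem exists_coeff_zero_ne_zero_aeval_eq_zero (b : Ω) (hb : b ≠ 0) :
    ∃ Q : R[X], Q.coeff 0 ≠ 0 ∧ aeval b Q = 0 := by
  obtain ⟨P, hP, hPb⟩ := Algebra.IsAlgebraic.isAlgebraic (R := R) b
  induction' h : P.natDegree using Nat.strong_induction_on with n ih generalizing P
  by_cases h0 : P.coeff 0 = 0
  · have hX : P = P.divX * X := by
      have := divX_mul_X_add P
      rw [h0, C_0, add_zero] at this
      exact this.symm
    have hdiv0 : P.divX ≠ 0 := fun h => hP (by rw [hX, h, zero_mul])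
    have hb' : aeval b P.divX = 0 := by
      rw [hX, map_mul, aeval_X] at hPb
      exact (mul_eq_zero.mp hPb).resolve_right hb
    have hdeg1 : 1 ≤ P.natDegree := by
      by_contra hlt
      have h1 : P.natDegree = 0 := by omega
      rw [eq_C_of_natDegree_eq_zero h1, h0, C_0] at hP
      exact hP rfl
    have hdeg : P.divX.natDegree < n := by
      rw [natDegree_divX_eq_natDegree_tsub_one, ← h]
      omega
    exact ih _ hdeg _ hdiv0 hb' rfl
  · exact ⟨P, h0, hPb⟩

/-- `B` dominates the image of `R`. -/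
structure Dominates (R : Type*) [CommRing R] {Ω : Type*} [Field Ω] [Algebra R Ω]
    (B : ValuationSubring Ω) : Prop where
  mem : ∀ r : R, algebraMap R Ω r ∈ B
  nonunit : ∀ r : R, ¬ IsUnit r → algebraMap R Ω r ∈ B.nonunits

variable {B : ValuationSubring Ω} (hB : Dominates R B)

/-- the structure map `R → B` -/
def Dominates.toB : R →+* B := (algebraMap R Ω).codRestrict B hB.mem

omit [IsDomain R] [IsDiscreteValuationRing R] [FaithfulSMul R Ω] [Algebra.IsAlgebraic R Ω] in
@[simp] theorem Dominates.coe_toB (r : R) : (hB.toB r : Ω) = algebraMap R Ω r := rfl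

omit [IsDomain R] [IsDiscreteValuationRing R] [FaithfulSMul R Ω] [Algebra.IsAlgebraic R Ω] in
theorem Dominates.coe_eval₂_toB (b : B) (P : R[X]) :
    ((P.eval₂ hB.toB b : B) : Ω) = aeval (b : Ω) P := by
  rw [aeval_def]
  exact hom_eval₂ P hB.toB B.subtype b

omit [IsDomain R] [IsDiscreteValuationRing R] [FaithfulSMul R Ω] [Algebra.IsAlgebraic R Ω] in
theorem Dominates.toB_mem_maximalIdeal {r : R} (hr : ¬ IsUnit r) :
    hB.toB r ∈ maximalIdeal B := by
  obtain ⟨h, hm⟩ := ValuationSubring.mem_nonunits_iff_exists_mem_maximalIdeal.mp (hB.nonunit r hr)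
  exact hm

/-! #### the residue field -/

section Residue

variable {k : Type*} [Field k] (πR : R →+* k) (hπR : ∀ r, πR r = 0 ↔ ¬ IsUnit r)
  (s : k →+* R) (hs : ∀ x, πR (s x) = x)

/-- the map of residue fields, through a section `s` of `R → k` -/
noncomputable def Dominates.rho : k →+* ResidueField B := (residue B).comp (hB.toB.comp s)

include hπR hs in
omit [IsDomain R] [IsDiscreteValuationRing R] [FaithfulSMul R Ω] [Algebra.IsAlgebraic R Ω] in
theorem Dominates.rho_apply (r : R) : hB.rho s (πR r) = residue B (hB.toB r) := by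
  have h1 : ¬ IsUnit (r - s (πR r)) := by
    rw [← hπR, map_sub, hs, sub_self]
  have h2 := hB.toB_mem_maximalIdeal h1
  rw [← residue_eq_zero_iff, map_sub, map_sub, sub_eq_zero] at h2
  rw [h2]
  rfl

include hπR hs in
/-- **The residue field of `B` is `k`**, if `k` is algebraically closed. -/
theorem Dominates.rho_bijective [IsAlgClosed k] : Function.Bijective (hB.rho s) := by
  apply IsAlgClosed.ringHom_bijective_of_isIntegral
  intro y
  obtain ⟨b, rfl⟩ := residue_surjective y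
  obtain ⟨P, ⟨i, hi⟩, hPb⟩ := exists_unit_coeff_aeval_eq_zero (R := R) (b : Ω)
  have hQ : P.map πR ≠ 0 := by
    intro h
    have h1 : (P.map πR).coeff i = 0 := by rw [h, coeff_zero]
    rw [coeff_map, hπR] at h1
    exact h1 hi
  have hcomp : (hB.rho s).comp πR = (residue B).comp hB.toB :=
    RingHom.ext (hB.rho_apply πR hπR s hs)
  have hQy : (P.map πR).eval₂ (hB.rho s) (residue B b) = 0 := by
    rw [eval₂_map, hcomp, ← hom_eval₂]
    have h0 : P.eval₂ hB.toB b = 0 := by
      apply Subtype.ext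
      rw [hB.coe_eval₂_toB, hPb]
      rfl
    rw [h0, map_zero]
  exact ⟨P.map πR * C (P.map πR).leadingCoeff⁻¹, monic_mul_leadingCoeff_inv hQ, by
    rw [eval₂_mul, hQy, zero_mul]⟩

end Residue

/-! #### rank one -/

section RankOne

omit [IsDomain R] [IsDiscreteValuationRing R] [FaithfulSMul R Ω] [Algebra.IsAlgebraic R Ω] in
theorem Dominates.isUnit_toB {u : R} (hu : IsUnit u) : IsUnit (hB.toB u) := hu.map _

omit [FaithfulSMul R Ω] in
/-- Every nonzero element of `B` divides a power of the uniformiser of `R`. -/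
theorem Dominates.exists_dvd_unif_pow {ϖ : R} (hϖ : Irreducible ϖ) (b : B) (hb : b ≠ 0) :
    ∃ n : ℕ, b ∣ hB.toB ϖ ^ n := by
  have hb' : (b : Ω) ≠ 0 := fun h => hb (Subtype.ext h)
  obtain ⟨Q, hQ0, hQb⟩ := exists_coeff_zero_ne_zero_aeval_eq_zero (R := R) (b : Ω) hb'
  have h0 : Q.eval₂ hB.toB b = 0 := by
    apply Subtype.ext
    rw [hB.coe_eval₂_toB, hQb]
    rfl
  rw [← divX_mul_X_add Q, eval₂_add, eval₂_mul, eval₂_X, eval₂_C] at h0
  have hdvd : b ∣ hB.toB (Q.coeff 0) :=
    ⟨-(Q.divX.eval₂ hB.toB b), by rw [eq_neg_of_add_eq_zero_right h0]; ring⟩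
  obtain ⟨n, u, hu⟩ := IsDiscreteValuationRing.eq_unit_mul_pow_irreducible hQ0 hϖ
  rw [hu, map_mul, map_pow] at hdvd
  exact ⟨n, ((hB.isUnit_toB u.isUnit).dvd_mul_left).mp hdvd⟩

omit [Algebra.IsAlgebraic R Ω] in
/-- the key computation with two terms of equal valuation -/
theorem Dominates.exists_unif_dvd_pow_aux {ϖ : R} (hϖ : Irreducible ϖ) (a : B)
    (ha : ¬ IsUnit a) (ha0 : a ≠ 0) {P : R[X]} {i j : ℕ} (hij : i < j) (hi : P.coeff i ≠ 0)
    (hj : P.coeff j ≠ 0)
    (heq : B.valuation (algebraMap R Ω (P.coeff i) * (a : Ω) ^ i) =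
      B.valuation (algebraMap R Ω (P.coeff j) * (a : Ω) ^ j)) :
    ∃ m : ℕ, hB.toB ϖ ∣ a ^ m := by
  set v := B.valuation with hv
  have hva1 : v (a : Ω) < 1 := by
    rw [hv, ← ValuationSubring.valuation_lt_one_iff]
    exact (mem_maximalIdeal a).mpr ha
  have hva0 : v (a : Ω) ≠ 0 := (Valuation.ne_zero_iff _).mpr fun h => ha0 (Subtype.ext h)
  have hvt1 : v (algebraMap R Ω ϖ) < 1 := by
    have := hB.toB_mem_maximalIdeal hϖ.not_isUnit
    rwa [ValuationSubring.valuation_lt_one_iff] at this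
  have hvt0 : v (algebraMap R Ω ϖ) ≠ 0 :=
    (Valuation.ne_zero_iff _).mpr fun h =>
      hϖ.ne_zero ((map_eq_zero_iff _ (FaithfulSMul.algebraMap_injective R Ω)).mp h)
  have hvu : ∀ u : Rˣ, v (algebraMap R Ω (u : R)) = 1 := by
    intro u
    have h1 := (B.valuation_eq_one_iff (hB.toB u)).mp (hB.isUnit_toB u.isUnit)
    exact h1
  obtain ⟨ei, ui, hui⟩ := IsDiscreteValuationRing.eq_unit_mul_pow_irreducible hi hϖ
  obtain ⟨ej, uj, huj⟩ := IsDiscreteValuationRing.eq_unit_mul_pow_irreducible hj hϖ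
  obtain ⟨d, rfl⟩ := Nat.exists_eq_add_of_lt hij
  rw [hui, huj] at heq
  simp only [map_mul, map_pow, hvu, one_mul] at heq
  -- `v t ^ ei * v a ^ i = v t ^ ej * v a ^ (i + d + 1)`
  have heq' : v (algebraMap R Ω ϖ) ^ ei = v (algebraMap R Ω ϖ) ^ ej * v (a : Ω) ^ (d + 1) := by
    have h1 : v (a : Ω) ^ i ≠ 0 := pow_ne_zero _ hva0
    apply mul_right_cancel₀ h1
    rw [heq, mul_assoc, ← pow_add]
    congr 2
    omega
  have hvad : v (a : Ω) ^ (d + 1) < 1 := pow_lt_one₀ zero_le hva1 (Nat.succ_ne_zero d)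
  rcases le_or_gt ei ej with hle | hlt
  · exfalso
    obtain ⟨c, rfl⟩ := Nat.exists_eq_add_of_le hle
    have h1 : v (algebraMap R Ω ϖ) ^ ei ≠ 0 := pow_ne_zero _ hvt0
    have h2 : (1 : B.ValueGroup) = v (algebraMap R Ω ϖ) ^ c * v (a : Ω) ^ (d + 1) := by
      apply mul_left_cancel₀ h1
      rw [mul_one, ← mul_assoc, ← pow_add]
      exact heq'
    have h3 : v (algebraMap R Ω ϖ) ^ c ≤ 1 := pow_le_one₀ zero_le hvt1.le
    have h4 : v (algebraMap R Ω ϖ) ^ c * v (a : Ω) ^ (d + 1) < 1 :=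
      lt_of_le_of_lt (mul_le_mul_left h3 _) (by rwa [one_mul])
    rw [← h2] at h4
    exact lt_irrefl _ h4
  · obtain ⟨c, rfl⟩ := Nat.exists_eq_add_of_lt hlt
    have h1 : v (algebraMap R Ω ϖ) ^ ej ≠ 0 := pow_ne_zero _ hvt0
    have h2 : v (algebraMap R Ω ϖ) ^ (c + 1) = v (a : Ω) ^ (d + 1) := by
      apply mul_left_cancel₀ h1
      rw [← pow_add, ← heq']
      congr 1
    have h3 : v ((a : Ω) ^ (d + 1)) ≤ v (algebraMap R Ω ϖ) := by
      rw [map_pow, ← h2, pow_succ]
      calc v (algebraMap R Ω ϖ) ^ c * v (algebraMap R Ω ϖ) ≤ 1 * v (algebraMap R Ω ϖ) :=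
            mul_le_mul_left (pow_le_one₀ zero_le hvt1.le) _
        _ = v (algebraMap R Ω ϖ) := one_mul _
    obtain ⟨x, hx⟩ := (B.valuation_le_iff _ _).mp h3
    refine ⟨d + 1, x, ?_⟩
    apply Subtype.ext
    push_cast
    rw [← hx, mul_comm]
    rfl

/-- A power of every nonzero non-unit of `B` is divisible by the uniformiser of `R`. -/
theorem Dominates.exists_unif_dvd_pow {ϖ : R} (hϖ : Irreducible ϖ) (a : B)
    (ha : ¬ IsUnit a) (ha0 : a ≠ 0) : ∃ m : ℕ, hB.toB ϖ ∣ a ^ m := by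
  classical
  obtain ⟨P, hP, hPa⟩ := Algebra.IsAlgebraic.isAlgebraic (R := R) (a : Ω)
  rw [aeval_def, eval₂_eq_sum, sum_def] at hPa
  have ha0' : (a : Ω) ≠ 0 := fun h => ha0 (Subtype.ext h)
  have hne : ∃ i ∈ P.support, algebraMap R Ω (P.coeff i) * (a : Ω) ^ i ≠ 0 := by
    obtain ⟨i, hi⟩ := nonempty_support_iff.mpr hP
    refine ⟨i, hi, mul_ne_zero ?_ (pow_ne_zero _ ha0')⟩
    rw [Ne, map_eq_zero_iff _ (FaithfulSMul.algebraMap_injective R Ω)]
    exact mem_support_iff.mp hi
  obtain ⟨i, hi, j, hj, hij, heq, -⟩ :=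
    exists_ne_map_eq_of_sum_eq_zero B.valuation P.support _ hPa hne
  rcases Nat.lt_or_gt_of_ne hij with h | h
  · exact hB.exists_unif_dvd_pow_aux hϖ a ha ha0 h (mem_support_iff.mp hi)
      (mem_support_iff.mp hj) heq
  · exact hB.exists_unif_dvd_pow_aux hϖ a ha ha0 h (mem_support_iff.mp hj)
      (mem_support_iff.mp hi) heq.symm

include hB in
/-- **`B` has rank one.** -/
theorem Dominates.exists_dvd_pow (a b : B) (ha : ¬ IsUnit a) (hb : b ≠ 0) :
    ∃ n : ℕ, b ∣ a ^ n := by
  obtain ⟨ϖ, hϖ⟩ := IsDiscreteValuationRing.exists_irreducible R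
  by_cases ha0 : a = 0
  · exact ⟨1, by rw [ha0, pow_one]; exact dvd_zero b⟩
  obtain ⟨n, hn⟩ := hB.exists_dvd_unif_pow hϖ b hb
  obtain ⟨m, hm⟩ := hB.exists_unif_dvd_pow hϖ a ha ha0
  exact ⟨m * n, by rw [pow_mul]; exact hn.trans (pow_dvd_pow_of_dvd hm n)⟩

end RankOne

end DVRDomination

/-! ### The algebraic closure of `K((t))` -/

section Puiseux

open Cardinal PowerSeries

variable (K : Type) [Field K]

theorem mk_laurentSeries (hK : #K ≤ 𝔠) : #(LaurentSeries K) = 𝔠 := by
  apply le_antisymm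
  · have h1 : #(LaurentSeries K) ≤ #(ℤ → K) :=
      mk_le_of_injective (HahnSeries.coeff_injective (Γ := ℤ) (R := K))
    refine h1.trans ?_
    rw [mk_arrow, lift_id, lift_id, mk_int]
    calc #K ^ ℵ₀ ≤ 𝔠 ^ ℵ₀ := power_le_power_right hK
      _ = 𝔠 := continuum_power_aleph0
  · have h2 : #(ℕ → K) ≤ #(LaurentSeries K) := by
      have hinj : Function.Injective
          (fun f : ℕ → K => (HahnSeries.ofPowerSeries ℤ K (PowerSeries.mk f))) := by
        intro f g h
        have h' := HahnSeries.ofPowerSeries_injective h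
        funext n
        have := congrArg (PowerSeries.coeff n) h'
        simpa using this
      exact mk_le_of_injective hinj
    refine le_trans ?_ h2
    rw [mk_arrow, lift_id, lift_id, mk_nat, ← two_power_aleph0]
    apply power_le_power_right
    rw [two_le_iff]
    exact ⟨0, 1, zero_ne_one⟩

/-- `Ω = AlgebraicClosure K((t))` -/
abbrev Om : Type := AlgebraicClosure (LaurentSeries K)

theorem mk_Om (hK : #K ≤ 𝔠) : #(Om K) = 𝔠 := by
  apply le_antisymm
  · have h := Algebra.IsAlgebraic.cardinalMk_le_max (LaurentSeries K) (Om K)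
    rw [mk_laurentSeries K hK, max_eq_left aleph0_le_continuum] at h
    exact h
  · rw [← mk_laurentSeries K hK]
    exact mk_le_of_injective (algebraMap (LaurentSeries K) (Om K)).injective

theorem algebraMap_Om_injective : Function.Injective (algebraMap K⟦X⟧ (Om K)) := by
  rw [IsScalarTower.algebraMap_eq K⟦X⟧ (LaurentSeries K) (Om K)]
  exact (algebraMap (LaurentSeries K) (Om K)).injective.comp
    (IsFractionRing.injective K⟦X⟧ (LaurentSeries K))

instance : FaithfulSMul K⟦X⟧ (Om K) :=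
  (faithfulSMul_iff_algebraMap_injective _ _).mpr (algebraMap_Om_injective K)

instance : Algebra.IsAlgebraic K⟦X⟧ (Om K) :=
  (IsFractionRing.comap_isAlgebraic_iff (A := K⟦X⟧) (K := LaurentSeries K) (C := Om K)).mpr
    inferInstance

/-- A valuation subring of `Ω` dominating `K[[t]]`. -/
theorem exists_dominates : ∃ B : ValuationSubring (Om K), Dominates K⟦X⟧ B := by
  obtain ⟨B, hB⟩ := (LocalSubring.range (algebraMap K⟦X⟧ (Om K))).exists_le_valuationSubring
  obtain ⟨hle, hloc⟩ := LocalSubring.le_def.mp hB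
  have hmem : ∀ r : K⟦X⟧, algebraMap K⟦X⟧ (Om K) r ∈ B := fun r => hle ⟨r, rfl⟩
  refine ⟨B, hmem, fun r hr => ?_⟩
  rw [ValuationSubring.mem_nonunits_iff_exists_mem_maximalIdeal]
  refine ⟨hmem r, ?_⟩
  rw [mem_maximalIdeal, mem_nonunits_iff]
  intro hu
  apply hr
  -- the inclusion is a local homomorphism
  have h1 : IsUnit (⟨algebraMap K⟦X⟧ (Om K) r, ⟨r, rfl⟩⟩ :
      (LocalSubring.range (algebraMap K⟦X⟧ (Om K))).toSubring) := by
    apply hloc.map_nonunit
    exact hu
  obtain ⟨⟨y, r', rfl⟩, hy⟩ := isUnit_iff_exists_inv.mp h1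
  have h2 : algebraMap K⟦X⟧ (Om K) r * algebraMap K⟦X⟧ (Om K) r' = 1 := congrArg Subtype.val hy
  rw [← map_mul, ← map_one (algebraMap K⟦X⟧ (Om K))] at h2
  exact .of_mul_eq_one _ (algebraMap_Om_injective K h2)

theorem constantCoeff_eq_zero_iff (r : K⟦X⟧) : constantCoeff r = 0 ↔ ¬ IsUnit r := by
  rw [isUnit_iff_constantCoeff, isUnit_iff_ne_zero, not_not]

/-- **The place of `Ω`**: a rank-one valuation subring with residue field `K`. -/
theorem exists_place_Om [IsAlgClosed K] : ∃ (B : ValuationSubring (Om K)) (π : B →+* K),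
    (∀ a b : B, ¬ IsUnit a → b ≠ 0 → ∃ n : ℕ, b ∣ a ^ n) ∧ Function.Surjective π ∧
      ∀ b : B, π b = 0 ↔ ¬ IsUnit b := by
  obtain ⟨B, hB⟩ := exists_dominates K
  have hbij := hB.rho_bijective (constantCoeff (R := K)) (constantCoeff_eq_zero_iff K)
    (C : K →+* K⟦X⟧) (fun x => constantCoeff_C x)
  set e : K ≃+* ResidueField B := RingEquiv.ofBijective _ hbij with he
  refine ⟨B, (e.symm : ResidueField B →+* K).comp (residue B), fun a b ha hb =>
    hB.exists_dvd_pow a b ha hb, ?_, fun b => ?_⟩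
  · exact e.symm.surjective.comp residue_surjective
  · rw [RingHom.comp_apply, RingEquiv.coe_toRingHom, map_eq_zero_iff _ e.symm.injective,
      residue_eq_zero_iff, mem_maximalIdeal, mem_nonunits_iff]

end Puiseux

/-! ### Transport along a ring isomorphism -/

section Transport

variable {L Ω K : Type*} [Field L] [Field Ω] [Field K]

theorem exists_place_of_ringEquiv (σ : L ≃+* Ω) (B : ValuationSubring Ω) (π : B →+* K)
    (hrank : ∀ a b : B, ¬ IsUnit a → b ≠ 0 → ∃ n : ℕ, b ∣ a ^ n)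
    (hsurj : Function.Surjective π) (hker : ∀ b : B, π b = 0 ↔ ¬ IsUnit b) :
    ∃ (A : ValuationSubring L) (π' : A →+* K),
      (∀ a b : A, ¬ IsUnit a → b ≠ 0 → ∃ n : ℕ, b ∣ a ^ n) ∧ Function.Surjective π' ∧
        ∀ a : A, π' a = 0 ↔ ¬ IsUnit a := by
  set A : ValuationSubring L := B.comap (σ : L →+* Ω) with hA
  -- the isomorphism `A ≃+* B`
  let f : A →+* B := ((σ : L →+* Ω).comp A.subtype).codRestrict B fun a => a.2
  let g : B →+* A := ((σ.symm : Ω →+* L).comp B.subtype).codRestrict A fun b => by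
    show (σ : L →+* Ω) (σ.symm (b : Ω)) ∈ B
    rw [RingEquiv.coe_toRingHom, RingEquiv.apply_symm_apply]
    exact b.2
  have hfg : ∀ b, f (g b) = b := fun b => Subtype.ext (σ.apply_symm_apply (b : Ω))
  have hgf : ∀ a, g (f a) = a := fun a => Subtype.ext (σ.symm_apply_apply (a : L))
  let e : A ≃+* B := RingEquiv.ofRingHom f g (RingHom.ext hfg) (RingHom.ext hgf)
  refine ⟨A, π.comp (e : A →+* B), fun a b ha hb => ?_, hsurj.comp e.surjective, fun a => ?_⟩
  · have ha' : ¬ IsUnit (e a) := fun h => ha ((isUnit_map_iff e a).mp h)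
    have hb' : e b ≠ 0 := fun h => hb ((map_eq_zero_iff e e.injective).mp h)
    obtain ⟨n, hn⟩ := hrank (e a) (e b) ha' hb'
    refine ⟨n, ?_⟩
    rw [← map_pow] at hn
    exact (map_dvd_iff e).mp hn
  · rw [RingHom.comp_apply, hker]
    exact not_congr (isUnit_map_iff e a)

end Transport

/-! ### The place of `L ≅ ℂ` -/

section Main

open Cardinal

/-- Elements algebraic over `ℤ` lie in every valuation subring of residue characteristic zero. -/
theorem mem_of_isAlgebraic_int {L K : Type*} [Field L] [Field K] [CharZero K]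
    (A : ValuationSubring L) (π : A →+* K) (hker : ∀ a : A, π a = 0 ↔ ¬ IsUnit a) (y : L)
    (hy : IsAlgebraic ℤ y) : y ∈ A := by
  obtain ⟨n, hn0, hn⟩ := hy.exists_integral_multiple
  have h1 : IsIntegral A (n • y) := hn.tower_top
  obtain ⟨z, hz⟩ := IsIntegrallyClosed.isIntegral_iff.mp h1
  have hnu : IsUnit ((n : ℤ) : A) := by
    by_contra hcon
    rw [← hker, map_intCast, Int.cast_eq_zero] at hcon
    exact hn0 hcon
  obtain ⟨w, hw⟩ := isUnit_iff_exists_inv.mp hnu
  have hw' : ((n : ℤ) : L) * (w : L) = 1 := by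
    have := congrArg (Subtype.val) hw
    simpa using this
  have hn0' : ((n : ℤ) : L) ≠ 0 := left_ne_zero_of_mul_eq_one hw'
  have hyz : y = (w : L) * (z : L) := by
    have hz' : (z : L) = ((n : ℤ) : L) * y := by
      rw [show ((z : A) : L) = algebraMap A L z from rfl, hz, zsmul_eq_mul]
    rw [hz', ← mul_assoc, mul_comm (w : L), hw', one_mul]
  rw [hyz]
  exact A.mul_mem _ _ w.2 z.2

/-- **(P) The place.**  `K` algebraically closed and algebraic over the prime ring, `ι : K → L`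
with `L` algebraically closed of characteristic zero with the cardinality of the continuum
(e.g. `L = ℂ`): there is a rank-one valuation subring `A` of `L` with a surjective residue map
`π : A →+* K` whose kernel is the set of non-units and with `π ∘ ι = id`.  (Algebraicity is
stated without instances: every `x : K` is a root of a nonzero integer polynomial.) -/
theorem exists_place (K L : Type) [Field K] [IsAlgClosed K] [CharZero K]
    (hKalg : ∀ x : K, ∃ p : Polynomial ℤ, p ≠ 0 ∧ p.eval₂ (Int.castRingHom K) x = 0)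
    [Field L] [IsAlgClosed L] [CharZero L] (ι : K →+* L) (hL : #L = 𝔠) :
    ∃ (A : ValuationSubring L) (π : A →+* K),
      (∀ a b : A, ¬ IsUnit a → b ≠ 0 → ∃ n : ℕ, b ∣ a ^ n) ∧ Function.Surjective π ∧
        (∀ a : A, π a = 0 ↔ ¬ IsUnit a) ∧
          ∀ x : K, ∃ h : ι x ∈ A, π ⟨ι x, h⟩ = x := by
  have hKalg' : ∀ x : K, IsAlgebraic ℤ x := by
    intro x
    obtain ⟨p, hp, hpx⟩ := hKalg x
    refine ⟨p, hp, ?_⟩
    rw [Polynomial.aeval_def, ← hpx]
    congr 1
  have hK : #K ≤ 𝔠 := by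
    have : Algebra.IsAlgebraic ℤ K := ⟨hKalg'⟩
    have h := Algebra.IsAlgebraic.cardinalMk_le_max ℤ K
    rw [mk_int, max_self] at h
    exact h.trans aleph0_le_continuum
  have hchar : CharZero (Om K) := charZero_of_injective_algebraMap (algebraMap K (Om K)).injective
  have hequiv : Nonempty (L ≃ Om K) := Cardinal.eq.mp (hL.trans (mk_Om K hK).symm)
  have hLlt : ℵ₀ < #L := hL ▸ aleph0_lt_continuum
  obtain ⟨σ⟩ := IsAlgClosed.ringEquiv_of_equiv_of_charZero hLlt hequiv
  obtain ⟨B, πB, hrankB, hsurjB, hkerB⟩ := exists_place_Om K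
  obtain ⟨A, π₀, hrank, hsurj, hker⟩ := exists_place_of_ringEquiv σ B πB hrankB hsurjB hkerB
  -- algebraic numbers lie in `A`
  have hmem : ∀ x : K, ι x ∈ A := by
    intro x
    apply mem_of_isAlgebraic_int A π₀ hker
    obtain ⟨p, hp, hpx⟩ := hKalg' x
    refine ⟨p, hp, ?_⟩
    have := Polynomial.aeval_algHom_apply (ι.toIntAlgHom) x p
    rw [hpx, map_zero] at this
    exact this
  let ιA : K →+* A := ι.codRestrict A hmem
  let θ : K →+* K := π₀.comp ιA
  have hθ : Function.Bijective θ := by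
    have : Algebra.IsAlgebraic ℤ K := ⟨hKalg'⟩
    exact Algebra.IsAlgebraic.algHom_bijective θ.toIntAlgHom
  let e : K ≃+* K := RingEquiv.ofBijective θ hθ
  refine ⟨A, (e.symm : K →+* K).comp π₀, hrank, e.symm.surjective.comp hsurj, fun a => ?_,
    fun x => ⟨hmem x, ?_⟩⟩
  · rw [RingHom.comp_apply, RingEquiv.coe_toRingHom, map_eq_zero_iff _ e.symm.injective, hker]
  · rw [RingHom.comp_apply, RingEquiv.coe_toRingHom]
    exact e.symm_apply_apply x

/-- Every element of `AlgebraicClosure ℚ` is a root of a nonzero integer polynomial. -/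
theorem algebraicClosure_rat_isAlgebraic_int (x : AlgebraicClosure ℚ) :
    ∃ p : Polynomial ℤ, p ≠ 0 ∧ p.eval₂ (Int.castRingHom (AlgebraicClosure ℚ)) x = 0 := by
  let _ : Algebra ℚ (AlgebraicClosure ℚ) := AlgebraicClosure.instAlgebra ℚ
  have h1 : IsAlgebraic ℚ x := (AlgebraicClosure.isAlgebraic ℚ).isAlgebraic x
  have h2 : IsAlgebraic ℤ x := (IsFractionRing.isAlgebraic_iff ℤ ℚ (AlgebraicClosure ℚ)).mpr h1
  obtain ⟨p, hp, hpx⟩ := h2
  refine ⟨p, hp, ?_⟩
  rw [Polynomial.aeval_def] at hpx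
  rw [← hpx]
  congr 1

/-- **The place of `ℂ` over `ℚ̄`**, for any embedding `ι : ℚ̄ → ℂ`. -/
theorem exists_place_complex (ι : AlgebraicClosure ℚ →+* ℂ) :
    ∃ (A : ValuationSubring ℂ) (π : A →+* AlgebraicClosure ℚ),
      (∀ a b : A, ¬ IsUnit a → b ≠ 0 → ∃ n : ℕ, b ∣ a ^ n) ∧ Function.Surjective π ∧
        (∀ a : A, π a = 0 ↔ ¬ IsUnit a) ∧
          ∀ x : AlgebraicClosure ℚ, ∃ h : ι x ∈ A, π ⟨ι x, h⟩ = x :=
  exists_place (AlgebraicClosure ℚ) ℂ algebraicClosure_rat_isAlgebraic_int ι mk_complex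

end Main

end Fermat.Agent.Jac.PlaceC
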