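import Fermat.Agent.Jac.OrthoC
import Fermat.Agent.Jac.PlaceC
import Fermat.Agent.Jac.DictC.GenusFF
import Fermat.Agent.Jac.DictC.RiemannPkgC
import Fermat.Agent.Val.RiemannPkgBar
import Fermat.Agent.Val.DeuringMain
import Fermat.Agent.Red.Main

/-!
# Program J, node (J6b), second half: the `Red.RedSetup` of `X₀(N)` over a `ℚ̄`-place of `ℂ`

For a `ℚ̄`-place `(A, π)` of `ℂ` (valuation subring `A ⊂ ℂ`, `π : A →+* ℚ̄` surjective with kernel
the maximal ideal) the constant reduction `OrthoC.constRedC N hπ hπs` of the function field of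
`X₀(N)` over `ℂ` has good reduction (equal genera, `DictC.genusFF_C_eq_genusFF_bar`), hence extends
to a `Red.RedSetup` (Deuring, `Val.ConstRed.exists_redSetup`), to which the main theorem of L-RED
applies when `A` has rank one:

* `OrthoC.exists_redSetupC`   : `∃ R : Red.RedSetup A π, R.toConstRed = constRedC N hπ hπs`;
* `OrthoC.noTorsionInKernelC` : `Red.NoTorsionInKernel R` for every such `R`, `A` of rank one;
* `OrthoC.exists_place_redSetupC` : one rank-one place `(A, π)` of `ℂ` extending a given embedding
  `ι : ℚ̄ →+* ℂ`, serving all levels `N` simultaneously.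
-/

set_option autoImplicit false

open ModularCurve IsLocalRing AlgebraicCurve

noncomputable section

namespace Fermat.Agent.Jac.OrthoC

open Fermat.Agent.Val Fermat.Agent.X0

section RedSetup

variable {A : ValuationSubring ℂ} {π : A →+* Kb} (N : ℕ) [NeZero N]

/-- **The `Red.RedSetup` of `X₀(N)` over a `ℚ̄`-place of `ℂ`** (Deuring's place map for the
constant reduction `constRedC`). -/
theorem exists_redSetupC (hπ : ∀ a : A, a ∈ maximalIdeal A → π a = 0)
    (hπs : Function.Surjective π) :
    ∃ R : Red.RedSetup (F := laurentBaseChange ℂ (modularFunctionFieldFull N))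
        (Ft := modularFunctionFieldBar N) A π, R.toConstRed = constRedC N hπ hπs :=
  (constRedC N hπ hπs).exists_redSetup hπs (DictC.riemannPkg_C N) (riemannPkg_bar N)
    (DictC.genusFF_C_eq_genusFF_bar N).symm

/-- **No torsion in the kernel of specialisation**: for a rank-one `ℚ̄`-place of `ℂ`, a degree-zero
divisor of `X₀(N)_ℂ` which is torsion in the class group and whose reduction is principal is
principal. -/
theorem noTorsionInKernelC (hA : Red.IsRankOne A)
    (R : Red.RedSetup (F := laurentBaseChange ℂ (modularFunctionFieldFull N))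
      (Ft := modularFunctionFieldBar N) A π) : Red.NoTorsionInKernel R :=
  Red.mainStatement R inferInstance inferInstance hA (DictC.riemannPkg_C N) (riemannPkg_bar N)
    (DictC.genusFF_C_eq_genusFF_bar N).symm

end RedSetup

/-- **One rank-one `ℚ̄`-place of `ℂ` for all levels.**  Given an embedding `ι : ℚ̄ →+* ℂ` there are
a rank-one valuation subring `A` of `ℂ` and a surjective `π : A →+* ℚ̄` with kernel the maximal
ideal and `π ∘ ι = id`, such that for every level `N` the constant reduction `constRedC N` extends
to a `Red.RedSetup` without torsion in the kernel of specialisation. -/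
theorem exists_place_redSetupC (ι : Kb →+* ℂ) :
    ∃ (A : ValuationSubring ℂ) (π : A →+* Kb)
      (hπ : ∀ a : A, a ∈ maximalIdeal A → π a = 0) (hπs : Function.Surjective π),
      Red.IsRankOne A ∧ (∀ a : A, π a = 0 ↔ ¬ IsUnit a) ∧
      (∀ x : Kb, ∃ h : ι x ∈ A, π ⟨ι x, h⟩ = x) ∧
      ∀ (N : ℕ) [NeZero N],
        ∃ R : Red.RedSetup (F := laurentBaseChange ℂ (modularFunctionFieldFull N))
            (Ft := modularFunctionFieldBar N) A π,
          R.toConstRed = constRedC N hπ hπs ∧ Red.NoTorsionInKernel R := by
  obtain ⟨A, π, h1, hπs, hker, hι⟩ := PlaceC.exists_place_complex ι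
  have hA : Red.IsRankOne A := fun a ha b hb => h1 a b ha hb
  have hπ : ∀ a : A, a ∈ maximalIdeal A → π a = 0 := fun a ha =>
    (hker a).mpr ((mem_maximalIdeal a).mp ha)
  refine ⟨A, π, hπ, hπs, hA, hker, hι, fun N _ => ?_⟩
  obtain ⟨R, hR⟩ := exists_redSetupC N hπ hπs
  exact ⟨R, hR, noTorsionInKernelC N hA R⟩

end Fermat.Agent.Jac.OrthoC
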