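/-
Program J, node (J7): the two HYPOTHESES of the frozen statement S37
(`HeckeOperatorsCommuteBar N` and `SMulCommClass G_ℚ HeckeAlg (JZero N)`), proved from the
product formulas for the norms `Nm_{F_{Nℓ}/α F_N} (β y)` (all primes `ℓ`).
-/
import Mathlib
import Fermat.Agent.Jac.HeckeCommPF
import Fermat.Agent.Jac.HeckeGalois

set_option autoImplicit false

namespace Fermat.Agent.Jac

open ModularCurve Fermat.Agent.ES

variable {N : ℕ} [NeZero N]

/-- Both hypotheses of S37 from the product formulas. -/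
theorem s37Hypotheses_of_productFormula
    (hT : ∀ (ℓ : ℕ) [NeZero ℓ], ℓ.Prime → ¬ ℓ ∣ N → ProductFormula N ℓ)
    (hU : ∀ (ℓ : ℕ) [NeZero ℓ], ℓ.Prime → ℓ ∣ N → ProductFormulaU N ℓ) :
    HeckeOperatorsCommuteBar N ∧
      (letI := heckeModuleBar N; SMulCommClass GQ HeckeAlg (JZero N)) :=
  ⟨heckeOperatorsCommuteBar_of_productFormula hT hU,
    smulCommClass_galois_hecke (heckeOperatorsCommuteBar_of_productFormula hT hU)⟩

end Fermat.Agent.Jac
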